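/-
CELL-M3 (S12) / node (LOC), part A (helper9): the zero component `E⁰_A` of the frozen
`WeierstrassCurve.InZeroComponentAt` at a place `A | ℓ` of MULTIPLICATIVE reduction, as a subgroup
of `E(ℚ̄)`, intrinsically (no Tate curve), at EVERY residue characteristic `ℓ` (`ℓ = p` included).

* `Mult W A ℓ` : `ℓ` prime, `A | ℓ`, `Δ ≠ 0`, `ℓ ∣ Δ`, `ℓ ∤ c₄`.
* `goodAt_iff_of_nodeHyp` : on a node model, `GoodAt` ⟺ `1 ≤ v x`.
* `inZeroComponentAt_iff_inE0` : the frozen predicate ⟺ `NodeGen.InE0` of the node model.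
* `e0 h : AddSubgroup E(ℚ̄)` with `mem_e0 : P ∈ e0 h ↔ W.InZeroComponentAt A P`.
* `smul_sub_mem_e0` : `σ ∈ I_A ⟹ σ P - P ∈ E⁰` for EVERY point `P`.
* `smul_eq_of_mem_e0` : `σ ∈ I_A`, `ℓ ∤ m`, `m • Q = 0`, `Q ∈ E⁰ ⟹ σ Q = Q`.
* `inZeroComponentAt_smul_iff` : `InZeroComponentAt (τ • A) (τ • P) ↔ InZeroComponentAt A P`.
* `smul_mem_e0_iff` : `E⁰_A` is stable under the decomposition group `D_A`.
-/
import Mathlib
import Fermat.Agent.GZ.Tate.T4.Bridge
import Fermat.Agent.GE.Unip.Main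
import Fermat.Agent.GZ.Cut.Bridge
import Fermat.Agent.GC.C0.Level

set_option autoImplicit false
set_option linter.unusedSectionVars false

open scoped Pointwise

namespace Fermat.Agent.GZ.S12.Local

open WeierstrassCurve WeierstrassCurve.Affine WeierstrassCurve.Affine.Point
open scoped WeierstrassCurve.Affine
open Fermat.Agent.S05 Fermat.Agent.S05.SameRed Fermat.Agent.S13.NodeInertia
open Fermat.Agent.S13.NodeGen Fermat.Agent.GE.Unip Fermat.Agent.GZ.Tate.T4

/-! ### Node models: `GoodAt` is `1 ≤ v x` -/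

section Node

variable {K : Type*} [Field K] [DecidableEq K] {A : ValuationSubring K} {W : WeierstrassCurve K}

/-- On a node model, an affine point is good (off the node) iff `1 ≤ v x`. -/
theorem goodAt_iff_of_nodeHyp (H : NodeHyp A W) {x y : K} (h : W.toAffine.Equation x y) :
    GoodAt A W x y ↔ 1 ≤ A.valuation x := by
  unfold GoodAt
  constructor
  · rintro (hx | ⟨hx, hy, hns⟩)
    · have h1 : ¬ A.valuation x ≤ 1 := fun hle => hx ((A.valuation_le_one_iff x).1 hle)
      exact le_of_lt (not_le.1 h1)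
    · have hu := Fermat.Agent.GZ.Cut.x_unit_of_nonsingularRed H h hx hy hns
      rw [A.mem_nonunits_iff, not_lt] at hu
      exact hu
  · intro h1
    by_cases hx : x ∈ A
    · right
      have hxu : x ∉ A.nonunits := by
        rw [A.mem_nonunits_iff, not_lt]; exact h1
      have hy : y ∈ A := KR.y_mem_of_x_mem (W := W.toAffine) H.a₁ H.a₂
        (by rw [H.a₃]; exact A.zero_mem) H.a₄_mem (by rw [H.a₆]; exact A.zero_mem) h hx
      exact ⟨hx, hy, H.nonsingularRed_of_x_unit h hx hxu⟩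
    · left; exact hx

theorem integralChange_transl {r t : K} (hr : r ∈ A) (ht : t ∈ A) :
    IntegralChange A (transl r t) where
  u := by show ((1 : Kˣ) : K) ∈ A; rw [Units.val_one]; exact A.one_mem
  u_inv := by show ((1 : Kˣ) : K)⁻¹ ∈ A; rw [Units.val_one, inv_one]; exact A.one_mem
  r := hr
  s := A.zero_mem
  t := ht

end Node

/-! ### The frozen predicate over `ℚ̄` -/

section Qbar

/-- `ℚ̄`. -/
abbrev Qb := AlgebraicClosure ℚ

variable (W : WeierstrassCurve ℤ) (A : ValuationSubring Qb)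

/-- Multiplicative reduction of the integral model `W` at the place `A | ℓ`. -/
structure Mult (ℓ : ℕ) : Prop where
  prime : ℓ.Prime
  lies : A.LiesOverPrime ℓ
  disc_ne : W.Δ ≠ 0
  dvd_disc : (ℓ : ℤ) ∣ W.Δ
  not_dvd_c₄ : ¬ (ℓ : ℤ) ∣ W.c₄

variable {W A} {ℓ : ℕ}

/-- An `A`-integral translate of `W_ℚ̄` is a node model. -/
theorem exists_node (h : Mult W A ℓ) :
    ∃ r t : Qb, r ∈ A ∧ t ∈ A ∧
      NodeHyp A (transl r t • (W.map (Int.castRingHom ℚ)).baseChange Qb) := by
  refine exists_nodeHyp (baseChange_integralCoeffs W A) ?_ ?_ ?_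
  · rw [baseChange_Δ_eq, intCast_mem_nonunits_iff h.prime h.lies]
    exact h.dvd_disc
  · rw [baseChange_Δ_eq]
    exact_mod_cast h.disc_ne
  · rw [baseChange_c₄_eq, intCast_mem_nonunits_iff h.prime h.lies]
    exact h.not_dvd_c₄

/-- **The frozen zero component is `E₀` of any integral node model.** -/
theorem inZeroComponentAt_iff_inE0 {r t : Qb} (hr : r ∈ A) (ht : t ∈ A)
    (H : NodeHyp A (transl r t • (W.map (Int.castRingHom ℚ)).baseChange Qb))
    (P : ((W.map (Int.castRingHom ℚ))⁄Qb).Point) :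
    W.InZeroComponentAt A P ↔
      InE0 A.valuation (transl r t • (W.map (Int.castRingHom ℚ)).baseChange Qb)
        ((vcPointEquiv ((W.map (Int.castRingHom ℚ)).baseChange Qb) (transl r t)).symm P) := by
  obtain ⟨P', rfl⟩ :=
    (vcPointEquiv ((W.map (Int.castRingHom ℚ)).baseChange Qb) (transl r t)).surjective P
  rw [AddEquiv.symm_apply_apply, inZeroComponentAt_iff]
  rcases P' with _ | ⟨x, y, hxy⟩
  · constructor
    · intro _; exact inE0_zero
    · intro _; left; rfl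
  · rw [vcPointEquiv_some, inE0_some,
      ← goodAt_iff_of_nodeHyp H hxy.1,
      goodAt_smul_iff (integralChange_transl hr ht) (baseChange_integralCoeffs W A) x y]
    constructor
    · rintro (h0 | ⟨x', y', h', e, hg⟩)
      · exact absurd h0 (by simp)
      · injection e with e1 e2
        rw [e1, e2]
        exact hg
    · intro hg
      exact Or.inr ⟨_, _, _, rfl, hg⟩


/-! ### The subgroup `E⁰_A` -/

/-- The zero component at a place of multiplicative reduction, as a subgroup of `E(ℚ̄)`. -/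
noncomputable def e0 (h : Mult W A ℓ) : AddSubgroup ((W.map (Int.castRingHom ℚ))⁄Qb).Point where
  carrier := {P | W.InZeroComponentAt A P}
  zero_mem' := Or.inl rfl
  add_mem' := by
    intro P Q hP hQ
    obtain ⟨r, t, hr, ht, H⟩ := exists_node h
    obtain ⟨α, hα⟩ := exists_root (transl r t • (W.map (Int.castRingHom ℚ)).baseChange Qb).a₁
      (transl r t • (W.map (Int.castRingHom ℚ)).baseChange Qb).a₂
    have M := H.gModel hα
    change W.InZeroComponentAt A P at hP
    change W.InZeroComponentAt A Q at hQ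
    change W.InZeroComponentAt A (P + Q)
    rw [inZeroComponentAt_iff_inE0 hr ht H] at hP hQ ⊢
    rw [map_add]
    exact inE0_add M hP hQ
  neg_mem' := by
    intro P hP
    obtain ⟨r, t, hr, ht, H⟩ := exists_node h
    obtain ⟨α, hα⟩ := exists_root (transl r t • (W.map (Int.castRingHom ℚ)).baseChange Qb).a₁
      (transl r t • (W.map (Int.castRingHom ℚ)).baseChange Qb).a₂
    have M := H.gModel hα
    change W.InZeroComponentAt A P at hP
    change W.InZeroComponentAt A (-P)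
    rw [inZeroComponentAt_iff_inE0 hr ht H] at hP ⊢
    rw [map_neg]
    exact inE0_neg M hP

theorem mem_e0 (h : Mult W A ℓ) (P : ((W.map (Int.castRingHom ℚ))⁄Qb).Point) :
    P ∈ e0 h ↔ W.InZeroComponentAt A P := Iff.rfl

/-- **Inertia moves every point within its component** (all `ℓ`, `ℓ = p` included, no torsion
hypothesis). -/
theorem smul_sub_mem_e0 (h : Mult W A ℓ) {σ : Qb ≃ₐ[ℚ] Qb} (hσ : σ ∈ A.inertiaSubgroupIn ℚ)
    (P : ((W.map (Int.castRingHom ℚ))⁄Qb).Point) : σ • P - P ∈ e0 h := by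
  obtain ⟨r, t, hr, ht, H⟩ := exists_node h
  obtain ⟨α, hα⟩ := exists_root (transl r t • (W.map (Int.castRingHom ℚ)).baseChange Qb).a₁
    (transl r t • (W.map (Int.castRingHom ℚ)).baseChange Qb).a₂
  rw [mem_e0, inZeroComponentAt_iff_inE0 hr ht H]
  exact symm_smul_sub_inE0 A h.prime h.lies (W.map (Int.castRingHom ℚ)) hr H hα hσ P

/-- **Inertia fixes the prime-to-`ℓ` torsion of `E⁰`.** -/
theorem smul_eq_of_mem_e0 (h : Mult W A ℓ) {σ : Qb ≃ₐ[ℚ] Qb} (hσ : σ ∈ A.inertiaSubgroupIn ℚ)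
    {m : ℕ} (hm : ¬ ℓ ∣ m) {Q : ((W.map (Int.castRingHom ℚ))⁄Qb).Point} (hQ : m • Q = 0)
    (hQ0 : Q ∈ e0 h) : σ • Q = Q := by
  obtain ⟨r, t, hr, ht, H⟩ := exists_node h
  rw [mem_e0, inZeroComponentAt_iff_inE0 hr ht H] at hQ0
  refine smul_eq_of_symm_inE0 A (W.map (Int.castRingHom ℚ)) (baseChange_integralCoeffs W A) hr ht H
    ?_ hσ Q hQ hQ0
  rw [natCast_mem_nonunits_iff h.prime h.lies]
  exact hm


/-! ### Galois transport -/

theorem comap_smul_algEquiv (τ : Qb ≃ₐ[ℚ] Qb) (A : ValuationSubring Qb) :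
    (τ • A).comap ((τ : Qb →ₐ[ℚ] Qb) : Qb →+* Qb) = A := by
  ext x
  rw [ValuationSubring.mem_comap]
  show τ x ∈ τ • A ↔ x ∈ A
  rw [Fermat.Agent.GC.C0.mem_smul_valuationSubring_iff]
  have : τ⁻¹ (τ x) = x := τ.symm_apply_apply x
  rw [this]

theorem baseChange_map_algEquiv (W : WeierstrassCurve ℤ) (τ : Qb ≃ₐ[ℚ] Qb) :
    ((W.map (Int.castRingHom ℚ)).baseChange Qb).map ((τ : Qb →ₐ[ℚ] Qb) : Qb →+* Qb) =
      (W.map (Int.castRingHom ℚ)).baseChange Qb := by
  rw [baseChange_coeff_eq, WeierstrassCurve.map_map]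
  congr 1
  exact RingHom.ext_int _ _

theorem goodAt_smul_algEquiv (W : WeierstrassCurve ℤ) (A : ValuationSubring Qb)
    (τ : Qb ≃ₐ[ℚ] Qb) (x y : Qb) :
    GoodAt (τ • A) ((W.map (Int.castRingHom ℚ)).baseChange Qb) (τ x) (τ y) ↔
      GoodAt A ((W.map (Int.castRingHom ℚ)).baseChange Qb) x y := by
  have key := goodAt_map_iff ((τ : Qb →ₐ[ℚ] Qb) : Qb →+* Qb) (τ • A)
    (W := (W.map (Int.castRingHom ℚ)).baseChange Qb) (x := x) (y := y)
  rw [baseChange_map_algEquiv, comap_smul_algEquiv] at key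
  exact key

/-- **Galois transport of the frozen predicate.** -/
theorem inZeroComponentAt_smul_iff (W : WeierstrassCurve ℤ) (A : ValuationSubring Qb)
    (τ : Qb ≃ₐ[ℚ] Qb) (P : ((W.map (Int.castRingHom ℚ))⁄Qb).Point) :
    W.InZeroComponentAt (τ • A) (τ • P) ↔ W.InZeroComponentAt A P := by
  rw [inZeroComponentAt_iff, inZeroComponentAt_iff]
  rcases P with _ | ⟨x, y, hxy⟩
  · constructor
    · intro _; left; rfl
    · intro _; left; rfl
  · have hsmul : τ • (Point.some x y hxy : ((W.map (Int.castRingHom ℚ))⁄Qb).Point) =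
        Point.some (τ x) (τ y)
          ((WeierstrassCurve.Affine.baseChange_nonsingular (W.map (Int.castRingHom ℚ))
            τ.toAlgHom.injective _ _).mpr hxy) :=
      rfl
    rw [hsmul]
    constructor
    · rintro (h0 | ⟨x', y', h', e, hg⟩)
      · exact absurd h0 (by simp)
      · injection e with e1 e2
        rw [← e1, ← e2] at hg
        exact Or.inr ⟨x, y, hxy, rfl, (goodAt_smul_algEquiv W A τ x y).1 hg⟩
    · rintro (h0 | ⟨x', y', h', e, hg⟩)
      · exact absurd h0 (by simp)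
      · injection e with e1 e2
        rw [← e1, ← e2] at hg
        exact Or.inr ⟨_, _, _, rfl, (goodAt_smul_algEquiv W A τ x y).2 hg⟩

theorem mult_smul (h : Mult W A ℓ) (τ : Qb ≃ₐ[ℚ] Qb) : Mult W (τ • A) ℓ :=
  ⟨h.prime, (Fermat.Agent.GC.C0.liesOverPrime_smul_iff τ A ℓ).2 h.lies, h.disc_ne, h.dvd_disc,
    h.not_dvd_c₄⟩

/-- `τ • P ∈ E⁰_{τ A} ↔ P ∈ E⁰_A`. -/
theorem smul_mem_e0_smul_iff (h : Mult W A ℓ) (τ : Qb ≃ₐ[ℚ] Qb)
    (P : ((W.map (Int.castRingHom ℚ))⁄Qb).Point) :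
    τ • P ∈ e0 (mult_smul h τ) ↔ P ∈ e0 h := by
  rw [mem_e0, mem_e0]
  exact inZeroComponentAt_smul_iff W A τ P

/-- **`E⁰_A` is stable under the decomposition group of `A`.** -/
theorem smul_mem_e0_iff (h : Mult W A ℓ) {τ : Qb ≃ₐ[ℚ] Qb}
    (hτ : τ ∈ A.decompositionSubgroup ℚ) (P : ((W.map (Int.castRingHom ℚ))⁄Qb).Point) :
    τ • P ∈ e0 h ↔ P ∈ e0 h := by
  have hA : τ • A = A := hτ
  rw [mem_e0, mem_e0]
  have key := inZeroComponentAt_smul_iff W A τ P
  rw [hA] at key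
  exact key

end Qbar

end Fermat.Agent.GZ.S12.Local
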