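/-
CELL-M3 (S12) / node (LOC b) (helper9): the frozen zero component of `ℚ̄`-POINTS through a Tate
uniformisation over a complete ultrametric field `K ⊇ ι(ℚ̄)` whose unit ball cuts out `A`.

* `ptK W ι : E(ℚ̄) →+ W_K(K)`, injective, `ptK (x, y) = (ι x, ι y)`;
* `inZeroComponentAt_some_iff_goodAt` : frozen predicate ⟺ `GoodAt (unitBall K) W_K (ι x) (ι y)`;
* `toTateQ T ι : E(ℚ̄) →+ E_q(K)` (injective);
* **`inZeroComponentAt_iff_of_toTateQ_eq`** : if `toTateQ Q = tateP u` then
  `W.InZeroComponentAt A Q ↔ ∃ n : ℤ, ‖q ^ n * u‖ = 1`;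
* `inZeroComponentAt_of_unit`, `exists_unit_of_inZeroComponentAt` : the two directions in the
  `∃ u, ‖u‖ = 1 ∧ toTateQ Q = tateP u` form.
-/
import Mathlib
import Fermat.Agent.GZ.S12.Local
import Fermat.Agent.GZ.Tate.T4.Plug
import Fermat.Agent.GZ.Tate.T2.Final
import Fermat.Agent.GZ.Tate.T3.FinalN
import Fermat.Agent.GE.Tors.Count

set_option autoImplicit false
set_option linter.unusedSectionVars false

namespace Fermat.Agent.GZ.S12.LocalTate

open WeierstrassCurve WeierstrassCurve.Affine WeierstrassCurve.Affine.Point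
open scoped WeierstrassCurve.Affine
open Fermat.Agent.S05 Fermat.Agent.S05.SameRed
open Fermat.Agent.GZ.Tate Fermat.Agent.GZ.Tate.T4 Fermat.Agent.GZ.Tate.T2
open Fermat.Agent.GZ.S12.Local

universe u

section PtK

variable {K : Type u} [Field K] [CharZero K] [DecidableEq K]
variable (W : WeierstrassCurve ℤ) (ι : Qb →+* K)

/-- `E(ℚ̄) → W_K(K)` along a field embedding `ι : ℚ̄ → K`. -/
noncomputable def ptK :
    ((W.map (Int.castRingHom ℚ))⁄Qb).Point →+ (W.map (Int.castRingHom K)).toAffine.Point :=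
  (pointCongr (baseChange_rat_eq W K)).toAddMonoidHom.comp
    (WeierstrassCurve.Affine.Point.map (W' := W.map (Int.castRingHom ℚ)) ι.toRatAlgHom)

theorem ptK_injective : Function.Injective (ptK W ι) := by
  unfold ptK
  intro P Q h
  have h1 := (pointCongr (baseChange_rat_eq W K)).injective h
  exact WeierstrassCurve.Affine.Point.map_injective (W' := W.map (Int.castRingHom ℚ))
    ι.toRatAlgHom h1

theorem ptK_some {x y : Qb}
    (h : ((W.map (Int.castRingHom ℚ))⁄Qb).toAffine.Nonsingular x y) :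
    ∃ hK, ptK W ι (.some x y h) = .some (ι x) (ι y) hK :=
  ⟨_, rfl⟩

theorem ptK_zero : ptK W ι 0 = 0 := _root_.map_zero _

end PtK

section Good

variable {K : Type u} [NormedField K] [IsUltrametricDist K]
variable (W : WeierstrassCurve ℤ) (ι : Qb →+* K) (A : ValuationSubring Qb)
variable (hA : ∀ x : Qb, x ∈ A ↔ ‖ι x‖ ≤ 1)

include hA in
theorem comap_unitBall_eq : (unitBall K).comap ι = A := by
  ext x
  rw [ValuationSubring.mem_comap, mem_unitBall, hA]

include hA in
theorem mem_nonunits_iff_norm (x : Qb) : x ∈ A.nonunits ↔ ‖ι x‖ < 1 := by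
  rw [← comap_unitBall_eq ι A hA, mem_nonunits_comap_iff, mem_nonunits_unitBall]

theorem map_baseChange_eq :
    ((W.map (Int.castRingHom ℚ)).baseChange Qb).map ι = W.map (Int.castRingHom K) := by
  rw [Fermat.Agent.GE.Unip.baseChange_coeff_eq, WeierstrassCurve.map_map]
  congr 1
  exact RingHom.ext_int _ _

include hA in
/-- **Field independence of the frozen predicate, for `ℚ̄`-points.** -/
theorem inZeroComponentAt_some_iff_goodAt {x y : Qb}
    (h : ((W.map (Int.castRingHom ℚ))⁄Qb).toAffine.Nonsingular x y) :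
    W.InZeroComponentAt A (.some x y h) ↔
      GoodAt (unitBall K) (W.map (Int.castRingHom K)) (ι x) (ι y) := by
  rw [inZeroComponentAt_iff]
  have key := goodAt_map_iff ι (unitBall K)
    (W := (W.map (Int.castRingHom ℚ)).baseChange Qb) (x := x) (y := y)
  rw [map_baseChange_eq, comap_unitBall_eq ι A hA] at key
  rw [key]
  constructor
  · rintro (h0 | ⟨x', y', h', e, hg⟩)
    · exact absurd h0 (by simp)
    · injection e with e1 e2
      subst e1 e2
      exact hg
  · intro hg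
    exact Or.inr ⟨_, _, h, rfl, hg⟩

end Good

section Tate

variable {K : Type u} [NormedField K] [IsUltrametricDist K] [CompleteSpace K] [CharZero K]
  [DecidableEq K]
variable {W : WeierstrassCurve ℤ} (T : TateUnif W K) (ι : Qb →+* K) {A : ValuationSubring Qb}
variable (hA : ∀ x : Qb, x ∈ A ↔ ‖ι x‖ ≤ 1)

/-- `E(ℚ̄) → E_q(K)`. -/
noncomputable def toTateQ :
    ((W.map (Int.castRingHom ℚ))⁄Qb).Point →+ (tateCurve T.q).toAffine.Point :=
  T.toTate.toAddMonoidHom.comp (ptK W ι)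

theorem toTateQ_injective : Function.Injective (toTateQ T ι) := by
  unfold toTateQ
  intro P Q h
  exact ptK_injective W ι (T.toTate.injective h)

include hA in
/-- the change of variables of a Tate uniformisation is integral at a place of multiplicative
reduction. -/
theorem integralChange_of_mult {ℓ : ℕ} (h : Mult W A ℓ) : IntegralChange (unitBall K) T.C := by
  have hℓK : ‖((ℓ : ℕ) : K)‖ < 1 := by
    have := (mem_nonunits_iff_norm ι A hA (ℓ : Qb)).1 h.lies
    rwa [map_natCast] at this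
  have hK : (ℓ : K) ∈ (unitBall K).nonunits := mem_nonunits_unitBall.2 hℓK
  have hW : IntegralCoeffs (unitBall K) (W.map (Int.castRingHom K)) :=
    integralCoeffs_map_int W _
  have hW' : IntegralCoeffs (unitBall K) (T.C • (W.map (Int.castRingHom K))) := by
    rw [T.hC]; exact integralCoeffs_tateCurve T.norm_q
  have hc : (W.map (Int.castRingHom K)).c₄ ∉ (unitBall K).nonunits := by
    rw [WeierstrassCurve.map_c₄]
    exact intCast_notMem_nonunits h.prime hK h.not_dvd_c₄
  have hc' : (T.C • (W.map (Int.castRingHom K))).c₄ ∉ (unitBall K).nonunits := by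
    rw [T.hC]; exact tateCurve_c₄_notMem T.norm_q
  exact integralChange_of_c₄ hW hW' hc hc'

include hA in
/-- **(LOC b)**: the frozen zero component of a `ℚ̄`-point through the Tate parameter. -/
theorem inZeroComponentAt_iff_of_toTateQ_eq {ℓ : ℕ} (h : Mult W A ℓ)
    (Q : ((W.map (Int.castRingHom ℚ))⁄Qb).Point) {u : Kˣ}
    (hQ : toTateQ T ι Q = Final.tateP T.q T.q_ne T.norm_q u) :
    W.InZeroComponentAt A Q ↔ ∃ n : ℤ, ‖T.q ^ n * (u : K)‖ = 1 := by
  by_cases hadm : IsAdm T.q (u : K)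
  · -- affine point
    rw [Final.tateP_of_isAdm T.q_ne T.norm_q hadm] at hQ
    have hQ' : ptK W ι Q = T.toTate.symm
        (.some (X T.q u) (Y T.q u) (Final.hns T.q_ne T.norm_q u hadm)) := by
      rw [← hQ]
      exact (T.toTate.symm_apply_apply _).symm
    obtain ⟨h', e2⟩ := T.toTate_symm_some (Final.hns T.q_ne T.norm_q u hadm)
    rw [e2] at hQ'
    rcases Q with _ | ⟨x, y, hxy⟩
    · exfalso
      have : ptK W ι (0 : ((W.map (Int.castRingHom ℚ))⁄Qb).Point) = 0 := _root_.map_zero _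
      have e0 : (Point.zero : ((W.map (Int.castRingHom ℚ))⁄Qb).Point) = 0 := rfl
      rw [e0, this] at hQ'
      exact absurd hQ' (by simp)
    · obtain ⟨hK, e1⟩ := ptK_some W ι hxy
      rw [e1] at hQ'
      injection hQ' with hx hy
      refine (inZeroComponentAt_some_iff_goodAt W ι A hA hxy).trans ?_
      rw [hx, hy,
        ← goodAt_smul_iff (integralChange_of_mult T ι hA h) (integralCoeffs_map_int W _), T.hC]
      exact goodAt_tate_iff_exists_zpow T.q_ne T.norm_q hadm
  · -- the origin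
    have hu0 : Final.tateP T.q T.q_ne T.norm_q u = 0 := by
      unfold Final.tateP Hom.tateP
      rw [dif_neg hadm]
    rw [hu0] at hQ
    have hQ0 : Q = 0 := toTateQ_injective T ι (by rw [hQ, _root_.map_zero])
    subst hQ0
    constructor
    · intro _
      have hmem : u ∈ Subgroup.zpowers (Units.mk0 T.q T.q_ne) :=
        (Final.tateP_eq_zero_iff T.q_ne T.norm_q u).1 hu0
      obtain ⟨m, hm⟩ := Subgroup.mem_zpowers_iff.1 hmem
      refine ⟨-m, ?_⟩
      have hval : (u : K) = T.q ^ m := by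
        rw [← hm]; simp
      rw [hval, ← zpow_add₀ T.q_ne, neg_add_cancel, zpow_zero, norm_one]
    · intro _
      exact Or.inl rfl

include hA in
/-- unit parameter ⟹ zero component -/
theorem inZeroComponentAt_of_unit {ℓ : ℕ} (h : Mult W A ℓ)
    (Q : ((W.map (Int.castRingHom ℚ))⁄Qb).Point) {u : Kˣ} (hu : ‖(u : K)‖ = 1)
    (hQ : toTateQ T ι Q = Final.tateP T.q T.q_ne T.norm_q u) : Q ∈ e0 h := by
  rw [mem_e0, inZeroComponentAt_iff_of_toTateQ_eq T ι hA h Q hQ]
  exact ⟨0, by rw [zpow_zero, one_mul]; exact hu⟩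

include hA in
/-- zero component ⟹ the parameter can be chosen a unit -/
theorem exists_unit_of_mem_e0 {ℓ : ℕ} (h : Mult W A ℓ)
    (Q : ((W.map (Int.castRingHom ℚ))⁄Qb).Point) {w : Kˣ}
    (hQ : toTateQ T ι Q = Final.tateP T.q T.q_ne T.norm_q w) (hQ0 : Q ∈ e0 h) :
    ∃ u : Kˣ, ‖(u : K)‖ = 1 ∧ toTateQ T ι Q = Final.tateP T.q T.q_ne T.norm_q u := by
  rw [mem_e0, inZeroComponentAt_iff_of_toTateQ_eq T ι hA h Q hQ] at hQ0
  obtain ⟨n, hn⟩ := hQ0
  refine ⟨Units.mk0 T.q T.q_ne ^ n * w, ?_, ?_⟩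
  · rw [Units.val_mul, Units.val_zpow_eq_zpow_val, Units.val_mk0]
    exact hn
  · rw [Final.tateP_mul, hQ]
    have : Final.tateP T.q T.q_ne T.norm_q (Units.mk0 T.q T.q_ne ^ n) = 0 :=
      (Final.tateP_eq_zero_iff T.q_ne T.norm_q _).2 (Subgroup.zpow_mem_zpowers _ n)
    rw [this, zero_add]


/-! ### Torsion points -/

section Torsion

variable [IsAlgClosed K]

omit [IsUltrametricDist K] [CompleteSpace K] [DecidableEq K] in
/-- a primitive `n`-th root of unity and an `n`-th root of `q`, as units -/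
theorem exists_roots {q : K} (hq0 : q ≠ 0) {n : ℕ} (hn : n ≠ 0) :
    ∃ ζ t : Kˣ, IsPrimitiveRoot (ζ : K) n ∧ t ^ n = Units.mk0 q hq0 := by
  have hnK : (n : K) ≠ 0 := Nat.cast_ne_zero.mpr hn
  have hNZ : NeZero (n : K) := ⟨hnK⟩
  obtain ⟨ζ, hζ⟩ := HasEnoughRootsOfUnity.exists_primitiveRoot K n
  obtain ⟨t₀, ht₀⟩ := IsAlgClosed.exists_pow_nat_eq q (Nat.pos_of_ne_zero hn)
  have ht0 : t₀ ≠ 0 := by
    rintro rfl
    rw [zero_pow hn] at ht₀
    exact hq0 ht₀.symm
  refine ⟨Units.mk0 ζ (hζ.ne_zero hn), Units.mk0 t₀ ht0, hζ, ?_⟩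
  apply Units.ext
  rw [Units.val_pow_eq_pow_val, Units.val_mk0, Units.val_mk0, ht₀]

include hA in
/-- **(LOC b), torsion form** = the binder `hb` of `LocalTors` (helper87): an `n`-torsion point
of `E(ℚ̄)` is in the zero component at `A` iff its Tate parameter can be chosen a unit. -/
theorem mem_e0_iff_exists_unit {ℓ : ℕ} (h : Mult W A ℓ) {n : ℕ} (hn : n ≠ 0)
    (Q : ((W.map (Int.castRingHom ℚ))⁄Qb).Point) (hQ : n • Q = 0) :
    Q ∈ e0 h ↔
      ∃ u : Kˣ, ‖(u : K)‖ = 1 ∧ toTateQ T ι Q = Final.tateP T.q T.q_ne T.norm_q u := by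
  constructor
  · intro hQ0
    obtain ⟨ζ, t, hζ, ht⟩ := exists_roots T.q_ne hn
    have hQK : n • toTateQ T ι Q = 0 := by rw [← map_nsmul, hQ, _root_.map_zero]
    obtain ⟨i, k, -, -, hik⟩ := T3.FinalN.torsionN_eq_pt T.q_ne T.norm_q hn hζ ht hQK
    exact exists_unit_of_mem_e0 T ι hA h Q hik hQ0
  · rintro ⟨u, hu, hQu⟩
    exact inZeroComponentAt_of_unit T ι hA h Q hu hQu

omit [IsAlgClosed K] [NormedField K] [IsUltrametricDist K] [CompleteSpace K] [CharZero K]
  [DecidableEq K] in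
/-- `#E(ℚ̄)[n] = n²`. -/
theorem card_torsion_qbar (W : WeierstrassCurve ℤ) (hΔ : W.Δ ≠ 0) {n : ℕ} (hn : n ≠ 0) :
    Nat.card {P : ((W.map (Int.castRingHom ℚ))⁄Qb).Point // n • P = 0} = n ^ 2 := by
  refine Fermat.Agent.GE.Tors.card_torsion ?_ n (Nat.one_le_iff_ne_zero.2 hn)
  rw [Fermat.Agent.GE.Unip.baseChange_Δ_eq]
  exact_mod_cast hΔ

end Torsion

end Tate

end Fermat.Agent.GZ.S12.LocalTate
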