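/-
CELL-M3 / S12, node (LOC a) of helper9's DESIGN v1 (board 6320), second seat helper87:
**`G_ℚ` is transitive on the valuation subrings of `ℚ̄` over a prime `ℓ`, and every such valuation
subring `A` is the unit ball of an embedding `ℚ̄ → ℂ_[ℓ]`.**

* `mem_of_smul_centerIdeal_eq` : `σ • centre A = centre A'`, `x ∈ A` ⟹ `σ x ∈ A'`;
* `exists_smul_centerIdeal_eq` : two centres over `ℓ` are conjugate (profinite transitivity,
  Mathlib `Algebra.IsInvariant.exists_smul_of_under_eq_of_profinite` for `ℤ ⊆ ℤ̄`);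
* `exists_conj` : `∃ σ, ∀ x, x ∈ A' ↔ σ x ∈ A` (**transitivity**), with the transport of the
  decomposition and inertia groups (`mem_decompositionSubgroup_conj_iff`,
  `mem_inertiaSubgroupIn_conj_iff`);
* `exists_embedding` : for `A ∣ ℓ` there is `ι : ℚ̄ →+* ℂ_[ℓ]`, injective, `x ∈ A ↔ ‖ι x‖ ≤ 1`,
  `x ∈ A.nonunits ↔ ‖ι x‖ < 1`, compatible with `ℚ`; `ι = embK ℓ ∘ σ` (`GF/ETate/Ext.embK`,
  helper70) — the exposed form is `exists_conj_embK`.
-/
import Fermat.Agent.S13.Global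
import Fermat.Agent.GF.ETate.Ext
import Fermat.Agent.GC.C0.Level

set_option autoImplicit false

noncomputable section

open scoped Pointwise
open Fermat.Agent.Common_helper32

namespace Fermat.Agent.GZ.S12.LocEmb

attribute [local instance] topZb discreteTopology_Zb continuousSMul_Zb

/-! ### conjugate centres -/

section Conj

variable {ℓ : ℕ} (hℓ : ℓ.Prime) (A A' : ValuationSubring Qb)
  (hA : (ℓ : Qb) ∈ A.nonunits) (hA' : (ℓ : Qb) ∈ A'.nonunits)

include hℓ hA in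
/-- if `σ` carries the centre of `A` to the centre of `A'`, it carries `A` into `A'`. -/
theorem mem_of_smul_centerIdeal_eq (σ : GQ) (hσ : σ • centerIdeal A = centerIdeal A') (x : Qb)
    (hx : x ∈ A) : σ • x ∈ A' := by
  obtain ⟨s, t, hs, ht, hsA, hst⟩ := exists_integral_fraction A ℓ hℓ hA x hx (isAlgebraic_int x)
  have hs' : (σ • (⟨s, hs⟩ : Zb) : Zb) ∉ centerIdeal A' := by
    rw [← hσ, Ideal.smul_mem_pointwise_smul_iff, mem_centerIdeal]
    exact hsA
  rw [mem_centerIdeal, A'.mem_nonunits_iff, not_lt] at hs'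
  have hs1 : A'.valuation (σ • s) ≤ 1 :=
    (A'.valuation_le_one_iff _).mpr (isIntegral_mem_valuationSubring A' _ (σ • (⟨s, hs⟩ : Zb)).2)
  have hs2 : A'.valuation (σ • s) = 1 := le_antisymm hs1 hs'
  have ht1 : A'.valuation (σ • t) ≤ 1 :=
    (A'.valuation_le_one_iff _).mpr (isIntegral_mem_valuationSubring A' _ (σ • (⟨t, ht⟩ : Zb)).2)
  rw [← A'.valuation_le_one_iff]
  have : σ • t = σ • s * σ • x := by rw [← smul_mul', hst]
  rw [this, map_mul, hs2, one_mul] at ht1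
  exact ht1

include hℓ hA hA' in
/-- two centres over the same prime are conjugate. -/
theorem exists_smul_centerIdeal_eq : ∃ σ : GQ, centerIdeal A' = σ • centerIdeal A := by
  have h1 := centerIdeal_liesOver A ℓ hℓ hA
  have h2 := centerIdeal_liesOver A' ℓ hℓ hA'
  have hunder : (centerIdeal A).under ℤ = (centerIdeal A').under ℤ := by
    rw [← h1.over, ← h2.over]
  exact Algebra.IsInvariant.exists_smul_of_under_eq_of_profinite
    (A := ℤ) (B := Zb) (G := GQ) (centerIdeal A) (centerIdeal A') hunder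

include hℓ hA hA' in
/-- **transitivity of `G_ℚ` on the valuation subrings of `ℚ̄` over `ℓ`.** -/
theorem exists_conj : ∃ σ : GQ, ∀ x : Qb, x ∈ A' ↔ σ x ∈ A := by
  obtain ⟨τ, hτ⟩ := exists_smul_centerIdeal_eq hℓ A' A hA' hA
  -- `τ • centre A' = centre A`
  have hτ' : τ⁻¹ • centerIdeal A = centerIdeal A' := by rw [hτ, inv_smul_smul]
  refine ⟨τ, fun x => ⟨fun hx => ?_, fun hx => ?_⟩⟩
  · exact mem_of_smul_centerIdeal_eq hℓ A' A hA' τ hτ.symm x hx
  · have := mem_of_smul_centerIdeal_eq hℓ A A' hA τ⁻¹ hτ' (τ x) hx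
    rwa [AlgEquiv.smul_def, AlgEquiv.aut_inv, AlgEquiv.symm_apply_apply] at this

end Conj

/-! ### transport of decomposition and inertia groups -/

section Groups

variable {A A' : ValuationSubring Qb} {σ : GQ}

/-- `σ` carries `A'` onto `A`, as an equality of valuation subrings. -/
theorem smul_eq_of_conj (h : ∀ x : Qb, x ∈ A' ↔ σ x ∈ A) : σ • A' = A := by
  ext y
  rw [ValuationSubring.mem_pointwise_smul_iff_inv_smul_mem, h, AlgEquiv.smul_def,
    AlgEquiv.aut_inv, AlgEquiv.apply_symm_apply]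

/-- conjugation by `σ` carries `D_{A'}` onto `D_A`. -/
theorem mem_decompositionSubgroup_conj_iff (h : ∀ x : Qb, x ∈ A' ↔ σ x ∈ A) (τ : GQ) :
    τ ∈ A'.decompositionSubgroup ℚ ↔ σ * τ * σ⁻¹ ∈ A.decompositionSubgroup ℚ := by
  have hA : σ • A' = A := smul_eq_of_conj h
  rw [MulAction.mem_stabilizer_iff, MulAction.mem_stabilizer_iff, ← hA, mul_smul, mul_smul,
    inv_smul_smul]
  constructor
  · intro hτ; rw [hτ]
  · intro hτ; exact smul_left_cancel σ hτ

/-- conjugation by `σ` carries `I_{A'}` onto `I_A`. -/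
theorem mem_inertiaSubgroupIn_conj_iff (h : ∀ x : Qb, x ∈ A' ↔ σ x ∈ A) (τ : GQ) :
    τ ∈ A'.inertiaSubgroupIn ℚ ↔ σ * τ * σ⁻¹ ∈ A.inertiaSubgroupIn ℚ := by
  have hA : σ • A' = A := smul_eq_of_conj h
  constructor
  · intro hτ
    have := Fermat.Agent.GC.C0.conj_mem_inertiaSubgroupIn σ hτ
    rwa [hA] at this
  · intro hτ
    have hA' : σ⁻¹ • A = A' := by rw [← hA, inv_smul_smul]
    have := Fermat.Agent.GC.C0.conj_mem_inertiaSubgroupIn σ⁻¹ hτ
    rw [hA', inv_inv] at this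
    have e : σ⁻¹ * (σ * τ * σ⁻¹) * σ = τ := by group
    rwa [e] at this

end Groups

/-! ### the embedding into `ℂ_[ℓ]` -/

section Emb

open Fermat.Agent.GF.ETate.Ext

variable (ℓ : ℕ) [Fact ℓ.Prime]

/-- **every place of `ℚ̄` over `ℓ` is a conjugate of the standard one** (`padicPlace ℓ`, the unit
ball of `embK ℓ : ℚ̄ → ℂ_[ℓ]`). -/
theorem exists_conj_embK (A : ValuationSubring Qb) (hA : (ℓ : Qb) ∈ A.nonunits) :
    ∃ σ : GQ, (∀ x : Qb, x ∈ A ↔ σ x ∈ padicPlace ℓ) ∧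
      (∀ x : Qb, x ∈ A ↔ ‖embK ℓ (σ x)‖ ≤ 1) ∧
      (∀ x : Qb, x ∈ A.nonunits ↔ ‖embK ℓ (σ x)‖ < 1) := by
  have hP : ((ℓ : ℕ) : Qb) ∈ (padicPlace ℓ).nonunits := by
    rw [mem_nonunits_iff_norm_embK, map_natCast,
      ← map_natCast (algebraMap ℚ_[ℓ] ℂ_[ℓ]) ℓ, norm_algebraMap', Padic.norm_p]
    exact inv_lt_one_of_one_lt₀ (by exact_mod_cast (Fact.out : ℓ.Prime).one_lt)
  obtain ⟨σ, hσ⟩ := exists_conj (Fact.out : ℓ.Prime) (padicPlace ℓ) A hP hA
  refine ⟨σ, hσ, fun x => by rw [hσ, mem_padicPlace_iff_norm_embK], fun x => ?_⟩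
  rw [← mem_nonunits_iff_norm_embK]
  -- nonunits of `A` ↔ nonunits of the conjugate
  by_cases hx0 : x = 0
  · subst hx0
    rw [map_zero, ValuationSubring.mem_nonunits_iff, ValuationSubring.mem_nonunits_iff, map_zero,
      map_zero]
    exact ⟨fun _ => zero_lt_one, fun _ => zero_lt_one⟩
  have hinv : ∀ (B : ValuationSubring Qb) (y : Qb), y ≠ 0 → (y ∈ B.nonunits ↔ y⁻¹ ∉ B) := by
    intro B y hy
    rw [ValuationSubring.mem_nonunits_iff, ← ValuationSubring.valuation_le_one_iff, map_inv₀,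
      not_le, one_lt_inv₀ (B.valuation.pos_iff.2 hy)]
  have hσx0 : σ x ≠ 0 := fun h => hx0 (by simpa using h)
  rw [hinv A x hx0, hinv (padicPlace ℓ) (σ x) hσx0, hσ, map_inv₀]

/-- **(LOC a)**: every valuation subring of `ℚ̄` over `ℓ` is the unit ball of an embedding
`ℚ̄ → ℂ_[ℓ]`. -/
theorem exists_embedding (A : ValuationSubring Qb) (hA : (ℓ : Qb) ∈ A.nonunits) :
    ∃ ι : Qb →+* ℂ_[ℓ], Function.Injective ι ∧ (∀ x : Qb, x ∈ A ↔ ‖ι x‖ ≤ 1) ∧
      (∀ x : Qb, x ∈ A.nonunits ↔ ‖ι x‖ < 1) ∧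
      ∀ r : ℚ, ι (algebraMap ℚ Qb r) = algebraMap ℚ ℂ_[ℓ] r := by
  obtain ⟨σ, -, h1, h2⟩ := exists_conj_embK ℓ A hA
  refine ⟨(embK ℓ).comp ((σ : Qb ≃+* Qb) : Qb →+* Qb), ?_, h1, h2, fun r => ?_⟩
  · exact (embK_injective ℓ).comp σ.injective
  · show embK ℓ (σ (algebraMap ℚ Qb r)) = _
    rw [σ.commutes]
    exact map_ratCast (embK ℓ) r ▸ by simp

end Emb

end Fermat.Agent.GZ.S12.LocEmb
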