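/-
CELL-M3 / S12, node (LOC c), ABSTRACT half (helper87; frame fixed by helper9, board 6453):
**the `n`-torsion of a group `M` that embeds into the Tate curve `E_q(K)` with the right count, read
against a subgroup `E0` that corresponds to the unit parameters.**

`K` complete ultrametric, char. 0, algebraically closed, `0 < ‖q‖ < 1`, `P = T2.Final.tateP q`;
`M` an abelian group, `E0 ≤ M`, `φ : M →+ E_q(K)` injective, `#M[n] = n²`, and for `n`-torsion `Q`: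
`Q ∈ E0 ⟺ φ Q = P u` with `‖u‖ = 1` (`hb`).  Then (`T3/BasisN`, helper43):

* `exists_gen_e0`   : `E0[n]` is cyclic of order `n`;
* `exists_quot_gen` : `M[n] / E0[n] ≅ ℤ/n`, generated by the class of `φ⁻¹ (P t)`, `t ^ n = q`;
* `card_e0_torsion` : `#E0[n] = n`;
* `hL1`, `hloc`     : the binders of helper92's `GZ/S12/CanonInd.can_of_mix` verbatim, for `p` prime
                      (`hcard`, `hb` at all `n = p ^ m`).
-/
import Fermat.Agent.GZ.Tate.T3.BasisN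

set_option autoImplicit false

noncomputable section

namespace Fermat.Agent.GZ.S12.LocalTors

open WeierstrassCurve Fermat.Agent.GZ.Tate Fermat.Agent.GZ.Tate.T2 Fermat.Agent.GZ.Tate.T3

/-- a primitive `n`-th root of unity, as a unit. -/
theorem exists_zeta {K : Type*} [Field K] [CharZero K] [IsAlgClosed K] {n : ℕ} (hn : n ≠ 0) :
    ∃ ζ : Kˣ, IsPrimitiveRoot (ζ : K) n := by
  haveI : NeZero (n : K) := ⟨by exact_mod_cast hn⟩
  obtain ⟨ζ, hζ⟩ := HasEnoughRootsOfUnity.exists_primitiveRoot K n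
  exact ⟨Units.mk0 ζ (hζ.ne_zero hn), hζ⟩

variable {K : Type*} [NormedField K] [IsUltrametricDist K] [CompleteSpace K] [CharZero K]
  [DecidableEq K] [IsAlgClosed K] {q : K} (hq0 : q ≠ 0) (hq1 : ‖q‖ < 1)
variable {M : Type*} [AddCommGroup M] (E0 : AddSubgroup M)
  (φ : M →+ (tateCurve q).toAffine.Point) (hφ : Function.Injective φ) {n : ℕ} (hn : n ≠ 0)
  (hcard : Nat.card {P : M // n • P = 0} = n ^ 2)
  (hb : ∀ Q : M, n • Q = 0 →
    (Q ∈ E0 ↔ ∃ u : Kˣ, ‖(u : K)‖ = 1 ∧ φ Q = Final.tateP q hq0 hq1 u))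

/-! ### roots -/

include hn in
omit [IsUltrametricDist K] [CompleteSpace K] [CharZero K] [DecidableEq K] in
/-- an `n`-th root of `q`, as a unit. -/
theorem exists_root : ∃ t : Kˣ, t ^ n = Units.mk0 q hq0 := by
  obtain ⟨z, hz⟩ := IsAlgClosed.exists_pow_nat_eq q (Nat.pos_of_ne_zero hn)
  have hz0 : z ≠ 0 := by
    rintro rfl
    rw [zero_pow hn] at hz
    exact hq0 hz.symm
  refine ⟨Units.mk0 z hz0, Units.ext ?_⟩
  rw [Units.val_pow_eq_pow_val, Units.val_mk0, Units.val_mk0, hz]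

/-! ### `φ` is onto the `n`-torsion of the Tate curve -/

include hq0 hq1 hφ hn hcard in
/-- every `n`-torsion point of `E_q(K)` comes from `M[n]`. -/
theorem exists_preimage {Q : (tateCurve q).toAffine.Point} (hQ : n • Q = 0) :
    ∃ x : M, n • x = 0 ∧ φ x = Q := by
  classical
  obtain ⟨ζ, hζ⟩ := exists_zeta (K := K) hn
  obtain ⟨t, ht⟩ := exists_root hq0 hn
  -- the parametrisation `Fin n × Fin n ↠ E_q[n]`
  let g : Fin n × Fin n → {R : (tateCurve q).toAffine.Point // n • R = 0} := fun ik =>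
    ⟨(ik.1 : ℕ) • Final.tateP q hq0 hq1 ζ + (ik.2 : ℕ) • Final.tateP q hq0 hq1 t, by
      rw [smul_add, smul_comm n, smul_comm n (ik.2 : ℕ),
        (FinalN.addOrderOf_tateP_zeta hq0 hq1 hn hζ ht ▸ addOrderOf_nsmul_eq_zero _ :
          n • Final.tateP q hq0 hq1 ζ = 0),
        (FinalN.nsmul_tateP_t_eq_zero_iff hq0 hq1 hn hζ ht n).2 dvd_rfl, smul_zero, smul_zero,
        add_zero]⟩
  have hg : Function.Surjective g := by
    rintro ⟨R, hR⟩
    obtain ⟨i, k, hi, hk, rfl⟩ := BasisN.torsionN_decomp hq0 hq1 hn hζ ht hR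
    exact ⟨(⟨i, hi⟩, ⟨k, hk⟩), rfl⟩
  haveI : NeZero n := ⟨hn⟩
  haveI hfinT : Finite {R : (tateCurve q).toAffine.Point // n • R = 0} := Finite.of_surjective g hg
  have hcardT : Nat.card {R : (tateCurve q).toAffine.Point // n • R = 0} ≤ n ^ 2 := by
    have := Nat.card_le_card_of_surjective g hg
    rwa [Nat.card_prod, Nat.card_fin, ← sq] at this
  -- the restriction of `φ`
  let ψ : {P : M // n • P = 0} → {R : (tateCurve q).toAffine.Point // n • R = 0} := fun P =>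
    ⟨φ P.1, by rw [← map_nsmul, P.2, map_zero]⟩
  have hψ : Function.Injective ψ := fun P P' h => Subtype.ext (hφ (congrArg Subtype.val h))
  have hbij : Function.Bijective ψ :=
    hψ.bijective_of_nat_card_le (by rw [hcard]; exact hcardT)
  obtain ⟨P, hP⟩ := hbij.2 ⟨Q, hQ⟩
  exact ⟨P.1, P.2, congrArg Subtype.val hP⟩

/-! ### `E0[n]` is cyclic of order `n` -/

include hφ hn hcard hb in
/-- **`E⁰[n]` is cyclic of order `n`.** -/
theorem exists_gen_e0 :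
    ∃ g ∈ E0, addOrderOf g = n ∧ ∀ P ∈ E0, n • P = 0 → ∃ i < n, P = i • g := by
  obtain ⟨ζ, hζ⟩ := exists_zeta (K := K) hn
  obtain ⟨t, ht⟩ := exists_root hq0 hn
  have hordζ := FinalN.addOrderOf_tateP_zeta hq0 hq1 hn hζ ht
  have hnζ : n • Final.tateP q hq0 hq1 ζ = 0 := hordζ ▸ addOrderOf_nsmul_eq_zero _
  obtain ⟨g, hng, hg⟩ := exists_preimage hq0 hq1 φ hφ hn hcard hnζ
  refine ⟨g, ?_, ?_, fun P hP hnP => ?_⟩
  · exact (hb g hng).2 ⟨ζ, TatePlugN.norm_zeta hn hζ, hg⟩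
  · rw [← addOrderOf_injective φ hφ g, hg, hordζ]
  · obtain ⟨u, hu, hPu⟩ := (hb P hnP).1 hP
    have hnφP : n • φ P = 0 := by rw [← map_nsmul, hnP, map_zero]
    obtain ⟨i, hi, hPi⟩ := (FinalN.torsionN_unit_iff hq0 hq1 hn hζ hnφP).1 ⟨u, hu, hPu⟩
    refine ⟨i, hi, hφ ?_⟩
    rw [hPi, map_nsmul, hg]

include hφ hn hcard hb in
/-- **`#E⁰[n] = n`.** -/
theorem card_e0_torsion : Nat.card {P : M // P ∈ E0 ∧ n • P = 0} = n := by
  obtain ⟨g, hgE, hgord, hgen⟩ := exists_gen_e0 hq0 hq1 E0 φ hφ hn hcard hb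
  have hng : n • g = 0 := hgord ▸ addOrderOf_nsmul_eq_zero g
  have hset : ∀ P : M, (P ∈ E0 ∧ n • P = 0) ↔ P ∈ AddSubgroup.zmultiples g := by
    intro P
    constructor
    · rintro ⟨hP, hnP⟩
      obtain ⟨i, -, rfl⟩ := hgen P hP hnP
      exact AddSubgroup.nsmul_mem_zmultiples g i
    · intro hP
      obtain ⟨z, rfl⟩ := AddSubgroup.mem_zmultiples_iff.1 hP
      exact ⟨E0.zsmul_mem hgE z, by rw [smul_comm, hng, smul_zero]⟩
  rw [Nat.card_congr (Equiv.subtypeEquivRight hset)]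
  exact (Nat.card_zmultiples g).trans hgord

/-! ### `M[n] / E0[n]` is cyclic of order `n` -/

include hφ hn hcard hb in
/-- **`E[n]/E⁰[n] ≅ ℤ/n`**, generated by the class of `φ⁻¹ (P t)`, `t ^ n = q`. -/
theorem exists_quot_gen :
    ∃ y : M, n • y = 0 ∧ (∀ x, n • x = 0 → ∃ m : ℕ, x - m • y ∈ E0) ∧
      ∀ m : ℕ, m • y ∈ E0 → n ∣ m := by
  obtain ⟨ζ, hζ⟩ := exists_zeta (K := K) hn
  obtain ⟨t, ht⟩ := exists_root hq0 hn
  have hnt : n • Final.tateP q hq0 hq1 t = 0 :=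
    (FinalN.nsmul_tateP_t_eq_zero_iff hq0 hq1 hn hζ ht n).2 dvd_rfl
  obtain ⟨y, hny, hy⟩ := exists_preimage hq0 hq1 φ hφ hn hcard hnt
  refine ⟨y, hny, fun x hnx => ?_, fun m hm => ?_⟩
  · have hnφx : n • φ x = 0 := by rw [← map_nsmul, hnx, map_zero]
    obtain ⟨i, k, -, -, hik⟩ := BasisN.torsionN_decomp hq0 hq1 hn hζ ht hnφx
    refine ⟨k, ?_⟩
    have hnd : n • (x - k • y) = 0 := by rw [smul_sub, hnx, smul_comm, hny, smul_zero, sub_zero]
    refine (hb _ hnd).2 ⟨ζ ^ i, ?_, ?_⟩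
    · rw [Units.val_pow_eq_pow_val, norm_pow, TatePlugN.norm_zeta hn hζ, one_pow]
    · rw [map_sub, map_nsmul, hy, hik, add_sub_cancel_right, FinalN.tateP_pow hq0 hq1]
  · have hnd : n • (m • y) = 0 := by rw [smul_comm, hny, smul_zero]
    obtain ⟨u, hu, hmu⟩ := (hb _ hnd).1 hm
    rw [map_nsmul, hy] at hmu
    exact (BasisN.nsmul_t_unit_iff hq0 hq1 hn hζ ht m).1 ⟨u, hu, hmu⟩

/-! ### the binders of `GZ/S12/CanonInd.can_of_mix` -/

section Prime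

variable {p : ℕ} (hp : p.Prime)

include hφ hp in
/-- **(hL1)** of `can_of_mix`: `E⁰[p] ≠ 0`. -/
theorem hL1 (hcard1 : Nat.card {P : M // p • P = 0} = p ^ 2)
    (hb1 : ∀ Q : M, p • Q = 0 →
      (Q ∈ E0 ↔ ∃ u : Kˣ, ‖(u : K)‖ = 1 ∧ φ Q = Final.tateP q hq0 hq1 u)) :
    ∃ T ∈ E0, T ≠ 0 ∧ p • T = 0 := by
  obtain ⟨g, hgE, hgord, -⟩ := exists_gen_e0 hq0 hq1 E0 φ hφ hp.ne_zero hcard1 hb1
  refine ⟨g, hgE, ?_, hgord ▸ addOrderOf_nsmul_eq_zero g⟩
  rintro rfl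
  rw [addOrderOf_zero] at hgord
  exact hp.ne_one hgord.symm

include hφ hp in
/-- **(hloc)** of `can_of_mix`: a `p`-power torsion point `x` with `p • x ∈ E⁰` is congruent to a
`p`-torsion point modulo `E⁰`. -/
theorem hloc (hcardm : ∀ m : ℕ, Nat.card {P : M // p ^ m • P = 0} = (p ^ m) ^ 2)
    (hbm : ∀ m : ℕ, ∀ Q : M, p ^ m • Q = 0 →
      (Q ∈ E0 ↔ ∃ u : Kˣ, ‖(u : K)‖ = 1 ∧ φ Q = Final.tateP q hq0 hq1 u)) :
    ∀ (m : ℕ) (x : M), p ^ m • x = 0 → p • x ∈ E0 → ∃ T : M, p • T = 0 ∧ x - T ∈ E0 := by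
  intro m x hx hpx
  rcases Nat.eq_zero_or_pos m with rfl | hm
  · rw [pow_zero, one_smul] at hx
    subst hx
    exact ⟨0, smul_zero p, by rw [sub_zero]; exact E0.zero_mem⟩
  have hpm : p ^ m ≠ 0 := pow_ne_zero m hp.ne_zero
  obtain ⟨y, hny, hgen, hdiv⟩ :=
    exists_quot_gen hq0 hq1 E0 φ hφ hpm (hcardm m) (hbm m)
  obtain ⟨k, hk⟩ := hgen x hx
  -- `p k • y ∈ E0`
  have h1 : (p * k) • y ∈ E0 := by
    have : (p * k) • y = p • x - p • (x - k • y) := by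
      rw [smul_sub, mul_smul]; abel
    rw [this]
    exact E0.sub_mem hpx (E0.nsmul_mem hk p)
  have h2 : p ^ m ∣ p * k := hdiv _ h1
  obtain ⟨m', rfl⟩ : ∃ m', m = m' + 1 := ⟨m - 1, by omega⟩
  rw [pow_succ', Nat.mul_dvd_mul_iff_left hp.pos] at h2
  obtain ⟨k', rfl⟩ := h2
  refine ⟨(p ^ m' * k') • y, ?_, hk⟩
  rw [← mul_smul, ← mul_assoc, ← pow_succ', mul_smul, smul_comm, hny, smul_zero]

end Prime

end Fermat.Agent.GZ.S12.LocalTors
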