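/-
CELL-M3 (S12) / node (ADM), abstract half (helper94): **one step of the chain of cyclic subgroups**
`N_k ⊂ N_(k+1)` — pure Galois-module algebra (Mathlib + `GZ/Dev/Flag` vocabulary only).

`M` an abelian group with an action of a group `G`, `p` a prime, `N ≤ M` a `G`-stable subgroup.

* `tor M m`            : the `m`-torsion `{x | m • x = 0}`;  `torS` : as a `StableSub`;
* `bigS N p`           : `[p]⁻¹ N = {x | p • x ∈ N}`, as a `StableSub`;
* `Vq N p`             : `V := [p]⁻¹ N ⧸ N` (a `ZMod p`-module with the induced `G`-action);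
* `Cq N p`             : `C :=` the image of `M[p]` in `V`;
* `card_Vq`, `card_Cq` : `#V = p²`, `#C = p` (`N` cyclic of order `p ^ k`, `k ≥ 1`, `#M[p] = p²`,
                         elements of `N` divisible by `p`);
* `smul_sub_mem_Cq`    : (cyclo_quot) `σ v − χ(σ) v ∈ C` as soon as `σ = χ(σ)` on `N[p]`;
* `isCompl_of_local`   : a subgroup `E0 ⊇ N` with `E0 ⊓ M[p] ≤ N` containing some `x ∈ [p]⁻¹N ∖ N` gives
                         the complement `(E0 ⊓ [p]⁻¹N)/N` of `C`;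
* `nextN C'`           : the preimage in `M` of a submodule `C' ≤ V`;
* `nextN_*`            : for a complement `C'` of `C`: `N ≤ N'`, `#N' = p ^ (k+1)`, `N' ⊓ M[p] ≤ N`,
                         `N'` is cyclic; stable if `C'` is.
-/
import Mathlib
import Fermat.Agent.GZ.Dev.Flag

set_option autoImplicit false
set_option linter.unusedSectionVars false
set_option linter.unusedVariables false
set_option linter.style.haveILetI false

noncomputable section

namespace Fermat.Agent.GZ.S12.AdmAbs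

open Fermat.Agent.GZ.Dev

variable {G : Type*} [Group G] {M : Type*} [AddCommGroup M] [DistribMulAction G M]

/-! ### torsion and `[p]⁻¹ N` -/

/-- the `m`-torsion subgroup. -/
def tor (M : Type*) [AddCommGroup M] (m : ℕ) : AddSubgroup M := (nsmulAddMonoidHom m : M →+ M).ker

theorem mem_tor {m : ℕ} {x : M} : x ∈ tor M m ↔ m • x = 0 := AddMonoidHom.mem_ker

theorem smul_nsmul' (σ : G) (m : ℕ) (x : M) : σ • (m • x) = m • (σ • x) :=
  map_nsmul (DistribSMul.toAddMonoidHom M σ) m x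

theorem tor_mono {a b : ℕ} (h : a ∣ b) : tor M a ≤ tor M b := by
  intro x hx
  obtain ⟨c, rfl⟩ := h
  rw [mem_tor] at hx ⊢
  rw [mul_nsmul, hx, nsmul_zero]

variable (G) in
/-- the `m`-torsion as a stable subgroup. -/
def torS (M : Type*) [AddCommGroup M] [DistribMulAction G M] (m : ℕ) : StableSub G M where
  U := tor M m
  smul_mem σ x hx := by
    rw [mem_tor] at hx ⊢
    rw [← smul_nsmul', hx, smul_zero]

/-- `[p]⁻¹ N`. -/
def bigS (N : StableSub G M) (p : ℕ) : StableSub G M where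
  U := N.U.comap (nsmulAddMonoidHom p : M →+ M)
  smul_mem σ x hx := by
    rw [AddSubgroup.mem_comap] at hx ⊢
    show p • (σ • x) ∈ N.U
    rw [← smul_nsmul']
    exact N.smul_mem σ _ hx

theorem mem_bigS {N : StableSub G M} {p : ℕ} {x : M} : x ∈ (bigS N p).U ↔ p • x ∈ N.U := Iff.rfl

theorem le_bigS (N : StableSub G M) (p : ℕ) : N.U ≤ (bigS N p).U := fun x hx =>
  mem_bigS.mpr (N.U.nsmul_mem hx p)

theorem tor_le_bigS (N : StableSub G M) (p : ℕ) : tor M p ≤ (bigS N p).U := fun x hx => by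
  rw [mem_bigS, mem_tor.mp hx]
  exact N.U.zero_mem

/-- `V = [p]⁻¹ N ⧸ N`. -/
abbrev Vq (N : StableSub G M) (p : ℕ) : Type _ := ↥(bigS N p).U ⧸ (N.sub (bigS N p)).U

/-- the class of `x ∈ [p]⁻¹ N` in `V`. -/
def mkV (N : StableSub G M) (p : ℕ) : ↥(bigS N p).U →+ Vq N p :=
  QuotientAddGroup.mk' (N.sub (bigS N p)).U

theorem mkV_surjective (N : StableSub G M) (p : ℕ) : Function.Surjective (mkV N p) :=
  QuotientAddGroup.mk'_surjective _

theorem mkV_eq_zero_iff {N : StableSub G M} {p : ℕ} (x : ↥(bigS N p).U) :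
    mkV N p x = 0 ↔ (x : M) ∈ N.U := by
  rw [mkV, QuotientAddGroup.mk'_apply, QuotientAddGroup.eq_zero_iff]
  rfl

theorem mkV_eq_iff {N : StableSub G M} {p : ℕ} (x y : ↥(bigS N p).U) :
    mkV N p x = mkV N p y ↔ (x : M) - y ∈ N.U := by
  rw [← sub_eq_zero, ← map_sub, mkV_eq_zero_iff]
  rfl

theorem smul_mkV (N : StableSub G M) (p : ℕ) (σ : G) (x : ↥(bigS N p).U) :
    σ • mkV N p x = mkV N p (σ • x) := rfl

theorem nsmul_Vq (N : StableSub G M) (p : ℕ) (v : Vq N p) : p • v = 0 := by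
  obtain ⟨x, rfl⟩ := mkV_surjective N p v
  rw [← map_nsmul, mkV_eq_zero_iff]
  exact x.2

/-- the `ZMod p`-module structure of `V`. -/
instance zmodVq (N : StableSub G M) (p : ℕ) : Module (ZMod p) (Vq N p) :=
  AddCommGroup.zmodModule (nsmul_Vq N p)

instance smulCommVq (N : StableSub G M) (p : ℕ) : SMulCommClass G (ZMod p) (Vq N p) where
  smul_comm σ c v := (ZMod.map_smul (DistribSMul.toAddMonoidHom (Vq N p) σ) c v)

theorem natCast_smul_Vq (N : StableSub G M) (p : ℕ) (a : ℕ) (v : Vq N p) :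
    ((a : ZMod p)) • v = a • v := Nat.cast_smul_eq_nsmul (ZMod p) a v

/-- `C`: the image of `M[p]` in `V`. -/
def Cq (N : StableSub G M) (p : ℕ) : Submodule (ZMod p) (Vq N p) :=
  AddSubgroup.toZModSubmodule p
    (((tor M p).addSubgroupOf (bigS N p).U).map (mkV N p))

theorem mem_Cq {N : StableSub G M} {p : ℕ} {v : Vq N p} :
    v ∈ Cq N p ↔ ∃ x : ↥(bigS N p).U, p • (x : M) = 0 ∧ mkV N p x = v := by
  rw [Cq, AddSubgroup.mem_toZModSubmodule, AddSubgroup.mem_map]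
  constructor
  · rintro ⟨x, hx, rfl⟩
    exact ⟨x, mem_tor.mp hx, rfl⟩
  · rintro ⟨x, hx, rfl⟩
    exact ⟨x, mem_tor.mpr hx, rfl⟩

/-- (stable) `C` is `G`-stable. -/
theorem smul_mem_Cq (N : StableSub G M) (p : ℕ) (σ : G) {v : Vq N p} (hv : v ∈ Cq N p) :
    σ • v ∈ Cq N p := by
  obtain ⟨x, hx, rfl⟩ := mem_Cq.mp hv
  refine mem_Cq.mpr ⟨σ • x, ?_, rfl⟩
  show p • (σ • (x : M)) = 0
  rw [← smul_nsmul', hx, smul_zero]

/-- (fixed_sub) `G` fixes `C` pointwise as soon as `σ t − t ∈ N` for `t ∈ M[p]`. -/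
theorem smul_eq_of_mem_Cq (N : StableSub G M) (p : ℕ)
    (hcof : ∀ (σ : G) (t : M), p • t = 0 → σ • t - t ∈ N.U) (σ : G) {v : Vq N p}
    (hv : v ∈ Cq N p) : σ • v = v := by
  obtain ⟨x, hx, rfl⟩ := mem_Cq.mp hv
  rw [smul_mkV, mkV_eq_iff]
  exact hcof σ x hx


/-! ### cyclic `p`-groups, through a generator -/

section Cyclic

variable {p k : ℕ} [hp : Fact p.Prime] {N : AddSubgroup M}

/-- a generator of the cyclic group `N`, as an element of `M`. -/
theorem exists_gen (hcyc : IsAddCyclic ↥N) (hcard : Nat.card ↥N = p ^ k) :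
    ∃ g : M, g ∈ N ∧ addOrderOf g = p ^ k ∧ ∀ x ∈ N, ∃ a : ℤ, x = a • g := by
  obtain ⟨g, hg⟩ := hcyc.exists_generator
  refine ⟨(g : M), g.2, ?_, fun x hx => ?_⟩
  · rw [AddSubgroup.addOrderOf_coe, addOrderOf_eq_card_of_forall_mem_zmultiples hg, hcard]
  · obtain ⟨a, ha⟩ := AddSubgroup.mem_zmultiples_iff.mp (hg ⟨x, hx⟩)
    refine ⟨a, ?_⟩
    have := congrArg (fun y : ↥N => (y : M)) ha
    simpa using this.symm

/-- in a cyclic group of order `p ^ k`, the elements killed by `p ^ (k-1)` are multiples of `p`. -/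
theorem exists_eq_nsmul_of_pow_pred (hk : 1 ≤ k) {g : M} (hgN : g ∈ N)
    (hg : addOrderOf g = p ^ k) (hgen : ∀ x ∈ N, ∃ a : ℤ, x = a • g) {z : M} (hz : z ∈ N)
    (hz0 : p ^ (k - 1) • z = 0) : ∃ n ∈ N, z = p • n := by
  obtain ⟨a, rfl⟩ := hgen z hz
  have h1 : (((p ^ (k - 1) : ℕ) : ℤ) * a) • g = 0 := by
    rw [mul_zsmul, natCast_zsmul]
    exact hz0
  have h2 : ((p ^ k : ℕ) : ℤ) ∣ ((p ^ (k - 1) : ℕ) : ℤ) * a := by
    rw [← hg]
    exact addOrderOf_dvd_iff_zsmul_eq_zero.mpr h1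
  have hpk : p ^ k = p ^ (k - 1) * p := by
    rw [← pow_succ]
    congr 1
    omega
  have h3 : (p : ℤ) ∣ a := by
    rw [hpk, Nat.cast_mul] at h2
    have hne : ((p ^ (k - 1) : ℕ) : ℤ) ≠ 0 := by
      exact_mod_cast (pow_pos hp.out.pos (k - 1)).ne'
    exact (mul_dvd_mul_iff_left hne).mp h2
  obtain ⟨b, rfl⟩ := h3
  refine ⟨b • g, N.zsmul_mem hgN b, ?_⟩
  rw [mul_zsmul, natCast_zsmul]

/-- in a cyclic group of order `p ^ k`, the elements killed by `p` are multiples of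
`p ^ (k-1) • g`. -/
theorem exists_eq_zsmul_of_nsmul_eq_zero (hk : 1 ≤ k) {g : M}
    (hg : addOrderOf g = p ^ k) (hgen : ∀ x ∈ N, ∃ a : ℤ, x = a • g) {z : M} (hz : z ∈ N)
    (hz0 : p • z = 0) : ∃ b : ℤ, z = b • (p ^ (k - 1) • g) := by
  obtain ⟨a, rfl⟩ := hgen z hz
  have h1 : (((p : ℕ) : ℤ) * a) • g = 0 := by
    rw [mul_zsmul, natCast_zsmul]
    exact hz0
  have h2 : ((p ^ k : ℕ) : ℤ) ∣ ((p : ℕ) : ℤ) * a := by
    rw [← hg]
    exact addOrderOf_dvd_iff_zsmul_eq_zero.mpr h1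
  have hpk : p ^ k = p * p ^ (k - 1) := by
    rw [← pow_succ']
    congr 1
    omega
  have h3 : ((p ^ (k - 1) : ℕ) : ℤ) ∣ a := by
    rw [hpk, Nat.cast_mul] at h2
    have hne : ((p : ℕ) : ℤ) ≠ 0 := by exact_mod_cast hp.out.ne_zero
    exact (mul_dvd_mul_iff_left hne).mp h2
  obtain ⟨b, rfl⟩ := h3
  refine ⟨b, ?_⟩
  rw [mul_comm, mul_zsmul, natCast_zsmul]

/-- `p ^ (k-1) • g` has order `p`. -/
theorem addOrderOf_pow_pred_nsmul (hk : 1 ≤ k) {g : M} (hg : addOrderOf g = p ^ k) :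
    addOrderOf (p ^ (k - 1) • g) = p := by
  have hpk : p ^ k = p * p ^ (k - 1) := by
    rw [← pow_succ']
    congr 1
    omega
  refine addOrderOf_eq_prime ?_ ?_
  · rw [← mul_nsmul', ← hpk, ← hg]
    exact addOrderOf_nsmul_eq_zero g
  · intro h0
    have := addOrderOf_dvd_of_nsmul_eq_zero h0
    rw [hg, hpk] at this
    have hpos : 0 < p ^ (k - 1) := pow_pos hp.out.pos _
    have := Nat.le_of_dvd hpos this
    have h2 := hp.out.two_le
    nlinarith

/-- **`#N[p] = p`** for `N` cyclic of order `p ^ k`, `k ≥ 1`. -/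
theorem card_inf_tor (hk : 1 ≤ k) (hcyc : IsAddCyclic ↥N) (hcard : Nat.card ↥N = p ^ k) :
    Nat.card ↥(N ⊓ tor M p) = p := by
  obtain ⟨g, hgN, hg, hgen⟩ := exists_gen hcyc hcard
  have heq : N ⊓ tor M p = AddSubgroup.zmultiples (p ^ (k - 1) • g) := by
    apply le_antisymm
    · intro z hz
      obtain ⟨b, hb⟩ := exists_eq_zsmul_of_nsmul_eq_zero hk hg hgen hz.1 (mem_tor.mp hz.2)
      rw [hb]
      exact AddSubgroup.zsmul_mem_zmultiples _ b
    · rw [AddSubgroup.zmultiples_le]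
      refine ⟨N.nsmul_mem hgN _, mem_tor.mpr ?_⟩
      have hpk : p ^ k = p * p ^ (k - 1) := by
        rw [← pow_succ']
        congr 1
        omega
      rw [← mul_nsmul', ← hpk, ← hg]
      exact addOrderOf_nsmul_eq_zero g
  rw [heq, Nat.card_zmultiples, addOrderOf_pow_pred_nsmul hk hg]

end Cyclic


/-! ### cardinalities of `V` and `C` -/

section Card

variable {p k : ℕ} [hp : Fact p.Prime] (N : StableSub G M)

/-- multiplication by `p` from `[p]⁻¹ N` to `N`. -/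
def mulP (p : ℕ) : ↥(bigS N p).U →+ ↥N.U where
  toFun x := ⟨p • (x : M), x.2⟩
  map_zero' := Subtype.ext (nsmul_zero p)
  map_add' x y := Subtype.ext (nsmul_add (x : M) (y : M) p)

theorem mulP_surjective (hdiv : ∀ n ∈ N.U, ∃ x : M, p • x = n) :
    Function.Surjective (mulP N p) := by
  intro n
  obtain ⟨x, hx⟩ := hdiv n n.2
  refine ⟨⟨x, ?_⟩, Subtype.ext hx⟩
  rw [mem_bigS, hx]
  exact n.2

/-- the kernel of `mulP` is `M[p]`. -/
def kerMulPEquiv : ↥(mulP N p).ker ≃ ↥(tor M p) where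
  toFun x := ⟨((x : ↥(bigS N p).U) : M), mem_tor.mpr (by
    have := congrArg (fun y : ↥N.U => (y : M)) (AddMonoidHom.mem_ker.mp x.2)
    exact this)⟩
  invFun t := ⟨⟨(t : M), tor_le_bigS N p t.2⟩, AddMonoidHom.mem_ker.mpr
    (Subtype.ext (mem_tor.mp t.2))⟩
  left_inv x := rfl
  right_inv t := rfl

/-- `#[p]⁻¹N = #M[p] · #N`. -/
theorem card_bigS (hdiv : ∀ n ∈ N.U, ∃ x : M, p • x = n) :
    Nat.card ↥(bigS N p).U = Nat.card ↥N.U * Nat.card ↥(tor M p) := by
  rw [AddSubgroup.card_eq_card_quotient_mul_card_addSubgroup (mulP N p).ker,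
    Nat.card_congr (QuotientAddGroup.quotientKerEquivOfSurjective (mulP N p)
      (mulP_surjective N hdiv)).toEquiv, Nat.card_congr (kerMulPEquiv N)]

/-- **`#V = p²`.** -/
theorem card_Vq [Finite ↥N.U] (hp2 : Nat.card ↥(tor M p) = p ^ 2)
    (hdiv : ∀ n ∈ N.U, ∃ x : M, p • x = n) : Nat.card (Vq N p) = p ^ 2 := by
  have h1 := card_bigS N hdiv
  rw [AddSubgroup.card_eq_card_quotient_mul_card_addSubgroup (N.sub (bigS N p)).U] at h1
  have h2 : Nat.card ↥(N.sub (bigS N p)).U = Nat.card ↥N.U :=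
    Nat.card_congr (AddSubgroup.addSubgroupOfEquivOfLe (le_bigS N p)).toEquiv
  rw [h2, hp2, mul_comm] at h1
  exact Nat.eq_of_mul_eq_mul_left Nat.card_pos h1

/-- the map `M[p] → V`. -/
def torToV (p : ℕ) : ↥(tor M p) →+ Vq N p :=
  (mkV N p).comp (AddSubgroup.inclusion (tor_le_bigS N p))

theorem torToV_apply (t : ↥(tor M p)) :
    torToV N p t = mkV N p ⟨(t : M), tor_le_bigS N p t.2⟩ := rfl

theorem range_torToV : ((torToV N p).range : Set (Vq N p)) = (Cq N p : Set (Vq N p)) := by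
  ext v
  simp only [SetLike.mem_coe, AddMonoidHom.mem_range, mem_Cq]
  constructor
  · rintro ⟨t, rfl⟩
    exact ⟨⟨(t : M), tor_le_bigS N p t.2⟩, mem_tor.mp t.2, rfl⟩
  · rintro ⟨x, hx, rfl⟩
    exact ⟨⟨(x : M), mem_tor.mpr hx⟩, rfl⟩

/-- the kernel of `M[p] → V` is `N[p]`. -/
def kerTorToVEquiv : ↥(torToV N p).ker ≃ ↥(N.U ⊓ tor M p) where
  toFun t := ⟨((t : ↥(tor M p)) : M), by
    refine ⟨?_, (t : ↥(tor M p)).2⟩
    have := AddMonoidHom.mem_ker.mp t.2
    rw [torToV_apply, mkV_eq_zero_iff] at this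
    exact this⟩
  invFun z := ⟨⟨(z : M), z.2.2⟩, by
    rw [AddMonoidHom.mem_ker, torToV_apply, mkV_eq_zero_iff]
    exact z.2.1⟩
  left_inv t := rfl
  right_inv z := rfl

/-- **`#C = p`.** -/
theorem card_Cq (hk : 1 ≤ k) (hcyc : IsAddCyclic ↥N.U) (hcard : Nat.card ↥N.U = p ^ k)
    (hp2 : Nat.card ↥(tor M p) = p ^ 2) : Nat.card ↥(Cq N p) = p := by
  have h1 := AddSubgroup.card_eq_card_quotient_mul_card_addSubgroup (torToV N p).ker
  rw [Nat.card_congr (QuotientAddGroup.quotientKerEquivRange (torToV N p)).toEquiv,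
    Nat.card_congr (kerTorToVEquiv N), card_inf_tor hk hcyc hcard, hp2] at h1
  have h2 : Nat.card ↥(torToV N p).range = Nat.card ↥(Cq N p) :=
    Nat.card_congr (Equiv.setCongr (range_torToV N))
  rw [← h2]
  have hp0 : 0 < p := hp.out.pos
  have : p * p = Nat.card ↥(torToV N p).range * p := by rw [← h1]; ring
  exact (Nat.eq_of_mul_eq_mul_right hp0 this).symm

end Card


/-! ### (cyclo_quot) -/

section Cyclo

variable {p k : ℕ} [hp : Fact p.Prime] (N : StableSub G M)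

/-- `p ^ k` kills `[p]⁻¹N`-elements into `N[p]`: for `x ∈ [p]⁻¹ N`, `p ^ k • x ∈ N` and
`p • (p ^ k • x) = 0`. -/
theorem pow_nsmul_mem (hk : 1 ≤ k) [Finite ↥N.U] (hcard : Nat.card ↥N.U = p ^ k) {x : M}
    (hx : x ∈ (bigS N p).U) : p ^ k • x ∈ N.U ∧ p • (p ^ k • x) = 0 := by
  have hpk : p ^ k = p ^ (k - 1) * p := by
    rw [← pow_succ]
    congr 1
    omega
  constructor
  · rw [hpk, mul_nsmul']
    exact N.U.nsmul_mem (mem_bigS.mp hx) _
  · rw [← mul_nsmul, mul_comm, mul_nsmul]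
    have h0 : p ^ k • (⟨p • x, mem_bigS.mp hx⟩ : ↥N.U) = 0 := by
      rw [← hcard]
      exact card_nsmul_eq_zero'
    exact congrArg (fun y : ↥N.U => (y : M)) h0

/-- **(cyclo_quot)**: if `σ = χ` on `N[p]` then `σ v − χ v ∈ C` for every `v ∈ V`. -/
theorem smul_sub_mem_Cq (hk : 1 ≤ k) (hcyc : IsAddCyclic ↥N.U) (hcard : Nat.card ↥N.U = p ^ k)
    (σ : G) (χ : ℕ) (hdet : ∀ x ∈ N.U, p • x = 0 → σ • x = χ • x) (v : Vq N p) :
    σ • v - (χ : ZMod p) • v ∈ Cq N p := by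
  haveI : Finite ↥N.U := Nat.finite_of_card_ne_zero (by
    rw [hcard]; exact (pow_pos hp.out.pos k).ne')
  obtain ⟨x, rfl⟩ := mkV_surjective N p v
  rw [natCast_smul_Vq, smul_mkV, ← map_nsmul, ← map_sub]
  -- `y := σ x − χ x ∈ [p]⁻¹ N`
  set y : ↥(bigS N p).U := σ • x - χ • x with hy
  have hyM : (y : M) = σ • (x : M) - χ • (x : M) := rfl
  obtain ⟨hw, hw0⟩ := pow_nsmul_mem N hk hcard x.2
  -- `p ^ k • y = 0`
  have h1 : p ^ k • (y : M) = 0 := by
    rw [hyM, nsmul_sub, ← smul_nsmul', hdet _ hw hw0, nsmul_left_comm, sub_self]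
  -- `p • y ∈ N` is killed by `p ^ (k-1)`
  have hpk : p ^ k = p ^ (k - 1) * p := by
    rw [← pow_succ]
    congr 1
    omega
  have h2 : p ^ (k - 1) • (p • (y : M)) = 0 := by
    rw [← mul_nsmul', ← hpk]
    exact h1
  obtain ⟨g, hgN, hg, hgen⟩ := exists_gen hcyc hcard
  obtain ⟨n, hn, hpn⟩ := exists_eq_nsmul_of_pow_pred hk hgN hg hgen (z := p • (y : M))
    (mem_bigS.mp y.2) h2
  -- `t := y − n ∈ M[p]`
  have ht : p • ((y : M) - n) = 0 := by rw [nsmul_sub, hpn, sub_self]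
  refine mem_Cq.mpr ⟨⟨(y : M) - n, tor_le_bigS N p (mem_tor.mpr ht)⟩, ht, ?_⟩
  rw [mkV_eq_iff]
  show (y : M) - n - (y : M) ∈ N.U
  rw [sub_sub_cancel_left]
  exact N.U.neg_mem hn

end Cyclo

/-! ### (locally_split): the complement from a "zero component" -/

section Local

variable {p k : ℕ} [hp : Fact p.Prime] (N : StableSub G M)

/-- the image of `E0 ⊓ [p]⁻¹N` in `V`. -/
def locC (p : ℕ) (E0 : AddSubgroup M) : Submodule (ZMod p) (Vq N p) :=
  AddSubgroup.toZModSubmodule p ((E0.addSubgroupOf (bigS N p).U).map (mkV N p))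

theorem mem_locC {E0 : AddSubgroup M} {v : Vq N p} :
    v ∈ locC N p E0 ↔ ∃ x : ↥(bigS N p).U, (x : M) ∈ E0 ∧ mkV N p x = v := by
  rw [locC, AddSubgroup.mem_toZModSubmodule, AddSubgroup.mem_map]
  rfl

/-- stability of `locC` under the stabiliser of `E0`. -/
theorem smul_mem_locC {E0 : AddSubgroup M} (σ : G) (hσ : ∀ x ∈ E0, σ • x ∈ E0) {v : Vq N p}
    (hv : v ∈ locC N p E0) : σ • v ∈ locC N p E0 := by
  obtain ⟨x, hx, rfl⟩ := (mem_locC N).mp hv
  exact (mem_locC N).mpr ⟨σ • x, hσ _ hx, rfl⟩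

/-- `C ⊓ locC = ⊥`. -/
theorem disjoint_Cq_locC {E0 : AddSubgroup M} (hNE : N.U ≤ E0)
    (hE0p : ∀ t ∈ E0, p • t = 0 → t ∈ N.U) : Disjoint (Cq N p) (locC N p E0) := by
  rw [Submodule.disjoint_def]
  intro v hvC hvL
  obtain ⟨t, ht, rfl⟩ := mem_Cq.mp hvC
  obtain ⟨x, hx, hxt⟩ := (mem_locC N).mp hvL
  rw [mkV_eq_iff] at hxt
  rw [mkV_eq_zero_iff]
  refine hE0p _ ?_ ht
  have : (t : M) = (x : M) - ((x : M) - (t : M)) := by abel
  rw [this]
  exact E0.sub_mem hx (hNE hxt)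

/-- **(locally_split), algebra**: `locC` is a complement of `C`. -/
theorem isCompl_Cq_locC [Finite (Vq N p)] (hV : Nat.card (Vq N p) = p ^ 2)
    (hC : Nat.card ↥(Cq N p) = p) {E0 : AddSubgroup M} (hNE : N.U ≤ E0)
    (hE0p : ∀ t ∈ E0, p • t = 0 → t ∈ N.U)
    (hx : ∃ x ∈ E0, p • x ∈ N.U ∧ x ∉ N.U) : IsCompl (Cq N p) (locC N p E0) := by
  have hdis := disjoint_Cq_locC N hNE hE0p
  have hcardK : Nat.card (ZMod p) = p := Nat.card_zmod p
  have hp1 : 1 < p := hp.out.one_lt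
  -- dimensions
  have hVrk : Module.finrank (ZMod p) (Vq N p) = 2 := by
    have := Module.natCard_eq_pow_finrank (K := ZMod p) (V := Vq N p)
    rw [hV, hcardK] at this
    exact (Nat.pow_right_injective hp1 this).symm
  have hCrk : Module.finrank (ZMod p) ↥(Cq N p) = 1 := by
    have := Module.natCard_eq_pow_finrank (K := ZMod p) (V := ↥(Cq N p))
    rw [hC, hcardK] at this
    have h1 : p ^ 1 = p ^ Module.finrank (ZMod p) ↥(Cq N p) := by rw [pow_one]; exact this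
    exact (Nat.pow_right_injective hp1 h1).symm
  have hLrk : 1 ≤ Module.finrank (ZMod p) ↥(locC N p E0) := by
    obtain ⟨x, hxE, hxN, hxn⟩ := hx
    have hne : locC N p E0 ≠ ⊥ := by
      intro hbot
      have hmem : mkV N p ⟨x, hxN⟩ ∈ locC N p E0 := (mem_locC N).mpr ⟨⟨x, hxN⟩, hxE, rfl⟩
      rw [hbot, Submodule.mem_bot, mkV_eq_zero_iff] at hmem
      exact hxn hmem
    rw [Nat.one_le_iff_ne_zero]
    intro h0
    exact hne (Submodule.finrank_eq_zero.mp h0)
  refine (Submodule.isCompl_iff_disjoint _ _ ?_).mpr hdis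
  rw [hVrk, hCrk]
  omega

end Local


/-! ### the next subgroup `N'` -/

section Next

variable {p k : ℕ} [hp : Fact p.Prime] (N : StableSub G M)

/-- the preimage of `C' ≤ V` in `[p]⁻¹ N`. -/
def preC (C' : Submodule (ZMod p) (Vq N p)) : AddSubgroup ↥(bigS N p).U :=
  C'.toAddSubgroup.comap (mkV N p)

/-- **`N'`**: the preimage in `M` of a submodule `C' ≤ V`. -/
def nextN (C' : Submodule (ZMod p) (Vq N p)) : AddSubgroup M :=
  (preC N C').map (bigS N p).U.subtype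

theorem mem_nextN {C' : Submodule (ZMod p) (Vq N p)} {x : M} :
    x ∈ nextN N C' ↔ ∃ h : x ∈ (bigS N p).U, mkV N p ⟨x, h⟩ ∈ C' := by
  rw [nextN, AddSubgroup.mem_map]
  constructor
  · rintro ⟨y, hy, rfl⟩
    exact ⟨y.2, hy⟩
  · rintro ⟨h, hx⟩
    exact ⟨⟨x, h⟩, hx, rfl⟩

theorem nextN_le_bigS (C' : Submodule (ZMod p) (Vq N p)) : nextN N C' ≤ (bigS N p).U := by
  intro x hx
  exact ((mem_nextN N).mp hx).1

theorem le_nextN (C' : Submodule (ZMod p) (Vq N p)) : N.U ≤ nextN N C' := by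
  intro x hx
  refine (mem_nextN N).mpr ⟨le_bigS N p hx, ?_⟩
  have : mkV N p ⟨x, le_bigS N p hx⟩ = 0 := (mkV_eq_zero_iff _).mpr hx
  rw [this]
  exact C'.zero_mem

/-- `N'` is stable if `C'` is. -/
theorem smul_mem_nextN {C' : Submodule (ZMod p) (Vq N p)}
    (hC' : ∀ (σ : G), ∀ v ∈ C', σ • v ∈ C') (σ : G) {x : M} (hx : x ∈ nextN N C') :
    σ • x ∈ nextN N C' := by
  obtain ⟨h, hx⟩ := (mem_nextN N).mp hx
  exact (mem_nextN N).mpr ⟨(bigS N p).smul_mem σ x h, hC' σ _ hx⟩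

/-- `N'` as a stable subgroup. -/
def nextS {C' : Submodule (ZMod p) (Vq N p)} (hC' : ∀ (σ : G), ∀ v ∈ C', σ • v ∈ C') :
    StableSub G M where
  U := nextN N C'
  smul_mem σ x hx := smul_mem_nextN N hC' σ hx

/-- `N'[p] ≤ N` when `C ⊓ C' = ⊥`. -/
theorem nextN_tor_le {C' : Submodule (ZMod p) (Vq N p)} (hdis : Disjoint (Cq N p) C') {t : M}
    (ht : t ∈ nextN N C') (ht0 : p • t = 0) : t ∈ N.U := by
  obtain ⟨h, htC'⟩ := (mem_nextN N).mp ht
  have htC : mkV N p ⟨t, h⟩ ∈ Cq N p := mem_Cq.mpr ⟨⟨t, h⟩, ht0, rfl⟩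
  have := (Submodule.disjoint_def.mp hdis) _ htC htC'
  exact (mkV_eq_zero_iff _).mp this

/-- the kernel of `preC → C'` is `N`. -/
def kerPreCEquiv (C' : Submodule (ZMod p) (Vq N p)) :
    ↥((mkV N p).addSubgroupComap C'.toAddSubgroup).ker ≃ ↥N.U where
  toFun x := ⟨(((x : ↥(C'.toAddSubgroup.comap (mkV N p))) : ↥(bigS N p).U) : M), by
    have := AddMonoidHom.mem_ker.mp x.2
    have h2 := congrArg (fun y : ↥C'.toAddSubgroup => (y : Vq N p)) this
    exact (mkV_eq_zero_iff _).mp h2⟩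
  invFun n := ⟨⟨⟨(n : M), le_bigS N p n.2⟩, by
      rw [AddSubgroup.mem_comap]
      have : mkV N p ⟨(n : M), le_bigS N p n.2⟩ = 0 := (mkV_eq_zero_iff _).mpr n.2
      rw [this]
      exact C'.toAddSubgroup.zero_mem⟩, by
    rw [AddMonoidHom.mem_ker]
    apply Subtype.ext
    exact (mkV_eq_zero_iff _).mpr n.2⟩
  left_inv x := rfl
  right_inv n := rfl

/-- `#N' = #C' · #N`. -/
theorem card_nextN (C' : Submodule (ZMod p) (Vq N p)) :
    Nat.card ↥(nextN N C') = Nat.card ↥C' * Nat.card ↥N.U := by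
  have h1 : Nat.card ↥(nextN N C') = Nat.card ↥(preC N C') := by
    rw [nextN]
    exact Nat.card_congr ((preC N C').equivMapOfInjective _
      (AddSubgroup.subtype_injective _)).symm.toEquiv
  rw [h1, preC,
    AddSubgroup.card_eq_card_quotient_mul_card_addSubgroup
      ((mkV N p).addSubgroupComap C'.toAddSubgroup).ker,
    Nat.card_congr (QuotientAddGroup.quotientKerEquivOfSurjective _
      ((mkV N p).addSubgroupComap_surjective_of_surjective C'.toAddSubgroup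
        (mkV_surjective N p))).toEquiv,
    Nat.card_congr (kerPreCEquiv N C')]
  rfl

/-- a complement of `C` has `p` elements. -/
theorem card_of_isCompl [Finite (Vq N p)] (hV : Nat.card (Vq N p) = p ^ 2)
    (hC : Nat.card ↥(Cq N p) = p) {C' : Submodule (ZMod p) (Vq N p)}
    (hcompl : IsCompl (Cq N p) C') : Nat.card ↥C' = p := by
  have hcardK : Nat.card (ZMod p) = p := Nat.card_zmod p
  have hp1 : 1 < p := hp.out.one_lt
  have hVrk : Module.finrank (ZMod p) (Vq N p) = 2 := by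
    have := Module.natCard_eq_pow_finrank (K := ZMod p) (V := Vq N p)
    rw [hV, hcardK] at this
    exact (Nat.pow_right_injective hp1 this).symm
  have hCrk : Module.finrank (ZMod p) ↥(Cq N p) = 1 := by
    have := Module.natCard_eq_pow_finrank (K := ZMod p) (V := ↥(Cq N p))
    rw [hC, hcardK] at this
    have h1 : p ^ 1 = p ^ Module.finrank (ZMod p) ↥(Cq N p) := by rw [pow_one]; exact this
    exact (Nat.pow_right_injective hp1 h1).symm
  have h := Submodule.finrank_add_eq_of_isCompl hcompl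
  have hC'rk : Module.finrank (ZMod p) ↥C' = 1 := by omega
  rw [Module.natCard_eq_pow_finrank (K := ZMod p) (V := ↥C'), hcardK, hC'rk, pow_one]

/-- **`N'` is cyclic of order `p ^ (k+1)`** for a complement `C'` of `C`. -/
theorem isAddCyclic_nextN [Finite (Vq N p)] (hk : 1 ≤ k) (hcyc : IsAddCyclic ↥N.U)
    (hcard : Nat.card ↥N.U = p ^ k) (hV : Nat.card (Vq N p) = p ^ 2)
    (hC : Nat.card ↥(Cq N p) = p) (hdiv : ∀ n ∈ N.U, ∃ x : M, p • x = n)
    {C' : Submodule (ZMod p) (Vq N p)} (hcompl : IsCompl (Cq N p) C') :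
    Nat.card ↥(nextN N C') = p ^ (k + 1) ∧ IsAddCyclic ↥(nextN N C') := by
  have hcardN' : Nat.card ↥(nextN N C') = p ^ (k + 1) := by
    rw [card_nextN, card_of_isCompl N hV hC hcompl, hcard, pow_succ, mul_comm]
  refine ⟨hcardN', ?_⟩
  haveI : Finite ↥(nextN N C') := Nat.finite_of_card_ne_zero (by
    rw [hcardN']; exact (pow_pos hp.out.pos _).ne')
  obtain ⟨g, hgN, hg, hgen⟩ := exists_gen hcyc hcard
  obtain ⟨x, hx⟩ := hdiv g hgN
  have hxbig : x ∈ (bigS N p).U := by rw [mem_bigS, hx]; exact hgN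
  -- decompose the class of `x`
  have htop : mkV N p ⟨x, hxbig⟩ ∈ (Cq N p ⊔ C' : Submodule (ZMod p) (Vq N p)) := by
    rw [hcompl.sup_eq_top]
    exact Submodule.mem_top
  obtain ⟨c, hc, c', hc', hsum⟩ := Submodule.mem_sup.mp htop
  obtain ⟨t, ht, rfl⟩ := mem_Cq.mp hc
  -- `x' := x − t`
  have hx'mem : x - (t : M) ∈ nextN N C' := by
    refine (mem_nextN N).mpr ⟨(bigS N p).U.sub_mem hxbig t.2, ?_⟩
    have : mkV N p ⟨x - (t : M), (bigS N p).U.sub_mem hxbig t.2⟩ =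
        mkV N p ⟨x, hxbig⟩ - mkV N p t := by
      rw [← map_sub]
      rfl
    rw [this, ← hsum, add_sub_cancel_left]
    exact hc'
  have hpx' : p • (x - (t : M)) = g := by rw [nsmul_sub, hx, ht, sub_zero]
  have hord : addOrderOf (x - (t : M)) = p ^ (k + 1) := by
    apply addOrderOf_eq_prime_pow
    · -- `p ^ k • x' = p ^ (k-1) • g ≠ 0`
      have hpk : p ^ k = p ^ (k - 1) * p := by
        rw [← pow_succ]
        congr 1
        omega
      rw [hpk, mul_nsmul', hpx']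
      intro h0
      have := addOrderOf_pow_pred_nsmul hk hg
      rw [h0, addOrderOf_zero] at this
      exact hp.out.one_lt.ne this
    · rw [pow_succ, mul_nsmul', hpx', ← hg]
      exact addOrderOf_nsmul_eq_zero g
  refine isAddCyclic_of_addOrderOf_eq_card (⟨x - (t : M), hx'mem⟩ : ↥(nextN N C')) ?_
  rw [hcardN', ← hord]
  exact (AddSubgroup.addOrderOf_coe (⟨x - (t : M), hx'mem⟩ : ↥(nextN N C'))).symm

end Next

end Fermat.Agent.GZ.S12.AdmAbs
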