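/-
CELL-M3 (S12) / nodes (ADM) + (MINK) (helper94): **the chain step `N_k ⟹ N_(k+1)` through S14, and
the cofixed property of `N_(k+1)` through Minkowski** — hypothesis form over an abstract
`G_ℚ`-module `M` (`M := (E⁄ℚ̄).Point` in the application).

* `isAdmissible`        : `IsAdmissibleExtensionCts p (Vq N p) (Cq N p)` from the binders
                          `hp2 hdiv hcof hdet hunr hloc hopen` (one per frozen field);
* `chain_step`          : with `ExtVanishingCts p` (S14): a stable cyclic `N' ⊇ N` of order `p ^ (k+1)`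
                          with `N'[p] ≤ N` and `p • N' ≤ N`;
* `cofixed_of_inertia`  : (MINK) `σ x − x ∈ N'` for all `σ`, `x ∈ M[m]`, as soon as this holds for
                          one inertia group above every prime (`S13/Global.eq_top_of_inertia_le`);
* `ZeroComp`            : the local data at a place `A` (zero component `E0`): `(σ−1) M[p^n] ⊆ E0`
                          for `σ ∈ I_A`, `E0 ⊓ M[p^n]` cyclic of order `p^n`, `D_A`-stable;
* `eq_inf_tor_of_le`    : (CAN) `N ≤ E0` ⟹ `N = E0 ⊓ M[p^k]`;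
* `hunr_of_zeroComp`, `hloc_of_zeroComp`, `hI_of_zeroComp` : the binders `hunr`, `hloc` (of
                          `isAdmissible`) and `hI` (of `cofixed_of_inertia`) from `ZeroComp` + (CAN).
-/
import Mathlib
import Fermat.Prelude.Def_ExtCitation_AdmissibleExtension_v2
import Fermat.Agent.S13.Global
import Fermat.Agent.GZ.S12.AdmAbs

set_option autoImplicit false
set_option linter.unusedSectionVars false
set_option linter.unusedVariables false
set_option linter.style.haveILetI false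

noncomputable section

namespace Fermat.Agent.GZ.S12.Adm

open Fermat.Agent.GZ.Dev Fermat.Agent.GZ.S12.AdmAbs ExtCitation ValuationSubring

local notation "Qb" => AlgebraicClosure ℚ
local notation "GQ" => (AlgebraicClosure ℚ ≃ₐ[ℚ] AlgebraicClosure ℚ)

variable {M : Type} [AddCommGroup M] [DistribMulAction GQ M] {p k : ℕ} [hp : Fact p.Prime]

/-- `[p]⁻¹ N ≤ M[p^(k+1)]` when `#N = p ^ k`. -/
theorem bigS_le_tor (N : StableSub GQ M) [Finite ↥N.U] (hcard : Nat.card ↥N.U = p ^ k) :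
    (bigS N p).U ≤ tor M (p ^ (k + 1)) := by
  intro x hx
  rw [mem_tor, pow_succ, mul_nsmul']
  have h0 : p ^ k • (⟨p • x, mem_bigS.mp hx⟩ : ↥N.U) = 0 := by
    rw [← hcard]
    exact card_nsmul_eq_zero'
  exact congrArg (fun y : ↥N.U => (y : M)) h0

/-- **(ADM)**: the extension `0 → C → V → V/C → 0` is admissible. -/
theorem isAdmissible (N : StableSub GQ M) (hk : 1 ≤ k) (hcyc : IsAddCyclic ↥N.U)
    (hcard : Nat.card ↥N.U = p ^ k)
    (hp2 : Nat.card ↥(tor M p) = p ^ 2)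
    (hdiv : ∀ n ∈ N.U, ∃ x : M, p • x = n)
    (hcof : ∀ (σ : GQ) (t : M), p • t = 0 → σ • t - t ∈ N.U)
    (hdet : ∀ (σ : GQ), ∀ x ∈ N.U, p • x = 0 → σ • x = cycloExp p σ • x)
    (hunr : ∀ ℓ : ℕ, ℓ.Prime → ℓ ≠ p → ∀ A : ValuationSubring Qb, A.LiesOverPrime ℓ →
      ∀ σ ∈ A.inertiaSubgroupIn ℚ, ∀ x : M, p • x ∈ N.U → σ • x - x ∈ N.U)
    (hloc : ∀ A : ValuationSubring Qb, A.LiesOverPrime p → ∃ E0 : AddSubgroup M,
      (∀ σ ∈ A.decompositionSubgroup ℚ, ∀ x ∈ E0, σ • x ∈ E0) ∧ N.U ≤ E0 ∧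
      (∀ t ∈ E0, p • t = 0 → t ∈ N.U) ∧ ∃ x ∈ E0, p • x ∈ N.U ∧ x ∉ N.U)
    (hopen : ∃ U : Subgroup GQ, IsOpen (U : Set GQ) ∧
      ∀ σ ∈ U, ∀ x : M, p ^ (k + 1) • x = 0 → σ • x = x) :
    IsAdmissibleExtensionCts p (Vq N p) (Cq N p) := by
  haveI : Finite ↥N.U := Nat.finite_of_card_ne_zero (by
    rw [hcard]; exact (pow_pos hp.out.pos k).ne')
  have hV : Nat.card (Vq N p) = p ^ 2 := card_Vq N hp2 hdiv
  haveI : Finite (Vq N p) := Nat.finite_of_card_ne_zero (by
    rw [hV]; exact (pow_pos hp.out.pos 2).ne')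
  have hC : Nat.card ↥(Cq N p) = p := card_Cq N hk hcyc hcard hp2
  refine { stable := ?_, fixed_sub := ?_, cyclo_quot := ?_, card_sub := hC, card_total := hV,
           unramified_outside := ?_, locally_split := ?_, open_kernel := ?_ }
  · intro σ x hx
    exact smul_mem_Cq N p σ hx
  · intro σ x hx
    exact smul_eq_of_mem_Cq N p hcof σ hx
  · intro σ x
    exact smul_sub_mem_Cq N hk hcyc hcard σ (cycloExp p σ) (hdet σ) x
  · intro ℓ hℓ hℓp A hA σ hσ v
    obtain ⟨x, rfl⟩ := mkV_surjective N p v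
    rw [smul_mkV, mkV_eq_iff]
    exact hunr ℓ hℓ hℓp A hA σ hσ x (mem_bigS.mp x.2)
  · intro A hA
    obtain ⟨E0, hD, hNE, hE0p, hx⟩ := hloc A hA
    refine ⟨locC N p E0, fun σ hσ v hv => smul_mem_locC N σ (hD σ hσ) hv, ?_⟩
    exact isCompl_Cq_locC N hV hC hNE hE0p hx
  · obtain ⟨U, hU, hfix⟩ := hopen
    -- the kernel of the action on `V`, as a subgroup
    let K : Subgroup GQ :=
      { carrier := {σ | ∀ v : Vq N p, σ • v = v}
        one_mem' := fun v => one_smul _ v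
        mul_mem' := fun {a b} ha hb v => by rw [mul_smul, hb v, ha v]
        inv_mem' := fun {a} ha v => by
          have := ha v
          rw [← this, inv_smul_smul, this] }
    have hle : U ≤ K := by
      intro σ hσ v
      obtain ⟨x, rfl⟩ := mkV_surjective N p v
      rw [smul_mkV]
      congr 1
      apply Subtype.ext
      exact hfix σ hσ x (mem_tor.mp (bigS_le_tor N hcard x.2))
    exact Subgroup.isOpen_mono hle hU

/-- **the chain step**: from S14, a stable cyclic `N' ⊇ N` of order `p ^ (k+1)` with `N'[p] ≤ N`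
and `p • N' ≤ N`. -/
theorem chain_step (hS14 : ExtVanishingCts p) (N : StableSub GQ M) (hk : 1 ≤ k)
    (hcyc : IsAddCyclic ↥N.U) (hcard : Nat.card ↥N.U = p ^ k)
    (hp2 : Nat.card ↥(tor M p) = p ^ 2)
    (hdiv : ∀ n ∈ N.U, ∃ x : M, p • x = n)
    (hcof : ∀ (σ : GQ) (t : M), p • t = 0 → σ • t - t ∈ N.U)
    (hdet : ∀ (σ : GQ), ∀ x ∈ N.U, p • x = 0 → σ • x = cycloExp p σ • x)
    (hunr : ∀ ℓ : ℕ, ℓ.Prime → ℓ ≠ p → ∀ A : ValuationSubring Qb, A.LiesOverPrime ℓ →
      ∀ σ ∈ A.inertiaSubgroupIn ℚ, ∀ x : M, p • x ∈ N.U → σ • x - x ∈ N.U)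
    (hloc : ∀ A : ValuationSubring Qb, A.LiesOverPrime p → ∃ E0 : AddSubgroup M,
      (∀ σ ∈ A.decompositionSubgroup ℚ, ∀ x ∈ E0, σ • x ∈ E0) ∧ N.U ≤ E0 ∧
      (∀ t ∈ E0, p • t = 0 → t ∈ N.U) ∧ ∃ x ∈ E0, p • x ∈ N.U ∧ x ∉ N.U)
    (hopen : ∃ U : Subgroup GQ, IsOpen (U : Set GQ) ∧
      ∀ σ ∈ U, ∀ x : M, p ^ (k + 1) • x = 0 → σ • x = x) :
    ∃ N' : StableSub GQ M, N.U ≤ N'.U ∧ IsAddCyclic ↥N'.U ∧ Nat.card ↥N'.U = p ^ (k + 1) ∧
      (∀ t ∈ N'.U, p • t = 0 → t ∈ N.U) ∧ (∀ x ∈ N'.U, p • x ∈ N.U) := by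
  haveI : Finite ↥N.U := Nat.finite_of_card_ne_zero (by
    rw [hcard]; exact (pow_pos hp.out.pos k).ne')
  have hV : Nat.card (Vq N p) = p ^ 2 := card_Vq N hp2 hdiv
  haveI : Finite (Vq N p) := Nat.finite_of_card_ne_zero (by
    rw [hV]; exact (pow_pos hp.out.pos 2).ne')
  have hC : Nat.card ↥(Cq N p) = p := card_Cq N hk hcyc hcard hp2
  have hadm := isAdmissible N hk hcyc hcard hp2 hdiv hcof hdet hunr hloc hopen
  obtain ⟨C', hC'stab, hcompl⟩ := hS14 (Vq N p) (Cq N p) hadm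
  obtain ⟨hcardN', hcycN'⟩ := isAddCyclic_nextN N hk hcyc hcard hV hC hdiv hcompl
  refine ⟨nextS N hC'stab, le_nextN N C', hcycN', hcardN', ?_, ?_⟩
  · intro t ht ht0
    exact nextN_tor_le N hcompl.disjoint ht ht0
  · intro x hx
    exact mem_bigS.mp (nextN_le_bigS N C' hx)

/-! ### (MINK) -/

/-- **(MINK)**: `σ x − x ∈ N'` for all `σ ∈ G_ℚ` and `x ∈ M[m]`, as soon as this holds on one
inertia group above every prime (and the action on `M[m]` has open kernel). -/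
theorem cofixed_of_inertia (N' : StableSub GQ M) (m : ℕ)
    (hopen : ∃ U : Subgroup GQ, IsOpen (U : Set GQ) ∧
      ∀ σ ∈ U, ∀ x : M, m • x = 0 → σ • x = x)
    (hI : ∀ ℓ : ℕ, ℓ.Prime → ∃ A : ValuationSubring Qb, A.LiesOverPrime ℓ ∧
      ∀ σ ∈ A.inertiaSubgroupIn ℚ, ∀ x : M, m • x = 0 → σ • x - x ∈ N'.U) :
    ∀ (σ : GQ) (x : M), m • x = 0 → σ • x - x ∈ N'.U := by
  have htor : ∀ (σ : GQ) (x : M), m • x = 0 → m • (σ • x) = 0 := by
    intro σ x hx
    rw [← smul_nsmul', hx, smul_zero]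
  let H : Subgroup GQ :=
    { carrier := {σ | ∀ x : M, m • x = 0 → σ • x - x ∈ N'.U}
      one_mem' := fun x _ => by rw [one_smul, sub_self]; exact N'.U.zero_mem
      mul_mem' := fun {a b} ha hb x hx => by
        have h : (a * b) • x - x = (a • (b • x) - b • x) + (b • x - x) := by
          rw [mul_smul]; abel
        rw [h]
        exact N'.U.add_mem (ha _ (htor b x hx)) (hb x hx)
      inv_mem' := fun {a} ha x hx => by
        have h : a⁻¹ • x - x = -(a • (a⁻¹ • x) - a⁻¹ • x) := by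
          rw [smul_inv_smul]; abel
        rw [h]
        exact N'.U.neg_mem (ha _ (htor a⁻¹ x hx)) }
  have hn : H.Normal := by
    constructor
    intro s hs g x hx
    have h : (g * s * g⁻¹) • x - x = g • (s • (g⁻¹ • x) - g⁻¹ • x) := by
      rw [mul_smul, mul_smul, smul_sub, smul_inv_smul]
    rw [h]
    exact N'.smul_mem g _ (hs _ (htor g⁻¹ x hx))
  have hop : IsOpen (H : Set GQ) := by
    obtain ⟨U, hU, hfix⟩ := hopen
    have hle : U ≤ H := by
      intro σ hσ x hx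
      rw [hfix σ hσ x hx, sub_self]
      exact N'.U.zero_mem
    exact Subgroup.isOpen_mono hle hU
  have htop : H = ⊤ := by
    apply Fermat.Agent.S13.Global.eq_top_of_inertia_le H hn hop
    intro ℓ hℓ
    obtain ⟨A, hA, hAI⟩ := hI ℓ hℓ
    exact ⟨A, hA, fun σ hσ => hAI σ hσ⟩
  intro σ x hx
  have : σ ∈ H := by rw [htop]; trivial
  exact this x hx

end Fermat.Agent.GZ.S12.Adm
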