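/-
CELL-M3 (S12) / nodes (ADM) + (MINK), LOCAL PLUGS (helper94): the binders `hunr`, `hloc` of
`Adm.isAdmissible` / `Adm.chain_step` and `hI` of `Adm.cofixed_of_inertia` from the local structure
at a place (`E0` = points on the identity component; (LOC c): `#(E0 ⊓ M[p^n]) = p^n`) and (CAN)
(`N ≤ E0`).  Also `hdiv` from the torsion counts `#M[p^j] = p^(2j)`.  Abstract: `G` any group,
`I`, `D` any subgroups.

* `inf_tor_eq_of_le`     : (CAN) + (LOC c) ⟹ `E0 ⊓ M[p^k] = N`;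
* `hunr_of_local`        : `σ x − x ∈ N` for `σ ∈ I`, `p • x ∈ N` (`ℓ ≠ p` multiplicative);
* `hloc_of_local`        : the datum of `hloc` at `A ∣ p`;
* `hI_of_local`          : `σ x − x ∈ N'` for `σ ∈ I`, `x ∈ M[p^(k+1)]` (multiplicative `ℓ`, incl. `p`);
* `hI_of_good`           : the same at a good prime (inertia acts trivially);
* `exists_nsmul_eq_of_card` : `hdiv`: `M[p^(k+1)] —p→ M[p^k]` is onto by counting;
* `torEquivTorsionBy`    : `tor M m ≃ Submodule.torsionBy ℤ M m` (to plug `card_torsionBy`).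
-/
import Mathlib
import Fermat.Agent.GZ.S12.AdmAbs

set_option autoImplicit false
set_option linter.unusedSectionVars false
set_option linter.unusedVariables false
set_option linter.style.haveILetI false

noncomputable section

namespace Fermat.Agent.GZ.S12.AdmLoc

open Fermat.Agent.GZ.Dev Fermat.Agent.GZ.S12.AdmAbs

variable {G : Type*} [Group G] {M : Type*} [AddCommGroup M] [DistribMulAction G M]
  {p k : ℕ} [hp : Fact p.Prime]

/-- `#N = p ^ k` ⟹ `N ≤ M[p^k]`. -/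
theorem le_tor_of_card (N : AddSubgroup M) (hcard : Nat.card ↥N = p ^ k) : N ≤ tor M (p ^ k) := by
  haveI : Finite ↥N := Nat.finite_of_card_ne_zero (by
    rw [hcard]; exact (pow_pos hp.out.pos k).ne')
  intro x hx
  rw [mem_tor]
  have h0 : p ^ k • (⟨x, hx⟩ : ↥N) = 0 := by
    rw [← hcard]
    exact card_nsmul_eq_zero'
  exact congrArg (fun y : ↥N => (y : M)) h0

/-- **(CAN) + (LOC c)**: `N ≤ E0`, `#N = p^k = #(E0 ⊓ M[p^k])` ⟹ `E0 ⊓ M[p^k] = N`. -/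
theorem inf_tor_eq_of_le (N : AddSubgroup M) (hcard : Nat.card ↥N = p ^ k) (E0 : AddSubgroup M)
    (hNE : N ≤ E0) (hE0 : Nat.card ↥(E0 ⊓ tor M (p ^ k)) = p ^ k) :
    E0 ⊓ tor M (p ^ k) = N := by
  haveI : Finite ↥(E0 ⊓ tor M (p ^ k)) := Nat.finite_of_card_ne_zero (by
    rw [hE0]; exact (pow_pos hp.out.pos k).ne')
  have hle : N ≤ E0 ⊓ tor M (p ^ k) := le_inf hNE (le_tor_of_card N hcard)
  symm
  apply AddSubgroup.eq_of_le_of_card_ge hle
  rw [hE0, hcard]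

/-- **`hunr`** at a multiplicative place `ℓ ≠ p`. -/
theorem hunr_of_local (N : StableSub G M) (hk : 1 ≤ k) (hcard : Nat.card ↥N.U = p ^ k)
    (E0 : AddSubgroup M) (I : Subgroup G)
    (hI : ∀ σ ∈ I, ∀ x : M, p ^ (k + 1) • x = 0 → σ • x - x ∈ E0)
    (hfix : ∀ σ ∈ I, ∀ x ∈ E0, p • x = 0 → σ • x = x)
    (hNE : N.U ≤ E0) (hE0 : Nat.card ↥(E0 ⊓ tor M (p ^ k)) = p ^ k) :
    ∀ σ ∈ I, ∀ x : M, p • x ∈ N.U → σ • x - x ∈ N.U := by
  haveI : Finite ↥N.U := Nat.finite_of_card_ne_zero (by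
    rw [hcard]; exact (pow_pos hp.out.pos k).ne')
  intro σ hσ x hx
  have hxbig : x ∈ (bigS N p).U := mem_bigS.mpr hx
  obtain ⟨hw, hw0⟩ := pow_nsmul_mem N hk hcard hxbig
  have hx1 : p ^ (k + 1) • x = 0 := by
    rw [pow_succ', mul_nsmul']
    exact hw0
  have hyE : σ • x - x ∈ E0 := hI σ hσ x hx1
  have hyk : p ^ k • (σ • x - x) = 0 := by
    rw [nsmul_sub, ← smul_nsmul', hfix σ hσ _ (hNE hw) hw0, sub_self]
  rw [← inf_tor_eq_of_le N.U hcard E0 hNE hE0]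
  exact ⟨hyE, mem_tor.mpr hyk⟩

/-- **`hloc`** at a place over `p`. -/
theorem hloc_of_local (N : StableSub G M) (hk : 1 ≤ k) (hcyc : IsAddCyclic ↥N.U)
    (hcard : Nat.card ↥N.U = p ^ k) (E0 : AddSubgroup M) (D : Subgroup G)
    (hD : ∀ σ ∈ D, ∀ x ∈ E0, σ • x ∈ E0) (hNE : N.U ≤ E0)
    (hE0p : Nat.card ↥(E0 ⊓ tor M p) = p)
    (hE0k : Nat.card ↥(E0 ⊓ tor M (p ^ k)) = p ^ k)
    (hE0k1 : Nat.card ↥(E0 ⊓ tor M (p ^ (k + 1))) = p ^ (k + 1)) :
    (∀ σ ∈ D, ∀ x ∈ E0, σ • x ∈ E0) ∧ N.U ≤ E0 ∧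
      (∀ t ∈ E0, p • t = 0 → t ∈ N.U) ∧ ∃ x ∈ E0, p • x ∈ N.U ∧ x ∉ N.U := by
  refine ⟨hD, hNE, ?_, ?_⟩
  · -- `E0[p] = N[p]` by counting
    haveI : Finite ↥(E0 ⊓ tor M p) := Nat.finite_of_card_ne_zero (by
      rw [hE0p]; exact hp.out.ne_zero)
    have hle : N.U ⊓ tor M p ≤ E0 ⊓ tor M p := inf_le_inf_right _ hNE
    have heq : N.U ⊓ tor M p = E0 ⊓ tor M p := by
      apply AddSubgroup.eq_of_le_of_card_ge hle
      rw [hE0p, card_inf_tor hk hcyc hcard]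
    intro t ht ht0
    have : t ∈ N.U ⊓ tor M p := by
      rw [heq]
      exact ⟨ht, mem_tor.mpr ht0⟩
    exact this.1
  · -- an element of `E0[p^(k+1)]` outside `N`
    haveI : Finite ↥(E0 ⊓ tor M (p ^ (k + 1))) := Nat.finite_of_card_ne_zero (by
      rw [hE0k1]; exact (pow_pos hp.out.pos _).ne')
    by_contra hno
    push Not at hno
    have hkeq := inf_tor_eq_of_le N.U hcard E0 hNE hE0k
    have hle : E0 ⊓ tor M (p ^ (k + 1)) ≤ N.U := by
      intro x hx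
      refine hno x hx.1 ?_
      rw [← hkeq]
      refine ⟨E0.nsmul_mem hx.1 p, mem_tor.mpr ?_⟩
      rw [← mul_nsmul', ← pow_succ]
      exact mem_tor.mp hx.2
    haveI : Finite ↥N.U := Nat.finite_of_card_ne_zero (by
      rw [hcard]; exact (pow_pos hp.out.pos k).ne')
    have := AddSubgroup.card_le_of_le hle
    rw [hE0k1, hcard] at this
    have h2 : p ^ k < p ^ (k + 1) := Nat.pow_lt_pow_right hp.out.one_lt (Nat.lt_succ_self k)
    omega

/-- **`hI`** (of `cofixed_of_inertia`) at a multiplicative place (incl. `ℓ = p`). -/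
theorem hI_of_local (N' : AddSubgroup M) (hcard' : Nat.card ↥N' = p ^ (k + 1))
    (E0 : AddSubgroup M) (I : Subgroup G)
    (hI : ∀ σ ∈ I, ∀ x : M, p ^ (k + 1) • x = 0 → σ • x - x ∈ E0)
    (hN'E : N' ≤ E0) (hE0k1 : Nat.card ↥(E0 ⊓ tor M (p ^ (k + 1))) = p ^ (k + 1)) :
    ∀ σ ∈ I, ∀ x : M, p ^ (k + 1) • x = 0 → σ • x - x ∈ N' := by
  intro σ hσ x hx
  rw [← inf_tor_eq_of_le N' hcard' E0 hN'E hE0k1]
  refine ⟨hI σ hσ x hx, mem_tor.mpr ?_⟩
  rw [nsmul_sub, ← smul_nsmul', hx, smul_zero, sub_self]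

/-- **`hI`** at a good prime: inertia acts trivially on the torsion. -/
theorem hI_of_good (N' : AddSubgroup M) (m : ℕ) (I : Subgroup G)
    (hI : ∀ σ ∈ I, ∀ x : M, m • x = 0 → σ • x = x) :
    ∀ σ ∈ I, ∀ x : M, m • x = 0 → σ • x - x ∈ N' := by
  intro σ hσ x hx
  rw [hI σ hσ x hx, sub_self]
  exact N'.zero_mem

/-- **`hunr`** at a good prime. -/
theorem hunr_of_good (N : StableSub G M) [Finite ↥N.U] (hcard : Nat.card ↥N.U = p ^ k)
    (I : Subgroup G) (hI : ∀ σ ∈ I, ∀ x : M, p ^ (k + 1) • x = 0 → σ • x = x) :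
    ∀ σ ∈ I, ∀ x : M, p • x ∈ N.U → σ • x - x ∈ N.U := by
  intro σ hσ x hx
  have hx1 : p ^ (k + 1) • x = 0 := by
    rw [pow_succ, mul_nsmul']
    have h0 : p ^ k • (⟨p • x, hx⟩ : ↥N.U) = 0 := by
      rw [← hcard]
      exact card_nsmul_eq_zero'
    exact congrArg (fun y : ↥N.U => (y : M)) h0
  rw [hI σ hσ x hx1, sub_self]
  exact N.U.zero_mem

/-! ### divisibility from the torsion counts -/

/-- multiplication by `p` from `M[p^(j+1)]` to `M[p^j]`. -/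
def mulTor (M : Type*) [AddCommGroup M] (p j : ℕ) : ↥(tor M (p ^ (j + 1))) →+ ↥(tor M (p ^ j)) where
  toFun x := ⟨p • (x : M), mem_tor.mpr (by
    rw [← mul_nsmul', ← pow_succ]
    exact mem_tor.mp x.2)⟩
  map_zero' := Subtype.ext (nsmul_zero p)
  map_add' x y := Subtype.ext (nsmul_add (x : M) (y : M) p)

/-- the kernel of `mulTor` is `M[p]`. -/
def kerMulTorEquiv (j : ℕ) : ↥(mulTor M p j).ker ≃ ↥(tor M p) where
  toFun x := ⟨((x : ↥(tor M (p ^ (j + 1)))) : M), mem_tor.mpr (by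
    have := congrArg (fun y : ↥(tor M (p ^ j)) => (y : M)) (AddMonoidHom.mem_ker.mp x.2)
    exact this)⟩
  invFun t := ⟨⟨(t : M), tor_mono (dvd_pow_self p (Nat.succ_ne_zero j)) t.2⟩,
    AddMonoidHom.mem_ker.mpr (Subtype.ext (mem_tor.mp t.2))⟩
  left_inv x := rfl
  right_inv t := rfl

/-- **`hdiv`**: if `#M[p^j] = p^(2j)` and `#M[p^(j+1)] = p^(2(j+1))`, `#M[p] = p²`, then every
element of `M[p^j]` is divisible by `p`. -/
theorem exists_nsmul_eq_of_card (j : ℕ) (hp2 : Nat.card ↥(tor M p) = p ^ 2)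
    (hj : Nat.card ↥(tor M (p ^ j)) = p ^ (2 * j))
    (hj1 : Nat.card ↥(tor M (p ^ (j + 1))) = p ^ (2 * (j + 1))) :
    ∀ n : M, p ^ j • n = 0 → ∃ x : M, p • x = n := by
  haveI : Finite ↥(tor M (p ^ j)) := Nat.finite_of_card_ne_zero (by
    rw [hj]; exact (pow_pos hp.out.pos _).ne')
  have h1 := AddSubgroup.card_eq_card_quotient_mul_card_addSubgroup (mulTor M p j).ker
  rw [Nat.card_congr (QuotientAddGroup.quotientKerEquivRange (mulTor M p j)).toEquiv,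
    Nat.card_congr (kerMulTorEquiv j), hj1, hp2] at h1
  have h2 : Nat.card ↥(mulTor M p j).range = p ^ (2 * j) := by
    have hpos : 0 < p ^ 2 := pow_pos hp.out.pos 2
    have : p ^ (2 * j) * p ^ 2 = Nat.card ↥(mulTor M p j).range * p ^ 2 := by
      rw [← h1, ← pow_add]
      congr 1
    exact (Nat.eq_of_mul_eq_mul_right hpos this).symm
  have htop : (mulTor M p j).range = ⊤ := by
    apply AddSubgroup.eq_top_of_card_eq
    rw [h2, hj]
  intro n hn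
  have : (⟨n, mem_tor.mpr hn⟩ : ↥(tor M (p ^ j))) ∈ (mulTor M p j).range := by
    rw [htop]; trivial
  obtain ⟨x, hx⟩ := this
  exact ⟨(x : M), congrArg (fun y : ↥(tor M (p ^ j)) => (y : M)) hx⟩

/-- `tor M m` is Mathlib's `Submodule.torsionBy ℤ M m`. -/
def torEquivTorsionBy (M : Type*) [AddCommGroup M] (m : ℕ) :
    ↥(tor M m) ≃ ↥(Submodule.torsionBy ℤ M (m : ℤ)) where
  toFun x := ⟨(x : M), by
    rw [Submodule.mem_torsionBy_iff, natCast_zsmul]
    exact mem_tor.mp x.2⟩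
  invFun x := ⟨(x : M), mem_tor.mpr (by
    have := (Submodule.mem_torsionBy_iff _ _).mp x.2
    rwa [natCast_zsmul] at this)⟩
  left_inv x := rfl
  right_inv x := rfl

theorem card_tor_eq (M : Type*) [AddCommGroup M] (m : ℕ) :
    Nat.card ↥(tor M m) = Nat.card ↥(Submodule.torsionBy ℤ M (m : ℤ)) :=
  Nat.card_congr (torEquivTorsionBy M m)

end Fermat.Agent.GZ.S12.AdmLoc
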