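/-
CELL-M3 (S12) / (ADM) + (MINK), UNBUNDLED forms (helper94; helper9 6453 §4): `chain_step` and
`cofixed_of_inertia` with `N : AddSubgroup M` + a separate stability hypothesis (no `StableSub`),
and the count adapter between `Nat.card ↥(E0 ⊓ tor M n)` and the subtype form
`Nat.card {P : M // P ∈ E0 ∧ n • P = 0}` of (LOC c).
-/
import Mathlib
import Fermat.Agent.GZ.S12.Adm
import Fermat.Agent.GZ.S12.AdmLoc

set_option autoImplicit false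
set_option linter.unusedSectionVars false
set_option linter.unusedVariables false

noncomputable section

namespace Fermat.Agent.GZ.S12.AdmUnbundled

open Fermat.Agent.GZ.Dev Fermat.Agent.GZ.S12.AdmAbs Fermat.Agent.GZ.S12.Adm
  Fermat.Agent.GZ.S12.AdmLoc ExtCitation ValuationSubring

local notation "Qb" => AlgebraicClosure ℚ
local notation "GQ" => (AlgebraicClosure ℚ ≃ₐ[ℚ] AlgebraicClosure ℚ)

variable {M : Type} [AddCommGroup M] [DistribMulAction GQ M] {p k : ℕ} [hp : Fact p.Prime]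

/-- `AdmAbs.tor` in subtype form. -/
theorem card_inf_tor_eq_subtype {M : Type*} [AddCommGroup M] (E0 : AddSubgroup M) (n : ℕ) :
    Nat.card ↥(E0 ⊓ tor M n) = Nat.card {P : M // P ∈ E0 ∧ n • P = 0} :=
  Nat.card_congr (Equiv.subtypeEquivRight fun P => by
    rw [AddSubgroup.mem_inf, mem_tor])

/-- `#M[n]` in subtype form. -/
theorem card_tor_eq_subtype {M : Type*} [AddCommGroup M] (n : ℕ) :
    Nat.card ↥(tor M n) = Nat.card {P : M // n • P = 0} :=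
  Nat.card_congr (Equiv.subtypeEquivRight fun P => mem_tor)

/-- **the chain step, unbundled.** -/
theorem chain_step' (hS14 : ExtVanishingCts p) (N : AddSubgroup M)
    (hstab : ∀ σ : GQ, ∀ x ∈ N, σ • x ∈ N) (hk : 1 ≤ k)
    (hcyc : IsAddCyclic ↥N) (hcard : Nat.card ↥N = p ^ k)
    (hp2 : Nat.card ↥(tor M p) = p ^ 2)
    (hdiv : ∀ n ∈ N, ∃ x : M, p • x = n)
    (hcof : ∀ (σ : GQ) (t : M), p • t = 0 → σ • t - t ∈ N)
    (hdet : ∀ (σ : GQ), ∀ x ∈ N, p • x = 0 → σ • x = cycloExp p σ • x)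
    (hunr : ∀ ℓ : ℕ, ℓ.Prime → ℓ ≠ p → ∀ A : ValuationSubring Qb, A.LiesOverPrime ℓ →
      ∀ σ ∈ A.inertiaSubgroupIn ℚ, ∀ x : M, p • x ∈ N → σ • x - x ∈ N)
    (hloc : ∀ A : ValuationSubring Qb, A.LiesOverPrime p → ∃ E0 : AddSubgroup M,
      (∀ σ ∈ A.decompositionSubgroup ℚ, ∀ x ∈ E0, σ • x ∈ E0) ∧ N ≤ E0 ∧
      (∀ t ∈ E0, p • t = 0 → t ∈ N) ∧ ∃ x ∈ E0, p • x ∈ N ∧ x ∉ N)
    (hopen : ∃ U : Subgroup GQ, IsOpen (U : Set GQ) ∧
      ∀ σ ∈ U, ∀ x : M, p ^ (k + 1) • x = 0 → σ • x = x) :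
    ∃ N' : AddSubgroup M, (∀ σ : GQ, ∀ x ∈ N', σ • x ∈ N') ∧ N ≤ N' ∧ IsAddCyclic ↥N' ∧
      Nat.card ↥N' = p ^ (k + 1) ∧ (∀ t ∈ N', p • t = 0 → t ∈ N) ∧ (∀ x ∈ N', p • x ∈ N) := by
  obtain ⟨N', h1, h2, h3, h4, h5⟩ := chain_step hS14 (⟨N, hstab⟩ : StableSub GQ M) hk hcyc hcard
    hp2 hdiv hcof hdet hunr hloc hopen
  exact ⟨N'.U, N'.smul_mem, h1, h2, h3, h4, h5⟩

/-- **(MINK), unbundled.** -/
theorem cofixed_of_inertia' (N' : AddSubgroup M) (hstab : ∀ σ : GQ, ∀ x ∈ N', σ • x ∈ N')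
    (m : ℕ)
    (hopen : ∃ U : Subgroup GQ, IsOpen (U : Set GQ) ∧
      ∀ σ ∈ U, ∀ x : M, m • x = 0 → σ • x = x)
    (hI : ∀ ℓ : ℕ, ℓ.Prime → ∃ A : ValuationSubring Qb, A.LiesOverPrime ℓ ∧
      ∀ σ ∈ A.inertiaSubgroupIn ℚ, ∀ x : M, m • x = 0 → σ • x - x ∈ N') :
    ∀ (σ : GQ) (x : M), m • x = 0 → σ • x - x ∈ N' :=
  cofixed_of_inertia (⟨N', hstab⟩ : StableSub GQ M) m hopen hI

end Fermat.Agent.GZ.S12.AdmUnbundled
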