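/-
CELL-M3 (S12 follow-up) / FINISH-COUNT (helper27).

The design-independent finishing count of the `S12` chain argument (helper9, board 6202 (1)):

`W : WeierstrassCurve ℤ` with good reduction at the prime `q`, `q ∤ m`, `A` a valuation subring of
`ℚ̄` over `q`, `σ` a Frobenius element at `A`, `G` a finite subgroup of `W(ℚ̄)` with
`(σ − 1) W(ℚ̄)[m] ⊆ G`.  Then `#W(ℚ̄)[m] ≤ #G · (2q + 1)`, i.e. `m² ≤ #G · (2q + 1)`.

Proof: `ker (σ − 1 | W[m])` has at least `#W[m] / #G` elements; reduction (`GE/RedHom`) is injective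
on prime-to-`q` torsion and intertwines `σ` with the `q`-Frobenius `φ` of the residue field
(`GE/E6`), so `ker (σ − 1 | W[m])` injects into the `φ`-fixed points of `W(κ_A)`; the coordinates of
such an affine point are roots of `X^q − X`, and for each `x` there are at most two `y`, whence at
most `2q + 1` fixed points.

* `card_le_card_fix_mul`   : the abstract counting step;
* `card_frobFixed_le`      : `#{R ∈ W(κ) | φ R = R} ≤ 2q + 1` over ANY field `κ` of characteristic `q`;
* `card_torsion_le`        : the count on `W⁄ℚ̄`;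
* `sq_le_card_mul`         : `m² ≤ #G (2q + 1)`;
* `sq_le_card_mul_rat`     : the same on the frozen group `(W.map (Int.castRingHom ℚ))⁄ℚ̄`;
* `sq_le_card_mul_rat_of_forall` : Frobenius-free form (`∀ σ : G_ℚ`).
-/
import Mathlib
import Fermat.Agent.GE.E6.FinalQ
import Fermat.Agent.GE.Tors.Cor
import Fermat.Agent.S54_helper34.FrobeniusExists

set_option autoImplicit false
set_option linter.unusedSectionVars false

namespace Fermat.Agent.GZ.S12.FinishCount

open WeierstrassCurve WeierstrassCurve.Affine ValuationSubring Polynomial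

/-! ### 1. abstract counting -/

section Abstract

variable {P : Type*} [AddCommGroup P]

/-- if `f` maps the finite subgroup `T` into the finite subgroup `G`, then
`#T ≤ #ker (f | T) · #G`. -/
theorem card_le_card_fix_mul (T G : AddSubgroup P) [Finite T] [Finite G] (f : P →+ P)
    (hf : ∀ x ∈ T, f x ∈ G) :
    Nat.card T ≤ Nat.card {x : P // x ∈ T ∧ f x = 0} * Nat.card G := by
  classical
  let g : T →+ G := (f.comp T.subtype).codRestrict G (fun x => hf x x.2)
  have h1 : Nat.card T = Nat.card g.ker * Nat.card g.range := by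
    rw [AddSubgroup.card_eq_card_quotient_mul_card_addSubgroup g.ker,
      Nat.card_congr (QuotientAddGroup.quotientKerEquivRange g).toEquiv, mul_comm]
  have h2 : Nat.card g.range ≤ Nat.card G :=
    Nat.card_le_card_of_injective (fun x => (x : G)) Subtype.val_injective
  have h3 : Nat.card g.ker = Nat.card {x : P // x ∈ T ∧ f x = 0} := by
    refine Nat.card_congr
      { toFun := fun x => ⟨(x : T), (x : T).2, ?_⟩
        invFun := fun x => ⟨⟨x.1, x.2.1⟩, ?_⟩
        left_inv := fun x => rfl
        right_inv := fun x => rfl }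
    · have := x.2
      rw [AddMonoidHom.mem_ker] at this
      have h := congrArg (fun z : G => (z : P)) this
      simpa [g] using h
    · rw [AddMonoidHom.mem_ker]
      apply Subtype.ext
      simpa [g] using x.2.2
  rw [h1, h3]
  exact Nat.mul_le_mul_left _ h2

end Abstract

/-! ### 2. points with coordinates fixed by the `q`-Frobenius -/

section FrobFixed

variable {κ : Type*} [Field κ] [DecidableEq κ]

/-- the quadratic polynomial in `Y` whose roots are the `y` with `(x, y)` on the curve. -/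
noncomputable def yPoly (V : WeierstrassCurve κ) (x : κ) : κ[X] :=
  C 1 * X ^ 2 + C (V.a₁ * x + V.a₃) * X + C (-(x ^ 3 + V.a₂ * x ^ 2 + V.a₄ * x + V.a₆))

theorem natDegree_yPoly (V : WeierstrassCurve κ) (x : κ) : (yPoly V x).natDegree = 2 :=
  natDegree_quadratic one_ne_zero

theorem yPoly_ne_zero (V : WeierstrassCurve κ) (x : κ) : yPoly V x ≠ 0 := by
  intro h
  have := natDegree_yPoly V x
  rw [h, natDegree_zero] at this
  omega

theorem isRoot_yPoly {V : WeierstrassCurve κ} {x y : κ} (h : V.toAffine.Equation x y) :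
    (yPoly V x).IsRoot y := by
  rw [Affine.equation_iff] at h
  simp only [yPoly, IsRoot.def, eval_add, eval_mul, eval_C, eval_pow, eval_X]
  linear_combination h

/-- the `x`-coordinates fixed by the `q`-th power map -/
noncomputable def fixFinset (κ : Type*) [Field κ] [DecidableEq κ] (q : ℕ) : Finset κ :=
  (X ^ q - X : κ[X]).roots.toFinset

theorem card_fixFinset_le {q : ℕ} (hq : 1 < q) : (fixFinset κ q).card ≤ q := by
  refine (Multiset.toFinset_card_le _).trans ?_
  refine (card_roots' _).trans ?_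
  rw [FiniteField.X_pow_card_sub_X_natDegree_eq κ hq]

theorem mem_fixFinset {q : ℕ} (hq : 1 < q) {x : κ} (hx : x ^ q = x) : x ∈ fixFinset κ q := by
  rw [fixFinset, Multiset.mem_toFinset, mem_roots (FiniteField.X_pow_card_sub_X_ne_zero κ hq)]
  simp [hx]

/-- the finite set of pairs `(x, y)` on the curve with `x ^ q = x` -/
noncomputable def pairsFinset (V : WeierstrassCurve κ) (q : ℕ) : Finset (κ × κ) :=
  (fixFinset κ q).biUnion fun x => ((yPoly V x).roots.toFinset).image (Prod.mk x)

theorem card_pairsFinset_le (V : WeierstrassCurve κ) {q : ℕ} (hq : 1 < q) :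
    (pairsFinset V q).card ≤ 2 * q := by
  refine Finset.card_biUnion_le.trans ?_
  have h1 : ∀ x ∈ fixFinset κ q,
      (((yPoly V x).roots.toFinset).image (Prod.mk x)).card ≤ 2 := by
    intro x _
    refine Finset.card_image_le.trans ?_
    refine (Multiset.toFinset_card_le _).trans ?_
    exact (card_roots' _).trans (natDegree_yPoly V x).le
  refine (Finset.sum_le_card_nsmul _ _ 2 h1).trans ?_
  rw [smul_eq_mul, mul_comm]
  exact Nat.mul_le_mul_left 2 (card_fixFinset_le hq)

theorem mem_pairsFinset {V : WeierstrassCurve κ} {q : ℕ} (hq : 1 < q) {x y : κ}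
    (hx : x ^ q = x) (h : V.toAffine.Equation x y) : (x, y) ∈ pairsFinset V q := by
  rw [pairsFinset, Finset.mem_biUnion]
  refine ⟨x, mem_fixFinset hq hx, ?_⟩
  rw [Finset.mem_image]
  exact ⟨y, by rw [Multiset.mem_toFinset, mem_roots (yPoly_ne_zero V x)]; exact isRoot_yPoly h, rfl⟩

/-- coordinates of a point -/
def toOpt {V : WeierstrassCurve κ} : V.toAffine.Point → Option (κ × κ)
  | .zero => none
  | .some x y _ => some (x, y)

theorem toOpt_injective {V : WeierstrassCurve κ} :
    Function.Injective (toOpt (V := V)) := by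
  rintro (_ | ⟨x₁, y₁, h₁⟩) (_ | ⟨x₂, y₂, h₂⟩) h <;>
    simp only [toOpt, Option.some.injEq, Prod.mk.injEq, reduceCtorEq] at h
  · rfl
  · obtain ⟨rfl, rfl⟩ := h; rfl

/-- **at most `2q + 1` points of a Weierstrass curve have an `x`-coordinate with `x ^ q = x`**
(`O` included). -/
theorem card_fixX_le (V : WeierstrassCurve κ) {q : ℕ} (hq : 1 < q)
    (S : Set V.toAffine.Point)
    (hS : ∀ R ∈ S, ∀ (x y : κ) (h : V.toAffine.Nonsingular x y), R = .some x y h → x ^ q = x) :
    Finite S ∧ Nat.card S ≤ 2 * q + 1 := by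
  classical
  let F : Finset (Option (κ × κ)) := insert none ((pairsFinset V q).image some)
  have hF : F.card ≤ 2 * q + 1 := by
    refine (Finset.card_insert_le _ _).trans ?_
    exact Nat.succ_le_succ (Finset.card_image_le.trans (card_pairsFinset_le V hq))
  have hmem : ∀ R : S, toOpt (R : V.toAffine.Point) ∈ F := by
    rintro ⟨R, hR⟩
    rcases R with _ | ⟨x, y, h⟩
    · exact Finset.mem_insert_self _ _
    · refine Finset.mem_insert_of_mem (Finset.mem_image.2 ⟨(x, y), ?_, rfl⟩)
      exact mem_pairsFinset hq (hS _ hR x y h rfl) h.1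
  let ι : S → F := fun R => ⟨toOpt (R : V.toAffine.Point), hmem R⟩
  have hι : Function.Injective ι := by
    intro R R' h
    exact Subtype.ext (toOpt_injective (congrArg Subtype.val h))
  refine ⟨Finite.of_injective ι hι, ?_⟩
  refine (Nat.card_le_card_of_injective ι hι).trans ?_
  rw [Nat.card_eq_fintype_card, Fintype.card_coe]
  exact hF

end FrobFixed

/-! ### 3. the count on `W⁄ℚ̄` -/

section Main

open Fermat.Agent.GE Fermat.Agent.GE.E6

local notation "Qbar" => AlgebraicClosure ℚ

variable (W : WeierstrassCurve ℤ) (q : ℕ) [hq : Fact q.Prime]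

/-- the subgroup of points killed by `m` -/
noncomputable def torsSub (m : ℕ) : AddSubgroup (W.toAffine⁄Qbar).Point where
  carrier := {P | m • P = 0}
  zero_mem' := smul_zero m
  add_mem' := fun {a b} ha hb => by
    have ha' : m • a = 0 := ha
    have hb' : m • b = 0 := hb
    show m • (a + b) = 0
    rw [nsmul_add, ha', hb', add_zero]
  neg_mem' := fun {a} ha => by
    have ha' : m • a = 0 := ha
    show m • (-a) = 0
    rw [neg_nsmul, ha', neg_zero]

theorem mem_torsSub {m : ℕ} {P : (W.toAffine⁄Qbar).Point} : P ∈ torsSub W m ↔ m • P = 0 :=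
  Iff.rfl

theorem Δ_ne_zero_of_good (hgood : W.IsGoodPrimeFor q) : W.Δ ≠ 0 := by
  intro h
  apply hgood
  rw [h]
  exact dvd_zero _

theorem baseChange_Δ_ne_zero_Qbar (hΔ : W.Δ ≠ 0) : (W.baseChange Qbar).Δ ≠ 0 := by
  rw [WeierstrassCurve.baseChange, WeierstrassCurve.map_Δ, eq_intCast]
  exact_mod_cast hΔ

/-- **FINISH-COUNT on `W⁄ℚ̄`.** -/
theorem card_torsion_le (hgood : W.IsGoodPrimeFor q) (m : ℕ) (hqm : ¬ q ∣ m)
    (A : ValuationSubring Qbar) (hA : A.LiesOverPrime q)
    (σ : Qbar ≃ₐ[ℚ] Qbar) (hσ : A.IsFrobeniusAt σ q)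
    (G : AddSubgroup (W.toAffine⁄Qbar).Point) [Finite G]
    (hG : ∀ P : (W.toAffine⁄Qbar).Point, m • P = 0 → σ • P - P ∈ G) :
    Nat.card {P : (W.toAffine⁄Qbar).Point // m • P = 0} ≤ Nat.card G * (2 * q + 1) := by
  classical
  have hm1 : 1 ≤ m := by
    rcases Nat.eq_zero_or_pos m with rfl | h
    · exact absurd (dvd_zero q) hqm
    · exact h
  have hΔ : W.Δ ≠ 0 := Δ_ne_zero_of_good W q hgood
  have : CharP (IsLocalRing.ResidueField A) q :=
    charP_residueField_of_liesOverPrime hq.out hA
  have : ExpChar (IsLocalRing.ResidueField A) q := ExpChar.prime hq.out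
  let _ : Algebra ℤ (IsLocalRing.ResidueField A) := Ring.toIntAlgebra _
  have hred : RedHom.IsRedOf A (W.baseChange Qbar)
      (W.baseChange (IsLocalRing.ResidueField A)) := by
    refine ⟨W.baseChange A, ?_, ?_⟩
    · rw [WeierstrassCurve.baseChange, WeierstrassCurve.baseChange, WeierstrassCurve.map_map]
      exact congrArg W.map (RingHom.ext_int _ _)
    · rw [WeierstrassCurve.baseChange, WeierstrassCurve.baseChange, WeierstrassCurve.map_map]
      exact congrArg W.map (RingHom.ext_int _ _)
  have hΔr : (W.baseChange (IsLocalRing.ResidueField A)).Δ ≠ 0 :=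
    baseChange_Δ_ne_zero W q hgood _
  have hmA : ((m : ℕ) : Qbar) ∉ A.nonunits :=
    natCast_notMem_nonunits_of_not_dvd hq.out hA hqm
  have hcomm : ∀ Q : (W.toAffine⁄Qbar).Point,
      RedHom.redHom hred hΔr (σ • Q) =
        Point.map (W' := W.toAffine) (frobInt (IsLocalRing.ResidueField A) q)
          (RedHom.redHom hred hΔr Q) := by
    intro Q
    rw [← map_galInt]
    exact RedHom.red_map (S := ℤ) W.toAffine hred hΔr (galInt σ)
      (frobInt (IsLocalRing.ResidueField A) q)
      (fun x => apply_mem_iff_of_isFrobeniusAt hσ x)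
      (fun x hx hfx => (residue_apply_of_isFrobeniusAt hσ hx).symm) Q
  -- the torsion subgroup and the abstract count
  have hTfin : Finite (torsSub W m) :=
    Tors.finite_torsion (W := W.baseChange Qbar) (baseChange_Δ_ne_zero_Qbar W hΔ) m hm1
  let f : (W.toAffine⁄Qbar).Point →+ (W.toAffine⁄Qbar).Point :=
    DistribSMul.toAddMonoidHom _ σ - AddMonoidHom.id _
  have hf : ∀ x, f x = σ • x - x := fun x => rfl
  have h1 := card_le_card_fix_mul (torsSub W m) G f (fun x hx => by rw [hf]; exact hG x hx)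
  -- the fixed torsion points inject into the points with Frobenius-fixed coordinates
  let S : Set (W.toAffine⁄(IsLocalRing.ResidueField A)).Point :=
    {R | Point.map (W' := W.toAffine) (frobInt (IsLocalRing.ResidueField A) q) R = R}
  have hS : ∀ R ∈ S, ∀ (x y : IsLocalRing.ResidueField A)
      (h : (W.baseChange (IsLocalRing.ResidueField A)).toAffine.Nonsingular x y),
      R = .some x y h → x ^ q = x := by
    intro R hR x y h hRe
    have hR' : Point.map (W' := W.toAffine) (frobInt (IsLocalRing.ResidueField A) q) R = R := hR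
    rw [hRe, Point.map_some] at hR'
    have := Point.some.inj hR'
    simpa using this.1
  obtain ⟨hSfin, hScard⟩ := card_fixX_le (W.baseChange (IsLocalRing.ResidueField A))
    hq.out.one_lt S hS
  let ι : {x : (W.toAffine⁄Qbar).Point // x ∈ torsSub W m ∧ f x = 0} → S := fun x =>
    ⟨RedHom.redHom hred hΔr x.1, by
      have hx : σ • x.1 = x.1 := by
        have := x.2.2
        rw [hf, sub_eq_zero] at this
        exact this
      show Point.map (W' := W.toAffine) (frobInt (IsLocalRing.ResidueField A) q) _ = _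
      rw [← hcomm, hx]⟩
  have hι : Function.Injective ι := by
    intro x x' h
    have h' : RedHom.red A (W.baseChange (IsLocalRing.ResidueField A)) x.1 =
        RedHom.red A (W.baseChange (IsLocalRing.ResidueField A)) x'.1 :=
      congrArg Subtype.val h
    exact Subtype.ext (RedHom.eq_of_red_eq_of_nsmul hred hΔr hmA x.2.1 x'.2.1 h')
  have h2 : Nat.card {x : (W.toAffine⁄Qbar).Point // x ∈ torsSub W m ∧ f x = 0} ≤ 2 * q + 1 :=
    (Nat.card_le_card_of_injective ι hι).trans hScard
  have h3 : Nat.card {P : (W.toAffine⁄Qbar).Point // m • P = 0} = Nat.card (torsSub W m) := rfl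
  rw [h3, mul_comm]
  exact h1.trans (Nat.mul_le_mul_right _ h2)

/-- **FINISH-COUNT, numerical form**: `m² ≤ #G · (2q + 1)`. -/
theorem sq_le_card_mul (hgood : W.IsGoodPrimeFor q) (m : ℕ) (hqm : ¬ q ∣ m)
    (A : ValuationSubring Qbar) (hA : A.LiesOverPrime q)
    (σ : Qbar ≃ₐ[ℚ] Qbar) (hσ : A.IsFrobeniusAt σ q)
    (G : AddSubgroup (W.toAffine⁄Qbar).Point) [Finite G]
    (hG : ∀ P : (W.toAffine⁄Qbar).Point, m • P = 0 → σ • P - P ∈ G) :
    m ^ 2 ≤ Nat.card G * (2 * q + 1) := by
  have hm1 : 1 ≤ m := by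
    rcases Nat.eq_zero_or_pos m with rfl | h
    · exact absurd (dvd_zero q) hqm
    · exact h
  have h := card_torsion_le W q hgood m hqm A hA σ hσ G hG
  rwa [Tors.card_torsion (W := W.baseChange Qbar)
    (baseChange_Δ_ne_zero_Qbar W (Δ_ne_zero_of_good W q hgood)) m hm1] at h

/-- **FINISH-COUNT on the frozen group `(W.map (Int.castRingHom ℚ))⁄ℚ̄`.** -/
theorem sq_le_card_mul_rat (hgood : W.IsGoodPrimeFor q) (m : ℕ) (hqm : ¬ q ∣ m)
    (A : ValuationSubring Qbar) (hA : A.LiesOverPrime q)
    (σ : Qbar ≃ₐ[ℚ] Qbar) (hσ : A.IsFrobeniusAt σ q)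
    (G : AddSubgroup ((W.map (Int.castRingHom ℚ)).toAffine⁄Qbar).Point) [Finite G]
    (hG : ∀ P : ((W.map (Int.castRingHom ℚ)).toAffine⁄Qbar).Point,
      m • P = 0 → σ • P - P ∈ G) :
    m ^ 2 ≤ Nat.card G * (2 * q + 1) := by
  let e := pointCongr (baseChange_rat_eq W)
  let G' : AddSubgroup (W.toAffine⁄Qbar).Point := G.map e.toAddMonoidHom
  have hfin : Finite G' := Finite.of_equiv G (e.addSubgroupMap G).toEquiv
  have hcard : Nat.card G' = Nat.card G := (Nat.card_congr (e.addSubgroupMap G).toEquiv).symm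
  have hG' : ∀ P' : (W.toAffine⁄Qbar).Point, m • P' = 0 → σ • P' - P' ∈ G' := by
    intro P' hP'
    refine ⟨σ • e.symm P' - e.symm P', hG _ ?_, ?_⟩
    · rw [← map_nsmul, hP', map_zero]
    · show e (σ • e.symm P' - e.symm P') = _
      rw [map_sub, pointCongr_rat_smul, AddEquiv.apply_symm_apply]
  rw [← hcard]
  exact sq_le_card_mul W q hgood m hqm A hA σ hσ G' hG'

/-- **FINISH-COUNT, Frobenius-free form**: if `(σ − 1) W(ℚ̄)[m] ⊆ G` for EVERY `σ ∈ G_ℚ`, then
`m² ≤ #G · (2q + 1)` for every good prime `q ∤ m`. -/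
theorem sq_le_card_mul_rat_of_forall (hgood : W.IsGoodPrimeFor q) (m : ℕ) (hqm : ¬ q ∣ m)
    (G : AddSubgroup ((W.map (Int.castRingHom ℚ)).toAffine⁄Qbar).Point) [Finite G]
    (hG : ∀ (σ : Qbar ≃ₐ[ℚ] Qbar) (P : ((W.map (Int.castRingHom ℚ)).toAffine⁄Qbar).Point),
      m • P = 0 → σ • P - P ∈ G) :
    m ^ 2 ≤ Nat.card G * (2 * q + 1) := by
  obtain ⟨A, hA⟩ := Fermat.Agent.Common_helper32.exists_liesOverPrime q hq.out
  obtain ⟨σ, hσ⟩ := Fermat.Agent.S54_helper34.exists_isFrobeniusAt A q hq.out hA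
  exact sq_le_card_mul_rat W q hgood m hqm A hA σ hσ G (hG σ)

/-- the chain form: a subgroup `G` of order `p ^ k` containing `(σ − 1) W[p ^ k]` for all `σ`
forces `p ^ k ≤ 2q + 1` at every good prime `q ≠ p`. -/
theorem pow_le_of_forall (hgood : W.IsGoodPrimeFor q) {p : ℕ} (hp : p.Prime) (hpq : p ≠ q) (k : ℕ)
    (G : AddSubgroup ((W.map (Int.castRingHom ℚ)).toAffine⁄Qbar).Point)
    (hcard : Nat.card G = p ^ k)
    (hG : ∀ (σ : Qbar ≃ₐ[ℚ] Qbar) (P : ((W.map (Int.castRingHom ℚ)).toAffine⁄Qbar).Point),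
      p ^ k • P = 0 → σ • P - P ∈ G) :
    p ^ k ≤ 2 * q + 1 := by
  have hpos : 0 < p ^ k := pow_pos hp.pos k
  have hfin : Finite G := Nat.finite_of_card_ne_zero (by rw [hcard]; exact hpos.ne')
  have hqm : ¬ q ∣ p ^ k := by
    intro h
    have := hq.out.dvd_of_dvd_pow h
    exact hpq ((Nat.prime_dvd_prime_iff_eq hq.out hp).mp this).symm
  have h := sq_le_card_mul_rat_of_forall W q hgood (p ^ k) hqm G hG
  rw [hcard, pow_two] at h
  exact Nat.le_of_mul_le_mul_left h hpos

end Main

end Fermat.Agent.GZ.S12.FinishCount
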