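/-
CELL-M3 (S12 follow-up) / CASE I (helper27; helper9 DESIGN v1, board 6320 (I)).

`p ∤ abc` (good reduction of the Frey curve at `p`) ⟹ no Galois-stable cofixed line in `E[p]`,
given that inertia at `p` acts non-trivially on the line (a consequence of `N ≅ μ_p`, node (DET)).

GENERAL CORE (`core_false`): `W : WeierstrassCurve ℤ` with good reduction at the odd prime `p`,
`A | p`, `N ≤ W(ℚ̄)` of order `p`, cofixed (`σx − x ∈ N` for `x ∈ W[p]`), inertia at `A` non-trivial
on `N`, a point `T ∈ W[p]` with integral `x`-coordinate, all of `W[2]` rational.  Then `False`: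
* `N ⊆ ker red` (else `red` is injective on `N` and inertia acts trivially on `N`);
* for a Frobenius element `τ` at `A`, `τT − T ∈ N ⊆ ker red`, so `red T` is a point of order `p`
  fixed by the `p`-Frobenius `φ` of the residue field;
* `red` embeds `W[2]` into the `φ`-fixed points;
* hence `4p` divides the number of `φ`-fixed points, which is `≤ 2p + 1`
  (`FinishCount.card_fixX_le`).
-/
import Mathlib
import Fermat.Agent.GZ.S12.FinishCount
import Fermat.Agent.S13.AtPCount
import Fermat.Agent.GF.Shape.Cyc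
import Fermat.Prelude.Def_ExtCitation_KummerBridge

set_option autoImplicit false
set_option linter.unusedSectionVars false
set_option linter.unusedSimpArgs false

namespace Fermat.Agent.GZ.S12.CaseI

open WeierstrassCurve WeierstrassCurve.Affine ValuationSubring
open Fermat.Agent.GE Fermat.Agent.GE.E6 Fermat.Agent.GZ.S12.FinishCount

local notation "Qbar" => AlgebraicClosure ℚ
local notation "GQ" => (AlgebraicClosure ℚ ≃ₐ[ℚ] AlgebraicClosure ℚ)

/-! ### 1. the general core -/

section Core

variable (W : WeierstrassCurve ℤ) (p : ℕ) [hp : Fact p.Prime]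

/-- **CASE I, general core.** -/
theorem core_false (hp2 : p ≠ 2) (hgood : W.IsGoodPrimeFor p)
    (A : ValuationSubring Qbar) (hA : A.LiesOverPrime p)
    (N : AddSubgroup (W.toAffine⁄Qbar).Point) (hNcard : Nat.card N = p)
    (hcof : ∀ (σ : GQ) (x : (W.toAffine⁄Qbar).Point), p • x = 0 → σ • x - x ∈ N)
    (hI : ∃ σ ∈ A.inertiaSubgroupIn ℚ, ∃ x ∈ N, σ • x ≠ x)
    (hT : ∃ (x y : Qbar) (h : (W.toAffine⁄Qbar).Nonsingular x y),
      p • (Point.some x y h : (W.toAffine⁄Qbar).Point) = 0 ∧ x ∈ A)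
    (h2 : ∀ (σ : GQ) (x : (W.toAffine⁄Qbar).Point), 2 • x = 0 → σ • x = x) : False := by
  classical
  have hΔ : W.Δ ≠ 0 := Δ_ne_zero_of_good W p hgood
  have : CharP (IsLocalRing.ResidueField A) p :=
    charP_residueField_of_liesOverPrime hp.out hA
  have : ExpChar (IsLocalRing.ResidueField A) p := ExpChar.prime hp.out
  let _ : Algebra ℤ (IsLocalRing.ResidueField A) := Ring.toIntAlgebra _
  have hred : RedHom.IsRedOf A (W.baseChange Qbar)
      (W.baseChange (IsLocalRing.ResidueField A)) := by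
    refine ⟨W.baseChange A, ?_, ?_⟩
    · rw [WeierstrassCurve.baseChange, WeierstrassCurve.baseChange, WeierstrassCurve.map_map]
      exact congrArg W.map (RingHom.ext_int _ _)
    · rw [WeierstrassCurve.baseChange, WeierstrassCurve.baseChange, WeierstrassCurve.map_map]
      exact congrArg W.map (RingHom.ext_int _ _)
  have hΔr : (W.baseChange (IsLocalRing.ResidueField A)).Δ ≠ 0 :=
    baseChange_Δ_ne_zero W p hgood _
  let red := RedHom.redHom hred hΔr
  let φ := Point.map (W' := W.toAffine) (frobInt (IsLocalRing.ResidueField A) p)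
  -- Frobenius elements commute with reduction
  have hcommF : ∀ (τ : GQ), A.IsFrobeniusAt τ p → ∀ Q : (W.toAffine⁄Qbar).Point,
      red (τ • Q) = φ (red Q) := by
    intro τ hτ Q
    rw [← map_galInt]
    exact RedHom.red_map (S := ℤ) W.toAffine hred hΔr (galInt τ)
      (frobInt (IsLocalRing.ResidueField A) p)
      (fun x => apply_mem_iff_of_isFrobeniusAt hτ x)
      (fun x hx hfx => (residue_apply_of_isFrobeniusAt hτ hx).symm) Q
  -- inertia elements act trivially after reduction
  have hcommI : ∀ σ ∈ A.inertiaSubgroupIn ℚ, ∀ Q : (W.toAffine⁄Qbar).Point,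
      red (σ • Q) = red Q := by
    intro σ hσ Q
    rw [← map_galInt]
    have h := RedHom.red_map (S := ℤ) W.toAffine hred hΔr (galInt σ)
      (AlgHom.id ℤ (IsLocalRing.ResidueField A))
      (fun x => S05.apply_mem_iff_of_mem_inertiaSubgroupIn hσ x)
      (fun x hx hfx => by
        rw [AlgHom.id_apply]
        have hnu := S05.apply_sub_mem_nonunits_of_mem_inertiaSubgroupIn hσ hx
        have h0 : IsLocalRing.residue A (⟨σ x, hfx⟩ - ⟨x, hx⟩) = 0 := by
          rw [← RedHom.coe_mem_nonunits_iff]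
          exact hnu
        rw [map_sub, sub_eq_zero] at h0
        exact h0.symm) Q
    rw [show red (Point.map (W' := W.toAffine) (galInt σ) Q) = _ from h]
    show Point.map (AlgHom.id ℤ (IsLocalRing.ResidueField A)) (red Q) = red Q
    rcases red Q with _ | ⟨x, y, hxy⟩
    · rfl
    · rfl
  -- `N` is killed by `p`
  have hNfin : Finite N := Nat.finite_of_card_ne_zero (by rw [hNcard]; exact hp.out.ne_zero)
  have hNp : ∀ x ∈ N, p • x = 0 := by
    intro x hx
    have h := card_nsmul_eq_zero' (G := N) (x := (⟨x, hx⟩ : N))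
    rw [hNcard] at h
    exact congrArg Subtype.val h
  -- STEP A: `N ⊆ ker red`
  have hA1 : ∀ y ∈ N, red y = 0 := by
    let K : AddSubgroup N := (red.comp N.subtype).ker
    have : Fact (Nat.card N).Prime := ⟨by rw [hNcard]; exact hp.out⟩
    rcases AddSubgroup.eq_bot_or_eq_top_of_prime_card K with hK | hK
    · exfalso
      obtain ⟨σ, hσ, x, hx, hne⟩ := hI
      apply hne
      have hmem : σ • x - x ∈ N := hcof σ x (hNp x hx)
      have h0 : (⟨σ • x - x, hmem⟩ : N) ∈ K := by
        rw [AddMonoidHom.mem_ker]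
        show red (σ • x - x) = 0
        rw [map_sub, hcommI σ hσ, sub_self]
      rw [hK, AddSubgroup.mem_bot] at h0
      exact sub_eq_zero.mp (congrArg Subtype.val h0)
    · intro y hy
      have h0 : (⟨y, hy⟩ : N) ∈ K := by rw [hK]; trivial
      rw [AddMonoidHom.mem_ker] at h0
      exact h0
  -- the Frobenius-fixed points of the reduction
  let Fix : AddSubgroup (W.toAffine⁄(IsLocalRing.ResidueField A)).Point :=
    AddMonoidHom.eqLocus φ (AddMonoidHom.id _)
  have hFixmem : ∀ R, R ∈ Fix ↔ φ R = R := fun R => Iff.rfl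
  have hS : ∀ R ∈ (Fix : Set (W.toAffine⁄(IsLocalRing.ResidueField A)).Point),
      ∀ (x y : IsLocalRing.ResidueField A)
      (h : (W.baseChange (IsLocalRing.ResidueField A)).toAffine.Nonsingular x y),
      R = .some x y h → x ^ p = x := by
    intro R hR x y h hRe
    have hR' : φ R = R := hR
    rw [hRe] at hR'
    have h1 : φ (Point.some x y h) = Point.some _ _ _ := Point.map_some _ _
    rw [h1] at hR'
    have := Point.some.inj hR'
    simpa using this.1
  obtain ⟨hFixfin, hFixcard⟩ := card_fixX_le (W.baseChange (IsLocalRing.ResidueField A))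
    hp.out.one_lt (Fix : Set _) hS
  have hFixfin' : Finite Fix := hFixfin
  have hFixcard' : Nat.card Fix ≤ 2 * p + 1 := hFixcard
  obtain ⟨τ, hτ⟩ := Fermat.Agent.S54_helper34.exists_isFrobeniusAt A p hp.out hA
  -- STEP B: a point of order `p` in `Fix`
  have hB : p ∣ Nat.card Fix := by
    obtain ⟨x, y, h, hpT, hxA⟩ := hT
    set T : (W.toAffine⁄Qbar).Point := Point.some x y h with hTdef
    have hredT : red T ≠ 0 := by
      obtain ⟨hy, hn, e⟩ := RedHom.red_some_of_mem hred hΔr h hxA
      show RedHom.red A _ T ≠ 0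
      rw [hTdef, e]
      exact Point.some_ne_zero _
    have hfix : red T ∈ Fix := by
      rw [hFixmem, ← hcommF τ hτ]
      have h1 : red (τ • T - T) = 0 := hA1 _ (hcof τ T hpT)
      rw [map_sub, sub_eq_zero] at h1
      exact h1
    have hord : addOrderOf (⟨red T, hfix⟩ : Fix) = p := by
      apply addOrderOf_eq_prime
      · apply Subtype.ext
        show p • red T = 0
        rw [← map_nsmul, hpT, map_zero]
      · intro h0
        exact hredT (congrArg Subtype.val h0)
    rw [← hord]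
    exact addOrderOf_dvd_natCard _
  -- STEP C: `W[2]` embeds into `Fix`
  have hC : 4 ∣ Nat.card Fix := by
    have h2A : ((2 : ℕ) : Qbar) ∉ A.nonunits := by
      apply natCast_notMem_nonunits_of_not_dvd hp.out hA
      intro h
      exact hp2 ((Nat.prime_dvd_prime_iff_eq hp.out Nat.prime_two).mp h)
    let g : torsSub W 2 →+ Fix :=
      (red.comp (torsSub W 2).subtype).codRestrict Fix (fun x => by
        rw [hFixmem]
        show φ (red x.1) = red x.1
        rw [← hcommF τ hτ, h2 τ x.1 x.2])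
    have hg : Function.Injective g := by
      intro x x' h
      have h' : RedHom.red A (W.baseChange (IsLocalRing.ResidueField A)) x.1 =
          RedHom.red A (W.baseChange (IsLocalRing.ResidueField A)) x'.1 :=
        congrArg Subtype.val h
      exact Subtype.ext (RedHom.eq_of_red_eq_of_nsmul hred hΔr h2A x.2 x'.2 h')
    have hcard2 : Nat.card (torsSub W 2) = 4 := by
      have := Tors.card_torsion (W := W.baseChange Qbar) (baseChange_Δ_ne_zero_Qbar W hΔ) 2
        (by norm_num)
      exact this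
    rw [← hcard2]
    exact AddSubgroup.card_dvd_of_injective g hg
  -- STEP D: `4p ∣ #Fix ≤ 2p + 1`
  have hcop : Nat.Coprime 4 p := by
    have h2p : Nat.Coprime 2 p := (Nat.coprime_primes Nat.prime_two hp.out).mpr (Ne.symm hp2)
    have : (4 : ℕ) = 2 ^ 2 := by norm_num
    rw [this]
    exact Nat.Coprime.pow_left 2 h2p
  have h4p : 4 * p ∣ Nat.card Fix := hcop.mul_dvd_of_dvd_of_dvd hC hB
  have hpos : 0 < Nat.card Fix := Nat.card_pos
  have := Nat.le_of_dvd hpos h4p
  have := hp.out.two_le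
  omega

end Core

/-! ### 2. the rational `2`-torsion of a Legendre-type curve -/

section TwoTorsion

variable {K : Type*} [Field K] [DecidableEq K] [CharZero K]

/-- the three affine `2`-torsion points of `y² + xy = x³ + ((B − 1 − A)/4) x² − (AB/16) x`. -/
theorem equation_two_torsion (V : WeierstrassCurve K) (A B : K) (h1 : V.a₁ = 1)
    (h2 : V.a₂ = (B - 1 - A) / 4) (h3 : V.a₃ = 0) (h4 : V.a₄ = -A * B / 16) (h6 : V.a₆ = 0) :
    V.toAffine.Equation 0 0 ∧ V.toAffine.Equation (A / 4) (-A / 8) ∧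
      V.toAffine.Equation (-B / 4) (B / 8) := by
  refine ⟨?_, ?_, ?_⟩
  · rw [Affine.equation_iff, h1, h2, h3, h4, h6]
    ring
  · rw [Affine.equation_iff, h1, h2, h3, h4, h6]
    field_simp
    ring
  · rw [Affine.equation_iff, h1, h2, h3, h4, h6]
    field_simp
    ring

theorem two_nsmul_some_eq_zero (V : WeierstrassCurve K) {x y : K}
    (h : V.toAffine.Nonsingular x y) (hy : y = V.toAffine.negY x y) :
    2 • (Point.some x y h : V.toAffine.Point) = 0 := by
  rw [two_nsmul]
  exact Point.add_self_of_Y_eq hy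

/-- four distinct points killed by `2` exhaust the `2`-torsion. -/
theorem two_torsion_cases [IsAlgClosed K] (V : WeierstrassCurve K) (hΔ : V.Δ ≠ 0)
    (T : Fin 4 → V.toAffine.Point) (hT : ∀ i, 2 • T i = 0) (hinj : Function.Injective T)
    (x : V.toAffine.Point) (hx : 2 • x = 0) : ∃ i, x = T i := by
  have hfin : Finite {P : V.toAffine.Point // 2 • P = 0} :=
    Tors.finite_torsion hΔ 2 (by norm_num)
  have hcard : Nat.card {P : V.toAffine.Point // 2 • P = 0} = 2 ^ 2 :=
    Tors.card_torsion hΔ 2 (by norm_num)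
  let ι : Fin 4 → {P : V.toAffine.Point // 2 • P = 0} := fun i => ⟨T i, hT i⟩
  have hι : Function.Injective ι := fun i j h => hinj (congrArg Subtype.val h)
  have hbij : Function.Bijective ι :=
    hι.bijective_of_nat_card_le (by rw [hcard, Nat.card_fin]; norm_num)
  obtain ⟨i, hi⟩ := hbij.2 ⟨x, hx⟩
  exact ⟨i, (congrArg Subtype.val hi).symm⟩

end TwoTorsion

/-! ### 2'. inertia at `p` acts non-trivially on a line with cyclotomic character -/

section Det

open Fermat.Agent.GJ.CycChar

/-- a nonzero submodule on which `G_ℚ` acts through the mod `p` cyclotomic character (the S14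
spelling `ExtCitation.cycloExp`) is moved by some inertia element at every `A | p`, `p` odd. -/
theorem inertia_nontrivial_of_det (p : ℕ) [Fact p.Prime] (hp2 : p ≠ 2) {V : Type*}
    [AddCommGroup V] [Module (ZMod p) V] [DistribMulAction GQ V]
    (N : Submodule (ZMod p) V) (hbot : N ≠ ⊥)
    (hdet : ∀ σ : GQ, ∀ x ∈ N, σ • x = (ExtCitation.cycloExp p σ : ZMod p) • x)
    (A : ValuationSubring Qbar) (hA : A.LiesOverPrime p) :
    ∃ σ ∈ A.inertiaSubgroupIn ℚ, ∃ x ∈ N, σ • x ≠ x := by
  obtain ⟨σ, hσ, hne⟩ := Fermat.Agent.GF.Shape.Cyc.exists_inertia_cyc_ne_one hp2 A hA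
  have hc : ((cyc p σ : (ZMod p)ˣ) : ZMod p) = (ExtCitation.cycloExp p σ : ZMod p) :=
    ExtCitation.coe_cycloChar p σ
  obtain ⟨x, hx, hx0⟩ : ∃ x ∈ N, x ≠ 0 := by
    by_contra hcon
    push Not at hcon
    exact hbot ((Submodule.eq_bot_iff N).2 hcon)
  refine ⟨σ, hσ, x, hx, ?_⟩
  intro h
  rw [hdet σ x hx, ← hc] at h
  have h1 : (((cyc p σ : (ZMod p)ˣ) : ZMod p) - 1) • x = 0 := by
    rw [sub_smul, one_smul, h, sub_self]
  rcases smul_eq_zero.mp h1 with h2 | h2
  · exact hne (sub_eq_zero.mp h2)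
  · exact hx0 h2

end Det

/-! ### 3. the Frey curve -/

section Frey

open FreyPackage WeierstrassCurve.Affine.Point Fermat.Agent.S13 Fermat.Agent.S13.Assembly

variable (P : FreyPackage)

theorem frey_Δ_ne_zero_Qbar : (P.freyCurve⁄Qbar).Δ ≠ 0 := by
  show (P.freyCurve.map (algebraMap ℚ Qbar)).Δ ≠ 0
  rw [WeierstrassCurve.map_Δ]
  exact (map_ne_zero _).mpr (AtPSS.freyCurve_Δ_ne_zero_aux P)

/-- **the `2`-torsion of the Frey curve is rational.** -/
theorem frey_two_torsion_fixed (σ : GQ) (x : (P.freyCurve⁄Qbar).Point) (hx : 2 • x = 0) :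
    σ • x = x := by
  let V : WeierstrassCurve Qbar := P.freyCurve⁄Qbar
  set A : Qbar := ((P.a : ℤ) : Qbar) ^ P.p with hAdef
  set B : Qbar := ((P.b : ℤ) : Qbar) ^ P.p with hBdef
  have hΔ : V.Δ ≠ 0 := frey_Δ_ne_zero_Qbar P
  have h1 : V.a₁ = 1 := by
    show (P.freyCurve.map (algebraMap ℚ Qbar)).a₁ = 1
    simp [FreyPackage.freyCurve]
  have h2 : V.a₂ = (B - 1 - A) / 4 := by
    show (P.freyCurve.map (algebraMap ℚ Qbar)).a₂ = _
    simp [FreyPackage.freyCurve, hAdef, hBdef]
  have h3 : V.a₃ = 0 := by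
    show (P.freyCurve.map (algebraMap ℚ Qbar)).a₃ = 0
    simp [FreyPackage.freyCurve]
  have h4 : V.a₄ = -A * B / 16 := by
    show (P.freyCurve.map (algebraMap ℚ Qbar)).a₄ = _
    simp [FreyPackage.freyCurve, hAdef, hBdef]
  have h6 : V.a₆ = 0 := by
    show (P.freyCurve.map (algebraMap ℚ Qbar)).a₆ = 0
    simp [FreyPackage.freyCurve]
  obtain ⟨e0, eA, eB⟩ := equation_two_torsion V A B h1 h2 h3 h4 h6
  have n0 := Tors.nonsingular_of_equation V hΔ e0
  have nA := Tors.nonsingular_of_equation V hΔ eA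
  have nB := Tors.nonsingular_of_equation V hΔ eB
  have hA0 : A ≠ 0 := pow_ne_zero _ (Int.cast_ne_zero.mpr P.ha0)
  have hB0 : B ≠ 0 := pow_ne_zero _ (Int.cast_ne_zero.mpr P.hb0)
  have hAB : A + B ≠ 0 := by
    have h : A + B = ((P.c : ℤ) : Qbar) ^ P.p := by
      rw [hAdef, hBdef]
      exact_mod_cast congrArg (fun z : ℤ => (z : Qbar)) P.hFLT
    rw [h]
    exact pow_ne_zero _ (Int.cast_ne_zero.mpr P.hc0)
  let T : Fin 4 → V.toAffine.Point :=
    ![0, Point.some 0 0 n0, Point.some (A / 4) (-A / 8) nA, Point.some (-B / 4) (B / 8) nB]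
  have hT : ∀ i, 2 • T i = 0 := by
    intro i
    fin_cases i
    · show 2 • (0 : V.toAffine.Point) = 0
      exact nsmul_zero 2
    · refine two_nsmul_some_eq_zero V n0 ?_
      simp [Affine.negY, h1, h3]
    · refine two_nsmul_some_eq_zero V nA ?_
      simp only [Affine.negY, h1, h3]
      ring
    · refine two_nsmul_some_eq_zero V nB ?_
      simp only [Affine.negY, h1, h3]
      ring
  have hσT : ∀ i, σ • T i = T i := by
    intro i
    fin_cases i
    · rfl
    · show Point.map σ.toAlgHom (Point.some 0 0 n0) = _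
      rw [Point.map_some]
      exact some_congr' (_root_.map_zero _) (_root_.map_zero _) _ _
    · show Point.map σ.toAlgHom (Point.some (A / 4) (-A / 8) nA) = _
      rw [Point.map_some]
      refine some_congr' ?_ ?_ _ _
      · simp [hAdef, map_ofNat]
      · simp [hAdef, map_ofNat]
    · show Point.map σ.toAlgHom (Point.some (-B / 4) (B / 8) nB) = _
      rw [Point.map_some]
      refine some_congr' ?_ ?_ _ _
      · simp [hBdef, map_ofNat]
      · simp [hBdef, map_ofNat]
  have hinj : Function.Injective T := by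
    have h4 : (4 : Qbar) ≠ 0 := by norm_num
    have hA4 : A / 4 ≠ 0 := div_ne_zero hA0 h4
    have hB4 : -B / 4 ≠ 0 := div_ne_zero (neg_ne_zero.mpr hB0) h4
    have hAB4 : A / 4 ≠ -B / 4 := by
      intro h
      apply hAB
      field_simp at h
      linear_combination h
    intro i j hij
    fin_cases i <;> fin_cases j <;> first
      | rfl
      | (exfalso
         simp only [T, Matrix.cons_val_zero, Matrix.cons_val_one, Matrix.cons_val] at hij
         first
           | exact Point.some_ne_zero _ hij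
           | exact Point.some_ne_zero _ hij.symm
           | (have := (Point.some.inj hij).1
              first
                | exact hA4 this
                | exact hA4 this.symm
                | exact hB4 this
                | exact hB4 this.symm
                | exact hAB4 this
                | exact hAB4 this.symm))
  obtain ⟨i, hi⟩ := two_torsion_cases V hΔ T hT hinj x hx
  rw [hi]
  exact hσT i

/-- `p ∤ abc` ⟹ the integral Frey model has good reduction at `p`. -/
theorem frey_good_of_not_dvd (hpabc : ¬ (P.p : ℤ) ∣ P.a * P.b * P.c) :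
    P.freyCurveInt.IsGoodPrimeFor P.p := by
  have hQ : P.freyCurve.Δ =
      ((P.a : ℚ) ^ P.p * (P.b : ℚ) ^ P.p * ((P.a : ℚ) ^ P.p + (P.b : ℚ) ^ P.p)) ^ 2 / 256 := by
    simp only [WeierstrassCurve.Δ, WeierstrassCurve.b₂, WeierstrassCurve.b₄, WeierstrassCurve.b₆,
      WeierstrassCurve.b₈, FreyPackage.freyCurve]
    ring
  have hmap : ((P.freyCurveInt.Δ : ℤ) : ℚ) = P.freyCurve.Δ := by
    rw [AtPSS.freyCurve_eq_map, WeierstrassCurve.map_Δ, eq_intCast]
  have hZ : 256 * P.freyCurveInt.Δ = (P.a ^ P.p * P.b ^ P.p * P.c ^ P.p) ^ 2 := by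
    have h' : (256 : ℚ) * ((P.freyCurveInt.Δ : ℤ) : ℚ) =
        ((P.a : ℚ) ^ P.p * (P.b : ℚ) ^ P.p * (P.c : ℚ) ^ P.p) ^ 2 := by
      have hc : (P.c : ℚ) ^ P.p = (P.a : ℚ) ^ P.p + (P.b : ℚ) ^ P.p := by
        exact_mod_cast (congrArg (fun z : ℤ => (z : ℚ)) P.hFLT).symm
      rw [hmap, hQ, hc]
      ring
    exact_mod_cast h'
  intro hdvd
  have hprime : Prime (P.p : ℤ) := Nat.prime_iff_prime_int.mp P.pp
  have h1 : (P.p : ℤ) ∣ (P.a ^ P.p * P.b ^ P.p * P.c ^ P.p) ^ 2 := by
    rw [← hZ]
    exact Dvd.dvd.mul_left hdvd _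
  have h2 := hprime.dvd_of_dvd_pow h1
  apply hpabc
  rcases hprime.dvd_or_dvd h2 with h3 | h3
  · rcases hprime.dvd_or_dvd h3 with h4 | h4
    · exact Dvd.dvd.mul_right (Dvd.dvd.mul_right (hprime.dvd_of_dvd_pow h4) _) _
    · exact Dvd.dvd.mul_right (Dvd.dvd.mul_left (hprime.dvd_of_dvd_pow h4) _) _
  · exact Dvd.dvd.mul_left (hprime.dvd_of_dvd_pow h3) _

/-- **CASE I of S12**: `p ∤ abc` ⟹ no Galois-stable cofixed line, given that inertia at `p` acts
non-trivially on every such line. -/
theorem caseI (hpabc : ¬ (P.p : ℤ) ∣ P.a * P.b * P.c)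
    (hI : ∀ N : Submodule (ZMod P.p) (Submodule.torsionBy ℤ (P.freyCurve⁄Qbar).Point P.p),
      IsGaloisStable ℚ N → N ≠ ⊥ → N ≠ ⊤ → (∀ (σ : GQ) x, σ • x - x ∈ N) →
      ∀ A : ValuationSubring Qbar, A.LiesOverPrime P.p →
        ∃ σ ∈ A.inertiaSubgroupIn ℚ, ∃ x ∈ N, σ • x ≠ x) :
    ¬ HasGaloisStableCofixedLine (K := Qbar) ℚ P.freyCurve P.p := by
  rintro ⟨N, hN, hbot, htop, hcof⟩
  have : Fact P.p.Prime := ⟨P.pp⟩
  have hp5 := P.hp5
  have hp2 : P.p ≠ 2 := by omega
  obtain ⟨A, hA⟩ := Fermat.Agent.Common_helper32.exists_liesOverPrime P.p P.pp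
  have hΔQ := frey_Δ_ne_zero_Qbar P
  have hcardV : Nat.card (Submodule.torsionBy ℤ (P.freyCurve⁄Qbar).Point P.p) = P.p ^ 2 :=
    Tors.card_torsionBy hΔQ P.p P.pp.one_le
  have hfinV : Finite (Submodule.torsionBy ℤ (P.freyCurve⁄Qbar).Point P.p) :=
    Tors.finite_torsionBy hΔQ P.p P.pp.one_le
  have hcardN : Nat.card N = P.p := (LineAlg.card_of_proper hcardV.le N hbot htop).1
  -- a `p`-torsion point with integral `x`-coordinate
  have hT : ∃ (x y : Qbar) (h : (P.freyCurve⁄Qbar).Nonsingular x y),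
      P.p • (Point.some x y h : (P.freyCurve⁄Qbar).Point) = 0 ∧ x ∈ A := by
    by_contra hcon
    push Not at hcon
    have hkey : DPmain.Key (P.freyCurve⁄Qbar) P.p :=
      Div.key_main _ hΔQ P.pp hp2
    have : IsGalois ℚ Qbar := isGalois_Qb
    exact AtPSS.frey_no_stable_line P (fun x y h => DPmain.Key.hDP _ hkey x y h) hcardV A hA
      (fun x y h hxy => hcon x y h hxy) N hN hbot htop
  obtain ⟨σ₀, hσ₀, x₀, hx₀, hne₀⟩ := hI N hN hbot htop hcof A hA
  -- transfer to the integral model
  have hEq : P.freyCurve.baseChange Qbar = P.freyCurveInt.baseChange Qbar := by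
    rw [AtPSS.freyCurve_eq_map]
    exact baseChange_rat_eq P.freyCurveInt
  let e : (P.freyCurve⁄Qbar).Point ≃+ (P.freyCurveInt.toAffine⁄Qbar).Point := pointCongr hEq
  have he : ∀ (σ : GQ) (Q : (P.freyCurve⁄Qbar).Point), e (σ • Q) = σ • e Q := fun σ Q =>
    pointCongr_map (W₁ := P.freyCurve.toAffine) (W₂ := P.freyCurveInt.toAffine)
      hEq hEq σ.toAlgHom σ.toAlgHom (fun _ => rfl) Q
  let sub : Submodule.torsionBy ℤ (P.freyCurve⁄Qbar).Point P.p →+ (P.freyCurve⁄Qbar).Point :=
    (Submodule.subtype _).toAddMonoidHom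
  have hsub : Function.Injective sub := Subtype.val_injective
  let g : Submodule.torsionBy ℤ (P.freyCurve⁄Qbar).Point P.p →+
      (P.freyCurveInt.toAffine⁄Qbar).Point := e.toAddMonoidHom.comp sub
  have hg : Function.Injective g := e.injective.comp hsub
  let N' : AddSubgroup (P.freyCurveInt.toAffine⁄Qbar).Point := N.toAddSubgroup.map g
  have hN'card : Nat.card N' = P.p := by
    rw [← hcardN]
    exact (Nat.card_congr (AddSubgroup.equivMapOfInjective N.toAddSubgroup g hg).toEquiv).symm
  have hmemV : ∀ x : (P.freyCurve⁄Qbar).Point, P.p • x = 0 →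
      x ∈ Submodule.torsionBy ℤ (P.freyCurve⁄Qbar).Point P.p := by
    intro x hx
    rw [Submodule.mem_torsionBy_iff, Nat.cast_smul_eq_nsmul ℤ]
    exact hx
  refine core_false P.freyCurveInt P.p hp2 (frey_good_of_not_dvd P hpabc) A hA N' hN'card
    ?_ ?_ ?_ ?_
  · -- cofixed
    intro σ x' hx'
    have hx : P.p • e.symm x' = 0 := by rw [← map_nsmul, hx', _root_.map_zero]
    refine ⟨σ • (⟨e.symm x', hmemV _ hx⟩ : Submodule.torsionBy ℤ _ _) - ⟨e.symm x', hmemV _ hx⟩,
      hcof σ _, ?_⟩
    show e (σ • e.symm x' - e.symm x') = _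
    rw [map_sub, he, AddEquiv.apply_symm_apply]
  · -- inertia non-trivial on the line
    refine ⟨σ₀, hσ₀, g x₀, ⟨x₀, hx₀, rfl⟩, ?_⟩
    intro h
    apply hne₀
    apply Subtype.ext
    apply e.injective
    show e (σ₀ • (x₀ : (P.freyCurve⁄Qbar).Point)) = e x₀
    rw [he]
    exact h
  · -- the integral point
    obtain ⟨x, y, h, hp, hxA⟩ := hT
    obtain ⟨h', e'⟩ := pointCongr_some hEq h
    refine ⟨x, y, h', ?_, hxA⟩
    have : P.p • e (Point.some x y h) = 0 := by rw [← map_nsmul, hp, _root_.map_zero]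
    rw [← e']
    exact this
  · -- rational `2`-torsion
    intro σ x' hx'
    have hx : 2 • e.symm x' = 0 := by rw [← map_nsmul, hx', _root_.map_zero]
    have := frey_two_torsion_fixed P σ (e.symm x') hx
    have h1 := congrArg e this
    rw [he, AddEquiv.apply_symm_apply] at h1
    exact h1

/-- **CASE I of S12 from (DET)**: `p ∤ abc` and every cofixed line is cyclotomic ⟹ no cofixed
line. -/
theorem caseI_of_det (hpabc : ¬ (P.p : ℤ) ∣ P.a * P.b * P.c)
    (hdet : haveI : Fact P.p.Prime := ⟨P.pp⟩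
      ∀ N : Submodule (ZMod P.p) (Submodule.torsionBy ℤ (P.freyCurve⁄Qbar).Point P.p),
      IsGaloisStable ℚ N → N ≠ ⊥ → N ≠ ⊤ → (∀ (σ : GQ) x, σ • x - x ∈ N) →
      ∀ σ : GQ, ∀ x ∈ N, σ • x = (ExtCitation.cycloExp P.p σ : ZMod P.p) • x) :
    ¬ HasGaloisStableCofixedLine (K := Qbar) ℚ P.freyCurve P.p := by
  have : Fact P.p.Prime := ⟨P.pp⟩
  have hp5 := P.hp5
  refine caseI P hpabc (fun N hN hbot htop hcof A hA => ?_)
  exact inertia_nontrivial_of_det P.p (by omega) N hbot (hdet N hN hbot htop hcof) A hA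

end Frey

end Fermat.Agent.GZ.S12.CaseI
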