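/-
CELL-M3 / S12, node (DET) of helper9's DESIGN v1 (board 6320) — helper21.

**The cofixed line of `E[p]` is `μ_p`**: for `W/ℤ` with `Δ ≠ 0`, `p` prime, and a Galois-stable
line `N ⊂ V = E[p](ℚ̄)` with `(σ - 1) V ⊆ N` for every `σ ∈ G_ℚ`, if `G_ℚ` does not act trivially
on `V` then `σ x = χ_p(σ) x` for `x ∈ N`, where `χ_p = ExtCitation.cycloExp p` is the mod `p`
cyclotomic character in the spelling of S14.  For the Frey curve the non-triviality is
`S13/AtTwoFixed.frey_no_fixed_point`, so the statement is binder-free there.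

Proof WITHOUT the Weil pairing.  `ψ(σ)` := the scalar by which `σ` acts on `N`.

(a) [`eq_id_or_eq_of_quadratic`]  If `τ` satisfies `(τ - 1) V ⊆ N ≠ V`, `τ = c` on `N` and
    `τ² - a τ + ℓ = 0` on `V`, then `(τ - c)(τ - 1) = 0` on `V`; subtracting,
    `(c + 1 - a) τ = c - ℓ`.  Either `c + 1 - a ≠ 0` and `τ` is a scalar `s` with
    `(s - 1) V ⊆ N ≠ V`, i.e. `τ = id`; or `c + 1 - a = 0` and `(c - ℓ) V = 0`, i.e. `c = ℓ`.
(b) [`eq_id_or_smul_eq_cyc`]  Frobenius' density theorem (`GJ/FrobLiftMain`, (FL1)) applied to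
    `ρ = (action on V) × χ_p` and the finite set `{p} ∪ {primes of Δ}`: `ρ(σ) = ρ(τ)^j` for a
    Frobenius lift `τ` at a good prime `ℓ ≠ p`.  By `GE/Top/ECFinal.frobRel` and (a): `τ = id` on
    `V` (then `σ = id` on `V`), or `ψ(τ) = ℓ = χ_p(τ)` (`GJ/CycChar.cyc_frob`), and then
    `ψ(σ) = ψ(τ)^j = χ_p(τ)^j = χ_p(σ)`.
(c) `H = ker(G_ℚ → Aut V)` is a proper subgroup, and `ψ = χ_p` off `H`, hence everywhere.
-/
import Mathlib
import Fermat.Prelude.Def_FLTPrelim_CofixedLine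
import Fermat.Prelude.Def_ExtCitation_AdmissibleExtension
import Fermat.Agent.GE.Top.ECFinal
import Fermat.Agent.GJ.FrobLiftMain
import Fermat.Agent.GJ.CycChar
import Fermat.Agent.S13.AtTwoFixed
import Fermat.Agent.S13.AtPSS
import Fermat.Agent.S13.LineAlg
import Fermat.Agent.GL.Local.TameZeta

set_option autoImplicit false

open Fermat.Agent.Common_helper32
open scoped WeierstrassCurve.Affine

namespace Fermat.Agent.GZ.S12.DetCyc

open WeierstrassCurve WeierstrassCurve.Affine.Point Fermat.Agent.GE.ECAssembly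
open Fermat.Agent.GJ.CycChar

/-! ### (a) the abstract quadratic lemma -/

section Abstract

variable {p : ℕ} [Fact p.Prime] {V : Type*} [AddCommGroup V] [Module (ZMod p) V]

/-- `τ` with `(τ - 1) V ⊆ N ≠ V`, `τ = c` on `N`, `τ² - a τ + l = 0` on `V`: then `τ = id` or
`c = l`. -/
theorem eq_id_or_eq_of_quadratic (N : Submodule (ZMod p) V) (htop : N ≠ ⊤) (τ : V →+ V)
    (c a l : ZMod p)
    (h1 : ∀ v, τ v - v ∈ N) (h2 : ∀ x ∈ N, τ x = c • x)
    (h3 : ∀ v, τ (τ v) - a • τ v + l • v = 0) :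
    (∀ v, τ v = v) ∨ c = l := by
  have h4 : ∀ v, τ (τ v) = (c + 1) • τ v - c • v := by
    intro v
    have := h2 _ (h1 v)
    rw [map_sub] at this
    linear_combination (norm := module) this
  have h5 : ∀ v, (c + 1 - a) • τ v = (c - l) • v := by
    intro v
    have := h3 v
    rw [h4] at this
    linear_combination (norm := module) this
  by_cases hd : c + 1 - a = 0
  · right
    by_contra hcl
    have hcl' : c - l ≠ 0 := sub_ne_zero.mpr hcl
    apply htop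
    rw [Submodule.eq_top_iff']
    intro v
    have := h5 v
    rw [hd, zero_smul] at this
    have hv : v = 0 := by
      have h6 : (c - l)⁻¹ • ((c - l) • v) = 0 := by rw [← this, smul_zero]
      rwa [smul_smul, inv_mul_cancel₀ hcl', one_smul] at h6
    rw [hv]; exact N.zero_mem
  · left
    set s : ZMod p := (c + 1 - a)⁻¹ * (c - l) with hs
    have h6 : ∀ v, τ v = s • v := by
      intro v
      have := congrArg (fun z => (c + 1 - a)⁻¹ • z) (h5 v)
      simp only [smul_smul, inv_mul_cancel₀ hd, one_smul] at this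
      rw [this]
    by_cases hs1 : s = 1
    · intro v; rw [h6, hs1, one_smul]
    · exfalso
      apply htop
      rw [Submodule.eq_top_iff']
      intro v
      have h7 := h1 v
      rw [h6] at h7
      have h8 : s • v - v = (s - 1) • v := by rw [sub_smul, one_smul]
      rw [h8] at h7
      have h9 := N.smul_mem (s - 1)⁻¹ h7
      rwa [smul_smul, inv_mul_cancel₀ (sub_ne_zero.mpr hs1), one_smul] at h9

end Abstract

/-! ### finite level of a product -/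

theorem finiteLevel_prod {M M' : Type} [Monoid M] [Monoid M'] (ρ : GQ →* M) (ρ' : GQ →* M')
    (h : GaloisFactorsThroughFiniteLevel ρ) (h' : GaloisFactorsThroughFiniteLevel ρ') :
    GaloisFactorsThroughFiniteLevel (ρ.prod ρ') := by
  obtain ⟨L, hL, hρ⟩ := h
  obtain ⟨L', hL', hρ'⟩ := h'
  have := hL; have := hL'
  refine ⟨L ⊔ L', IntermediateField.finiteDimensional_sup L L', fun σ hσ => ?_⟩
  rw [MonoidHom.prod_apply, Prod.mk_eq_one]
  exact ⟨hρ σ fun x hx => hσ x ((le_sup_left : L ≤ L ⊔ L') hx),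
    hρ' σ fun x hx => hσ x ((le_sup_right : L' ≤ L ⊔ L') hx)⟩

/-! ### the model form -/

section Model

variable (W : WeierstrassCurve ℤ) (p : ℕ) [hp : Fact p.Prime]

/-- `G_ℚ` commutes with the `ZMod p`-scalars on `E[p]`. -/
theorem smul_zmod_smul (σ : GQ) (s : ZMod p) (x : TN W p) : σ • (s • x) = s • (σ • x) :=
  (AddMonoidHom.toZModLinearMap p (DistribSMul.toAddMonoidHom (TN W p) σ)).map_smul s x

omit hp in
theorem coe_smul_TN (σ : GQ) (x : TN W p) :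
    ((σ • x : TN W p) : (EQb W).Point) = σ • (x : (EQb W).Point) := rfl

variable {W p}

/-- the scalar of `σ` on a line -/
theorem exists_scalar (hΔ : W.Δ ≠ 0) (N : Submodule (ZMod p) (TN W p))
    (hstab : IsGaloisStable ℚ N) (hbot : N ≠ ⊥) (htop : N ≠ ⊤) (σ : GQ) :
    ∃ c : ZMod p, ∀ x ∈ N, σ • x = c • x := by
  have hfin : Finite (TN W p) := finite_TN W hΔ p hp.out.one_lt.le
  have hcard : Nat.card (TN W p) ≤ p ^ 2 :=
    (Fermat.Agent.GE.Tors.card_torsionBy (eqb_Δ_ne_zero W hΔ) p hp.out.one_lt.le).le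
  obtain ⟨e, he, he0⟩ := Fermat.Agent.S13.LineAlg.exists_mem_ne_zero N hbot
  obtain ⟨c, hc⟩ := Fermat.Agent.S13.LineAlg.exists_smul_eq_of_mem hcard N hbot htop he he0
    (hstab σ e he)
  refine ⟨c, fun x hx => ?_⟩
  obtain ⟨d, rfl⟩ := Fermat.Agent.S13.LineAlg.exists_smul_eq_of_mem hcard N hbot htop he he0 hx
  rw [smul_zmod_smul, hc, smul_smul, smul_smul, mul_comm]

/-- (a) at a Frobenius lift at a good prime `ℓ ≠ p`. -/
theorem frob_dichotomy (N : Submodule (ZMod p) (TN W p)) (htop : N ≠ ⊤)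
    (hcof : ∀ (σ : GQ) (x : TN W p), σ • x - x ∈ N)
    {ℓ : ℕ} (hℓ : ℓ.Prime) (hℓp : ℓ ≠ p) (hℓΔ : ¬ (ℓ : ℤ) ∣ W.Δ) (A : ValuationSubring Qb)
    (hA : A.LiesOverPrime ℓ) (τ : GQ) (hτ : A.IsFrobeniusAt τ ℓ) (c : ZMod p)
    (hc : ∀ x ∈ N, τ • x = c • x) :
    (∀ v : TN W p, τ • v = v) ∨ c = (ℓ : ZMod p) := by
  refine eq_id_or_eq_of_quadratic N htop (DistribSMul.toAddMonoidHom (TN W p) τ) c
    ((W.apOfModel ℓ : ℤ) : ZMod p) (ℓ : ZMod p) (hcof τ) hc fun v => ?_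
  have h := Fermat.Agent.GE.ECFinal.frobRel W hp.out 1 ℓ hℓ hℓp hℓΔ A hA τ hτ (v : (EQb W).Point)
    (by rw [pow_one]; exact nsmul_TN W p v)
  apply Subtype.ext
  rw [Int.cast_smul_eq_zsmul, Nat.cast_smul_eq_nsmul]
  rw [natCast_zsmul] at h
  simpa [coe_smul_TN] using h

theorem pow_smul_eq (N : Submodule (ZMod p) (TN W p)) (τ : GQ) (c : ZMod p)
    (hc : ∀ x ∈ N, τ • x = c • x) (j : ℕ) : ∀ x ∈ N, (τ ^ j) • x = c ^ j • x := by
  induction j with
  | zero => intro x _; simp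
  | succ j ih =>
    intro x hx
    rw [pow_succ, mul_smul, hc x hx, ih _ (N.smul_mem c hx), smul_smul, pow_succ]

omit hp in
theorem pow_smul_id (τ : GQ) (hid : ∀ v : TN W p, τ • v = v) (j : ℕ) (v : TN W p) :
    (τ ^ j) • v = v := by
  induction j with
  | zero => simp
  | succ j ih => rw [pow_succ, mul_smul, hid, ih]

/-- (b): every `σ` is the identity on `E[p]` or acts on `N` through the cyclotomic character. -/
theorem eq_id_or_smul_eq_cyc (hΔ : W.Δ ≠ 0) (N : Submodule (ZMod p) (TN W p))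
    (hstab : IsGaloisStable ℚ N) (hbot : N ≠ ⊥) (htop : N ≠ ⊤)
    (hcof : ∀ (σ : GQ) (x : TN W p), σ • x - x ∈ N) (σ : GQ) :
    (∀ v : TN W p, σ • v = v) ∨ ∀ x ∈ N, σ • x = ((cyc p σ : (ZMod p)ˣ) : ZMod p) • x := by
  obtain ⟨ℓ, A, τ, j, hℓ, hℓB, hA, hτ, hρ⟩ :=
    Fermat.Agent.GJ.FrobLift.exists_isFrobeniusAt_pow' ((galEnd W p).prod (cyc p))
      (finiteLevel_prod _ _ (galEnd_level W hΔ p hp.out.one_lt.le) (cyc_finiteLevel p))
      (insert p W.Δ.natAbs.primeFactors) σ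
  obtain ⟨hℓp, hℓΔ⟩ := good_of_not_mem W hΔ hℓ hℓB
  rw [MonoidHom.prod_apply, MonoidHom.prod_apply, Prod.ext_iff, Prod.pow_fst, Prod.pow_snd] at hρ
  obtain ⟨hρ1, hρ2⟩ := hρ
  have hρ1 : galEnd W p σ = galEnd W p τ ^ j := hρ1
  have hρ2 : cyc p σ = cyc p τ ^ j := hρ2
  have hσ : ∀ v : TN W p, σ • v = (τ ^ j) • v := by
    intro v
    rw [← map_pow] at hρ1
    exact congrArg (fun f : AddMonoid.End (TN W p) => f v) hρ1
  obtain ⟨c, hc⟩ := exists_scalar hΔ N hstab hbot htop τ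
  rcases frob_dichotomy N htop hcof hℓ hℓp hℓΔ A hA τ hτ c hc with hid | hcl
  · left
    intro v
    rw [hσ]
    exact pow_smul_id τ hid j v
  · right
    intro x hx
    rw [hσ, pow_smul_eq N τ c hc j x hx, hρ2, Units.val_pow_eq_pow_val, cyc_frob hℓ hℓp hA hτ, hcl]

/-- **(DET), character form.** -/
theorem smul_eq_cyc_smul (hΔ : W.Δ ≠ 0)
    (hnt : ∃ (σ : GQ) (x : TN W p), σ • x ≠ x)
    (N : Submodule (ZMod p) (TN W p))
    (hstab : IsGaloisStable ℚ N) (hbot : N ≠ ⊥) (htop : N ≠ ⊤)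
    (hcof : ∀ (σ : GQ) (x : TN W p), σ • x - x ∈ N) (σ : GQ) :
    ∀ x ∈ N, σ • x = ((cyc p σ : (ZMod p)ˣ) : ZMod p) • x := by
  rcases eq_id_or_smul_eq_cyc hΔ N hstab hbot htop hcof σ with hid | h
  swap
  · exact h
  obtain ⟨σ₀, x₀, hx₀⟩ := hnt
  have h0 : ∀ x ∈ N, σ₀ • x = ((cyc p σ₀ : (ZMod p)ˣ) : ZMod p) • x := by
    rcases eq_id_or_smul_eq_cyc hΔ N hstab hbot htop hcof σ₀ with hid0 | h
    · exact absurd (hid0 x₀) hx₀
    · exact h
  have h1 : ∀ x ∈ N, (σ₀ * σ) • x = ((cyc p (σ₀ * σ) : (ZMod p)ˣ) : ZMod p) • x := by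
    rcases eq_id_or_smul_eq_cyc hΔ N hstab hbot htop hcof (σ₀ * σ) with hid1 | h
    · refine absurd ?_ hx₀
      have := hid1 x₀
      rwa [mul_smul, hid x₀] at this
    · exact h
  obtain ⟨e, he, he0⟩ := Fermat.Agent.S13.LineAlg.exists_mem_ne_zero N hbot
  have h2 := h1 e he
  rw [mul_smul, hid e, h0 e he, map_mul, Units.val_mul, ← sub_eq_zero, ← sub_smul,
    smul_eq_zero] at h2
  have h3 : ((cyc p σ : (ZMod p)ˣ) : ZMod p) = 1 := by
    rcases h2 with h2 | h2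
    · have hu : ((cyc p σ₀ : (ZMod p)ˣ) : ZMod p) ≠ 0 := (cyc p σ₀).ne_zero
      have : ((cyc p σ₀ : (ZMod p)ˣ) : ZMod p) * (1 - ((cyc p σ : (ZMod p)ˣ) : ZMod p)) = 0 := by
        rw [← h2]; ring
      rcases mul_eq_zero.mp this with h | h
      · exact absurd h hu
      · exact (sub_eq_zero.mp h).symm
    · exact absurd h2 he0
  intro x _
  rw [h3, one_smul, hid]

theorem cycloExp_eq (σ : GQ) :
    ExtCitation.cycloExp p σ = ((cyc p σ : (ZMod p)ˣ) : ZMod p).val := rfl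

theorem cycloExp_cast (σ : GQ) :
    ((ExtCitation.cycloExp p σ : ℕ) : ZMod p) = ((cyc p σ : (ZMod p)ˣ) : ZMod p) := by
  have : NeZero p := ⟨hp.out.ne_zero⟩
  rw [cycloExp_eq, ZMod.natCast_zmod_val]

/-- **(DET), model form**: the cofixed line is `μ_p`, in the `cycloExp` spelling of S14. -/
theorem smul_eq_cycloExp_nsmul (W : WeierstrassCurve ℤ) (hΔ : W.Δ ≠ 0) (p : ℕ) [Fact p.Prime]
    (hnt : ∃ (σ : GQ)
      (x : Submodule.torsionBy ℤ ((W.map (Int.castRingHom ℚ))⁄Qb).Point (p : ℤ)), σ • x ≠ x)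
    (N : Submodule (ZMod p) (Submodule.torsionBy ℤ ((W.map (Int.castRingHom ℚ))⁄Qb).Point p))
    (hstab : IsGaloisStable ℚ N) (hbot : N ≠ ⊥) (htop : N ≠ ⊤)
    (hcof : ∀ (σ : GQ) (x : Submodule.torsionBy ℤ ((W.map (Int.castRingHom ℚ))⁄Qb).Point p),
      σ • x - x ∈ N) :
    ∀ σ : GQ, ∀ x ∈ N, σ • x = ExtCitation.cycloExp p σ • x := by
  intro σ x hx
  rw [← Nat.cast_smul_eq_nsmul (ZMod p), cycloExp_cast]
  exact smul_eq_cyc_smul hΔ hnt N hstab hbot htop hcof σ x hx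

end Model

/-! ### the cyclotomic character in the `cycloExp` spelling: Frobenius and inertia values -/

section Values

variable {p : ℕ} [hp : Fact p.Prime]

/-- (χD) the value at a Frobenius lift at `ℓ ≠ p`. -/
theorem cycloExp_frob {ℓ : ℕ} (hℓ : ℓ.Prime) (hne : ℓ ≠ p) {A : ValuationSubring Qb}
    (hA : A.LiesOverPrime ℓ) {τ : GQ} (hτ : A.IsFrobeniusAt τ ℓ) :
    ExtCitation.cycloExp p τ ≡ ℓ [MOD p] := by
  rw [← ZMod.natCast_eq_natCast_iff, cycloExp_cast]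
  exact cyc_frob hℓ hne hA hτ

/-- (χI) an inertia element at `A ∣ p` on which the cyclotomic character is not `1`
(`p` odd). -/
theorem exists_inertia_cycloExp_ne_one (hp2 : p ≠ 2) (A : ValuationSubring Qb)
    (hA : A.LiesOverPrime p) :
    ∃ σ ∈ A.inertiaSubgroupIn ℚ, ¬ ExtCitation.cycloExp p σ ≡ 1 [MOD p] := by
  obtain ⟨ζ, hζ⟩ := exists_primitiveRoot p
  have h2 : ¬ p ∣ 2 := fun h => hp2 ((Nat.prime_dvd_prime_iff_eq hp.out Nat.prime_two).1 h)
  obtain ⟨σ, hσ, hσζ⟩ :=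
    Fermat.Agent.GL.Local.InertiaField.exists_mem_inertia_apply_zeta A hp.out hA hζ h2
  refine ⟨σ, hσ, fun h => ?_⟩
  rw [← ZMod.natCast_eq_natCast_iff, cycloExp_cast, (cyc_eq_natCast_iff hζ σ 2).mpr hσζ,
    ZMod.natCast_eq_natCast_iff] at h
  have h3 : p ∣ 2 - 1 := (Nat.modEq_iff_dvd' (by norm_num)).mp h.symm
  exact hp.out.one_lt.ne' (Nat.dvd_one.mp (by simpa using h3))

end Values

/-! ### the Frey curve -/

section Frey

/-- the model form for a rational curve `E = W_ℚ`. -/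
theorem smul_eq_cycloExp_nsmul_of_eq_map (E : WeierstrassCurve ℚ) (W : WeierstrassCurve ℤ)
    (hE : E = W.map (Int.castRingHom ℚ)) (hΔ : E.Δ ≠ 0) (p : ℕ) [Fact p.Prime]
    (hnt : ∃ (σ : GQ) (x : Submodule.torsionBy ℤ (E⁄Qb).Point (p : ℤ)), σ • x ≠ x)
    (N : Submodule (ZMod p) (Submodule.torsionBy ℤ (E⁄Qb).Point p))
    (hstab : IsGaloisStable ℚ N) (hbot : N ≠ ⊥) (htop : N ≠ ⊤)
    (hcof : ∀ (σ : GQ) (x : Submodule.torsionBy ℤ (E⁄Qb).Point p), σ • x - x ∈ N) :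
    ∀ σ : GQ, ∀ x ∈ N, σ • x = ExtCitation.cycloExp p σ • x := by
  subst hE
  have hΔ' : W.Δ ≠ 0 := by
    intro h
    apply hΔ
    rw [WeierstrassCurve.map_Δ, h, _root_.map_zero]
  exact smul_eq_cycloExp_nsmul W hΔ' p hnt N hstab hbot htop hcof

/-- **(DET) for the Frey curve, binder-free**: on the cofixed line `N` of
`HasGaloisStableCofixedLine ℚ P.freyCurve P.p`, `G_ℚ` acts through the mod `p` cyclotomic
character. -/
theorem frey_smul_eq_cycloExp_nsmul (P : FreyPackage)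
    (N : Submodule (ZMod P.p) (Submodule.torsionBy ℤ (P.freyCurve⁄Qb).Point P.p))
    (hstab : IsGaloisStable ℚ N) (hbot : N ≠ ⊥) (htop : N ≠ ⊤)
    (hcof : ∀ (σ : GQ) (x : Submodule.torsionBy ℤ (P.freyCurve⁄Qb).Point P.p), σ • x - x ∈ N) :
    ∀ σ : GQ, ∀ x ∈ N, σ • x = @ExtCitation.cycloExp P.p ⟨P.pp⟩ σ • x := by
  have : Fact P.p.Prime := ⟨P.pp⟩
  refine smul_eq_cycloExp_nsmul_of_eq_map P.freyCurve P.freyCurveInt
    (Fermat.Agent.S13.AtPSS.freyCurve_eq_map P) (Fermat.Agent.S13.AtPSS.freyCurve_Δ_ne_zero_aux P)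
    P.p ?_ N hstab hbot htop hcof
  by_contra hcon
  push Not at hcon
  apply hbot
  rw [Submodule.eq_bot_iff]
  intro x _
  exact Fermat.Agent.S13.AtTwo.frey_no_fixed_point P x fun σ => hcon σ x

/-- **(DET) for the Frey curve, point form.** -/
theorem frey_smul_point_eq (P : FreyPackage)
    (N : Submodule (ZMod P.p) (Submodule.torsionBy ℤ (P.freyCurve⁄Qb).Point P.p))
    (hstab : IsGaloisStable ℚ N) (hbot : N ≠ ⊥) (htop : N ≠ ⊤)
    (hcof : ∀ (σ : GQ) (x : Submodule.torsionBy ℤ (P.freyCurve⁄Qb).Point P.p), σ • x - x ∈ N) :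
    ∀ σ : GQ, ∀ x : (P.freyCurve⁄Qb).Point,
      (∃ hx : x ∈ Submodule.torsionBy ℤ (P.freyCurve⁄Qb).Point (P.p : ℤ),
        (⟨x, hx⟩ : Submodule.torsionBy ℤ (P.freyCurve⁄Qb).Point (P.p : ℤ)) ∈ N) →
      σ • x = @ExtCitation.cycloExp P.p ⟨P.pp⟩ σ • x := by
  rintro σ x ⟨hx, hxN⟩
  have h := frey_smul_eq_cycloExp_nsmul P N hstab hbot htop hcof σ ⟨x, hx⟩ hxN
  have h' := congrArg Subtype.val h
  have e : ((σ • (⟨x, hx⟩ : Submodule.torsionBy ℤ (P.freyCurve⁄Qb).Point (P.p : ℤ)) :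
      Submodule.torsionBy ℤ (P.freyCurve⁄Qb).Point (P.p : ℤ)) : (P.freyCurve⁄Qb).Point) =
      σ • x := rfl
  rw [← e]
  simpa using h'

/-- the whole package from the frozen predicate. -/
theorem exists_line_of_hasGaloisStableCofixedLine (P : FreyPackage)
    (h : HasGaloisStableCofixedLine (K := Qb) ℚ P.freyCurve P.p) :
    ∃ N : Submodule (ZMod P.p) (Submodule.torsionBy ℤ (P.freyCurve⁄Qb).Point P.p),
      IsGaloisStable ℚ N ∧ N ≠ ⊥ ∧ N ≠ ⊤ ∧
      (∀ (σ : GQ) (x : Submodule.torsionBy ℤ (P.freyCurve⁄Qb).Point P.p), σ • x - x ∈ N) ∧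
      ∀ σ : GQ, ∀ x ∈ N, σ • x = @ExtCitation.cycloExp P.p ⟨P.pp⟩ σ • x := by
  obtain ⟨N, hstab, hbot, htop, hcof⟩ := h
  exact ⟨N, hstab, hbot, htop, hcof, frey_smul_eq_cycloExp_nsmul P N hstab hbot htop hcof⟩

end Frey

end Fermat.Agent.GZ.S12.DetCyc
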