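/-
CELL-M3 (S12) / node (CUT-D) (helper67; helper9 DESIGN v1, board 6320): **(CUT) with the point fixed by
the DECOMPOSITION group only.**

`W : WeierstrassCurve ℤ`, `Q` a point of order `p` of `W(ℚ̄)`, `ℓ ≠ p` a prime of multiplicative
reduction (`ℓ ∣ Δ`, `ℓ ∤ c₄`), `A` a valuation subring of `ℚ̄` over `ℓ`, `Q` in the zero component at
`A` (frozen `WeierstrassCurve.InZeroComponentAt`).  Then `p ∣ ℓ - 1 ∨ p ∣ ℓ + 1` as soon as

* `dvd_of_fixK`       : the integral coordinates of `Q` have Frobenius-fixed residues (`Cut.FixK A ℓ`);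
* `dvd_of_frobenius`  : `φ • Q = Q` for ONE Frobenius element `φ` at `A`;
* `dvd_of_decomposition` : `σ • Q = Q` for all `σ ∈ A.decompositionSubgroup ℚ`    [= (CUT-D)];
* `dvd_of_nsmul`      : the same with `p • Q = 0`, `Q ≠ 0` in place of `addOrderOf Q = p`.

The proof is the one of `GZ/Cut/Main.dvd_pred_or_dvd_succ`; only the source of `FixK` for the
coordinates changes (rationality there, a Frobenius element here:
`GE/E6/FrobCoord.residue_apply_of_isFrobeniusAt`).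
-/
import Fermat.Agent.GZ.Cut.Main
import Fermat.Agent.GE.E6.FrobCoord
import Fermat.Agent.Common_helper32.FrobeniusExists

set_option autoImplicit false
set_option linter.unusedSectionVars false

namespace Fermat.Agent.GZ.S12.CutD

open IsLocalRing WeierstrassCurve WeierstrassCurve.Affine WeierstrassCurve.Affine.Point
open Fermat.Agent.S05 Fermat.Agent.S05.SameRed Fermat.Agent.S13.NodeInertia
open Fermat.Agent.S13.NodeGen Fermat.Agent.GE.Unip Fermat.Agent.GZ.Cut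

local notation "Qb" => AlgebraicClosure ℚ
local notation "GQ" => (AlgebraicClosure ℚ ≃ₐ[ℚ] AlgebraicClosure ℚ)

/-- an `A`-integral element fixed by a Frobenius element at `A` has a Frobenius-fixed residue. -/
theorem fixK_of_frobenius {A : ValuationSubring Qb} {ℓ : ℕ} {φ : GQ} (hφ : A.IsFrobeniusAt φ ℓ)
    {x : Qb} (hx : x ∈ A) (hfix : φ x = x) : FixK A ℓ x := by
  refine ⟨hx, ?_⟩
  have h := Fermat.Agent.GE.E6.residue_apply_of_isFrobeniusAt hφ hx
  rw [resK_of_mem A hx, ← h]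
  congr 1
  exact Subtype.ext hfix

/-- **(CUT), coordinate form**: the hypothesis on `Q` is that its coordinates, when `A`-integral,
have Frobenius-fixed residues. -/
theorem dvd_of_fixK
    {p : ℕ} (hp : p.Prime) (W : WeierstrassCurve ℤ) (hΔ : W.Δ ≠ 0)
    (Q : ((W.map (Int.castRingHom ℚ))⁄(AlgebraicClosure ℚ)).Point)
    (hpQ : p • Q = 0) (hQ0 : Q ≠ 0)
    {ℓ : ℕ} (hℓ : ℓ.Prime) (hℓp : ℓ ≠ p) (hℓΔ : (ℓ : ℤ) ∣ W.Δ) (hℓc₄ : ¬ (ℓ : ℤ) ∣ W.c₄)
    (A : ValuationSubring (AlgebraicClosure ℚ)) (hA : A.LiesOverPrime ℓ)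
    (hfixK : ∀ (x y : Qb) (h : ((W.map (Int.castRingHom ℚ))⁄(AlgebraicClosure ℚ)).Nonsingular x y),
      Q = Point.some x y h → x ∈ A → y ∈ A → FixK A ℓ x ∧ FixK A ℓ y)
    (h0 : W.InZeroComponentAt A Q) : p ∣ ℓ - 1 ∨ p ∣ ℓ + 1 := by
  have hW := baseChange_integralCoeffs W A
  have hΔnu : ((W.map (Int.castRingHom ℚ)).baseChange (AlgebraicClosure ℚ)).Δ ∈ A.nonunits := by
    rw [baseChange_Δ_eq, intCast_mem_nonunits_iff hℓ hA]
    exact hℓΔ
  have hΔ0 : ((W.map (Int.castRingHom ℚ)).baseChange (AlgebraicClosure ℚ)).Δ ≠ 0 := by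
    rw [baseChange_Δ_eq]
    exact_mod_cast hΔ
  have hc₄ : ((W.map (Int.castRingHom ℚ)).baseChange (AlgebraicClosure ℚ)).c₄ ∉ A.nonunits := by
    rw [baseChange_c₄_eq, intCast_mem_nonunits_iff hℓ hA]
    exact hℓc₄
  obtain ⟨r, t, hr, ht, H⟩ := exists_nodeHyp hW hΔnu hΔ0 hc₄
  obtain ⟨α, hα⟩ := exists_root
    (transl r t • (W.map (Int.castRingHom ℚ)).baseChange (AlgebraicClosure ℚ)).a₁
    (transl r t • (W.map (Int.castRingHom ℚ)).baseChange (AlgebraicClosure ℚ)).a₂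
  have M := H.gModel hα
  have hpA : ((p : ℕ) : AlgebraicClosure ℚ) ∉ A.nonunits := by
    rw [natCast_mem_nonunits_iff hℓ hA]
    intro h
    exact hℓp ((Nat.prime_dvd_prime_iff_eq hℓ hp).1 h)
  rcases h0 with h0 | ⟨x, y, h, rfl, hcase⟩
  · exact absurd h0 hQ0
  have hB : KR.IntegralB A ((W.map (Int.castRingHom ℚ))⁄(AlgebraicClosure ℚ)) :=
    KR.integralB_of_a A _ hW.a₁ hW.a₂ hW.a₃ hW.a₄ hW.a₆
  have hxA : x ∈ A := KR.x_mem_of_nsmul_eq_zero hB hpA h hpQ
  rcases hcase with hx | ⟨hx, hy, hns⟩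
  · exact absurd hxA hx
  -- nonsingular reduction, on `W` and on the node model
  have hns' : NonsingularRed A ((W.map (Int.castRingHom ℚ)).baseChange (AlgebraicClosure ℚ))
      x y := by
    rw [baseChange_coeff_eq]
    exact nonsingularRed_of_residue A W hx hy hns
  have hns'' : NonsingularRed A
      (transl r t • (W.map (Int.castRingHom ℚ)).baseChange (AlgebraicClosure ℚ))
      (x - r) (y - t) := by
    rw [nonsingularRed_transl_iff, sub_add_cancel, sub_add_cancel]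
    exact hns'
  have hnode : (transl r t • (W.map (Int.castRingHom ℚ)).baseChange
      (AlgebraicClosure ℚ)).toAffine.Nonsingular (x - r) (y - t) := by
    rw [vc_nonsingular_iff, vcX_transl, vcY_transl, sub_add_cancel, sub_add_cancel]
    exact h
  have hPQ : vcPointEquiv ((W.map (Int.castRingHom ℚ)).baseChange (AlgebraicClosure ℚ))
      (transl r t) (Point.some (x - r) (y - t) hnode) = Point.some x y h := by
    rw [vcPointEquiv_some]
    apply pt_congr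
    · rw [vcX_transl, sub_add_cancel]
    · rw [vcY_transl, sub_add_cancel]
  have hpP : p • (Point.some (x - r) (y - t) hnode :
      (transl r t • (W.map (Int.castRingHom ℚ)).baseChange
        (AlgebraicClosure ℚ)).toAffine.Point) = 0 := by
    apply (vcPointEquiv ((W.map (Int.castRingHom ℚ)).baseChange (AlgebraicClosure ℚ))
      (transl r t)).injective
    rw [map_nsmul, hPQ, hpQ, _root_.map_zero]
  have hP0 : (Point.some (x - r) (y - t) hnode :
      (transl r t • (W.map (Int.castRingHom ℚ)).baseChange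
        (AlgebraicClosure ℚ)).toAffine.Point) ≠ 0 := by
    simp [Point.zero_def]
  have hxr : x - r ∈ A := sub_mem hx hr
  have hyt : y - t ∈ A := sub_mem hy ht
  have hxu : x - r ∉ A.nonunits := x_unit_of_nonsingularRed H hnode.1 hxr hyt hns''
  have hvx : A.valuation (x - r) = 1 := by
    apply le_antisymm ((ValuationSubring.valuation_le_one_iff A _).2 hxr)
    by_contra hlt
    push Not at hlt
    exact hxu ((ValuationSubring.mem_nonunits_iff A).2 hlt)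
  have hE0 : InE0 A.valuation
      (transl r t • (W.map (Int.castRingHom ℚ)).baseChange (AlgebraicClosure ℚ))
      (Point.some (x - r) (y - t) hnode) := (inE0_some hnode).2 hvx.ge
  obtain ⟨hU, hord⟩ := orderOf_uRes H hα hp hpA _ hpP hP0 hE0
  -- Frobenius
  have : Fact ℓ.Prime := ⟨hℓ⟩
  have : CharP (ResidueField A) ℓ := charP_res hℓ hA
  have F : FixCoeffs A ℓ ((W.map (Int.castRingHom ℚ)).baseChange (AlgebraicClosure ℚ)) := by
    rw [baseChange_coeff_eq]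
    refine ⟨?_, ?_, ?_, ?_, ?_⟩ <;>
      simp only [WeierstrassCurve.map_a₁, WeierstrassCurve.map_a₂, WeierstrassCurve.map_a₃,
        WeierstrassCurve.map_a₄, WeierstrassCurve.map_a₆, eq_intCast] <;>
      exact FixK.intCast _
  obtain ⟨fr, ft⟩ := fixK_translation F hr ht H
  -- the coordinates
  obtain ⟨fx0, fy0⟩ := hfixK x y h rfl hx hy
  have f₁ : FixK A ℓ
      (transl r t • (W.map (Int.castRingHom ℚ)).baseChange (AlgebraicClosure ℚ)).a₁ := by
    rw [transl_a₁]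
    exact F.a₁
  have f₂ : FixK A ℓ
      (transl r t • (W.map (Int.castRingHom ℚ)).baseChange (AlgebraicClosure ℚ)).a₂ := by
    rw [transl_a₂]
    exact F.a₂.add ((FixK.ofNat 3).mul fr)
  have hfrob := uRes_frob M f₁ f₂ hnode hvx (fx0.sub fr) (fy0.sub ft)
  exact dvd_of_orderOf hord (uRes_ne_zero M hU) hℓ.one_le hfrob

/-- **(CUT) for a point fixed by ONE Frobenius element at `A`.** -/
theorem dvd_of_frobenius
    {p : ℕ} (hp : p.Prime) (W : WeierstrassCurve ℤ) (hΔ : W.Δ ≠ 0)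
    (Q : ((W.map (Int.castRingHom ℚ))⁄(AlgebraicClosure ℚ)).Point)
    (hpQ : p • Q = 0) (hQ0 : Q ≠ 0)
    {ℓ : ℕ} (hℓ : ℓ.Prime) (hℓp : ℓ ≠ p) (hℓΔ : (ℓ : ℤ) ∣ W.Δ) (hℓc₄ : ¬ (ℓ : ℤ) ∣ W.c₄)
    (A : ValuationSubring (AlgebraicClosure ℚ)) (hA : A.LiesOverPrime ℓ)
    (φ : GQ) (hφ : A.IsFrobeniusAt φ ℓ) (hQφ : φ • Q = Q)
    (h0 : W.InZeroComponentAt A Q) : p ∣ ℓ - 1 ∨ p ∣ ℓ + 1 := by
  refine dvd_of_fixK hp W hΔ Q hpQ hQ0 hℓ hℓp hℓΔ hℓc₄ A hA ?_ h0
  rintro x y h rfl hx hy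
  have h1 : (Point.some (φ x) (φ y)
        ((Affine.baseChange_nonsingular (W.map (Int.castRingHom ℚ)) φ.toAlgHom.injective
          x y).mpr h) : ((W.map (Int.castRingHom ℚ))⁄(AlgebraicClosure ℚ)).Point) =
      Point.some x y h := hQφ
  injection h1 with h1 h2
  exact ⟨fixK_of_frobenius hφ hx h1, fixK_of_frobenius hφ hy h2⟩

/-- **(CUT-D)**: a point of order `p` fixed by the decomposition group at `A`, lying in the zero
component at the prime `ℓ ≠ p` of multiplicative reduction under `A`, forces `p ∣ ℓ ± 1`. -/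
theorem dvd_of_decomposition_nsmul
    {p : ℕ} (hp : p.Prime) (W : WeierstrassCurve ℤ) (hΔ : W.Δ ≠ 0)
    (Q : ((W.map (Int.castRingHom ℚ))⁄(AlgebraicClosure ℚ)).Point)
    (hpQ : p • Q = 0) (hQ0 : Q ≠ 0)
    {ℓ : ℕ} (hℓ : ℓ.Prime) (hℓp : ℓ ≠ p) (hℓΔ : (ℓ : ℤ) ∣ W.Δ) (hℓc₄ : ¬ (ℓ : ℤ) ∣ W.c₄)
    (A : ValuationSubring (AlgebraicClosure ℚ)) (hA : A.LiesOverPrime ℓ)
    (hQfix : ∀ σ ∈ A.decompositionSubgroup ℚ, σ • Q = Q)
    (h0 : W.InZeroComponentAt A Q) : p ∣ ℓ - 1 ∨ p ∣ ℓ + 1 := by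
  obtain ⟨φ, hφ⟩ := Fermat.Agent.Common_helper32.exists_isFrobeniusAt_of_liesOver A ℓ hℓ hA
  exact dvd_of_frobenius hp W hΔ Q hpQ hQ0 hℓ hℓp hℓΔ hℓc₄ A hA φ hφ
    (hQfix φ hφ.mem_decompositionSubgroup) h0

/-- **(CUT-D)**, `addOrderOf` spelling (the binders of `GZ/Cut/Main.dvd_pred_or_dvd_succ` with
`hQfix` weakened to the decomposition group). -/
theorem dvd_of_decomposition
    {p : ℕ} (hp : p.Prime) (W : WeierstrassCurve ℤ) (hΔ : W.Δ ≠ 0)
    (Q : ((W.map (Int.castRingHom ℚ))⁄(AlgebraicClosure ℚ)).Point)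
    (hQord : addOrderOf Q = p)
    {ℓ : ℕ} (hℓ : ℓ.Prime) (hℓp : ℓ ≠ p) (hℓΔ : (ℓ : ℤ) ∣ W.Δ) (hℓc₄ : ¬ (ℓ : ℤ) ∣ W.c₄)
    (A : ValuationSubring (AlgebraicClosure ℚ)) (hA : A.LiesOverPrime ℓ)
    (hQfix : ∀ σ ∈ A.decompositionSubgroup ℚ, σ • Q = Q)
    (h0 : W.InZeroComponentAt A Q) : p ∣ ℓ - 1 ∨ p ∣ ℓ + 1 := by
  have hQ0 : Q ≠ 0 := by
    intro h
    rw [h, addOrderOf_zero] at hQord
    exact hp.ne_one hQord.symm
  have hpQ : p • Q = 0 := by
    rw [← hQord]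
    exact addOrderOf_nsmul_eq_zero Q
  exact dvd_of_decomposition_nsmul hp W hΔ Q hpQ hQ0 hℓ hℓp hℓΔ hℓc₄ A hA hQfix h0

end Fermat.Agent.GZ.S12.CutD
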