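/-
CELL-M3 (S12) / Frey arithmetic for the plugs (helper67): the integral Frey curve
`W = P.freyCurveInt`, `A = a^p`, `B = b^p`, `A + B = c^p`:

* `freyInt_Δ`   : `256 * W.Δ = (A * B * (A + B)) ^ 2`,   `freyInt_c₄ : W.c₄ = A² + A B + B²`;
* `freyInt_Δ_ne_zero`;
* `dvd_Δ_iff`   : for a prime `ℓ`, `(ℓ : ℤ) ∣ W.Δ ↔ (ℓ : ℤ) ∣ a * b * c`   (`ℓ = 2` included);
* `not_dvd_c₄`  : `(ℓ : ℤ) ∣ a * b * c → ¬ (ℓ : ℤ) ∣ W.c₄`   (MULTIPLICATIVE reduction);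
* `frey_dvd_of_decomposition` / `frey_dvd_of_frobenius` : (CUT-D) on the Frey curve — a nonzero
  `q`-torsion point (`q` prime, e.g. `q = P.p`) in the zero component at `A | ℓ`, `ℓ ∣ abc`, `ℓ ≠ q`,
  fixed by the decomposition group (or by one Frobenius) at `A`, forces `q ∣ ℓ - 1 ∨ q ∣ ℓ + 1`.

Light imports (`S13/AtPSS` for `freyCurve_eq_map`; the same computations exist in
`GB/Top/S43Frey.lean` on top of the GATE-B closure).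
-/
import Fermat.Agent.GZ.S12.CutD
import Fermat.Agent.S13.AtPSS
import Fermat.Prelude.Def_FLTPrelim_FreyPackage

set_option autoImplicit false
set_option linter.unusedSectionVars false

namespace Fermat.Agent.GZ.S12.FreyMult

open WeierstrassCurve WeierstrassCurve.Affine WeierstrassCurve.Affine.Point
open scoped WeierstrassCurve.Affine

local notation "Qb" => AlgebraicClosure ℚ
local notation "GQ" => (AlgebraicClosure ℚ ≃ₐ[ℚ] AlgebraicClosure ℚ)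

variable (P : FreyPackage)

theorem freyCurve_Δ : P.freyCurve.Δ =
    ((P.a : ℚ) ^ P.p * (P.b : ℚ) ^ P.p * ((P.a : ℚ) ^ P.p + (P.b : ℚ) ^ P.p)) ^ 2 / 256 := by
  simp only [WeierstrassCurve.Δ, WeierstrassCurve.b₂, WeierstrassCurve.b₄, WeierstrassCurve.b₆,
    WeierstrassCurve.b₈, FreyPackage.freyCurve]
  ring

theorem freyCurve_c₄ : P.freyCurve.c₄ =
    ((P.a : ℚ) ^ P.p) ^ 2 + (P.a : ℚ) ^ P.p * (P.b : ℚ) ^ P.p + ((P.b : ℚ) ^ P.p) ^ 2 := by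
  simp only [WeierstrassCurve.c₄, WeierstrassCurve.b₂, WeierstrassCurve.b₄,
    FreyPackage.freyCurve]
  ring

/-- `256 Δ = (A B (A + B))²`. -/
theorem freyInt_Δ : 256 * P.freyCurveInt.Δ =
    (P.a ^ P.p * P.b ^ P.p * (P.a ^ P.p + P.b ^ P.p)) ^ 2 := by
  have h := freyCurve_Δ P
  rw [Fermat.Agent.S13.AtPSS.freyCurve_eq_map, WeierstrassCurve.map_Δ, eq_intCast] at h
  have h' : (256 : ℚ) * (P.freyCurveInt.Δ : ℚ) =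
      ((P.a : ℚ) ^ P.p * (P.b : ℚ) ^ P.p * ((P.a : ℚ) ^ P.p + (P.b : ℚ) ^ P.p)) ^ 2 := by
    rw [h]; ring
  exact_mod_cast h'

/-- `256 Δ = ((a b c)^p)²`. -/
theorem freyInt_Δ_abc : 256 * P.freyCurveInt.Δ = ((P.a * P.b * P.c) ^ P.p) ^ 2 := by
  rw [freyInt_Δ, P.hFLT, ← mul_pow, ← mul_pow]

/-- `c₄ = A² + A B + B²`. -/
theorem freyInt_c₄ : P.freyCurveInt.c₄ =
    (P.a ^ P.p) ^ 2 + P.a ^ P.p * P.b ^ P.p + (P.b ^ P.p) ^ 2 := by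
  have h := freyCurve_c₄ P
  rw [Fermat.Agent.S13.AtPSS.freyCurve_eq_map, WeierstrassCurve.map_c₄, eq_intCast] at h
  exact_mod_cast h

theorem freyInt_Δ_ne_zero : P.freyCurveInt.Δ ≠ 0 := by
  intro h0
  have h := freyInt_Δ_abc P
  rw [h0, mul_zero] at h
  exact pow_ne_zero 2 (pow_ne_zero P.p P.habc0) h.symm

theorem not_dvd_both {ℓ : ℕ} (hℓ : ℓ.Prime) (hx : (ℓ : ℤ) ∣ P.a ^ P.p)
    (hy : (ℓ : ℤ) ∣ P.b ^ P.p) : False := by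
  have hprime : Prime (ℓ : ℤ) := Nat.prime_iff_prime_int.mp hℓ
  have h1 : (ℓ : ℤ) ∣ gcd P.a P.b :=
    dvd_gcd (hprime.dvd_of_dvd_pow hx) (hprime.dvd_of_dvd_pow hy)
  rw [P.hgcdab] at h1
  exact hprime.not_dvd_one h1

/-- a prime dividing `Δ` divides `a b c`. -/
theorem dvd_abc_of_dvd_Δ {ℓ : ℕ} (hℓ : ℓ.Prime) (h : (ℓ : ℤ) ∣ P.freyCurveInt.Δ) :
    (ℓ : ℤ) ∣ P.a * P.b * P.c := by
  have hprime : Prime (ℓ : ℤ) := Nat.prime_iff_prime_int.mp hℓ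
  have h1 : (ℓ : ℤ) ∣ ((P.a * P.b * P.c) ^ P.p) ^ 2 := by
    rw [← freyInt_Δ_abc]
    exact Dvd.dvd.mul_left h 256
  exact hprime.dvd_of_dvd_pow (hprime.dvd_of_dvd_pow h1)

/-- an ODD prime dividing `a b c` divides `Δ`. -/
theorem dvd_Δ_of_dvd_abc_of_odd {ℓ : ℕ} (hℓ : ℓ.Prime) (hℓ2 : ℓ ≠ 2)
    (h : (ℓ : ℤ) ∣ P.a * P.b * P.c) : (ℓ : ℤ) ∣ P.freyCurveInt.Δ := by
  have hprime : Prime (ℓ : ℤ) := Nat.prime_iff_prime_int.mp hℓ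
  have h1 : (ℓ : ℤ) ∣ 256 * P.freyCurveInt.Δ := by
    rw [freyInt_Δ_abc]
    exact Dvd.dvd.trans (Dvd.dvd.trans h (dvd_pow_self _ P.hp0)) (dvd_pow_self _ two_ne_zero)
  rcases hprime.dvd_or_dvd h1 with h2 | h2
  · exfalso
    have h3 : (ℓ : ℤ) ∣ 2 ^ 8 := by norm_num; exact h2
    have h4 : (ℓ : ℤ) ∣ 2 := hprime.dvd_of_dvd_pow h3
    have h5 : ℓ ∣ 2 := by exact_mod_cast h4
    exact hℓ2 ((Nat.prime_dvd_prime_iff_eq hℓ Nat.prime_two).1 h5)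
  · exact h2

/-- `2 ∣ Δ` (because `2 ∣ b` and `p ≥ 5`). -/
theorem two_dvd_Δ : (2 : ℤ) ∣ P.freyCurveInt.Δ := by
  have h2 : (2 : ℤ) ∣ P.b := (ZMod.intCast_zmod_eq_zero_iff_dvd P.b 2).1 P.hb2
  obtain ⟨k, hk⟩ := h2
  obtain ⟨m, hm⟩ : ∃ m, P.p = 5 + m := ⟨P.p - 5, by have := P.hp5; omega⟩
  have h2p : (2 : ℤ) ^ P.p = 32 * 2 ^ m := by
    rw [hm, pow_add]
    norm_num
  have hb : P.b ^ P.p = 32 * (2 ^ m * k ^ P.p) := by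
    rw [hk, mul_pow, h2p]
    ring
  have h := freyInt_Δ P
  have h1 : 256 * P.freyCurveInt.Δ =
      256 * (2 * (2 * (P.a ^ P.p * (2 ^ m * k ^ P.p) *
        (P.a ^ P.p + 32 * (2 ^ m * k ^ P.p))) ^ 2)) := by
    rw [h, hb]
    ring
  have h3 := mul_left_cancel₀ (by norm_num : (256 : ℤ) ≠ 0) h1
  exact ⟨_, h3⟩

/-- **`ℓ ∣ Δ ↔ ℓ ∣ a b c`** for every prime `ℓ`. -/
theorem dvd_Δ_iff {ℓ : ℕ} (hℓ : ℓ.Prime) :
    (ℓ : ℤ) ∣ P.freyCurveInt.Δ ↔ (ℓ : ℤ) ∣ P.a * P.b * P.c := by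
  refine ⟨dvd_abc_of_dvd_Δ P hℓ, fun h => ?_⟩
  by_cases h2 : ℓ = 2
  · subst h2
    exact_mod_cast two_dvd_Δ P
  · exact dvd_Δ_of_dvd_abc_of_odd P hℓ h2 h

/-- **multiplicative reduction**: a prime dividing `Δ` does not divide `c₄`. -/
theorem not_dvd_c₄_of_dvd_Δ {ℓ : ℕ} (hℓ : ℓ.Prime) (hΔ : (ℓ : ℤ) ∣ P.freyCurveInt.Δ) :
    ¬ (ℓ : ℤ) ∣ P.freyCurveInt.c₄ := by
  intro hc₄
  have hprime : Prime (ℓ : ℤ) := Nat.prime_iff_prime_int.mp hℓ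
  rw [freyInt_c₄] at hc₄
  have h1 : (ℓ : ℤ) ∣ (P.a ^ P.p * P.b ^ P.p * (P.a ^ P.p + P.b ^ P.p)) ^ 2 := by
    rw [← freyInt_Δ]
    exact Dvd.dvd.mul_left hΔ 256
  have h2 := hprime.dvd_of_dvd_pow h1
  set A := P.a ^ P.p with hA
  set B := P.b ^ P.p with hB
  have key : (ℓ : ℤ) ∣ A ∧ (ℓ : ℤ) ∣ B := by
    rcases hprime.dvd_or_dvd h2 with h3 | h3
    · rcases hprime.dvd_or_dvd h3 with h4 | h4
      · refine ⟨h4, hprime.dvd_of_dvd_pow (n := 2) ?_⟩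
        have : B ^ 2 = (A ^ 2 + A * B + B ^ 2) - A * (A + B) := by ring
        rw [this]
        exact dvd_sub hc₄ (Dvd.dvd.mul_right h4 _)
      · refine ⟨hprime.dvd_of_dvd_pow (n := 2) ?_, h4⟩
        have : A ^ 2 = (A ^ 2 + A * B + B ^ 2) - B * (A + B) := by ring
        rw [this]
        exact dvd_sub hc₄ (Dvd.dvd.mul_right h4 _)
    · have h5 : (ℓ : ℤ) ∣ A * B := by
        have : A * B = (A + B) * (A + B) - (A ^ 2 + A * B + B ^ 2) := by ring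
        rw [this]
        exact dvd_sub (Dvd.dvd.mul_right h3 _) hc₄
      rcases hprime.dvd_or_dvd h5 with h4 | h4
      · exact ⟨h4, (dvd_add_right h4).mp h3⟩
      · exact ⟨(dvd_add_left h4).mp h3, h4⟩
  exact not_dvd_both P hℓ key.1 key.2

/-- a prime dividing `a b c` does not divide `c₄`. -/
theorem not_dvd_c₄ {ℓ : ℕ} (hℓ : ℓ.Prime) (h : (ℓ : ℤ) ∣ P.a * P.b * P.c) :
    ¬ (ℓ : ℤ) ∣ P.freyCurveInt.c₄ :=
  not_dvd_c₄_of_dvd_Δ P hℓ ((dvd_Δ_iff P hℓ).2 h)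

/-- **(CUT-D) on the Frey curve**, decomposition-group form. -/
theorem frey_dvd_of_decomposition {q : ℕ} (hq : q.Prime)
    (Q : ((P.freyCurveInt.map (Int.castRingHom ℚ))⁄(AlgebraicClosure ℚ)).Point)
    (hqQ : q • Q = 0) (hQ0 : Q ≠ 0)
    {ℓ : ℕ} (hℓ : ℓ.Prime) (hℓq : ℓ ≠ q) (hℓabc : (ℓ : ℤ) ∣ P.a * P.b * P.c)
    (A : ValuationSubring (AlgebraicClosure ℚ)) (hA : A.LiesOverPrime ℓ)
    (hQfix : ∀ σ ∈ A.decompositionSubgroup ℚ, σ • Q = Q)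
    (h0 : P.freyCurveInt.InZeroComponentAt A Q) : q ∣ ℓ - 1 ∨ q ∣ ℓ + 1 :=
  CutD.dvd_of_decomposition_nsmul hq P.freyCurveInt (freyInt_Δ_ne_zero P) Q hqQ hQ0 hℓ hℓq
    ((dvd_Δ_iff P hℓ).2 hℓabc) (not_dvd_c₄ P hℓ hℓabc) A hA hQfix h0

/-- **(CUT-D) on the Frey curve**, one-Frobenius form. -/
theorem frey_dvd_of_frobenius {q : ℕ} (hq : q.Prime)
    (Q : ((P.freyCurveInt.map (Int.castRingHom ℚ))⁄(AlgebraicClosure ℚ)).Point)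
    (hqQ : q • Q = 0) (hQ0 : Q ≠ 0)
    {ℓ : ℕ} (hℓ : ℓ.Prime) (hℓq : ℓ ≠ q) (hℓabc : (ℓ : ℤ) ∣ P.a * P.b * P.c)
    (A : ValuationSubring (AlgebraicClosure ℚ)) (hA : A.LiesOverPrime ℓ)
    (φ : GQ) (hφ : A.IsFrobeniusAt φ ℓ) (hQφ : φ • Q = Q)
    (h0 : P.freyCurveInt.InZeroComponentAt A Q) : q ∣ ℓ - 1 ∨ q ∣ ℓ + 1 :=
  CutD.dvd_of_frobenius hq P.freyCurveInt (freyInt_Δ_ne_zero P) Q hqQ hQ0 hℓ hℓq
    ((dvd_Δ_iff P hℓ).2 hℓabc) (not_dvd_c₄ P hℓ hℓabc) A hA φ hφ hQφ h0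

end Fermat.Agent.GZ.S12.FreyMult
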