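/-
CELL-M3 (S12) / node (C0) BASE + Frey constants (helper26; helper9's ASSIGN, board 6453).

From the FROZEN predicate `HasGaloisStableCofixedLine (K := ℚ̄) ℚ E p` (a line `N` of the
`ZMod p`-module `E[p]`, Galois stable, `≠ ⊥`, `≠ ⊤`, cofixed) to the level-one link of the chain
in POINT form: a subgroup `N ≤ E(ℚ̄)`, stable, cyclic of order `p ^ 1`, cofixed at level `p ^ 1`,
inside `E[p]`, with (DET) `σ x = χ_p(σ) x` on `N`.

* general integral model `W` (`E = W_ℚ`, the shape of `GZ/S12/Local`): `lineSub`, `mem_lineSub`,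
  `lineSub_stable`, `lineSub_cofixed`, `card_lineSub`, `isAddCyclic_lineSub`, `lineSub_det`,
  `exists_base`, `exists_base_stableSub`;
* Frey curve: `hasLine_iff` (frozen predicate on `P.freyCurve` ↔ on the model
  `P.freyCurveInt_ℚ`), `frey_nontrivial`, `frey_exists_base_model` (points of the MODEL, the type on
  which `Local.e0` lives), `frey_exists_base` (points of `P.freyCurve`),
  `frey_exists_base_stableSub` (the fields of `ChainInd.ChainInv … 1` except `can`);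
* `frey_two_torsion_fixed_model` : `G_ℚ` fixes `E[2]` pointwise, on the model;
* `frey_mult`, `frey_mult_iff`, `frey_not_dvd_Δ` : `Local.Mult P.freyCurveInt A ℓ ↔ ℓ ∣ abc`
  (every `ℓ`, `2` included), and the primes `ℓ ∤ abc` are good.
-/
import Mathlib
import Fermat.Agent.GZ.S12.DetCyc
import Fermat.Agent.GZ.S12.FreyMult
import Fermat.Agent.GZ.S12.Local
import Fermat.Agent.GZ.S12.CaseI
import Fermat.Agent.GZ.Dev.Flag

set_option autoImplicit false
set_option linter.unusedSectionVars false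

open Fermat.Agent.Common_helper32
open scoped WeierstrassCurve.Affine

namespace Fermat.Agent.GZ.S12.Base

open WeierstrassCurve WeierstrassCurve.Affine.Point Fermat.Agent.GE.ECAssembly
open Fermat.Agent.GZ.Dev

/-! ### the line of a general integral model, in point form -/

section Model

variable (W : WeierstrassCurve ℤ) (p : ℕ)

/-- the image of a `ZMod p`-line of `E[p]` in the group of points. -/
noncomputable def lineSub (N : Submodule (ZMod p) (TN W p)) : AddSubgroup (EQb W).Point :=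
  N.toAddSubgroup.map (Submodule.torsionBy ℤ (EQb W).Point (p : ℤ)).subtype.toAddMonoidHom

variable {W p}

theorem mem_lineSub {N : Submodule (ZMod p) (TN W p)} {x : (EQb W).Point} :
    x ∈ lineSub W p N ↔
      ∃ hx : x ∈ Submodule.torsionBy ℤ (EQb W).Point (p : ℤ), (⟨x, hx⟩ : TN W p) ∈ N := by
  constructor
  · rintro ⟨y, hy, rfl⟩
    exact ⟨y.2, hy⟩
  · rintro ⟨hx, hxN⟩
    exact ⟨⟨x, hx⟩, hxN, rfl⟩

theorem coe_mem_lineSub {N : Submodule (ZMod p) (TN W p)} {y : TN W p} (hy : y ∈ N) :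
    (y : (EQb W).Point) ∈ lineSub W p N :=
  ⟨y, hy, rfl⟩

/-- `N ≤ E[p]`. -/
theorem nsmul_eq_zero_of_mem_lineSub {N : Submodule (ZMod p) (TN W p)} {x : (EQb W).Point}
    (hx : x ∈ lineSub W p N) : p • x = 0 := by
  obtain ⟨hx', -⟩ := mem_lineSub.mp hx
  rw [Submodule.mem_torsionBy_iff, natCast_zsmul] at hx'
  exact hx'

theorem mem_torsionBy_of_nsmul {x : (EQb W).Point} (hx : p • x = 0) :
    x ∈ Submodule.torsionBy ℤ (EQb W).Point (p : ℤ) := by
  rw [Submodule.mem_torsionBy_iff, natCast_zsmul]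
  exact hx

/-- stability. -/
theorem lineSub_stable {N : Submodule (ZMod p) (TN W p)} (hstab : IsGaloisStable ℚ N) :
    ∀ σ : GQ, ∀ x ∈ lineSub W p N, σ • x ∈ lineSub W p N := by
  rintro σ x hx
  obtain ⟨hx', hxN⟩ := mem_lineSub.mp hx
  exact coe_mem_lineSub (hstab σ _ hxN)

/-- cofixed at level `p`. -/
theorem lineSub_cofixed {N : Submodule (ZMod p) (TN W p)}
    (hcof : ∀ (σ : GQ) (x : TN W p), σ • x - x ∈ N) :
    ∀ (σ : GQ) (x : (EQb W).Point), p • x = 0 → σ • x - x ∈ lineSub W p N := by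
  intro σ x hx
  exact coe_mem_lineSub (hcof σ ⟨x, mem_torsionBy_of_nsmul hx⟩)

/-- the point form and the line have the same cardinality. -/
theorem card_lineSub_eq (N : Submodule (ZMod p) (TN W p)) :
    Nat.card (lineSub W p N) = Nat.card N := by
  symm
  refine Nat.card_congr (Equiv.ofBijective
    (fun y : N => (⟨((y : TN W p) : (EQb W).Point), coe_mem_lineSub y.2⟩ : lineSub W p N))
    ⟨?_, ?_⟩)
  · intro y z hyz
    apply Subtype.ext
    apply Subtype.ext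
    exact congrArg (fun t : lineSub W p N => (t : (EQb W).Point)) hyz
  · rintro ⟨x, hx⟩
    obtain ⟨hx', hxN⟩ := mem_lineSub.mp hx
    exact ⟨⟨⟨x, hx'⟩, hxN⟩, rfl⟩

variable [hp : Fact p.Prime]

/-- a line of `E[p]` has `p` elements. -/
theorem card_line (hΔ : W.Δ ≠ 0) {N : Submodule (ZMod p) (TN W p)} (hbot : N ≠ ⊥)
    (htop : N ≠ ⊤) : Nat.card N = p := by
  classical
  have hΔ' := eqb_Δ_ne_zero W hΔ
  have hp1 : 1 ≤ p := hp.out.pos
  have hfin : Finite (TN W p) := finite_TN W hΔ p hp1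
  have hcardT : Nat.card (TN W p) = p ^ 2 := Fermat.Agent.GE.Tors.card_torsionBy hΔ' p hp1
  have hNdvd : Nat.card N.toAddSubgroup ∣ p ^ 2 := by
    rw [← hcardT]
    exact AddSubgroup.card_addSubgroup_dvd_card N.toAddSubgroup
  obtain ⟨i, hi, hi'⟩ := (Nat.dvd_prime_pow hp.out).mp hNdvd
  have hi0 : i ≠ 0 := by
    rintro rfl
    apply hbot
    rw [pow_zero] at hi'
    have hb : N.toAddSubgroup = ⊥ := AddSubgroup.card_eq_one.mp hi'
    exact Submodule.toAddSubgroup_injective (by rw [hb]; rfl)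
  have hi2 : i ≠ 2 := by
    rintro rfl
    apply htop
    have h' : Nat.card N.toAddSubgroup = Nat.card (TN W p) := by rw [hi', hcardT]
    have := (AddSubgroup.card_eq_iff_eq_top N.toAddSubgroup).mp h'
    exact Submodule.toAddSubgroup_injective (by rw [this]; rfl)
  have hi1 : i = 1 := by omega
  rw [hi1, pow_one] at hi'
  exact hi'

theorem card_lineSub (hΔ : W.Δ ≠ 0) {N : Submodule (ZMod p) (TN W p)} (hbot : N ≠ ⊥)
    (htop : N ≠ ⊤) : Nat.card (lineSub W p N) = p := by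
  rw [card_lineSub_eq, card_line hΔ hbot htop]

theorem isAddCyclic_lineSub (hΔ : W.Δ ≠ 0) {N : Submodule (ZMod p) (TN W p)} (hbot : N ≠ ⊥)
    (htop : N ≠ ⊤) : IsAddCyclic (lineSub W p N) :=
  isAddCyclic_of_prime_card (card_lineSub hΔ hbot htop)

/-- (DET) in point form (helper21's `DetCyc.smul_eq_cycloExp_nsmul`). -/
theorem lineSub_det (hΔ : W.Δ ≠ 0) (hnt : ∃ (σ : GQ) (x : TN W p), σ • x ≠ x)
    {N : Submodule (ZMod p) (TN W p)} (hstab : IsGaloisStable ℚ N) (hbot : N ≠ ⊥)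
    (htop : N ≠ ⊤) (hcof : ∀ (σ : GQ) (x : TN W p), σ • x - x ∈ N) :
    ∀ σ : GQ, ∀ x ∈ lineSub W p N, σ • x = ExtCitation.cycloExp p σ • x := by
  intro σ x hx
  obtain ⟨hx', hxN⟩ := mem_lineSub.mp hx
  have h := Fermat.Agent.GZ.S12.DetCyc.smul_eq_cycloExp_nsmul W hΔ p hnt N hstab hbot htop hcof σ
    ⟨x, hx'⟩ hxN
  have h' : ((σ • (⟨x, hx'⟩ : TN W p) : TN W p) : (EQb W).Point) =
      ((ExtCitation.cycloExp p σ • (⟨x, hx'⟩ : TN W p) : TN W p) : (EQb W).Point) :=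
    congrArg (fun t : TN W p => (t : (EQb W).Point)) h
  have e1 : ((σ • (⟨x, hx'⟩ : TN W p) : TN W p) : (EQb W).Point) = σ • x := rfl
  have e2 : ((ExtCitation.cycloExp p σ • (⟨x, hx'⟩ : TN W p) : TN W p) : (EQb W).Point) =
      ExtCitation.cycloExp p σ • x := by
    simp
  rw [← e1, h', e2]

/-- **(C0) BASE, model form.** -/
theorem exists_base (hΔ : W.Δ ≠ 0)
    (h : HasGaloisStableCofixedLine (K := Qb) ℚ (W.map (Int.castRingHom ℚ)).toAffine p) :
    ∃ N : AddSubgroup (EQb W).Point,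
      (∀ σ : GQ, ∀ x ∈ N, σ • x ∈ N) ∧ IsAddCyclic N ∧ Nat.card N = p ^ 1 ∧
      (∀ (σ : GQ) (x : (EQb W).Point), p ^ 1 • x = 0 → σ • x - x ∈ N) ∧
      (∀ x ∈ N, p • x = 0) ∧
      ((∃ (σ : GQ) (x : TN W p), σ • x ≠ x) →
        ∀ σ : GQ, ∀ x ∈ N, σ • x = ExtCitation.cycloExp p σ • x) := by
  obtain ⟨N, hstab, hbot, htop, hcof⟩ := h
  refine ⟨lineSub W p N, lineSub_stable hstab, isAddCyclic_lineSub hΔ hbot htop, ?_, ?_,
    fun x hx => nsmul_eq_zero_of_mem_lineSub hx,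
    fun hnt => lineSub_det hΔ hnt hstab hbot htop hcof⟩
  · rw [pow_one]
    exact card_lineSub hΔ hbot htop
  · intro σ x hx
    rw [pow_one] at hx
    exact lineSub_cofixed hcof σ x hx

/-- **(C0) BASE, model form, as a `StableSub`** (the fields of `ChainInd.ChainInv … 1` other than
`can`). -/
theorem exists_base_stableSub (hΔ : W.Δ ≠ 0)
    (hnt : ∃ (σ : GQ) (x : TN W p), σ • x ≠ x)
    (h : HasGaloisStableCofixedLine (K := Qb) ℚ (W.map (Int.castRingHom ℚ)).toAffine p) :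
    ∃ N : StableSub GQ (EQb W).Point,
      IsAddCyclic ↥N.U ∧ Nat.card ↥N.U = p ^ 1 ∧
      (∀ (σ : GQ) (t : (EQb W).Point), p • t = 0 → σ • t - t ∈ N.U) ∧
      (∀ (σ : GQ), ∀ x ∈ N.U, p • x = 0 → σ • x = ExtCitation.cycloExp p σ • x) ∧
      (∀ (σ : GQ) (x : (EQb W).Point), p ^ 1 • x = 0 → σ • x - x ∈ N.U) ∧
      (∀ x ∈ N.U, p • x = 0) := by
  obtain ⟨N, hstab, hcyc, hcard, hcof, hle, hdet⟩ := exists_base hΔ h
  refine ⟨⟨N, hstab⟩, hcyc, hcard, ?_, fun σ x hx _ => hdet hnt σ x hx, hcof, hle⟩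
  intro σ t ht
  exact hcof σ t (by rw [pow_one]; exact ht)

end Model

/-! ### the Frey curve -/

section Frey

variable (P : FreyPackage)

/-- the frozen predicate on `P.freyCurve` is the frozen predicate on the integral model. -/
theorem hasLine_iff :
    HasGaloisStableCofixedLine (K := Qb) ℚ P.freyCurve P.p ↔
      HasGaloisStableCofixedLine (K := Qb) ℚ
        (P.freyCurveInt.map (Int.castRingHom ℚ)).toAffine P.p := by
  rw [Fermat.Agent.S13.AtPSS.freyCurve_eq_map P]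

/-- `G_ℚ` does not act trivially on `E[p]` (no nonzero fixed point:
`S13/AtTwo.frey_no_fixed_point`). -/
theorem frey_nontrivial :
    ∃ (σ : GQ) (x : TN P.freyCurveInt P.p), σ • x ≠ x := by
  have : Fact P.p.Prime := ⟨P.pp⟩
  have hfix : ∀ x : Submodule.torsionBy ℤ (P.freyCurve⁄Qb).Point (P.p : ℤ),
      (∀ σ : GQ, σ • x = x) → x = 0 := fun x hx =>
    Fermat.Agent.S13.AtTwo.frey_no_fixed_point P x hx
  rw [Fermat.Agent.S13.AtPSS.freyCurve_eq_map P] at hfix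
  by_contra hcon
  push Not at hcon
  -- `E[p]` would be trivial
  have hΔ := Fermat.Agent.GZ.S12.FreyMult.freyInt_Δ_ne_zero P
  have hcardT : Nat.card (TN P.freyCurveInt P.p) = P.p ^ 2 :=
    Fermat.Agent.GE.Tors.card_torsionBy (eqb_Δ_ne_zero P.freyCurveInt hΔ) P.p P.pp.pos
  have hsub : Subsingleton (TN P.freyCurveInt P.p) :=
    ⟨fun x y => by rw [hfix x fun σ => hcon σ x, hfix y fun σ => hcon σ y]⟩
  have hfin : Finite (TN P.freyCurveInt P.p) := finite_TN P.freyCurveInt hΔ P.p P.pp.pos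
  have h1 : Nat.card (TN P.freyCurveInt P.p) = 1 := Nat.card_unique
  rw [hcardT] at h1
  have : 1 < P.p ^ 2 := Nat.one_lt_pow (by norm_num) P.pp.one_lt
  omega

/-- **(C0) BASE for the Frey curve, on the points of the integral model** (the type on which
`Local.e0` lives). -/
theorem frey_exists_base_model
    (h : HasGaloisStableCofixedLine (K := Qb) ℚ P.freyCurve P.p) :
    ∃ N : AddSubgroup (EQb P.freyCurveInt).Point,
      (∀ σ : GQ, ∀ x ∈ N, σ • x ∈ N) ∧ IsAddCyclic N ∧ Nat.card N = P.p ^ 1 ∧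
      (∀ (σ : GQ) (x : (EQb P.freyCurveInt).Point), P.p ^ 1 • x = 0 → σ • x - x ∈ N) ∧
      (∀ x ∈ N, P.p • x = 0) ∧
      (∀ σ : GQ, ∀ x ∈ N, σ • x = @ExtCitation.cycloExp P.p ⟨P.pp⟩ σ • x) := by
  have : Fact P.p.Prime := ⟨P.pp⟩
  obtain ⟨N, hstab, hcyc, hcard, hcof, hle, hdet⟩ :=
    exists_base (Fermat.Agent.GZ.S12.FreyMult.freyInt_Δ_ne_zero P) ((hasLine_iff P).mp h)
  exact ⟨N, hstab, hcyc, hcard, hcof, hle, hdet (frey_nontrivial P)⟩

/-- **(C0) BASE for the Frey curve, on the points of `P.freyCurve`** (helper9's spelling). -/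
theorem frey_exists_base
    (h : HasGaloisStableCofixedLine (K := Qb) ℚ P.freyCurve P.p) :
    ∃ N : AddSubgroup (P.freyCurve⁄Qb).Point,
      (∀ σ : GQ, ∀ x ∈ N, σ • x ∈ N) ∧ IsAddCyclic N ∧ Nat.card N = P.p ^ 1 ∧
      (∀ (σ : GQ) (x : (P.freyCurve⁄Qb).Point), P.p ^ 1 • x = 0 → σ • x - x ∈ N) ∧
      (∀ x ∈ N, P.p • x = 0) ∧
      (∀ σ : GQ, ∀ x ∈ N, σ • x = @ExtCitation.cycloExp P.p ⟨P.pp⟩ σ • x) := by
  have h' := frey_exists_base_model P h
  rw [Fermat.Agent.S13.AtPSS.freyCurve_eq_map P]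
  exact h'

/-- **(C0) BASE for the Frey curve as a `StableSub`**: the fields of `ChainInd.ChainInv … 1`
other than `can`. -/
theorem frey_exists_base_stableSub
    (h : HasGaloisStableCofixedLine (K := Qb) ℚ P.freyCurve P.p) :
    ∃ N : StableSub GQ (EQb P.freyCurveInt).Point,
      IsAddCyclic ↥N.U ∧ Nat.card ↥N.U = P.p ^ 1 ∧
      (∀ (σ : GQ) (t : (EQb P.freyCurveInt).Point), P.p • t = 0 → σ • t - t ∈ N.U) ∧
      (∀ (σ : GQ), ∀ x ∈ N.U, P.p • x = 0 →
        σ • x = @ExtCitation.cycloExp P.p ⟨P.pp⟩ σ • x) ∧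
      (∀ (σ : GQ) (x : (EQb P.freyCurveInt).Point), P.p ^ 1 • x = 0 → σ • x - x ∈ N.U) ∧
      (∀ x ∈ N.U, P.p • x = 0) := by
  have : Fact P.p.Prime := ⟨P.pp⟩
  exact exists_base_stableSub (Fermat.Agent.GZ.S12.FreyMult.freyInt_Δ_ne_zero P)
    (frey_nontrivial P) ((hasLine_iff P).mp h)

/-- **`G_ℚ` fixes `E[2]` pointwise**, on the integral model (helper27's
`CaseI.frey_two_torsion_fixed`). -/
theorem frey_two_torsion_fixed_model (σ : GQ) (x : (EQb P.freyCurveInt).Point)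
    (hx : 2 • x = 0) : σ • x = x := by
  have h : ∀ (σ : GQ) (x : (P.freyCurve⁄Qb).Point), 2 • x = 0 → σ • x = x :=
    Fermat.Agent.GZ.S12.CaseI.frey_two_torsion_fixed P
  rw [Fermat.Agent.S13.AtPSS.freyCurve_eq_map P] at h
  exact h σ x hx

/-- **multiplicative reduction of the Frey model at every prime of `abc`** (`2` included). -/
theorem frey_mult {ℓ : ℕ} (hℓ : ℓ.Prime) {A : ValuationSubring Qb} (hA : A.LiesOverPrime ℓ)
    (h : (ℓ : ℤ) ∣ P.a * P.b * P.c) : Fermat.Agent.GZ.S12.Local.Mult P.freyCurveInt A ℓ :=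
  ⟨hℓ, hA, Fermat.Agent.GZ.S12.FreyMult.freyInt_Δ_ne_zero P,
    (Fermat.Agent.GZ.S12.FreyMult.dvd_Δ_iff P hℓ).mpr h,
    Fermat.Agent.GZ.S12.FreyMult.not_dvd_c₄ P hℓ h⟩

theorem frey_mult_iff {ℓ : ℕ} {A : ValuationSubring Qb} :
    Fermat.Agent.GZ.S12.Local.Mult P.freyCurveInt A ℓ ↔
      ℓ.Prime ∧ A.LiesOverPrime ℓ ∧ (ℓ : ℤ) ∣ P.a * P.b * P.c :=
  ⟨fun h => ⟨h.prime, h.lies, (Fermat.Agent.GZ.S12.FreyMult.dvd_Δ_iff P h.prime).mp h.dvd_disc⟩,
    fun h => frey_mult P h.1 h.2.1 h.2.2⟩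

/-- the primes `ℓ ∤ abc` are primes of good reduction of the Frey model. -/
theorem frey_not_dvd_Δ {ℓ : ℕ} (hℓ : ℓ.Prime) (h : ¬ (ℓ : ℤ) ∣ P.a * P.b * P.c) :
    ¬ (ℓ : ℤ) ∣ P.freyCurveInt.Δ := fun hd =>
  h ((Fermat.Agent.GZ.S12.FreyMult.dvd_Δ_iff P hℓ).mp hd)

end Frey

end Fermat.Agent.GZ.S12.Base
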