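/-
CELL-M3 (S12) / (C+) THE INDUCTION, hypothesis form (helper94): from the chain step (`Adm.chain_step`,
S14) and (MINK) (`Adm.cofixed_of_inertia`), with the local structure and (CAN) as binders,

  `ChainInv … 1 → ∀ k ≥ 1, Nonempty (ChainInv … k)`,

and the shape consumed by helper26's `Finish.not_forall_chain`:
  `∀ k, ∃ N : AddSubgroup M, Finite N ∧ Nat.card N ≤ p ^ k ∧ ∀ P, p ^ k • P = 0 → τ • P - P ∈ N`.

`M` an abstract `G_ℚ`-module (`M := (E⁄ℚ̄).Point`), `χ : G_ℚ → ℕ` (`χ := cycloExp p`),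
`mult : ℕ → Prop` the multiplicative primes, `E0 A` the zero component at `A`.

Binders (one per node of helper9's DESIGN v1, board 6320):
* `hS14`     : `ExtVanishingCts p` (S14.result);
* `hcardTor` : `#M[p^j] = p^(2j)` (GE/Tors `card_torsionBy`);
* `hopen`    : the action on `M[m]` has open kernel (S13/Assembly);
* `hgood`    : inertia at a non-multiplicative prime acts trivially on `M[p^n]` (`goodInertia`;
               in case III `p` is multiplicative, so every non-multiplicative prime is `≠ p`);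
* `hI hfix hD hcnt` : (LOC) `(σ-1) M ⊆ E0 A` for `σ ∈ I_A`; `I_A` fixes `E0 A ⊓ M[p]` (`ℓ ≠ p`);
               `E0 A` is `D_A`-stable; `#(E0 A ⊓ M[p^n]) = p^n`;
* `hmultp`   : `p` is multiplicative (case III);
* `hcan`     : (CAN) as a function of the next subgroup: a stable cyclic `N'` of order `p^(k+1)`,
               level-one cofixed, with (DET), whose `p`-multiples are canonical, is canonical.
-/
import Mathlib
import Fermat.Agent.Common_helper32.FrobeniusExists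
import Fermat.Agent.GZ.S12.Adm
import Fermat.Agent.GZ.S12.AdmLoc

set_option autoImplicit false
set_option linter.unusedSectionVars false
set_option linter.unusedVariables false
set_option linter.style.haveILetI false

noncomputable section

namespace Fermat.Agent.GZ.S12.ChainInd

open Fermat.Agent.GZ.Dev Fermat.Agent.GZ.S12.AdmAbs Fermat.Agent.GZ.S12.Adm
  Fermat.Agent.GZ.S12.AdmLoc ExtCitation ValuationSubring

local notation "Qb" => AlgebraicClosure ℚ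
local notation "GQ" => (AlgebraicClosure ℚ ≃ₐ[ℚ] AlgebraicClosure ℚ)

variable (M : Type) [AddCommGroup M] [DistribMulAction GQ M] (p : ℕ) [hp : Fact p.Prime]

/-- **the invariant carried along the chain** (`Chain P k` of DESIGN v1 + (DET) + (CAN)). -/
structure ChainInv (χ : GQ → ℕ) (mult : ℕ → Prop) (E0 : ValuationSubring Qb → AddSubgroup M)
    (k : ℕ) where
  /-- the cyclic subgroup `N_k`. -/
  N : StableSub GQ M
  cyc : IsAddCyclic ↥N.U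
  card : Nat.card ↥N.U = p ^ k
  /-- level-one cofixed. -/
  cof1 : ∀ (σ : GQ) (t : M), p • t = 0 → σ • t - t ∈ N.U
  /-- (DET) on `N[p]`. -/
  det : ∀ (σ : GQ), ∀ x ∈ N.U, p • x = 0 → σ • x = χ σ • x
  /-- (CAN) at every multiplicative place. -/
  can : ∀ ℓ : ℕ, ℓ.Prime → mult ℓ → ∀ A : ValuationSubring Qb, A.LiesOverPrime ℓ → N.U ≤ E0 A
  /-- cofixed at level `k`. -/
  cofixed : ∀ (σ : GQ) (x : M), p ^ k • x = 0 → σ • x - x ∈ N.U

variable {M p}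

section Step

variable {mult : ℕ → Prop} {E0 : ValuationSubring Qb → AddSubgroup M}
  (hS14 : ExtVanishingCts p)
  (hcardTor : ∀ j : ℕ, Nat.card ↥(tor M (p ^ j)) = p ^ (2 * j))
  (hopen : ∀ m : ℕ, ∃ U : Subgroup GQ, IsOpen (U : Set GQ) ∧
    ∀ σ ∈ U, ∀ x : M, m • x = 0 → σ • x = x)
  (hgood : ∀ ℓ : ℕ, ℓ.Prime → ¬ mult ℓ → ∀ A : ValuationSubring Qb, A.LiesOverPrime ℓ →
    ∀ σ ∈ A.inertiaSubgroupIn ℚ, ∀ (n : ℕ) (x : M), p ^ n • x = 0 → σ • x = x)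
  (hI : ∀ ℓ : ℕ, ℓ.Prime → mult ℓ → ∀ A : ValuationSubring Qb, A.LiesOverPrime ℓ →
    ∀ σ ∈ A.inertiaSubgroupIn ℚ, ∀ x : M, σ • x - x ∈ E0 A)
  (hfix : ∀ ℓ : ℕ, ℓ.Prime → mult ℓ → ℓ ≠ p → ∀ A : ValuationSubring Qb, A.LiesOverPrime ℓ →
    ∀ σ ∈ A.inertiaSubgroupIn ℚ, ∀ x ∈ E0 A, p • x = 0 → σ • x = x)
  (hD : ∀ ℓ : ℕ, ℓ.Prime → mult ℓ → ∀ A : ValuationSubring Qb, A.LiesOverPrime ℓ →
    ∀ σ ∈ A.decompositionSubgroup ℚ, ∀ x ∈ E0 A, σ • x ∈ E0 A)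
  (hcnt : ∀ ℓ : ℕ, ℓ.Prime → mult ℓ → ∀ A : ValuationSubring Qb, A.LiesOverPrime ℓ →
    ∀ n : ℕ, Nat.card ↥(E0 A ⊓ tor M (p ^ n)) = p ^ n)
  (hmultp : mult p)

include hS14 hcardTor hopen hgood hI hfix hD hcnt hmultp in
/-- **(C+)**: one step of the chain. -/
theorem step (χ : GQ → ℕ) (hχ : χ = cycloExp p)
    (hcan : ∀ k : ℕ, 1 ≤ k → ∀ N' : StableSub GQ M, IsAddCyclic ↥N'.U →
      Nat.card ↥N'.U = p ^ (k + 1) →
      (∀ (σ : GQ) (t : M), p • t = 0 → σ • t - t ∈ N'.U) →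
      (∀ (σ : GQ), ∀ x ∈ N'.U, p • x = 0 → σ • x = χ σ • x) →
      (∀ ℓ : ℕ, ℓ.Prime → mult ℓ → ∀ A : ValuationSubring Qb, A.LiesOverPrime ℓ →
        ∀ x ∈ N'.U, p • x ∈ E0 A) →
      ∀ ℓ : ℕ, ℓ.Prime → mult ℓ → ∀ A : ValuationSubring Qb, A.LiesOverPrime ℓ → N'.U ≤ E0 A)
    {k : ℕ} (hk : 1 ≤ k) (c : ChainInv M p χ mult E0 k) :
    Nonempty (ChainInv M p χ mult E0 (k + 1)) := by
  have hpprime : p.Prime := hp.out
  haveI : Finite ↥c.N.U := Nat.finite_of_card_ne_zero (by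
    rw [c.card]; exact (pow_pos hp.out.pos k).ne')
  have hp2 : Nat.card ↥(tor M p) = p ^ 2 := by
    have := hcardTor 1
    rwa [pow_one, mul_one] at this
  have hdiv : ∀ n ∈ c.N.U, ∃ x : M, p • x = n := fun n hn =>
    exists_nsmul_eq_of_card k hp2 (hcardTor k) (hcardTor (k + 1)) n
      (mem_tor.mp (le_tor_of_card c.N.U c.card hn))
  have hdet : ∀ (σ : GQ), ∀ x ∈ c.N.U, p • x = 0 → σ • x = cycloExp p σ • x := by
    intro σ x hx hx0
    rw [← hχ]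
    exact c.det σ x hx hx0
  have hunr : ∀ ℓ : ℕ, ℓ.Prime → ℓ ≠ p → ∀ A : ValuationSubring Qb, A.LiesOverPrime ℓ →
      ∀ σ ∈ A.inertiaSubgroupIn ℚ, ∀ x : M, p • x ∈ c.N.U → σ • x - x ∈ c.N.U := by
    intro ℓ hℓ hℓp A hA
    by_cases hm : mult ℓ
    · exact hunr_of_local c.N hk c.card (E0 A) (A.inertiaSubgroupIn ℚ)
        (fun σ hσ x _ => hI ℓ hℓ hm A hA σ hσ x) (hfix ℓ hℓ hm hℓp A hA)
        (c.can ℓ hℓ hm A hA) (hcnt ℓ hℓ hm A hA k)
    · exact hunr_of_good c.N c.card (A.inertiaSubgroupIn ℚ)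
        (fun σ hσ x hx => hgood ℓ hℓ hm A hA σ hσ (k + 1) x hx)
  have hloc : ∀ A : ValuationSubring Qb, A.LiesOverPrime p → ∃ E0' : AddSubgroup M,
      (∀ σ ∈ A.decompositionSubgroup ℚ, ∀ x ∈ E0', σ • x ∈ E0') ∧ c.N.U ≤ E0' ∧
      (∀ t ∈ E0', p • t = 0 → t ∈ c.N.U) ∧ ∃ x ∈ E0', p • x ∈ c.N.U ∧ x ∉ c.N.U := by
    intro A hA
    refine ⟨E0 A, hloc_of_local c.N hk c.cyc c.card (E0 A) (A.decompositionSubgroup ℚ)
      (hD p hpprime hmultp A hA) (c.can p hpprime hmultp A hA) ?_ (hcnt p hpprime hmultp A hA k)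
      (hcnt p hpprime hmultp A hA (k + 1))⟩
    have := hcnt p hpprime hmultp A hA 1
    rwa [pow_one] at this
  obtain ⟨N', hNN', hcyc', hcard', hN'p, hpN'⟩ :=
    chain_step hS14 c.N hk c.cyc c.card hp2 hdiv c.cof1 hdet hunr hloc (hopen _)
  have hcof1' : ∀ (σ : GQ) (t : M), p • t = 0 → σ • t - t ∈ N'.U := fun σ t ht =>
    hNN' (c.cof1 σ t ht)
  have hdet' : ∀ (σ : GQ), ∀ x ∈ N'.U, p • x = 0 → σ • x = χ σ • x := fun σ x hx hx0 =>
    c.det σ x (hN'p x hx hx0) hx0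
  have hcan' := hcan k hk N' hcyc' hcard' hcof1' hdet'
    (fun ℓ hℓ hm A hA x hx => c.can ℓ hℓ hm A hA (hpN' x hx))
  have hcofixed' : ∀ (σ : GQ) (x : M), p ^ (k + 1) • x = 0 → σ • x - x ∈ N'.U := by
    apply cofixed_of_inertia N' (p ^ (k + 1)) (hopen _)
    intro ℓ hℓ
    obtain ⟨A, hA⟩ := Fermat.Agent.Common_helper32.exists_liesOverPrime ℓ hℓ
    refine ⟨A, hA, ?_⟩
    by_cases hm : mult ℓ
    · exact hI_of_local N'.U hcard' (E0 A) (A.inertiaSubgroupIn ℚ)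
        (fun σ hσ x _ => hI ℓ hℓ hm A hA σ hσ x) (hcan' ℓ hℓ hm A hA) (hcnt ℓ hℓ hm A hA (k + 1))
    · exact hI_of_good N'.U (p ^ (k + 1)) (A.inertiaSubgroupIn ℚ)
        (fun σ hσ x hx => hgood ℓ hℓ hm A hA σ hσ (k + 1) x hx)
  exact ⟨{ N := N', cyc := hcyc', card := hcard', cof1 := hcof1', det := hdet', can := hcan',
           cofixed := hcofixed' }⟩

include hS14 hcardTor hopen hgood hI hfix hD hcnt hmultp in
/-- **the whole chain**: `ChainInv 1 ⟹ ChainInv k` for every `k ≥ 1`. -/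
theorem chain_all (χ : GQ → ℕ) (hχ : χ = cycloExp p)
    (hcan : ∀ k : ℕ, 1 ≤ k → ∀ N' : StableSub GQ M, IsAddCyclic ↥N'.U →
      Nat.card ↥N'.U = p ^ (k + 1) →
      (∀ (σ : GQ) (t : M), p • t = 0 → σ • t - t ∈ N'.U) →
      (∀ (σ : GQ), ∀ x ∈ N'.U, p • x = 0 → σ • x = χ σ • x) →
      (∀ ℓ : ℕ, ℓ.Prime → mult ℓ → ∀ A : ValuationSubring Qb, A.LiesOverPrime ℓ →
        ∀ x ∈ N'.U, p • x ∈ E0 A) →
      ∀ ℓ : ℕ, ℓ.Prime → mult ℓ → ∀ A : ValuationSubring Qb, A.LiesOverPrime ℓ → N'.U ≤ E0 A)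
    (c1 : ChainInv M p χ mult E0 1) :
    ∀ k : ℕ, 1 ≤ k → Nonempty (ChainInv M p χ mult E0 k) := by
  intro k hk
  induction k, hk using Nat.le_induction with
  | base => exact ⟨c1⟩
  | succ k hk ih =>
    obtain ⟨c⟩ := ih
    exact step hS14 hcardTor hopen hgood hI hfix hD hcnt hmultp χ hχ hcan hk c

include hS14 hcardTor hopen hgood hI hfix hD hcnt hmultp in
/-- **the shape consumed by `Finish.not_forall_chain`.** -/
theorem forall_chain (χ : GQ → ℕ) (hχ : χ = cycloExp p)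
    (hcan : ∀ k : ℕ, 1 ≤ k → ∀ N' : StableSub GQ M, IsAddCyclic ↥N'.U →
      Nat.card ↥N'.U = p ^ (k + 1) →
      (∀ (σ : GQ) (t : M), p • t = 0 → σ • t - t ∈ N'.U) →
      (∀ (σ : GQ), ∀ x ∈ N'.U, p • x = 0 → σ • x = χ σ • x) →
      (∀ ℓ : ℕ, ℓ.Prime → mult ℓ → ∀ A : ValuationSubring Qb, A.LiesOverPrime ℓ →
        ∀ x ∈ N'.U, p • x ∈ E0 A) →
      ∀ ℓ : ℕ, ℓ.Prime → mult ℓ → ∀ A : ValuationSubring Qb, A.LiesOverPrime ℓ → N'.U ≤ E0 A)
    (c1 : ChainInv M p χ mult E0 1) (τ : GQ) :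
    ∀ k : ℕ, ∃ N : AddSubgroup M, Finite ↥N ∧ Nat.card ↥N ≤ p ^ k ∧
      ∀ P : M, p ^ k • P = 0 → τ • P - P ∈ N := by
  intro k
  rcases Nat.eq_zero_or_pos k with rfl | hk
  · refine ⟨⊥, inferInstance, by simp, fun P hP => ?_⟩
    rw [pow_zero, one_nsmul] at hP
    rw [hP, smul_zero, sub_zero]
    exact AddSubgroup.zero_mem _
  · obtain ⟨c⟩ := chain_all hS14 hcardTor hopen hgood hI hfix hD hcnt hmultp χ hχ hcan c1 k hk
    haveI : Finite ↥c.N.U := Nat.finite_of_card_ne_zero (by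
      rw [c.card]; exact (pow_pos hp.out.pos k).ne')
    exact ⟨c.N.U, inferInstance, le_of_eq c.card, fun P hP => c.cofixed τ P hP⟩

end Step

end Fermat.Agent.GZ.S12.ChainInd
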