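/-
CELL-M3 (S12) / (C0) BASE, chain form (helper26): the level-one invariant
`ChainInd.ChainInv … 1` of helper94's induction for the Frey curve, from the FROZEN predicate
`HasGaloisStableCofixedLine (K := ℚ̄) ℚ P.freyCurve P.p`, with the field `can` (helper92's
`Canon.can_one_of_nodes`) as the ONLY binder.

* `chainInv_one` : general integral model `W` (`Δ ≠ 0`, `G_ℚ` non-trivial on `E[p]`);
* `frey_chainInv_one` : the Frey curve, `M := (EQb P.freyCurveInt).Point`, `χ := cycloExp P.p`.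
-/
import Mathlib
import Fermat.Agent.GZ.S12.Base
import Fermat.Agent.GZ.S12.ChainInd

set_option autoImplicit false
set_option linter.unusedSectionVars false

open Fermat.Agent.Common_helper32
open scoped WeierstrassCurve.Affine

namespace Fermat.Agent.GZ.S12.Base

open WeierstrassCurve WeierstrassCurve.Affine.Point Fermat.Agent.GE.ECAssembly
open Fermat.Agent.GZ.Dev Fermat.Agent.GZ.S12.ChainInd

/-- **the level-one invariant, general model**: `can` is the only binder besides the frozen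
predicate. -/
theorem chainInv_one (W : WeierstrassCurve ℤ) (p : ℕ) [hp : Fact p.Prime] (hΔ : W.Δ ≠ 0)
    (hnt : ∃ (σ : GQ) (x : TN W p), σ • x ≠ x)
    (h : HasGaloisStableCofixedLine (K := Qb) ℚ (W.map (Int.castRingHom ℚ)).toAffine p)
    (mult : ℕ → Prop) (E0 : ValuationSubring Qb → AddSubgroup (EQb W).Point)
    (hcan : ∀ N : StableSub GQ (EQb W).Point, IsAddCyclic ↥N.U → Nat.card ↥N.U = p ^ 1 →
      (∀ (σ : GQ) (t : (EQb W).Point), p • t = 0 → σ • t - t ∈ N.U) →
      (∀ (σ : GQ), ∀ x ∈ N.U, p • x = 0 → σ • x = ExtCitation.cycloExp p σ • x) →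
      ∀ ℓ : ℕ, ℓ.Prime → mult ℓ → ∀ A : ValuationSubring Qb, A.LiesOverPrime ℓ → N.U ≤ E0 A) :
    Nonempty (ChainInv (EQb W).Point p (ExtCitation.cycloExp p) mult E0 1) := by
  obtain ⟨N, hcyc, hcard, hcof1, hdet, hcof, -⟩ := exists_base_stableSub hΔ hnt h
  exact ⟨{ N := N, cyc := hcyc, card := hcard, cof1 := hcof1, det := hdet,
           can := hcan N hcyc hcard hcof1 hdet, cofixed := hcof }⟩

/-- **the level-one invariant of the Frey curve** (`c1` of `ChainInd.forall_chain2`). -/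
theorem frey_chainInv_one (P : FreyPackage)
    (h : HasGaloisStableCofixedLine (K := Qb) ℚ P.freyCurve P.p)
    (mult : ℕ → Prop) (E0 : ValuationSubring Qb → AddSubgroup (EQb P.freyCurveInt).Point)
    (hcan : ∀ N : StableSub GQ (EQb P.freyCurveInt).Point, IsAddCyclic ↥N.U →
      Nat.card ↥N.U = P.p ^ 1 →
      (∀ (σ : GQ) (t : (EQb P.freyCurveInt).Point), P.p • t = 0 → σ • t - t ∈ N.U) →
      (∀ (σ : GQ), ∀ x ∈ N.U, P.p • x = 0 →
        σ • x = @ExtCitation.cycloExp P.p ⟨P.pp⟩ σ • x) →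
      ∀ ℓ : ℕ, ℓ.Prime → mult ℓ → ∀ A : ValuationSubring Qb, A.LiesOverPrime ℓ → N.U ≤ E0 A) :
    Nonempty (ChainInv (EQb P.freyCurveInt).Point P.p
      (@ExtCitation.cycloExp P.p ⟨P.pp⟩) mult E0 1) := by
  have : Fact P.p.Prime := ⟨P.pp⟩
  exact chainInv_one P.freyCurveInt P.p (Fermat.Agent.GZ.S12.FreyMult.freyInt_Δ_ne_zero P)
    (frey_nontrivial P) ((hasLine_iff P).mp h) mult E0 hcan

end Fermat.Agent.GZ.S12.Base
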