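/-
CELL-M3 / S12, leaf CASE II (helper26; helper9's DESIGN v1, board 6320): **a cofixed line forces
`p ∣ #W̃(𝔽_q)` at every good prime `q ≠ p`**, hence `p ≤ q² + 1`; at `q = 3` this excludes every
`p ≥ 11`.

`W/ℤ`, `Δ ≠ 0`, `q ≠ p` good, `τ` a Frobenius at `A ∣ q`, `N` a finite subgroup of `W(ℚ̄)` with
`#N ≤ p` and `(τ - 1) E[p] ⊆ N`.  With `c = q + 1 - a_q = #W̃(𝔽_q)` the relation
`τ² - a_q τ + q = 0` on `E[p]` gives `c • E[p] ⊆ N` (`Finish.zsmul_eq_of_frobRel`); if `p ∤ c`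
then `c` is invertible mod `p` and `E[p] ⊆ N`, i.e. `p² ≤ p`.

* `dvd_of_frob_sub_mem`   : `(p : ℤ) ∣ q + 1 - a_q(W)`;
* `le_of_frob_sub_mem`    : `p ≤ q ^ 2 + 1`;
* `false_of_good_three`   : `3` good, `11 ≤ p`, `N` cofixed for ALL of `G_ℚ` ⟹ `False`;
* `not_hasGaloisStableCofixedLine_of_good_three` : the frozen predicate on `W_ℚ`;
* `frey_caseII` : the frozen predicate on `P.freyCurve`, for a Frey package with
  `3 ∤ Δ(freyCurveInt)`.
-/
import Fermat.Agent.GZ.S12.Finish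
import Fermat.Agent.S13.AtPSS
import Fermat.Prelude.Def_FLTPrelim_CofixedLine

set_option autoImplicit false

open Fermat.Agent.Common_helper32
open scoped WeierstrassCurve.Affine

namespace Fermat.Agent.GZ.S12.CaseII

open WeierstrassCurve WeierstrassCurve.Affine.Point Fermat.Agent.GE.ECAssembly
open Fermat.Agent.GZ.S12.Finish

section General

variable (W : WeierstrassCurve ℤ)

/-- `c • P ∈ N` for `P ∈ E[m]`, `c = q + 1 - a_q`, when `(τ - 1) E[m] ⊆ N` (`m = lam ^ n`). -/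
theorem zsmul_mem_of_frob_sub_mem {lam : ℕ} (hlam : lam.Prime) (n : ℕ) {q : ℕ}
    (hq : q.Prime) (hql : q ≠ lam) (hgood : ¬ (q : ℤ) ∣ W.Δ) (A : ValuationSubring Qb)
    (hA : A.LiesOverPrime q) (τ : GQ) (hτ : A.IsFrobeniusAt τ q)
    (N : AddSubgroup (EQb W).Point)
    (hN : ∀ P : (EQb W).Point, lam ^ n • P = 0 → τ • P - P ∈ N)
    (P : (EQb W).Point) (hP : lam ^ n • P = 0) :
    ((q : ℤ) + 1 - W.apOfModel q) • P ∈ N := by
  have hrel := Fermat.Agent.GE.ECFinal.frobRel W hlam n q hq hql hgood A hA τ hτ P hP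
  rw [zsmul_eq_of_frobRel W hrel]
  refine N.neg_mem (hN _ ?_)
  have h1 : lam ^ n • (τ • P) = 0 := by rw [← smul_nsmul_point, hP, smul_zero_point]
  have h2 : lam ^ n • ((2 - W.apOfModel q) • P) = 0 := by
    rw [← natCast_zsmul, smul_smul, mul_comm, ← smul_smul, natCast_zsmul, hP, zsmul_zero]
  rw [nsmul_add, nsmul_sub, h1, hP, h2, sub_zero, add_zero]

/-- **`p ∣ #W̃(𝔽_q)`** from a subgroup `N` of order `≤ p` containing `(τ - 1) E[p]`. -/
theorem dvd_of_frob_sub_mem (hΔ : W.Δ ≠ 0) {p : ℕ} (hp : p.Prime) {q : ℕ}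
    (hq : q.Prime) (hqp : q ≠ p) (hgood : ¬ (q : ℤ) ∣ W.Δ) (A : ValuationSubring Qb)
    (hA : A.LiesOverPrime q) (τ : GQ) (hτ : A.IsFrobeniusAt τ q)
    (N : AddSubgroup (EQb W).Point) [Finite N] (hNcard : Nat.card N ≤ p)
    (hN : ∀ P : (EQb W).Point, p • P = 0 → τ • P - P ∈ N) :
    (p : ℤ) ∣ (q : ℤ) + 1 - W.apOfModel q := by
  classical
  by_contra hnd
  set c : ℤ := (q : ℤ) + 1 - W.apOfModel q with hc
  have hΔ' := eqb_Δ_ne_zero W hΔ
  have hp1 : 1 ≤ p := hp.pos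
  have hcop : IsCoprime c (p : ℤ) := by
    rw [isCoprime_comm]
    exact (Nat.prime_iff_prime_int.mp hp).coprime_iff_not_dvd.mpr hnd
  obtain ⟨d, e, hde⟩ := hcop
  have hN' : ∀ P : (EQb W).Point, p ^ 1 • P = 0 → τ • P - P ∈ N := by
    intro P hP
    rw [pow_one] at hP
    exact hN P hP
  -- `E[p] ⊆ N`
  have hsub : ∀ P : (EQb W).Point, p • P = 0 → P ∈ N := by
    intro P hP
    have hcP : c • P ∈ N :=
      zsmul_mem_of_frob_sub_mem W hp 1 hq hqp hgood A hA τ hτ N hN' P (by rwa [pow_one])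
    have hP' : (p : ℤ) • P = 0 := by rw [natCast_zsmul, hP]
    have e1 : P = d • (c • P) := by
      have h1 : P = (d * c + e * (p : ℤ)) • P := by rw [hde, one_zsmul]
      have h2 : (d * c + e * (p : ℤ)) • P = d • (c • P) + e • ((p : ℤ) • P) := by module
      rw [h2, hP', zsmul_zero, add_zero] at h1
      exact h1
    rw [e1]
    exact N.zsmul_mem hcP d
  have hcard : Nat.card {P : (EQb W).Point // p • P = 0} = p ^ 2 :=
    Fermat.Agent.GE.Tors.card_torsion hΔ' p hp1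
  have hle : Nat.card {P : (EQb W).Point // p • P = 0} ≤ Nat.card N :=
    Nat.card_le_card_of_injective (fun x => (⟨x.1, hsub x.1 x.2⟩ : N)) (by
      intro x y hxy
      have h := congrArg Subtype.val hxy
      exact Subtype.ext h)
  rw [hcard] at hle
  have h2 : 2 ≤ p := hp.two_le
  nlinarith

/-- `p ≤ q² + 1`. -/
theorem le_of_frob_sub_mem (hΔ : W.Δ ≠ 0) {p : ℕ} (hp : p.Prime) {q : ℕ}
    (hq : q.Prime) (hqp : q ≠ p) (hgood : ¬ (q : ℤ) ∣ W.Δ) (A : ValuationSubring Qb)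
    (hA : A.LiesOverPrime q) (τ : GQ) (hτ : A.IsFrobeniusAt τ q)
    (N : AddSubgroup (EQb W).Point) [Finite N] (hNcard : Nat.card N ≤ p)
    (hN : ∀ P : (EQb W).Point, p • P = 0 → τ • P - P ∈ N) : p ≤ q ^ 2 + 1 := by
  have : Fact q.Prime := ⟨hq⟩
  have hdvd := dvd_of_frob_sub_mem W hΔ hp hq hqp hgood A hA τ hτ N hNcard hN
  rw [add_one_sub_apOfModel W q] at hdvd
  have h1 : p ∣ Nat.card (W.reductionMod q).toAffine.Point := Int.natCast_dvd_natCast.mp hdvd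
  exact (Nat.le_of_dvd (one_le_card_reduction W q) h1).trans (card_reduction_le W q)

/-- **CASE II, group form**: `3` good, `11 ≤ p`; no subgroup of order `≤ p` is cofixed by all
of `G_ℚ` on `E[p]`. -/
theorem false_of_good_three (hΔ : W.Δ ≠ 0) {p : ℕ} (hp : p.Prime) (hp11 : 11 ≤ p)
    (h3 : ¬ (3 : ℤ) ∣ W.Δ) (N : AddSubgroup (EQb W).Point) [Finite N] (hNcard : Nat.card N ≤ p)
    (hN : ∀ σ : GQ, ∀ P : (EQb W).Point, p • P = 0 → σ • P - P ∈ N) : False := by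
  obtain ⟨A, τ, hA, hτ⟩ := exists_isFrobeniusAt 3 Nat.prime_three
  have h3' : ¬ ((3 : ℕ) : ℤ) ∣ W.Δ := by simpa using h3
  have := le_of_frob_sub_mem W hΔ hp Nat.prime_three (by omega) h3' A hA τ hτ N hNcard (hN τ)
  omega

end General

/-! ### the frozen predicate -/

section Frozen

variable (W : WeierstrassCurve ℤ)

/-- **CASE II, frozen form** on `W_ℚ`. -/
theorem not_hasGaloisStableCofixedLine_of_good_three (hΔ : W.Δ ≠ 0) {p : ℕ} (hp : p.Prime)
    (hp11 : 11 ≤ p) (h3 : ¬ (3 : ℤ) ∣ W.Δ) :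
    ¬ HasGaloisStableCofixedLine (K := Qb) ℚ (W.map (Int.castRingHom ℚ)).toAffine p := by
  classical
  rintro ⟨N, -, -, htop, hcof⟩
  have hΔ' := eqb_Δ_ne_zero W hΔ
  have hp1 : 1 ≤ p := hp.pos
  have hfin : Finite (Submodule.torsionBy ℤ (EQb W).Point (p : ℤ)) :=
    Fermat.Agent.GE.Tors.finite_torsionBy hΔ' p hp1
  have hcardT : Nat.card (Submodule.torsionBy ℤ (EQb W).Point (p : ℤ)) = p ^ 2 :=
    Fermat.Agent.GE.Tors.card_torsionBy hΔ' p hp1
  -- `#N ≤ p`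
  have hNdvd : Nat.card N.toAddSubgroup ∣ p ^ 2 := by
    rw [← hcardT]
    exact AddSubgroup.card_addSubgroup_dvd_card N.toAddSubgroup
  have hNne : Nat.card N.toAddSubgroup ≠ p ^ 2 := by
    intro h
    apply htop
    have h' : Nat.card N.toAddSubgroup =
        Nat.card (Submodule.torsionBy ℤ (EQb W).Point (p : ℤ)) := by rw [h, hcardT]
    have := AddSubgroup.card_eq_iff_eq_top (N.toAddSubgroup) |>.mp h'
    exact Submodule.toAddSubgroup_injective (by rw [this]; rfl)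
  have hNle : Nat.card N.toAddSubgroup ≤ p := by
    obtain ⟨i, hi, hi'⟩ := (Nat.dvd_prime_pow hp).mp hNdvd
    rw [hi'] at hNne ⊢
    have : i ≠ 2 := fun h => hNne (by rw [h])
    have hi1 : i ≤ 1 := by omega
    calc p ^ i ≤ p ^ 1 := Nat.pow_le_pow_right hp.pos hi1
      _ = p := pow_one p
  -- the image of `N` in the group of points
  let N' : AddSubgroup (EQb W).Point :=
    N.toAddSubgroup.map (Submodule.torsionBy ℤ (EQb W).Point (p : ℤ)).subtype.toAddMonoidHom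
  have hfinN' : Finite N' := by
    have : Finite N.toAddSubgroup := Finite.of_injective (fun x => (x : Submodule.torsionBy ℤ
      (EQb W).Point (p : ℤ))) Subtype.val_injective
    exact Finite.of_surjective (fun x : N.toAddSubgroup =>
      (⟨(x : Submodule.torsionBy ℤ (EQb W).Point (p : ℤ)).1,
        ⟨x.1, x.2, rfl⟩⟩ : N')) (by
      rintro ⟨y, ⟨x, hx, rfl⟩⟩
      exact ⟨⟨x, hx⟩, rfl⟩)
  have hcardN' : Nat.card N' ≤ p := by
    have : Finite N.toAddSubgroup := Finite.of_injective (fun x => (x : Submodule.torsionBy ℤ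
      (EQb W).Point (p : ℤ))) Subtype.val_injective
    refine le_trans ?_ hNle
    exact Nat.card_le_card_of_surjective (fun x : N.toAddSubgroup =>
      (⟨(x : Submodule.torsionBy ℤ (EQb W).Point (p : ℤ)).1,
        ⟨x.1, x.2, rfl⟩⟩ : N')) (by
      rintro ⟨y, ⟨x, hx, rfl⟩⟩
      exact ⟨⟨x, hx⟩, rfl⟩)
  refine false_of_good_three W hΔ hp hp11 h3 N' hcardN' ?_
  intro σ P hP
  have hPm : P ∈ Submodule.torsionBy ℤ (EQb W).Point (p : ℤ) := by
    rw [Submodule.mem_torsionBy_iff, natCast_zsmul]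
    exact hP
  have h := hcof σ ⟨P, hPm⟩
  exact ⟨σ • (⟨P, hPm⟩ : Submodule.torsionBy ℤ (EQb W).Point (p : ℤ)) - ⟨P, hPm⟩, h, rfl⟩

/-- **CASE II for a Frey package**: if `3 ∤ Δ(freyCurveInt)` (i.e. `3 ∤ abc`) then the Frey
curve has no Galois-stable cofixed line (`11 ≤ p`). -/
theorem frey_caseII (P : FreyPackage) (hp11 : 11 ≤ P.p) (hΔ : P.freyCurveInt.Δ ≠ 0)
    (h3 : ¬ (3 : ℤ) ∣ P.freyCurveInt.Δ) :
    ¬ HasGaloisStableCofixedLine (K := AlgebraicClosure ℚ) ℚ P.freyCurve P.p := by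
  rw [Fermat.Agent.S13.AtPSS.freyCurve_eq_map P]
  exact not_hasGaloisStableCofixedLine_of_good_three P.freyCurveInt hΔ P.pp hp11 h3

end Frozen

end Fermat.Agent.GZ.S12.CaseII
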