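/-
CELL-M3 (S12) / (C+) THE INDUCTION, hypothesis form, v2 (helper94): same as `ChainInd.lean` with the
`hopen` binder restricted to the `p`-power torsion,
  `hopen : ∀ n, ∃ U open, ∀ σ ∈ U, ∀ x, p ^ n • x = 0 → σ • x = x`
(the v1 binder `∀ m, …` is unsatisfiable at `m = 0`).  USE `step2`, `chain_all2`, `forall_chain2`.
-/
import Mathlib
import Fermat.Agent.GZ.S12.ChainInd

set_option autoImplicit false
set_option linter.unusedSectionVars false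
set_option linter.unusedVariables false
set_option linter.style.haveILetI false

noncomputable section

namespace Fermat.Agent.GZ.S12.ChainInd

open Fermat.Agent.GZ.Dev Fermat.Agent.GZ.S12.AdmAbs Fermat.Agent.GZ.S12.Adm
  Fermat.Agent.GZ.S12.AdmLoc ExtCitation ValuationSubring

local notation "Qb" => AlgebraicClosure ℚ
local notation "GQ" => (AlgebraicClosure ℚ ≃ₐ[ℚ] AlgebraicClosure ℚ)

variable {M : Type} [AddCommGroup M] [DistribMulAction GQ M] {p : ℕ} [hp : Fact p.Prime]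

section Step2

variable {mult : ℕ → Prop} {E0 : ValuationSubring Qb → AddSubgroup M}
  (hS14 : ExtVanishingCts p)
  (hcardTor : ∀ j : ℕ, Nat.card ↥(tor M (p ^ j)) = p ^ (2 * j))
  (hopen : ∀ n : ℕ, ∃ U : Subgroup GQ, IsOpen (U : Set GQ) ∧
    ∀ σ ∈ U, ∀ x : M, p ^ n • x = 0 → σ • x = x)
  (hgood : ∀ ℓ : ℕ, ℓ.Prime → ¬ mult ℓ → ∀ A : ValuationSubring Qb, A.LiesOverPrime ℓ →
    ∀ σ ∈ A.inertiaSubgroupIn ℚ, ∀ (n : ℕ) (x : M), p ^ n • x = 0 → σ • x = x)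
  (hI : ∀ ℓ : ℕ, ℓ.Prime → mult ℓ → ∀ A : ValuationSubring Qb, A.LiesOverPrime ℓ →
    ∀ σ ∈ A.inertiaSubgroupIn ℚ, ∀ x : M, σ • x - x ∈ E0 A)
  (hfix : ∀ ℓ : ℕ, ℓ.Prime → mult ℓ → ℓ ≠ p → ∀ A : ValuationSubring Qb, A.LiesOverPrime ℓ →
    ∀ σ ∈ A.inertiaSubgroupIn ℚ, ∀ x ∈ E0 A, p • x = 0 → σ • x = x)
  (hD : ∀ ℓ : ℕ, ℓ.Prime → mult ℓ → ∀ A : ValuationSubring Qb, A.LiesOverPrime ℓ →
    ∀ σ ∈ A.decompositionSubgroup ℚ, ∀ x ∈ E0 A, σ • x ∈ E0 A)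
  (hcnt : ∀ ℓ : ℕ, ℓ.Prime → mult ℓ → ∀ A : ValuationSubring Qb, A.LiesOverPrime ℓ →
    ∀ n : ℕ, Nat.card ↥(E0 A ⊓ tor M (p ^ n)) = p ^ n)
  (hmultp : mult p)

include hS14 hcardTor hopen hgood hI hfix hD hcnt hmultp in
/-- **(C+)**: one step of the chain. -/
theorem step2 (χ : GQ → ℕ) (hχ : χ = cycloExp p)
    (hcan : ∀ k : ℕ, 1 ≤ k → ∀ N' : StableSub GQ M, IsAddCyclic ↥N'.U →
      Nat.card ↥N'.U = p ^ (k + 1) →
      (∀ (σ : GQ) (t : M), p • t = 0 → σ • t - t ∈ N'.U) →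
      (∀ (σ : GQ), ∀ x ∈ N'.U, p • x = 0 → σ • x = χ σ • x) →
      (∀ ℓ : ℕ, ℓ.Prime → mult ℓ → ∀ A : ValuationSubring Qb, A.LiesOverPrime ℓ →
        ∀ x ∈ N'.U, p • x ∈ E0 A) →
      ∀ ℓ : ℕ, ℓ.Prime → mult ℓ → ∀ A : ValuationSubring Qb, A.LiesOverPrime ℓ → N'.U ≤ E0 A)
    {k : ℕ} (hk : 1 ≤ k) (c : ChainInv M p χ mult E0 k) :
    Nonempty (ChainInv M p χ mult E0 (k + 1)) := by
  have hpprime : p.Prime := hp.out
  haveI : Finite ↥c.N.U := Nat.finite_of_card_ne_zero (by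
    rw [c.card]; exact (pow_pos hp.out.pos k).ne')
  have hp2 : Nat.card ↥(tor M p) = p ^ 2 := by
    have := hcardTor 1
    rwa [pow_one, mul_one] at this
  have hdiv : ∀ n ∈ c.N.U, ∃ x : M, p • x = n := fun n hn =>
    exists_nsmul_eq_of_card k hp2 (hcardTor k) (hcardTor (k + 1)) n
      (mem_tor.mp (le_tor_of_card c.N.U c.card hn))
  have hdet : ∀ (σ : GQ), ∀ x ∈ c.N.U, p • x = 0 → σ • x = cycloExp p σ • x := by
    intro σ x hx hx0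
    rw [← hχ]
    exact c.det σ x hx hx0
  have hunr : ∀ ℓ : ℕ, ℓ.Prime → ℓ ≠ p → ∀ A : ValuationSubring Qb, A.LiesOverPrime ℓ →
      ∀ σ ∈ A.inertiaSubgroupIn ℚ, ∀ x : M, p • x ∈ c.N.U → σ • x - x ∈ c.N.U := by
    intro ℓ hℓ hℓp A hA
    by_cases hm : mult ℓ
    · exact hunr_of_local c.N hk c.card (E0 A) (A.inertiaSubgroupIn ℚ)
        (fun σ hσ x _ => hI ℓ hℓ hm A hA σ hσ x) (hfix ℓ hℓ hm hℓp A hA)
        (c.can ℓ hℓ hm A hA) (hcnt ℓ hℓ hm A hA k)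
    · exact hunr_of_good c.N c.card (A.inertiaSubgroupIn ℚ)
        (fun σ hσ x hx => hgood ℓ hℓ hm A hA σ hσ (k + 1) x hx)
  have hloc : ∀ A : ValuationSubring Qb, A.LiesOverPrime p → ∃ E0' : AddSubgroup M,
      (∀ σ ∈ A.decompositionSubgroup ℚ, ∀ x ∈ E0', σ • x ∈ E0') ∧ c.N.U ≤ E0' ∧
      (∀ t ∈ E0', p • t = 0 → t ∈ c.N.U) ∧ ∃ x ∈ E0', p • x ∈ c.N.U ∧ x ∉ c.N.U := by
    intro A hA
    refine ⟨E0 A, hloc_of_local c.N hk c.cyc c.card (E0 A) (A.decompositionSubgroup ℚ)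
      (hD p hpprime hmultp A hA) (c.can p hpprime hmultp A hA) ?_ (hcnt p hpprime hmultp A hA k)
      (hcnt p hpprime hmultp A hA (k + 1))⟩
    have := hcnt p hpprime hmultp A hA 1
    rwa [pow_one] at this
  obtain ⟨N', hNN', hcyc', hcard', hN'p, hpN'⟩ :=
    chain_step hS14 c.N hk c.cyc c.card hp2 hdiv c.cof1 hdet hunr hloc (hopen (k + 1))
  have hcof1' : ∀ (σ : GQ) (t : M), p • t = 0 → σ • t - t ∈ N'.U := fun σ t ht =>
    hNN' (c.cof1 σ t ht)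
  have hdet' : ∀ (σ : GQ), ∀ x ∈ N'.U, p • x = 0 → σ • x = χ σ • x := fun σ x hx hx0 =>
    c.det σ x (hN'p x hx hx0) hx0
  have hcan' := hcan k hk N' hcyc' hcard' hcof1' hdet'
    (fun ℓ hℓ hm A hA x hx => c.can ℓ hℓ hm A hA (hpN' x hx))
  have hcofixed' : ∀ (σ : GQ) (x : M), p ^ (k + 1) • x = 0 → σ • x - x ∈ N'.U := by
    apply cofixed_of_inertia N' (p ^ (k + 1)) (hopen (k + 1))
    intro ℓ hℓ
    obtain ⟨A, hA⟩ := Fermat.Agent.Common_helper32.exists_liesOverPrime ℓ hℓ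
    refine ⟨A, hA, ?_⟩
    by_cases hm : mult ℓ
    · exact hI_of_local N'.U hcard' (E0 A) (A.inertiaSubgroupIn ℚ)
        (fun σ hσ x _ => hI ℓ hℓ hm A hA σ hσ x) (hcan' ℓ hℓ hm A hA) (hcnt ℓ hℓ hm A hA (k + 1))
    · exact hI_of_good N'.U (p ^ (k + 1)) (A.inertiaSubgroupIn ℚ)
        (fun σ hσ x hx => hgood ℓ hℓ hm A hA σ hσ (k + 1) x hx)
  exact ⟨{ N := N', cyc := hcyc', card := hcard', cof1 := hcof1', det := hdet', can := hcan',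
           cofixed := hcofixed' }⟩

include hS14 hcardTor hopen hgood hI hfix hD hcnt hmultp in
/-- **the whole chain**: `ChainInv 1 ⟹ ChainInv k` for every `k ≥ 1`. -/
theorem chain_all2 (χ : GQ → ℕ) (hχ : χ = cycloExp p)
    (hcan : ∀ k : ℕ, 1 ≤ k → ∀ N' : StableSub GQ M, IsAddCyclic ↥N'.U →
      Nat.card ↥N'.U = p ^ (k + 1) →
      (∀ (σ : GQ) (t : M), p • t = 0 → σ • t - t ∈ N'.U) →
      (∀ (σ : GQ), ∀ x ∈ N'.U, p • x = 0 → σ • x = χ σ • x) →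
      (∀ ℓ : ℕ, ℓ.Prime → mult ℓ → ∀ A : ValuationSubring Qb, A.LiesOverPrime ℓ →
        ∀ x ∈ N'.U, p • x ∈ E0 A) →
      ∀ ℓ : ℕ, ℓ.Prime → mult ℓ → ∀ A : ValuationSubring Qb, A.LiesOverPrime ℓ → N'.U ≤ E0 A)
    (c1 : ChainInv M p χ mult E0 1) :
    ∀ k : ℕ, 1 ≤ k → Nonempty (ChainInv M p χ mult E0 k) := by
  intro k hk
  induction k, hk using Nat.le_induction with
  | base => exact ⟨c1⟩
  | succ k hk ih =>
    obtain ⟨c⟩ := ih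
    exact step2 hS14 hcardTor hopen hgood hI hfix hD hcnt hmultp χ hχ hcan hk c

include hS14 hcardTor hopen hgood hI hfix hD hcnt hmultp in
/-- **the shape consumed by `Finish.not_forall_chain`.** -/
theorem forall_chain2 (χ : GQ → ℕ) (hχ : χ = cycloExp p)
    (hcan : ∀ k : ℕ, 1 ≤ k → ∀ N' : StableSub GQ M, IsAddCyclic ↥N'.U →
      Nat.card ↥N'.U = p ^ (k + 1) →
      (∀ (σ : GQ) (t : M), p • t = 0 → σ • t - t ∈ N'.U) →
      (∀ (σ : GQ), ∀ x ∈ N'.U, p • x = 0 → σ • x = χ σ • x) →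
      (∀ ℓ : ℕ, ℓ.Prime → mult ℓ → ∀ A : ValuationSubring Qb, A.LiesOverPrime ℓ →
        ∀ x ∈ N'.U, p • x ∈ E0 A) →
      ∀ ℓ : ℕ, ℓ.Prime → mult ℓ → ∀ A : ValuationSubring Qb, A.LiesOverPrime ℓ → N'.U ≤ E0 A)
    (c1 : ChainInv M p χ mult E0 1) (τ : GQ) :
    ∀ k : ℕ, ∃ N : AddSubgroup M, Finite ↥N ∧ Nat.card ↥N ≤ p ^ k ∧
      ∀ P : M, p ^ k • P = 0 → τ • P - P ∈ N := by
  intro k
  rcases Nat.eq_zero_or_pos k with rfl | hk
  · refine ⟨⊥, inferInstance, by simp, fun P hP => ?_⟩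
    rw [pow_zero, one_nsmul] at hP
    rw [hP, smul_zero, sub_zero]
    exact AddSubgroup.zero_mem _
  · obtain ⟨c⟩ := chain_all2 hS14 hcardTor hopen hgood hI hfix hD hcnt hmultp χ hχ hcan c1 k hk
    haveI : Finite ↥c.N.U := Nat.finite_of_card_ne_zero (by
      rw [c.card]; exact (pow_pos hp.out.pos k).ne')
    exact ⟨c.N.U, inferInstance, le_of_eq c.card, fun P hP => c.cofixed τ P hP⟩

end Step2

end Fermat.Agent.GZ.S12.ChainInd
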