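/-
CELL-M3 (S12) / (C+) the INSTANCE binders of `ChainInd.forall_chain2` on `M := (EQb W).Point`
(helper94): `hcardTor`, `hopen`, `hgood` for an integral Weierstrass curve `W` with `Δ ≠ 0`,
`mult ℓ := (ℓ : ℤ) ∣ W.Δ`.

* `hcardTor_inst` : `#E[p^j] = p^(2j)`                 (GE/Tors `card_torsionBy`);
* `hopen_inst`    : the action on `E[p^n]` has open kernel (S13/Assembly);
* `hgood_inst`    : inertia at a prime of good reduction `ℓ ≠ p` fixes `E[p^n]` (ECFinal.goodInertia);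
                    with `p ∣ Δ` (case III) every prime `ℓ ∤ Δ` is `≠ p`.
-/
import Mathlib
import Fermat.Agent.GZ.S12.ChainInd2
import Fermat.Agent.GE.Top.ECFinal
import Fermat.Agent.S13.Assembly

set_option autoImplicit false
set_option linter.unusedSectionVars false
set_option linter.unusedVariables false
set_option linter.style.haveILetI false

noncomputable section

open scoped WeierstrassCurve.Affine

namespace Fermat.Agent.GZ.S12.ChainInst

open Fermat.Agent.GZ.Dev Fermat.Agent.GZ.S12.AdmAbs Fermat.Agent.GZ.S12.AdmLoc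
  Fermat.Agent.GE.ECAssembly ValuationSubring WeierstrassCurve

local notation "Qb" => AlgebraicClosure ℚ
local notation "GQ" => (AlgebraicClosure ℚ ≃ₐ[ℚ] AlgebraicClosure ℚ)

variable (W : WeierstrassCurve ℤ) {p : ℕ} [hp : Fact p.Prime]

/-- **`hcardTor`**. -/
theorem hcardTor_inst (hΔ : W.Δ ≠ 0) :
    ∀ j : ℕ, Nat.card ↥(tor (EQb W).Point (p ^ j)) = p ^ (2 * j) := by
  intro j
  rw [card_tor_eq, Fermat.Agent.GE.Tors.card_torsionBy (eqb_Δ_ne_zero W hΔ) (p ^ j)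
    (Nat.one_le_pow _ _ hp.out.pos), ← pow_mul, mul_comm]

/-- **`hopen`**. -/
theorem hopen_inst (hΔ : W.Δ ≠ 0) :
    ∀ n : ℕ, ∃ U : Subgroup GQ, IsOpen (U : Set GQ) ∧
      ∀ σ ∈ U, ∀ x : (EQb W).Point, p ^ n • x = 0 → σ • x = x := by
  intro n
  haveI : Finite (Submodule.torsionBy ℤ ((W.map (Int.castRingHom ℚ))⁄Qb).Point ((p ^ n : ℕ) : ℤ)) :=
    finite_TN W hΔ (p ^ n) (Nat.one_le_pow _ _ hp.out.pos)
  obtain ⟨U, hU, hfix⟩ := Fermat.Agent.S13.Assembly.exists_open_subgroup_fixing_torsion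
    (W.map (Int.castRingHom ℚ)) (p ^ n)
  refine ⟨U, hU, fun σ hσ x hx => ?_⟩
  have hmem : x ∈ Submodule.torsionBy ℤ ((W.map (Int.castRingHom ℚ))⁄Qb).Point
      ((p ^ n : ℕ) : ℤ) := by
    rw [Submodule.mem_torsionBy_iff, natCast_zsmul]
    exact hx
  exact congrArg Subtype.val (hfix σ hσ ⟨x, hmem⟩)

/-- **`hgood`** (case III: `p ∣ Δ`). -/
theorem hgood_inst (hpΔ : (p : ℤ) ∣ W.Δ) :
    ∀ ℓ : ℕ, ℓ.Prime → ¬ (ℓ : ℤ) ∣ W.Δ → ∀ A : ValuationSubring Qb, A.LiesOverPrime ℓ →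
      ∀ σ ∈ A.inertiaSubgroupIn ℚ, ∀ (n : ℕ) (x : (EQb W).Point), p ^ n • x = 0 → σ • x = x := by
  intro ℓ hℓ hℓΔ A hA σ hσ n x hx
  have hℓp : ℓ ≠ p := by
    rintro rfl
    exact hℓΔ hpΔ
  exact Fermat.Agent.GE.ECFinal.goodInertia W hp.out n ℓ hℓ hℓp hℓΔ A hA σ hσ x hx

end Fermat.Agent.GZ.S12.ChainInst
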