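/-
CELL-M3 / S12, leaf S12-FINISH (helper26): **the finish of the cyclic-chain argument on `E`
itself** (helper9's design, board 6202 (1)).

`W/ℤ` with `Δ ≠ 0`, `p` prime, `q ≠ p` a prime of good reduction, `τ` a Frobenius element at a
place `A ∣ q`.  If a finite subgroup `N` of `W(ℚ̄)` with `#N ≤ p ^ k` contains `(τ - 1) E[p ^ k]`,
then `p ^ k ≤ (q ^ 2 + 1) ^ 2`.

Proof without the reduction map.  Put `a = a_q(W)` and `c = q + 1 - a = #W̃(𝔽_q) ∈ [1, q² + 1]`
(the prelude DEFINES `a_q` by the point count).  On `V = E[p ^ k]` the relation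
`τ² - a τ + q = 0` (`GE/Top/ECFinal.frobRel`, on main) reads `D² + (2 - a) D + c = 0` for
`D = τ - 1`, so `c • P = - D (D P + (2 - a) P) ∈ N` for every `P ∈ V`.  Hence
`p ^ (2 k) = #V ≤ #N · #V[c] ≤ p ^ k · c²` (`GE/Tors.card_torsion`, on main).
-/
import Fermat.Agent.GE.Top.ECFinal

set_option autoImplicit false

open Fermat.Agent.Common_helper32
open scoped WeierstrassCurve.Affine

namespace Fermat.Agent.GZ.S12.Finish

open WeierstrassCurve WeierstrassCurve.Affine.Point Fermat.Agent.GE.ECAssembly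

/-! ### abstract counting -/

section Abstract

variable {V : Type*} [AddCommGroup V]

/-- if multiplication by `c` maps the finite subgroup `S` into the finite subgroup `N`, then
`#S ≤ #N · #S[c]`. -/
theorem card_le_card_mul_card_torsion (S N : AddSubgroup V) [Finite S] [Finite N] (c : ℤ)
    (hc : ∀ P ∈ S, c • P ∈ N) :
    Nat.card S ≤ Nat.card N * Nat.card {P : V // P ∈ S ∧ c • P = 0} := by
  classical
  let f : S →+ N :=
    { toFun := fun P => ⟨c • (P : V), hc P P.2⟩
      map_zero' := by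
        apply Subtype.ext
        simp
      map_add' := fun P Q => by
        apply Subtype.ext
        simp [smul_add] }
  have h1 : Nat.card S = Nat.card (S ⧸ f.ker) * Nat.card f.ker :=
    AddSubgroup.card_eq_card_quotient_mul_card_addSubgroup f.ker
  have h2 : Nat.card (S ⧸ f.ker) = Nat.card f.range :=
    Nat.card_congr (QuotientAddGroup.quotientKerEquivRange f).toEquiv
  have h3 : Nat.card f.range ≤ Nat.card N :=
    Nat.card_le_card_of_injective (fun x : f.range => (x : N)) Subtype.val_injective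
  have h4 : Nat.card f.ker = Nat.card {P : V // P ∈ S ∧ c • P = 0} := by
    refine Nat.card_congr
      { toFun := fun x => ⟨((x : S) : V), (x : S).2, ?_⟩
        invFun := fun y => ⟨⟨y.1, y.2.1⟩, ?_⟩
        left_inv := fun x => rfl
        right_inv := fun y => rfl }
    · have hx := x.2
      rw [AddMonoidHom.mem_ker] at hx
      exact congrArg (fun z : N => (z : V)) hx
    · rw [AddMonoidHom.mem_ker]
      apply Subtype.ext
      exact y.2.2
  rw [h1, h2, h4]
  exact Nat.mul_le_mul_right _ h3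

end Abstract

/-! ### the point count of the reduction -/

section Count

variable (W : WeierstrassCurve ℤ) (q : ℕ) [Fact q.Prime]

omit [Fact q.Prime] in
/-- `q + 1 - a_q(W)` is the number of points of the reduction (prelude definition of `a_q`). -/
theorem add_one_sub_apOfModel :
    (q : ℤ) + 1 - W.apOfModel q = (Nat.card (W.reductionMod q).toAffine.Point : ℤ) := by
  unfold WeierstrassCurve.apOfModel WeierstrassCurve.traceOfFrobenius WeierstrassCurve.card
  rw [Nat.card_zmod]
  ring

theorem one_le_card_reduction : 1 ≤ Nat.card (W.reductionMod q).toAffine.Point :=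
  Nat.card_pos

/-- the coordinates of a point -/
def ptCoords {F : Type*} [CommRing F] {V : WeierstrassCurve.Affine F} :
    V.Point → Option (F × F)
  | .zero => none
  | .some (x := x) (y := y) _ => some (x, y)

theorem ptCoords_injective {F : Type*} [CommRing F] {V : WeierstrassCurve.Affine F} :
    Function.Injective (ptCoords (V := V)) := by
  rintro (_ | ⟨x, y, h⟩) (_ | ⟨x', y', h'⟩) hxy
  · rfl
  · simp [ptCoords] at hxy
  · simp [ptCoords] at hxy
  · simp only [ptCoords, Option.some.injEq, Prod.mk.injEq] at hxy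
    obtain ⟨rfl, rfl⟩ := hxy
    rfl

theorem card_reduction_le : Nat.card (W.reductionMod q).toAffine.Point ≤ q ^ 2 + 1 := by
  have h := Nat.card_le_card_of_injective _
    (ptCoords_injective (V := (W.reductionMod q).toAffine))
  refine h.trans (le_of_eq ?_)
  rw [Nat.card_eq_fintype_card, Fintype.card_option, Fintype.card_prod, ZMod.card]
  ring

end Count

/-! ### the Frobenius relation around `1` -/

section Frob

variable (W : WeierstrassCurve ℤ)

/-- the set of points killed by `m`, as a subgroup -/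
noncomputable def torsSub (m : ℕ) : AddSubgroup (EQb W).Point :=
  (nsmulAddMonoidHom (α := (EQb W).Point) m).ker

theorem mem_torsSub (m : ℕ) (P : (EQb W).Point) : P ∈ torsSub W m ↔ m • P = 0 := by
  unfold torsSub
  rw [AddMonoidHom.mem_ker]
  rfl

theorem smul_nsmul_point (τ : GQ) (m : ℕ) (P : (EQb W).Point) : τ • (m • P) = m • (τ • P) := by
  have h := algEquiv_smul_zsmul (W' := (W.map (Int.castRingHom ℚ)).toAffine) τ (m : ℤ) P
  rwa [natCast_zsmul, natCast_zsmul] at h

theorem smul_zsmul_point (τ : GQ) (m : ℤ) (P : (EQb W).Point) : τ • (m • P) = m • (τ • P) :=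
  algEquiv_smul_zsmul τ m P

theorem smul_add_point (τ : GQ) (P Q : (EQb W).Point) : τ • (P + Q) = τ • P + τ • Q :=
  smul_add τ P Q

theorem smul_sub_point (τ : GQ) (P Q : (EQb W).Point) : τ • (P - Q) = τ • P - τ • Q :=
  smul_sub τ P Q

theorem smul_zero_point (τ : GQ) : τ • (0 : (EQb W).Point) = 0 :=
  smul_zero (A := (EQb W).Point) τ

/-- **`c • P = - D (D P + (2 - a) P)`**, `D = τ - 1`, from `τ² - a τ + q = 0`. -/
theorem zsmul_eq_of_frobRel {τ : GQ} {a : ℤ} {q : ℕ} {P : (EQb W).Point}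
    (h : τ • τ • P - a • τ • P + (q : ℤ) • P = 0) :
    ((q : ℤ) + 1 - a) • P =
      -(τ • ((τ • P - P) + (2 - a) • P) - ((τ • P - P) + (2 - a) • P)) := by
  have e : (q : ℤ) • P = a • τ • P - τ • τ • P := by
    have := eq_neg_of_add_eq_zero_right h
    rw [this]
    abel
  have e1 : ((q : ℤ) + 1 - a) • P = (q : ℤ) • P + P - a • P := by module
  rw [smul_add_point, smul_sub_point, smul_zsmul_point, e1, e]
  generalize τ • τ • P = Y
  generalize τ • P = X
  module

end Frob

/-! ### the finish -/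

section Main

variable (W : WeierstrassCurve ℤ)

/-- **S12-FINISH.** `q ≠ p` a good prime, `τ` a Frobenius at `A ∣ q`; a finite subgroup `N` with
`#N ≤ p ^ k` containing `(τ - 1) E[p ^ k]` forces `p ^ k ≤ (q ^ 2 + 1) ^ 2`. -/
theorem pow_le_of_frob_sub_mem (hΔ : W.Δ ≠ 0) {p : ℕ} (hp : p.Prime) (k : ℕ) {q : ℕ}
    (hq : q.Prime) (hqp : q ≠ p) (hgood : ¬ (q : ℤ) ∣ W.Δ) (A : ValuationSubring Qb)
    (hA : A.LiesOverPrime q) (τ : GQ) (hτ : A.IsFrobeniusAt τ q)
    (N : AddSubgroup (EQb W).Point) [Finite N] (hNcard : Nat.card N ≤ p ^ k)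
    (hN : ∀ P : (EQb W).Point, p ^ k • P = 0 → τ • P - P ∈ N) :
    p ^ k ≤ (q ^ 2 + 1) ^ 2 := by
  classical
  have : Fact q.Prime := ⟨hq⟩
  have hΔ' := eqb_Δ_ne_zero W hΔ
  have hpk : 1 ≤ p ^ k := Nat.one_le_pow _ _ hp.pos
  set a : ℤ := W.apOfModel q with ha
  set c : ℤ := (q : ℤ) + 1 - a with hc
  have hcc : c = (Nat.card (W.reductionMod q).toAffine.Point : ℤ) := add_one_sub_apOfModel W q
  have hc1 : 1 ≤ c.natAbs := by
    rw [hcc, Int.natAbs_natCast]
    exact one_le_card_reduction W q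
  have hc2 : c.natAbs ≤ q ^ 2 + 1 := by
    rw [hcc, Int.natAbs_natCast]
    exact card_reduction_le W q
  -- `c • P ∈ N` on `E[p ^ k]`
  have hcN : ∀ P ∈ torsSub W (p ^ k), c • P ∈ N := by
    intro P hP
    rw [mem_torsSub] at hP
    have hrel := Fermat.Agent.GE.ECFinal.frobRel W hp k q hq hqp hgood A hA τ hτ P hP
    rw [hc, zsmul_eq_of_frobRel W hrel]
    refine N.neg_mem (hN _ ?_)
    have h1 : p ^ k • (τ • P) = 0 := by rw [← smul_nsmul_point, hP, smul_zero_point]
    have h2 : p ^ k • ((2 - a) • P) = 0 := by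
      rw [← natCast_zsmul, smul_smul, mul_comm, ← smul_smul, natCast_zsmul, hP, zsmul_zero]
    rw [nsmul_add, nsmul_sub, h1, hP, h2, sub_zero, add_zero]
  -- the counts
  have hfinS : Finite (torsSub W (p ^ k)) := by
    have := Fermat.Agent.GE.Tors.finite_torsion hΔ' (p ^ k) hpk
    exact Finite.of_equiv {P : (EQb W).Point // p ^ k • P = 0}
      (Equiv.subtypeEquivRight fun P => (mem_torsSub W (p ^ k) P).symm)
  have hcardS : Nat.card (torsSub W (p ^ k)) = (p ^ k) ^ 2 := by
    rw [← Fermat.Agent.GE.Tors.card_torsion hΔ' (p ^ k) hpk]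
    exact Nat.card_congr (Equiv.subtypeEquivRight fun P => mem_torsSub W (p ^ k) P)
  have hfinC := Fermat.Agent.GE.Tors.finite_torsion hΔ' c.natAbs hc1
  have hcardC : Nat.card {P : (EQb W).Point // P ∈ torsSub W (p ^ k) ∧ c • P = 0} ≤
      c.natAbs ^ 2 := by
    rw [← Fermat.Agent.GE.Tors.card_torsion hΔ' c.natAbs hc1]
    refine Nat.card_le_card_of_injective
      (fun x => (⟨x.1, ?_⟩ : {P : (EQb W).Point // c.natAbs • P = 0})) ?_
    · obtain ⟨P, -, h0⟩ := x
      show c.natAbs • P = 0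
      rcases Int.natAbs_eq c with h | h
      · rw [h, natCast_zsmul] at h0
        exact h0
      · rw [h, neg_smul, natCast_zsmul, neg_eq_zero] at h0
        exact h0
    · intro x y hxy
      have h := congrArg Subtype.val hxy
      exact Subtype.ext h
  have hmain := card_le_card_mul_card_torsion (torsSub W (p ^ k)) N c hcN
  rw [hcardS] at hmain
  have h5 : (p ^ k) ^ 2 ≤ p ^ k * c.natAbs ^ 2 :=
    hmain.trans (Nat.mul_le_mul hNcard hcardC)
  have h6 : p ^ k ≤ c.natAbs ^ 2 := by
    rw [sq] at h5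
    exact Nat.le_of_mul_le_mul_left h5 (by omega)
  exact h6.trans (Nat.pow_le_pow_left hc2 2)

/-- **no infinite chain**: there is no family of finite subgroups `N k` with `#N k ≤ p ^ k` and
`(τ - 1) E[p ^ k] ⊆ N k` for all `k` (one Frobenius `τ` at one good prime `q ≠ p`). -/
theorem not_forall_chain (hΔ : W.Δ ≠ 0) {p : ℕ} (hp : p.Prime) {q : ℕ}
    (hq : q.Prime) (hqp : q ≠ p) (hgood : ¬ (q : ℤ) ∣ W.Δ) (A : ValuationSubring Qb)
    (hA : A.LiesOverPrime q) (τ : GQ) (hτ : A.IsFrobeniusAt τ q) :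
    ¬ ∀ k : ℕ, ∃ N : AddSubgroup (EQb W).Point, Finite N ∧ Nat.card N ≤ p ^ k ∧
      ∀ P : (EQb W).Point, p ^ k • P = 0 → τ • P - P ∈ N := by
  intro hall
  obtain ⟨N, hfin, hcard, hN⟩ := hall ((q ^ 2 + 1) ^ 2)
  have h1 := pow_le_of_frob_sub_mem W hΔ hp _ hq hqp hgood A hA τ hτ N hcard hN
  have h2 : (q ^ 2 + 1) ^ 2 < p ^ ((q ^ 2 + 1) ^ 2) := Nat.lt_pow_self hp.one_lt
  omega

end Main

end Fermat.Agent.GZ.S12.Finish
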