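/-
CELL-M3 / S12, (C∞) in closed form (helper26): **no infinite cofixed chain on `W(ℚ̄)`**.

`W/ℤ`, `Δ ≠ 0`, `p` prime.  If for every `k` there is a finite subgroup `N_k` of `W(ℚ̄)` with
`#N_k ≤ p ^ k` and `(σ - 1) E[p ^ k] ⊆ N_k` for every `σ ∈ G_ℚ`, then `False`
(`Finish.not_forall_chain` at a Frobenius of a good prime `q ≠ p`, which exists).
-/
import Fermat.Agent.GZ.S12.Finish

set_option autoImplicit false

open Fermat.Agent.Common_helper32
open scoped WeierstrassCurve.Affine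

namespace Fermat.Agent.GZ.S12.FinishTop

open WeierstrassCurve WeierstrassCurve.Affine.Point Fermat.Agent.GE.ECAssembly
open Fermat.Agent.GZ.S12.Finish

/-- a prime of good reduction different from `p` -/
theorem exists_good_prime (W : WeierstrassCurve ℤ) (hΔ : W.Δ ≠ 0) (p : ℕ) :
    ∃ q : ℕ, q.Prime ∧ q ≠ p ∧ ¬ (q : ℤ) ∣ W.Δ := by
  obtain ⟨q, hq1, hq⟩ := Nat.exists_infinite_primes (max p W.Δ.natAbs + 1)
  have h1 : p < q := by
    have := le_max_left p W.Δ.natAbs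
    omega
  have h2 : W.Δ.natAbs < q := by
    have := le_max_right p W.Δ.natAbs
    omega
  refine ⟨q, hq, by omega, fun hd => ?_⟩
  have h3 : q ∣ W.Δ.natAbs := Int.natCast_dvd.mp hd
  have h4 : 0 < W.Δ.natAbs := Int.natAbs_pos.mpr hΔ
  have := Nat.le_of_dvd h4 h3
  omega

/-- **(C∞), closed form.** -/
theorem false_of_forall_chain (W : WeierstrassCurve ℤ) (hΔ : W.Δ ≠ 0) {p : ℕ} (hp : p.Prime)
    (h : ∀ k : ℕ, ∃ N : AddSubgroup (EQb W).Point, Finite N ∧ Nat.card N ≤ p ^ k ∧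
      ∀ σ : GQ, ∀ P : (EQb W).Point, p ^ k • P = 0 → σ • P - P ∈ N) : False := by
  obtain ⟨q, hq, hqp, hgood⟩ := exists_good_prime W hΔ p
  obtain ⟨A, τ, hA, hτ⟩ := exists_isFrobeniusAt q hq
  refine not_forall_chain W hΔ hp hq hqp hgood A hA τ hτ fun k => ?_
  obtain ⟨N, hfin, hcard, hN⟩ := h k
  exact ⟨N, hfin, hcard, hN τ⟩

end Fermat.Agent.GZ.S12.FinishTop
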