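/-
CELL-M3 (S12) / (LOC) as INSTANCE binders of `ChainInd.forall_chain2` (helper9): the zero component
as a TOTAL function of the place, `E0fun W A`, and the binders `hI`, `hfix`, `hD` on
`M := (EQb W).Point` for a semistable integral model `W`, `mult ℓ := (ℓ : ℤ) ∣ W.Δ`.

* `E0fun W A` : `Local.e0 h` if `A` is a place of multiplicative reduction, `⊥` otherwise;
* `E0fun_eq h : E0fun W A = Local.e0 h`, `mem_E0fun_iff h : P ∈ E0fun W A ↔ W.InZeroComponentAt A P`;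
* `mult_of` : `Local.Mult W A ℓ` from semistability;
* `hI_inst`, `hfix_inst`, `hD_inst` : verbatim the binders of `ChainInd`.
-/
import Mathlib
import Fermat.Agent.GZ.S12.Local
import Fermat.Agent.GE.Top.ECAssembly

set_option autoImplicit false
set_option linter.unusedSectionVars false

noncomputable section

open scoped WeierstrassCurve.Affine

namespace Fermat.Agent.GZ.S12.LocInst

open WeierstrassCurve Fermat.Agent.GE.ECAssembly Fermat.Agent.GZ.S12.Local ValuationSubring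

local notation "Qb" => AlgebraicClosure ℚ
local notation "GQ" => (AlgebraicClosure ℚ ≃ₐ[ℚ] AlgebraicClosure ℚ)

variable (W : WeierstrassCurve ℤ)

/-- The zero component as a total function of the place. -/
def E0fun (A : ValuationSubring Qb) : AddSubgroup (EQb W).Point :=
  open Classical in
  if h : ∃ ℓ : ℕ, Mult W A ℓ then e0 h.choose_spec else ⊥

variable {W} {A : ValuationSubring Qb} {ℓ : ℕ}

theorem E0fun_eq (h : Mult W A ℓ) : E0fun W A = e0 h := by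
  unfold E0fun
  rw [dif_pos ⟨ℓ, h⟩]
  ext P
  exact Iff.rfl

theorem mem_E0fun_iff (h : Mult W A ℓ) (P : (EQb W).Point) :
    P ∈ E0fun W A ↔ W.InZeroComponentAt A P := by
  rw [E0fun_eq h]
  exact Iff.rfl

theorem mult_of (hss : W.IsSemistableModel) (hΔ : W.Δ ≠ 0) (hℓ : ℓ.Prime)
    (hm : (ℓ : ℤ) ∣ W.Δ) (hA : A.LiesOverPrime ℓ) : Mult W A ℓ :=
  ⟨hℓ, hA, hΔ, hm, hss ℓ hℓ hm⟩

variable (W)

/-- **`hI`** of `ChainInd`. -/
theorem hI_inst (hss : W.IsSemistableModel) (hΔ : W.Δ ≠ 0) :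
    ∀ ℓ : ℕ, ℓ.Prime → (ℓ : ℤ) ∣ W.Δ → ∀ A : ValuationSubring Qb, A.LiesOverPrime ℓ →
      ∀ σ ∈ A.inertiaSubgroupIn ℚ, ∀ x : (EQb W).Point, σ • x - x ∈ E0fun W A := by
  intro ℓ hℓ hm A hA σ hσ x
  rw [E0fun_eq (mult_of hss hΔ hℓ hm hA)]
  exact smul_sub_mem_e0 _ hσ x

/-- **`hfix`** of `ChainInd`. -/
theorem hfix_inst (hss : W.IsSemistableModel) (hΔ : W.Δ ≠ 0) {p : ℕ} (hp : p.Prime) :
    ∀ ℓ : ℕ, ℓ.Prime → (ℓ : ℤ) ∣ W.Δ → ℓ ≠ p → ∀ A : ValuationSubring Qb, A.LiesOverPrime ℓ →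
      ∀ σ ∈ A.inertiaSubgroupIn ℚ, ∀ x ∈ E0fun W A, p • x = 0 → σ • x = x := by
  intro ℓ hℓ hm hℓp A hA σ hσ x hx hpx
  rw [E0fun_eq (mult_of hss hΔ hℓ hm hA)] at hx
  refine smul_eq_of_mem_e0 _ hσ ?_ hpx hx
  intro hdvd
  exact hℓp ((Nat.prime_dvd_prime_iff_eq hℓ hp).1 hdvd)

/-- **`hD`** of `ChainInd`. -/
theorem hD_inst (hss : W.IsSemistableModel) (hΔ : W.Δ ≠ 0) :
    ∀ ℓ : ℕ, ℓ.Prime → (ℓ : ℤ) ∣ W.Δ → ∀ A : ValuationSubring Qb, A.LiesOverPrime ℓ →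
      ∀ σ ∈ A.decompositionSubgroup ℚ, ∀ x ∈ E0fun W A, σ • x ∈ E0fun W A := by
  intro ℓ hℓ hm A hA σ hσ x hx
  rw [E0fun_eq (mult_of hss hΔ hℓ hm hA)] at hx ⊢
  exact (smul_mem_e0_iff _ hσ x).2 hx

end Fermat.Agent.GZ.S12.LocInst
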