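/-
CELL-M3 (S12) / (TOP), hypothesis form (helper9): the frozen S12

  `(P : FreyPackage) (17 ≤ P.p) : ¬ HasGaloisStableCofixedLine ℚ P.freyCurve P.p`

from the nodes of DESIGN v1 (board 6320):

* CASE I   (`p ∤ abc`)  : `CaseI.caseI_frey`      (helper27 + helper21), binder-free;
* CASE II  (`3 ∤ abc`)  : `CaseII.frey_caseII`    (helper26), binder-free;
* CASE III (`p ∣ abc`, `3 ∣ abc`): `ChainInd.forall_chain2` (helper94: (C+) by S14 + (MINK)) against
  `Finish.not_forall_chain` (helper26: (C∞)), with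
  - the (LOC) binders `hI`, `hfix`, `hD` = `LocInst` (helper9), `hcardTor`, `hopen`, `hgood` =
    `ChainInst` (helper94), `hS14 = S14.result`;
  - THREE remaining binders: `hcnt` (LOC c1), `hbase` ((C0) + (DET)), `hcan` ((CAN) ∘ (PAIR) ∘ CorePair).
-/
import Mathlib
import Fermat.Statements.S12
import Fermat.Agent.S14
import Fermat.Agent.GZ.S12.LocInst
import Fermat.Agent.GZ.S12.ChainInst
import Fermat.Agent.GZ.S12.FinishTop
import Fermat.Agent.GZ.S12.CaseII
import Fermat.Agent.GZ.S12.CaseIFinal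
import Fermat.Agent.GZ.S12.FreyMult

set_option autoImplicit false
set_option linter.unusedSectionVars false
set_option linter.unusedVariables false
set_option linter.style.haveILetI false

open scoped WeierstrassCurve.Affine

namespace Fermat.Agent.GZ.S12.Top

open WeierstrassCurve WeierstrassCurve.Affine.Point Fermat.Agent.GE.ECAssembly
  Fermat.Agent.GZ.S12.ChainInd
  Fermat.Agent.GZ.S12.LocInst Fermat.Agent.GZ.S12.AdmAbs Fermat.Agent.GZ.Dev ExtCitation
  Fermat.Agent.Common_helper32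

local notation "Qb" => AlgebraicClosure ℚ
local notation "GQ" => (AlgebraicClosure ℚ ≃ₐ[ℚ] AlgebraicClosure ℚ)

/-- The Frey model is semistable. -/
theorem frey_semistable (P : FreyPackage) : P.freyCurveInt.IsSemistableModel :=
  fun _ hℓ hΔ => FreyMult.not_dvd_c₄_of_dvd_Δ P hℓ hΔ

/-- The statement of (CAN) on the Frey curve, for one stable cyclic subgroup: it lies in the zero
component at every place of multiplicative reduction. -/
def CanStmt (P : FreyPackage) : Prop :=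
  ∀ k : ℕ, 1 ≤ k → ∀ N' : StableSub GQ (EQb P.freyCurveInt).Point, IsAddCyclic ↥N'.U →
    Nat.card ↥N'.U = P.p ^ k →
    (∀ (σ : GQ) (t : (EQb P.freyCurveInt).Point), P.p • t = 0 → σ • t - t ∈ N'.U) →
    (∀ (σ : GQ), ∀ x ∈ N'.U, P.p • x = 0 → σ • x = @cycloExp P.p ⟨P.pp⟩ σ • x) →
    ∀ ℓ : ℕ, ℓ.Prime → (ℓ : ℤ) ∣ P.freyCurveInt.Δ → ∀ A : ValuationSubring Qb,
      A.LiesOverPrime ℓ → N'.U ≤ E0fun P.freyCurveInt A

/-- The statement of (C0) + (DET): a Galois-stable cofixed line gives a stable cyclic subgroup of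
order `p`, cofixed, on which `G_ℚ` acts through the cyclotomic character. -/
def BaseStmt (P : FreyPackage) : Prop :=
  HasGaloisStableCofixedLine (K := AlgebraicClosure ℚ) ℚ P.freyCurve P.p →
    ∃ N : StableSub GQ (EQb P.freyCurveInt).Point, IsAddCyclic ↥N.U ∧ Nat.card ↥N.U = P.p ^ 1 ∧
      (∀ (σ : GQ) (t : (EQb P.freyCurveInt).Point), P.p • t = 0 → σ • t - t ∈ N.U) ∧
      (∀ (σ : GQ), ∀ x ∈ N.U, P.p • x = 0 → σ • x = @cycloExp P.p ⟨P.pp⟩ σ • x)

/-- The statement of (LOC c1): `#(E⁰_A ∩ E[p^n]) = p^n` at every multiplicative place. -/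
def CntStmt (P : FreyPackage) : Prop :=
  ∀ ℓ : ℕ, ℓ.Prime → (ℓ : ℤ) ∣ P.freyCurveInt.Δ → ∀ A : ValuationSubring Qb, A.LiesOverPrime ℓ →
    ∀ n : ℕ, Nat.card ↥(E0fun P.freyCurveInt A ⊓ tor (EQb P.freyCurveInt).Point (P.p ^ n)) = P.p ^ n

/-- **(TOP), hypothesis form.** -/
theorem s12_of_nodes (P : FreyPackage) (hp : 17 ≤ P.p)
    (hcnt : CntStmt P) (hbase : BaseStmt P)
    (hcan : (P.p : ℤ) ∣ P.a * P.b * P.c → (3 : ℤ) ∣ P.a * P.b * P.c → CanStmt P) :
    ¬ HasGaloisStableCofixedLine (K := AlgebraicClosure ℚ) ℚ P.freyCurve P.p := by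
  haveI hpF : Fact P.p.Prime := ⟨P.pp⟩
  have hΔ : P.freyCurveInt.Δ ≠ 0 := FreyMult.freyInt_Δ_ne_zero P
  have hss := frey_semistable P
  by_cases hpabc : (P.p : ℤ) ∣ P.a * P.b * P.c
  swap
  · exact CaseI.caseI_frey P hpabc
  by_cases h3abc : (3 : ℤ) ∣ P.a * P.b * P.c
  swap
  · refine CaseII.frey_caseII P (by omega) hΔ ?_
    intro h3
    exact h3abc ((FreyMult.dvd_Δ_iff P (ℓ := 3) Nat.prime_three).1 (by exact_mod_cast h3))
  -- CASE III
  intro hline
  have hpΔ : (P.p : ℤ) ∣ P.freyCurveInt.Δ := (FreyMult.dvd_Δ_iff P P.pp).2 hpabc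
  have hCan := hcan hpabc h3abc
  obtain ⟨N, hcyc, hcard, hcof1, hdet⟩ := hbase hline
  have c1 : ChainInv (EQb P.freyCurveInt).Point P.p (cycloExp P.p)
      (fun ℓ => (ℓ : ℤ) ∣ P.freyCurveInt.Δ) (E0fun P.freyCurveInt) 1 :=
    { N := N
      cyc := hcyc
      card := hcard
      cof1 := hcof1
      det := hdet
      can := hCan 1 le_rfl N hcyc hcard hcof1 hdet
      cofixed := fun σ x hx => hcof1 σ x (by rwa [pow_one] at hx) }
  obtain ⟨q, hq, hqp, hgood⟩ := FinishTop.exists_good_prime P.freyCurveInt hΔ P.p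
  obtain ⟨A, τ, hA, hτ⟩ := exists_isFrobeniusAt q hq
  refine Finish.not_forall_chain P.freyCurveInt hΔ P.pp hq hqp hgood A hA τ hτ ?_
  exact forall_chain2 (Fermat.Agent.S14.result (by omega))
    (ChainInst.hcardTor_inst P.freyCurveInt hΔ) (ChainInst.hopen_inst P.freyCurveInt hΔ)
    (ChainInst.hgood_inst P.freyCurveInt hpΔ)
    (hI_inst P.freyCurveInt hss hΔ) (hfix_inst P.freyCurveInt hss hΔ P.pp)
    (hD_inst P.freyCurveInt hss hΔ) hcnt hpΔ (cycloExp P.p) rfl
    (fun k hk N' hcyc' hcard' hcof1' hdet' _ =>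
      hCan (k + 1) (by omega) N' hcyc' hcard' hcof1' hdet')
    c1 τ

end Fermat.Agent.GZ.S12.Top
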