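/-
CELL-M3 (S12) / (C0) BASE + (DET): **the binder `BaseStmt` of helper9's `Top.s12_of_nodes` is a
theorem** (helper26): `Base.frey_exists_base_stableSub` (the image in `E(ℚ̄)` of the frozen line,
with helper21's `DetCyc` on it) in the spelling of `GZ/S12/Top.lean`.
-/
import Mathlib
import Fermat.Agent.GZ.S12.Base
import Fermat.Agent.GZ.S12.Top

set_option autoImplicit false

namespace Fermat.Agent.GZ.S12.Base

/-- **`BaseStmt P`, binder-free.** -/
theorem baseStmt (P : FreyPackage) : Fermat.Agent.GZ.S12.Top.BaseStmt P := by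
  intro h
  obtain ⟨N, hcyc, hcard, hcof1, hdet, -, -⟩ := frey_exists_base_stableSub P h
  exact ⟨N, hcyc, hcard, hcof1, hdet⟩

/-- (TOP) with `BaseStmt` discharged: the frozen S12 from `CntStmt` and `CanStmt`. -/
theorem s12_of_cnt_can (P : FreyPackage) (hp : 17 ≤ P.p)
    (hcnt : Fermat.Agent.GZ.S12.Top.CntStmt P)
    (hcan : (P.p : ℤ) ∣ P.a * P.b * P.c → (3 : ℤ) ∣ P.a * P.b * P.c →
      Fermat.Agent.GZ.S12.Top.CanStmt P) :
    ¬ WeierstrassCurve.Affine.Point.HasGaloisStableCofixedLine (K := AlgebraicClosure ℚ) ℚ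
      P.freyCurve P.p :=
  Fermat.Agent.GZ.S12.Top.s12_of_nodes P hp hcnt (baseStmt P) hcan

end Fermat.Agent.GZ.S12.Base
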