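/-
CELL-M3 (S12) / node (CAN), ABSTRACT half (helper92).  Mathlib only.

`G` acts on an abelian group `Pt` (the `ℚ̄`-points of the Frey curve), `p` a prime, `N ≤ Pt` a
`G`-stable cyclic subgroup of order `p^k` (`k ≥ 1`) with the LEVEL-ONE cofixed property
`hcof1 : ∀ σ T, p • T = 0 → σ • T - T ∈ N`.  At one place `A` of `ℚ̄`: `E0 ≤ Pt` (the points on the
identity component), `I`, `D ≤ G` (inertia, decomposition).  `ψ : G → ℕ` the character of `G` on the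
`p`-torsion of `N` ((DET): `ψ = ExtCitation.cycloExp p`).

* cyclic `p`-group calculus: `exists_gen`, `exists_nsmul_of_proper` (a proper subgroup of `N` lies
  in `p N`), `exists_nsmul_of_ptors` (`N[p] ⊆ p N` for `k ≥ 2`), `bottom_ne_zero`,
  `modEq_one_of_nsmul_eq`;
* `modEq_one_of_sub_mem_proper` : `σ g - g` in a proper subgroup of `N` ⟹ `ψ σ ≡ 1 [MOD p]`;
* **`can_at_p`**  (`ℓ = p`): `(σ - 1) E[p^k] ⊆ E0` for `σ ∈ I` and `ψ|I ≢ 1` ⟹ `N ≤ E0`;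
* **`can_step`**  (`ℓ ≠ p`, `k ≥ 2`): `p N ≤ E0`, `¬ N ≤ E0`, `E0` `D`-stable, (LOC c) in the form
  `hloc` ⟹ `ψ σ ≡ 1 [MOD p]` for every `σ ∈ D` (so `ℓ ≡ 1 [MOD p]` with `σ` a Frobenius);
* **`can_base`**  (`ℓ ≠ p`, `k = 1`): `¬ N ≤ E0` ⟹ every point of `E0[p]` is `D`-fixed
  (the input of (CUT-D));
* `exists_rep_of_cyclic_quot` : the binder `hloc` from the element form of
  "`E[p^k] / E0[p^k]` is cyclic of order `p^k`".
-/
import Mathlib

set_option autoImplicit false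

namespace Fermat.Agent.GZ.S12.Canon

section Cyclic

variable {Pt : Type*} [AddCommGroup Pt] {p : ℕ} {k : ℕ}
  (N : AddSubgroup Pt)

/-- a generator of `N`, as an element of `Pt`. -/
theorem exists_gen (hp : p.Prime) (hcyc : IsAddCyclic N) (hcard : Nat.card N = p ^ k) :
    ∃ g ∈ N, addOrderOf g = p ^ k ∧ ∀ x ∈ N, ∃ m : ℕ, x = m • g := by
  obtain ⟨g, hgen⟩ := hcyc.exists_generator
  have hfin : Finite N := Nat.finite_of_card_ne_zero (by rw [hcard]; exact pow_ne_zero _ hp.ne_zero)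
  have hord : addOrderOf g = p ^ k := by
    rw [← hcard]
    exact addOrderOf_eq_card_of_forall_mem_zmultiples hgen
  refine ⟨(g : Pt), g.2, ?_, fun x hx => ?_⟩
  · rw [← hord]
    exact AddSubgroup.addOrderOf_coe g
  · have h1 := hgen ⟨x, hx⟩
    rw [← mem_multiples_iff_mem_zmultiples] at h1
    obtain ⟨m, hm⟩ := h1
    refine ⟨m, ?_⟩
    have := congrArg (fun y : N => (y : Pt)) hm
    simpa using this.symm

variable {N}

/-- **a proper subgroup of a cyclic `p`-group lies in `p N`.** -/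
theorem exists_nsmul_of_proper (hp : p.Prime) {g : Pt} (hgN : g ∈ N) (hord : addOrderOf g = p ^ k)
    (hgen : ∀ x ∈ N, ∃ m : ℕ, x = m • g) {H : AddSubgroup Pt} (hHN : H ≤ N) (hne : ¬ N ≤ H)
    {h : Pt} (hh : h ∈ H) : ∃ y ∈ N, h = p • y := by
  obtain ⟨m, rfl⟩ := hgen h (hHN hh)
  by_cases hpm : p ∣ m
  · obtain ⟨m', rfl⟩ := hpm
    exact ⟨m' • g, N.nsmul_mem hgN m', by rw [mul_nsmul']⟩
  · exfalso
    have hcop : Nat.Coprime m (addOrderOf g) := by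
      rw [hord]
      exact Nat.Coprime.pow_right k ((Nat.Prime.coprime_iff_not_dvd hp).2 hpm).symm
    obtain ⟨j, hj⟩ := exists_nsmul_eq_self_of_coprime hcop
    have hgH : g ∈ H := by
      rw [← hj]
      exact H.nsmul_mem hh j
    refine hne fun x hx => ?_
    obtain ⟨i, rfl⟩ := hgen x hx
    exact H.nsmul_mem hgH i

/-- `N[p] ⊆ p N` for `k ≥ 2`. -/
theorem exists_nsmul_of_ptors (hp : p.Prime) (hk : 2 ≤ k) {g : Pt} (hgN : g ∈ N)
    (hord : addOrderOf g = p ^ k) (hgen : ∀ x ∈ N, ∃ m : ℕ, x = m • g) {x : Pt} (hx : x ∈ N)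
    (hpx : p • x = 0) : ∃ y ∈ N, x = p • y := by
  obtain ⟨m, rfl⟩ := hgen x hx
  rw [← mul_nsmul'] at hpx
  have h1 : p ^ k ∣ p * m := hord ▸ addOrderOf_dvd_of_nsmul_eq_zero hpx
  obtain ⟨k', rfl⟩ : ∃ k', k = k' + 2 := ⟨k - 2, by omega⟩
  have h2 : p ^ (k' + 1) ∣ m := by
    rw [pow_succ' (n := k' + 1)] at h1
    exact Nat.dvd_of_mul_dvd_mul_left hp.pos h1
  have h3 : p ∣ m := dvd_trans (dvd_pow_self p (by omega)) h2
  obtain ⟨m', rfl⟩ := h3
  exact ⟨m' • g, N.nsmul_mem hgN m', by rw [mul_nsmul']⟩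

/-- the bottom of the cyclic group: `p^(k-1) • g` is a nonzero point of `N[p]`. -/
theorem bottom_ne_zero (hp : p.Prime) (hk : 1 ≤ k) {g : Pt} (hord : addOrderOf g = p ^ k) :
    p ^ (k - 1) • g ≠ 0 ∧ p • (p ^ (k - 1) • g) = 0 := by
  obtain ⟨k', rfl⟩ : ∃ k', k = k' + 1 := ⟨k - 1, by omega⟩
  simp only [Nat.add_sub_cancel]
  constructor
  · intro h0
    have h1 : p ^ (k' + 1) ∣ p ^ k' := hord ▸ addOrderOf_dvd_of_nsmul_eq_zero h0
    have h2 := Nat.le_of_dvd (pow_pos hp.pos _) h1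
    have h3 : p ^ k' < p ^ (k' + 1) := Nat.pow_lt_pow_right hp.one_lt (by omega)
    omega
  · rw [← mul_nsmul', ← pow_succ', ← hord]
    exact addOrderOf_nsmul_eq_zero g

/-- an element of order `p` fixed by multiplication by `a`: `a ≡ 1 [MOD p]`. -/
theorem modEq_one_of_nsmul_eq (hp : p.Prime) {z : Pt} (hz0 : z ≠ 0) (hpz : p • z = 0) {a : ℕ}
    (ha : a • z = z) : a ≡ 1 [MOD p] := by
  have hordz : addOrderOf z = p := by
    rcases (Nat.dvd_prime hp).mp (addOrderOf_dvd_of_nsmul_eq_zero hpz) with h1 | h1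
    · exact absurd (AddMonoid.addOrderOf_eq_one_iff.mp h1) hz0
    · exact h1
  have h1 : a • z = 1 • z := by rw [ha, one_nsmul]
  have := (nsmul_eq_nsmul_iff_modEq (x := z)).1 h1
  rwa [hordz] at this

end Cyclic


section Action

variable {G : Type*} [Group G] {Pt : Type*} [AddCommGroup Pt] [DistribMulAction G Pt]
variable {p : ℕ} {k : ℕ} {N : AddSubgroup Pt}

theorem smul_nsmul_comm' (σ : G) (m : ℕ) (x : Pt) : σ • (m • x) = m • (σ • x) :=
  map_nsmul (DistribSMul.toAddMonoidHom Pt σ) m x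

/-- **the key step**: if `σ` moves the generator `g` of `N` by an element of a PROPER subgroup of
`N`, then `σ` fixes the bottom `p^(k-1) • g` of `N`, hence `ψ σ ≡ 1 [MOD p]`. -/
theorem modEq_one_of_sub_mem_proper (hp : p.Prime) (hk : 1 ≤ k) {g : Pt} (hgN : g ∈ N)
    (hord : addOrderOf g = p ^ k) (hgen : ∀ x ∈ N, ∃ m : ℕ, x = m • g)
    {H : AddSubgroup Pt} (hHN : H ≤ N) (hne : ¬ N ≤ H) (ψ : G → ℕ)
    (hdet : ∀ σ : G, ∀ x ∈ N, p • x = 0 → σ • x = ψ σ • x) {σ : G} (hσ : σ • g - g ∈ H) :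
    ψ σ ≡ 1 [MOD p] := by
  obtain ⟨y, hyN, hy⟩ := exists_nsmul_of_proper hp hgN hord hgen hHN hne hσ
  obtain ⟨hz0, hpz⟩ := bottom_ne_zero hp hk hord
  have hzN : p ^ (k - 1) • g ∈ N := N.nsmul_mem hgN _
  -- `σ` fixes the bottom
  have hfix : σ • (p ^ (k - 1) • g) = p ^ (k - 1) • g := by
    have h1 : σ • (p ^ (k - 1) • g) - p ^ (k - 1) • g = p ^ (k - 1) • (σ • g - g) := by
      rw [smul_nsmul_comm', nsmul_sub]
    have h2 : p ^ (k - 1) • (σ • g - g) = 0 := by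
      rw [hy, ← mul_nsmul', ← pow_succ]
      have hk' : k - 1 + 1 = k := by omega
      rw [hk']
      obtain ⟨m, rfl⟩ := hgen y hyN
      rw [← mul_nsmul', mul_comm, mul_nsmul', ← hord, addOrderOf_nsmul_eq_zero, nsmul_zero]
    rw [h2] at h1
    exact sub_eq_zero.mp h1
  have h3 := hdet σ _ hzN hpz
  rw [hfix] at h3
  exact modEq_one_of_nsmul_eq hp hz0 hpz h3.symm

/-- **(CAN) at `ℓ = p`.** -/
theorem can_at_p (hp : p.Prime) (hk : 1 ≤ k) (hcyc : IsAddCyclic N) (hcard : Nat.card N = p ^ k)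
    (hstab : ∀ σ : G, ∀ x ∈ N, σ • x ∈ N) (E0 : AddSubgroup Pt) (I : Subgroup G)
    (hI : ∀ σ ∈ I, ∀ x : Pt, p ^ k • x = 0 → σ • x - x ∈ E0) (ψ : G → ℕ)
    (hdet : ∀ σ : G, ∀ x ∈ N, p • x = 0 → σ • x = ψ σ • x)
    (hχ : ∃ σ ∈ I, ¬ ψ σ ≡ 1 [MOD p]) : N ≤ E0 := by
  by_contra hne
  obtain ⟨g, hgN, hord, hgen⟩ := exists_gen N hp hcyc hcard
  obtain ⟨σ, hσI, hσ⟩ := hχ
  refine hσ (modEq_one_of_sub_mem_proper hp hk hgN hord hgen (H := E0 ⊓ N) inf_le_right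
    (fun h => hne fun x hx => (h hx).1) ψ hdet ⟨?_, ?_⟩)
  · refine hI σ hσI g ?_
    rw [← hord]
    exact addOrderOf_nsmul_eq_zero g
  · exact N.sub_mem (hstab σ g hgN) hgN

/-- **(CAN), the step at `ℓ ≠ p`, `k ≥ 2`**: if `p N ≤ E0` but `¬ N ≤ E0` then the decomposition
group acts on the bottom of `N` trivially. -/
theorem can_step (hp : p.Prime) (hk : 2 ≤ k) (hcyc : IsAddCyclic N) (hcard : Nat.card N = p ^ k)
    (hstab : ∀ σ : G, ∀ x ∈ N, σ • x ∈ N)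
    (hcof1 : ∀ (σ : G) (T : Pt), p • T = 0 → σ • T - T ∈ N)
    (E0 : AddSubgroup Pt) (D : Subgroup G) (hD : ∀ σ ∈ D, ∀ x ∈ E0, σ • x ∈ E0)
    (hpN : ∀ y ∈ N, p • y ∈ E0) (hne : ¬ N ≤ E0)
    (hloc : ∀ x : Pt, p ^ k • x = 0 → p • x ∈ E0 → ∃ T : Pt, p • T = 0 ∧ x - T ∈ E0)
    (ψ : G → ℕ) (hdet : ∀ σ : G, ∀ x ∈ N, p • x = 0 → σ • x = ψ σ • x) :
    ∀ σ ∈ D, ψ σ ≡ 1 [MOD p] := by
  intro σ hσD
  obtain ⟨g, hgN, hord, hgen⟩ := exists_gen N hp hcyc hcard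
  have hpkg : p ^ k • g = 0 := by
    rw [← hord]
    exact addOrderOf_nsmul_eq_zero g
  obtain ⟨T, hpT, hgT⟩ := hloc g hpkg (hpN g hgN)
  refine modEq_one_of_sub_mem_proper hp (by omega) hgN hord hgen (H := E0 ⊓ N) inf_le_right
    (fun h => hne fun x hx => (h hx).1) ψ hdet ⟨?_, N.sub_mem (hstab σ g hgN) hgN⟩
  -- `σ g - g = (σ T - T) + (σ e - e)`, `e = g - T ∈ E0`
  have h1 : σ • g - g = (σ • T - T) + (σ • (g - T) - (g - T)) := by
    rw [smul_sub]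
    abel
  rw [h1]
  refine E0.add_mem ?_ (E0.sub_mem (hD σ hσD _ hgT) hgT)
  -- `σ T - T ∈ N[p] ⊆ p N ⊆ E0`
  have h2 : σ • T - T ∈ N := hcof1 σ T hpT
  have h3 : p • (σ • T - T) = 0 := by
    rw [nsmul_sub, ← smul_nsmul_comm', hpT, smul_zero, sub_zero]
  obtain ⟨y, hyN, hy⟩ := exists_nsmul_of_ptors hp hk hgN hord hgen h2 h3
  rw [hy]
  exact hpN y hyN

/-- **(CAN), the base at `ℓ ≠ p`, `k = 1`**: if the line `N` is not in `E0` then every point of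
`E0[p]` is fixed by the decomposition group. -/
theorem can_base (hp : p.Prime) (hcard : Nat.card N = p)
    (hcof1 : ∀ (σ : G) (T : Pt), p • T = 0 → σ • T - T ∈ N)
    (E0 : AddSubgroup Pt) (D : Subgroup G) (hD : ∀ σ ∈ D, ∀ x ∈ E0, σ • x ∈ E0)
    (hne : ¬ N ≤ E0) {T : Pt} (hTE : T ∈ E0) (hpT : p • T = 0) : ∀ σ ∈ D, σ • T = T := by
  intro σ hσD
  have h1 : σ • T - T ∈ N := hcof1 σ T hpT
  have h2 : σ • T - T ∈ E0 := E0.sub_mem (hD σ hσD T hTE) hTE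
  by_contra hfix
  have hx0 : σ • T - T ≠ 0 := fun h => hfix (sub_eq_zero.mp h)
  -- a nonzero element of a group of prime order generates it
  have hfin : Finite N := Nat.finite_of_card_ne_zero (by rw [hcard]; exact hp.ne_zero)
  have : Fact p.Prime := ⟨hp⟩
  have hgen := zmultiples_eq_top_of_prime_card (G := N) hcard (g := ⟨σ • T - T, h1⟩)
    (fun h => hx0 (congrArg (fun y : N => (y : Pt)) h))
  refine hne fun x hx => ?_
  have hmem : (⟨x, hx⟩ : N) ∈ AddSubgroup.zmultiples (⟨σ • T - T, h1⟩ : N) := by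
    rw [hgen]; trivial
  obtain ⟨m, hm⟩ := AddSubgroup.mem_zmultiples_iff.1 hmem
  have hx' : x = m • (σ • T - T) := by
    have := congrArg (fun y : N => (y : Pt)) hm
    simpa using this.symm
  rw [hx']
  exact E0.zsmul_mem h2 m

end Action

section Loc

variable {Pt : Type*} [AddCommGroup Pt] {p : ℕ} {k : ℕ}

/-- **the binder `hloc` of `can_step`** from the element form of "`E[p^k] / E0[p^k]` is cyclic of
order `p^k`": a point `y` of `E[p^k]` generating modulo `E0`, of exact order `p^k` modulo `E0`. -/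
theorem exists_rep_of_cyclic_quot (hp : p.Prime) (hk : 1 ≤ k) (E0 : AddSubgroup Pt) {y : Pt}
    (hy : p ^ k • y = 0)
    (hgen : ∀ x : Pt, p ^ k • x = 0 → ∃ m : ℕ, x - m • y ∈ E0)
    (hord : ∀ m : ℕ, m • y ∈ E0 → p ^ k ∣ m) :
    ∀ x : Pt, p ^ k • x = 0 → p • x ∈ E0 → ∃ T : Pt, p • T = 0 ∧ x - T ∈ E0 := by
  intro x hx hpx
  obtain ⟨m, hm⟩ := hgen x hx
  -- `p m • y ∈ E0`
  have h1 : (p * m) • y ∈ E0 := by
    have h2 : p • (x - m • y) ∈ E0 := E0.nsmul_mem hm p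
    rw [nsmul_sub] at h2
    have h3 := E0.sub_mem hpx h2
    rw [sub_sub_cancel, ← mul_nsmul'] at h3
    exact h3
  have h4 : p ^ k ∣ p * m := hord _ h1
  obtain ⟨k', rfl⟩ : ∃ k', k = k' + 1 := ⟨k - 1, by omega⟩
  have h5 : p ^ k' ∣ m := by
    rw [pow_succ'] at h4
    exact Nat.dvd_of_mul_dvd_mul_left hp.pos h4
  obtain ⟨m', rfl⟩ := h5
  refine ⟨(p ^ k' * m') • y, ?_, hm⟩
  rw [← mul_nsmul', ← mul_assoc, ← pow_succ', mul_nsmul, hy, nsmul_zero]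

end Loc

end Fermat.Agent.GZ.S12.Canon
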