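/-
CELL-M3 (S12) / node (CAN), ABSTRACT half, part 2 (helper92): the sub-chains `p^i • N` and the
assembled statement at a multiplicative prime `ℓ ≠ p`.  Mathlib + `GZ/S12/CanonAbs`.

* `nsmulSub m N` (= `m • N`), `mem_nsmulSub`, `nsmulSub_le`, `nsmulSub_le_iff`;
* SUB-CHAINS: `nsmulSub_stable`, `nsmulSub_eq_zmultiples`, `card_nsmulSub` (`p^i • N` cyclic of order
  `p^(k-i)`), `cofixed_nsmulSub` (cofixed at level `k - i`) — so `p^i • N_k` is again a chain;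
* `five_le_of_modEq_one`, `five_le_of_dvd_pred_or_succ` : `ℓ ≡ 1 [MOD p]` resp. `p ∣ ℓ ± 1` ⟹
  `5 ≤ ℓ ∧ ¬ ℓ ∣ p - 1` (the side conditions of `CorePair`);
* **`can_of_mix`** : `N ≤ E0` at `ℓ ≠ p` from (L1), (L2) = `hloc`, (DET) `ψ`, a Frobenius `φ ∈ D` with
  `ψ φ ≡ ℓ`, (CUT-D) `hcut`, and ONE binder `hmix` = (PAIR) + `CorePair` at the jump
  `p^i N ⊄ E0`, `p^(i+1) N ⊆ E0` (only for primes `ℓ ≥ 5`, `ℓ ∤ p - 1`).  The induction over the
  levels is INTERNAL (helper48's remark): no nesting of chains at TOP.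
  (`ℓ = p` is `CanonAbs.can_at_p`, which needs no induction.)
-/
import Mathlib
import Fermat.Agent.GZ.S12.CanonAbs

set_option autoImplicit false

namespace Fermat.Agent.GZ.S12.Canon

section Sub

variable {Pt : Type*} [AddCommGroup Pt]

/-- the subgroup `m • N`. -/
def nsmulSub (m : ℕ) (N : AddSubgroup Pt) : AddSubgroup Pt :=
  N.map (nsmulAddMonoidHom (α := Pt) m)

theorem mem_nsmulSub {m : ℕ} {N : AddSubgroup Pt} {x : Pt} :
    x ∈ nsmulSub m N ↔ ∃ y ∈ N, m • y = x := by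
  unfold nsmulSub
  rw [AddSubgroup.mem_map]
  rfl

theorem nsmulSub_le (m : ℕ) (N : AddSubgroup Pt) : nsmulSub m N ≤ N := by
  intro x hx
  obtain ⟨y, hy, rfl⟩ := mem_nsmulSub.1 hx
  exact N.nsmul_mem hy m

/-- with a generator: `m • N ≤ E0 ↔ m • g ∈ E0`. -/
theorem nsmulSub_le_iff {m : ℕ} {N E0 : AddSubgroup Pt} {g : Pt} (hgN : g ∈ N)
    (hgen : ∀ x ∈ N, ∃ j : ℕ, x = j • g) : nsmulSub m N ≤ E0 ↔ m • g ∈ E0 := by
  constructor
  · intro h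
    exact h (mem_nsmulSub.2 ⟨g, hgN, rfl⟩)
  · intro h x hx
    obtain ⟨y, hy, rfl⟩ := mem_nsmulSub.1 hx
    obtain ⟨j, rfl⟩ := hgen y hy
    rw [← mul_nsmul', mul_comm, mul_nsmul']
    exact E0.nsmul_mem h j

/-- discrete intermediate value: a predicate false at `0` and true at `k` jumps somewhere. -/
theorem exists_jump (P : ℕ → Prop) {k : ℕ} (h0 : ¬ P 0) (hk : P k) :
    ∃ i, i < k ∧ ¬ P i ∧ P (i + 1) := by
  by_contra hcon
  push Not at hcon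
  have : ∀ j, j ≤ k → ¬ P j := by
    intro j
    induction j with
    | zero => exact fun _ => h0
    | succ n ih => exact fun hn => hcon n (by omega) (ih (by omega))
  exact this k le_rfl hk

end Sub


section SubChain

variable {G : Type*} [Group G] {Pt : Type*} [AddCommGroup Pt] [DistribMulAction G Pt]
variable {p : ℕ} {k : ℕ} {N : AddSubgroup Pt}

/-- `m • N` is stable. -/
theorem nsmulSub_stable (m : ℕ) (hstab : ∀ σ : G, ∀ x ∈ N, σ • x ∈ N) :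
    ∀ σ : G, ∀ x ∈ nsmulSub m N, σ • x ∈ nsmulSub m N := by
  intro σ x hx
  obtain ⟨y, hy, rfl⟩ := mem_nsmulSub.1 hx
  rw [smul_nsmul_comm']
  exact mem_nsmulSub.2 ⟨σ • y, hstab σ y hy, rfl⟩

omit [DistribMulAction G Pt] in
/-- `p^i • N` is generated by `p^i • g`. -/
theorem nsmulSub_eq_zmultiples (m : ℕ) {g : Pt} (hgN : g ∈ N)
    (hgen : ∀ x ∈ N, ∃ j : ℕ, x = j • g) :
    nsmulSub m N = AddSubgroup.zmultiples (m • g) := by
  apply le_antisymm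
  · intro x hx
    obtain ⟨y, hy, rfl⟩ := mem_nsmulSub.1 hx
    obtain ⟨j, rfl⟩ := hgen y hy
    rw [← mul_nsmul', mul_comm, mul_nsmul']
    exact AddSubgroup.nsmul_mem_zmultiples _ j
  · rw [AddSubgroup.zmultiples_le]
    exact mem_nsmulSub.2 ⟨g, hgN, rfl⟩

omit [DistribMulAction G Pt] in
/-- `p^i • N` is cyclic of order `p^(k-i)`. -/
theorem card_nsmulSub (hp : p.Prime) (hcyc : IsAddCyclic N) (hcard : Nat.card N = p ^ k) {i : ℕ}
    (hik : i ≤ k) :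
    IsAddCyclic (nsmulSub (p ^ i) N) ∧ Nat.card (nsmulSub (p ^ i) N) = p ^ (k - i) := by
  obtain ⟨g, hgN, hord, hgen⟩ := exists_gen N hp hcyc hcard
  rw [nsmulSub_eq_zmultiples (p ^ i) hgN hgen]
  refine ⟨inferInstance, ?_⟩
  rw [Nat.card_zmultiples, addOrderOf_nsmul_of_dvd (pow_ne_zero _ hp.ne_zero)
    (by rw [hord]; exact pow_dvd_pow p hik), hord]
  exact Nat.pow_div hik hp.pos

/-- `p^i • N` is cofixed at level `k - i`. -/
theorem cofixed_nsmulSub (hp : p.Prime) (hcyc : IsAddCyclic N) (hcard : Nat.card N = p ^ k)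
    (hcof : ∀ (σ : G) (x : Pt), p ^ k • x = 0 → σ • x - x ∈ N) {i : ℕ} (hik : i ≤ k) :
    ∀ (σ : G) (x : Pt), p ^ (k - i) • x = 0 → σ • x - x ∈ nsmulSub (p ^ i) N := by
  intro σ x hx
  obtain ⟨g, hgN, hord, hgen⟩ := exists_gen N hp hcyc hcard
  have hxk : p ^ k • x = 0 := by
    have : k = i + (k - i) := by omega
    rw [this, pow_add, mul_nsmul', hx, nsmul_zero]
  obtain ⟨m, hm⟩ := hgen _ (hcof σ x hxk)
  have h0 : p ^ (k - i) • (σ • x - x) = 0 := by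
    rw [nsmul_sub, ← smul_nsmul_comm', hx, smul_zero, sub_zero]
  rw [hm, ← mul_nsmul'] at h0
  have h1 : p ^ k ∣ p ^ (k - i) * m := hord ▸ addOrderOf_dvd_of_nsmul_eq_zero h0
  have h2 : p ^ k = p ^ (k - i) * p ^ i := by
    rw [← pow_add]
    congr 1
    omega
  rw [h2] at h1
  obtain ⟨m', rfl⟩ := Nat.dvd_of_mul_dvd_mul_left (pow_pos hp.pos _) h1
  rw [hm]
  exact mem_nsmulSub.2 ⟨m' • g, N.nsmul_mem hgN m', by rw [mul_nsmul']⟩

end SubChain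

section Arith

/-- `ℓ ≡ 1 [MOD p]`, `ℓ` prime, `p ≥ 5` ⟹ `5 ≤ ℓ` and `ℓ ∤ p - 1`. -/
theorem five_le_of_modEq_one {p ℓ : ℕ} (hp5 : 5 ≤ p) (hℓ : ℓ.Prime) (h : ℓ ≡ 1 [MOD p]) :
    5 ≤ ℓ ∧ ¬ ℓ ∣ p - 1 := by
  have h1 : p ∣ ℓ - 1 := (Nat.modEq_iff_dvd' hℓ.one_lt.le).1 h.symm
  have h2 : p ≤ ℓ - 1 := Nat.le_of_dvd (by have := hℓ.one_lt; omega) h1
  refine ⟨by omega, fun h3 => ?_⟩
  have := Nat.le_of_dvd (by omega) h3
  omega

/-- `p ∣ ℓ - 1 ∨ p ∣ ℓ + 1`, `ℓ` prime, `p ≥ 5` prime ⟹ `5 ≤ ℓ` and `ℓ ∤ p - 1`. -/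
theorem five_le_of_dvd_pred_or_succ {p ℓ : ℕ} (hp : p.Prime) (hp5 : 5 ≤ p) (hℓ : ℓ.Prime)
    (h : p ∣ ℓ - 1 ∨ p ∣ ℓ + 1) : 5 ≤ ℓ ∧ ¬ ℓ ∣ p - 1 := by
  have hℓ2 := hℓ.two_le
  have h4 : p - 1 ≤ ℓ := by
    rcases h with h | h
    · have := Nat.le_of_dvd (by omega) h
      omega
    · have := Nat.le_of_dvd (by omega) h
      omega
  have h5 : 5 ≤ ℓ := by
    by_contra hlt
    have hℓ4 : ℓ = 4 := by omega
    rw [hℓ4] at hℓ
    exact absurd hℓ (by norm_num)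
  refine ⟨h5, fun h3 => ?_⟩
  have h6 := Nat.le_of_dvd (by omega) h3
  have h7 : ℓ = p - 1 := by omega
  -- `p - 1` is even and `≥ 4`
  have hodd : Odd p := hp.odd_of_ne_two (by omega)
  obtain ⟨m, hm⟩ := hodd
  have h8 : ℓ = 2 * m := by omega
  have h9 : (2 : ℕ) ∣ ℓ := ⟨m, h8⟩
  have := (Nat.prime_dvd_prime_iff_eq Nat.prime_two hℓ).1 h9
  omega

end Arith

section Main

variable {G : Type*} [Group G] {Pt : Type*} [AddCommGroup Pt] [DistribMulAction G Pt]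
variable {p : ℕ} {k : ℕ} {N : AddSubgroup Pt}

/-- **(CAN) at a multiplicative prime `ℓ ≠ p`**, abstract form.  `N` cyclic of order `p^k`, stable,
cofixed at level one; `E0` the `D`-stable subgroup of points on the identity component, with
(L1) `E0[p] ≠ 0` and (L2) = `hloc`; `ψ` the character on `N[p]` with a "Frobenius" `φ ∈ D`,
`ψ φ ≡ ℓ`; (CUT-D) `hcut`; and `hmix` = (PAIR) + CorePair at the jump `p^i N ⊄ E0`, `p^(i+1) N ⊆ E0`
for a prime `ℓ ≥ 5`, `ℓ ∤ p - 1`.  Then `N ≤ E0`. -/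
theorem can_of_mix (hp : p.Prime) (hp5 : 5 ≤ p) {ℓ : ℕ} (hℓ : ℓ.Prime)
    (hcyc : IsAddCyclic N) (hcard : Nat.card N = p ^ k)
    (hstab : ∀ σ : G, ∀ x ∈ N, σ • x ∈ N)
    (hcof1 : ∀ (σ : G) (T : Pt), p • T = 0 → σ • T - T ∈ N)
    (E0 : AddSubgroup Pt) (D : Subgroup G) (hD : ∀ σ ∈ D, ∀ x ∈ E0, σ • x ∈ E0)
    (hL1 : ∃ T ∈ E0, T ≠ 0 ∧ p • T = 0)
    (hloc : ∀ (m : ℕ) (x : Pt), p ^ m • x = 0 → p • x ∈ E0 → ∃ T : Pt, p • T = 0 ∧ x - T ∈ E0)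
    (ψ : G → ℕ) (hdet : ∀ σ : G, ∀ x ∈ N, p • x = 0 → σ • x = ψ σ • x)
    (hχD : ∃ σ ∈ D, ψ σ ≡ ℓ [MOD p])
    (hcut : ∀ T ∈ E0, T ≠ 0 → p • T = 0 → (∀ σ ∈ D, σ • T = T) → p ∣ ℓ - 1 ∨ p ∣ ℓ + 1)
    (hmix : ∀ i, i < k → ¬ nsmulSub (p ^ i) N ≤ E0 → nsmulSub (p ^ (i + 1)) N ≤ E0 →
      5 ≤ ℓ → ¬ ℓ ∣ p - 1 → False) : N ≤ E0 := by
  by_contra hne
  obtain ⟨g, hgN, hord, hgen⟩ := exists_gen N hp hcyc hcard
  have hpkg : p ^ k • g = 0 := by
    rw [← hord]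
    exact addOrderOf_nsmul_eq_zero g
  -- the jump
  have h0 : ¬ (p ^ 0 • g ∈ E0) := by
    rw [pow_zero, one_nsmul]
    intro hg
    refine hne fun x hx => ?_
    obtain ⟨j, rfl⟩ := hgen x hx
    exact E0.nsmul_mem hg j
  have hk' : p ^ k • g ∈ E0 := by rw [hpkg]; exact E0.zero_mem
  obtain ⟨i, hik, hi0, hi1⟩ := exists_jump (fun i => p ^ i • g ∈ E0) h0 hk'
  -- the sub-chain `N' = p^i N`, generated by `g' = p^i g` of order `p^(k-i)`
  have hg'N' : p ^ i • g ∈ nsmulSub (p ^ i) N := mem_nsmulSub.2 ⟨g, hgN, rfl⟩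
  have hord' : addOrderOf (p ^ i • g) = p ^ (k - i) := by
    rw [addOrderOf_nsmul_of_dvd (pow_ne_zero _ hp.ne_zero)
      (by rw [hord]; exact pow_dvd_pow p hik.le), hord]
    exact Nat.pow_div hik.le hp.pos
  have hgen' : ∀ x ∈ nsmulSub (p ^ i) N, ∃ j : ℕ, x = j • (p ^ i • g) := by
    intro x hx
    obtain ⟨y, hy, rfl⟩ := mem_nsmulSub.1 hx
    obtain ⟨j, rfl⟩ := hgen y hy
    exact ⟨j, by rw [← mul_nsmul', mul_comm, mul_nsmul']⟩
  have hne' : ¬ nsmulSub (p ^ i) N ≤ E0 ⊓ nsmulSub (p ^ i) N := fun h => hi0 (h hg'N').1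
  have hdet' : ∀ σ : G, ∀ x ∈ nsmulSub (p ^ i) N, p • x = 0 → σ • x = ψ σ • x :=
    fun σ x hx hpx => hdet σ x (nsmulSub_le _ _ hx) hpx
  have hmixi := hmix i hik ((nsmulSub_le_iff hgN hgen).not.2 hi0)
    ((nsmulSub_le_iff hgN hgen).2 hi1)
  -- `N[p] = p^(k-1) N`
  have hbot : ∀ x ∈ N, p • x = 0 → ∃ j : ℕ, x = j • (p ^ (k - 1) • g) := by
    intro x hx hpx
    obtain ⟨m, rfl⟩ := hgen x hx
    rw [← mul_nsmul'] at hpx
    have h1 : p ^ k ∣ p * m := hord ▸ addOrderOf_dvd_of_nsmul_eq_zero hpx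
    obtain ⟨k', rfl⟩ : ∃ k', k = k' + 1 := ⟨k - 1, by omega⟩
    rw [pow_succ'] at h1
    obtain ⟨m', rfl⟩ := Nat.dvd_of_mul_dvd_mul_left hp.pos h1
    exact ⟨m', by rw [Nat.add_sub_cancel, ← mul_nsmul', mul_comm]⟩
  by_cases hki : i + 1 = k
  · -- the bottom line: `N' = N[p]` of order `p`
    obtain ⟨T, hTE, hT0, hpT⟩ := hL1
    have hi : i = k - 1 := by omega
    have hfix : ∀ σ ∈ D, σ • T = T := by
      intro σ hσD
      by_contra hfix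
      have hx0 : σ • T - T ≠ 0 := fun h => hfix (sub_eq_zero.mp h)
      have h1 : σ • T - T ∈ N := hcof1 σ T hpT
      have h2 : σ • T - T ∈ E0 := E0.sub_mem (hD σ hσD T hTE) hTE
      have h3 : p • (σ • T - T) = 0 := by
        rw [nsmul_sub, ← smul_nsmul_comm', hpT, smul_zero, sub_zero]
      obtain ⟨j, hj⟩ := hbot _ h1 h3
      rw [← hi] at hj
      -- `j` is prime to `p`, so `g'` is a multiple of `σ T - T ∈ E0`
      have hpj : ¬ p ∣ j := by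
        rintro ⟨j', rfl⟩
        apply hx0
        have h4 : p • (p ^ i • g) = 0 := by
          rw [← mul_nsmul', ← pow_succ', hki, hpkg]
        rw [hj, mul_comm, mul_nsmul', h4, nsmul_zero]
      have hcop : Nat.Coprime j (addOrderOf (p ^ i • g)) := by
        rw [hord']
        exact Nat.Coprime.pow_right _ ((Nat.Prime.coprime_iff_not_dvd hp).2 hpj).symm
      obtain ⟨j', hj'⟩ := exists_nsmul_eq_self_of_coprime hcop
      apply hi0
      show p ^ i • g ∈ E0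
      rw [← hj', ← hj]
      exact E0.nsmul_mem h2 j'
    obtain ⟨h5, hdvd⟩ := five_le_of_dvd_pred_or_succ hp hp5 hℓ (hcut T hTE hT0 hpT hfix)
    exact hmixi h5 hdvd
  · -- `k - i ≥ 2`
    have hk2 : 2 ≤ k - i := by omega
    have hall : ∀ σ ∈ D, ψ σ ≡ 1 [MOD p] := by
      intro σ hσD
      have hpkg' : p ^ (k - i) • (p ^ i • g) = 0 := by
        rw [← hord']
        exact addOrderOf_nsmul_eq_zero _
      have hpg' : p • (p ^ i • g) ∈ E0 := by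
        rw [← mul_nsmul', ← pow_succ']
        exact hi1
      obtain ⟨T, hpT, hgT⟩ := hloc (k - i) (p ^ i • g) hpkg' hpg'
      refine modEq_one_of_sub_mem_proper hp (by omega) hg'N' hord' hgen'
        (H := E0 ⊓ nsmulSub (p ^ i) N) inf_le_right hne' ψ hdet' ⟨?_, ?_⟩
      · have h1 : σ • (p ^ i • g) - p ^ i • g =
            (σ • T - T) + (σ • (p ^ i • g - T) - (p ^ i • g - T)) := by
          rw [smul_sub]
          abel
        rw [h1]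
        refine E0.add_mem ?_ (E0.sub_mem (hD σ hσD _ hgT) hgT)
        have h2 : σ • T - T ∈ N := hcof1 σ T hpT
        have h3 : p • (σ • T - T) = 0 := by
          rw [nsmul_sub, ← smul_nsmul_comm', hpT, smul_zero, sub_zero]
        obtain ⟨j, hj⟩ := hbot _ h2 h3
        -- `p^(k-1) g` is a multiple of `p^(i+1) g`
        have h4 : p ^ (k - 1) • g = p ^ (k - 1 - (i + 1)) • (p ^ (i + 1) • g) := by
          rw [← mul_nsmul', ← pow_add]
          congr 2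
          omega
        rw [hj, h4]
        exact E0.nsmul_mem (E0.nsmul_mem hi1 _) j
      · refine (nsmulSub (p ^ i) N).sub_mem ?_ hg'N'
        rw [smul_nsmul_comm']
        exact mem_nsmulSub.2 ⟨σ • g, hstab σ g hgN, rfl⟩
    obtain ⟨φ, hφD, hφ⟩ := hχD
    obtain ⟨h5, hdvd⟩ := five_le_of_modEq_one hp5 hℓ (hφ.symm.trans (hall φ hφD))
    exact hmixi h5 hdvd

end Main

end Fermat.Agent.GZ.S12.Canon
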