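/-
CELL-M3 (S12) / node (CAN), in the vocabulary of helper94's `GZ/S12/ChainInd` (helper92):
`M` an abstract `G_ℚ`-module, `χ : G_ℚ → ℕ`, `mult : ℕ → Prop`, `E0 A` the zero component at `A`.

* **`hcan_of_nodes`** : the binder `hcan` of `ChainInd.step / chain_all / forall_chain` VERBATIM, from
  `hI hD` (same binders as ChainInd), `hloc` ((LOC c), form (L2)), `hχI` (`χ ≢ 1` on `I_A`, `A ∣ p`),
  `hχD` (a Frobenius in `D_A` with `χ ≡ ℓ`), `mult 2`, `mult 3`, and ONE arithmetic binder `hmix`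
  (= (PAIR) + `CorePair`): a stable cyclic `N'` of order `p^(k+1)`, canonical at all places over `2`
  and `3`, with `p N'` canonical at `A ∣ ℓ`, `ℓ ≥ 5`, `ℓ ∤ p - 1`, `ℓ ≠ p`, is canonical at `A`.
  (`ℓ = p` by `can_at_p`; `ℓ ∈ {2, 3}` by `can_step` since `ℓ ≡ 1 [MOD p]` is impossible.)
* **`can_one_of_nodes`** : the field `can` of `ChainInv … 1` (the cofixed line itself), from `hL1`,
  (CUT-D) `hcut`, and the level-one `hmix`.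
-/
import Mathlib
import Fermat.Prelude.Def_FLTPrelim_Ramification
import Fermat.Agent.GZ.Dev.Flag
import Fermat.Agent.GZ.S12.CanonInd

set_option autoImplicit false
set_option linter.unusedSectionVars false
set_option linter.unusedVariables false

noncomputable section

namespace Fermat.Agent.GZ.S12.Canon

open Fermat.Agent.GZ.Dev ValuationSubring

local notation "Qb" => AlgebraicClosure ℚ
local notation "GQ" => (AlgebraicClosure ℚ ≃ₐ[ℚ] AlgebraicClosure ℚ)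

variable {M : Type} [AddCommGroup M] [DistribMulAction GQ M] {p : ℕ}
variable {mult : ℕ → Prop} {E0 : ValuationSubring Qb → AddSubgroup M}

/-- **(CAN), the step, in the shape of the binder `hcan` of `GZ/S12/ChainInd.step`.** -/
theorem hcan_of_nodes (hp : p.Prime) (hp5 : 5 ≤ p) (χ : GQ → ℕ)
    (hI : ∀ ℓ : ℕ, ℓ.Prime → mult ℓ → ∀ A : ValuationSubring Qb, A.LiesOverPrime ℓ →
      ∀ σ ∈ A.inertiaSubgroupIn ℚ, ∀ x : M, σ • x - x ∈ E0 A)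
    (hD : ∀ ℓ : ℕ, ℓ.Prime → mult ℓ → ∀ A : ValuationSubring Qb, A.LiesOverPrime ℓ →
      ∀ σ ∈ A.decompositionSubgroup ℚ, ∀ x ∈ E0 A, σ • x ∈ E0 A)
    (hloc : ∀ ℓ : ℕ, ℓ.Prime → mult ℓ → ∀ A : ValuationSubring Qb, A.LiesOverPrime ℓ →
      ∀ (m : ℕ) (x : M), p ^ m • x = 0 → p • x ∈ E0 A → ∃ T : M, p • T = 0 ∧ x - T ∈ E0 A)
    (hχI : ∀ A : ValuationSubring Qb, A.LiesOverPrime p →
      ∃ σ ∈ A.inertiaSubgroupIn ℚ, ¬ χ σ ≡ 1 [MOD p])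
    (hχD : ∀ ℓ : ℕ, ℓ.Prime → ℓ ≠ p → ∀ A : ValuationSubring Qb, A.LiesOverPrime ℓ →
      ∃ σ ∈ A.decompositionSubgroup ℚ, χ σ ≡ ℓ [MOD p])
    (hm2 : mult 2) (hm3 : mult 3)
    (hmix : ∀ k : ℕ, 1 ≤ k → ∀ N' : StableSub GQ M, IsAddCyclic ↥N'.U →
      Nat.card ↥N'.U = p ^ (k + 1) →
      (∀ (σ : GQ) (t : M), p • t = 0 → σ • t - t ∈ N'.U) →
      (∀ (σ : GQ), ∀ x ∈ N'.U, p • x = 0 → σ • x = χ σ • x) →
      (∀ A : ValuationSubring Qb, A.LiesOverPrime 2 → N'.U ≤ E0 A) →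
      (∀ A : ValuationSubring Qb, A.LiesOverPrime 3 → N'.U ≤ E0 A) →
      ∀ ℓ : ℕ, ℓ.Prime → mult ℓ → ℓ ≠ p → 5 ≤ ℓ → ¬ ℓ ∣ p - 1 →
        ∀ A : ValuationSubring Qb, A.LiesOverPrime ℓ →
          (∀ x ∈ N'.U, p • x ∈ E0 A) → ¬ N'.U ≤ E0 A → False) :
    ∀ k : ℕ, 1 ≤ k → ∀ N' : StableSub GQ M, IsAddCyclic ↥N'.U →
      Nat.card ↥N'.U = p ^ (k + 1) →
      (∀ (σ : GQ) (t : M), p • t = 0 → σ • t - t ∈ N'.U) →
      (∀ (σ : GQ), ∀ x ∈ N'.U, p • x = 0 → σ • x = χ σ • x) →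
      (∀ ℓ : ℕ, ℓ.Prime → mult ℓ → ∀ A : ValuationSubring Qb, A.LiesOverPrime ℓ →
        ∀ x ∈ N'.U, p • x ∈ E0 A) →
      ∀ ℓ : ℕ, ℓ.Prime → mult ℓ → ∀ A : ValuationSubring Qb, A.LiesOverPrime ℓ → N'.U ≤ E0 A := by
  intro k hk N' hcyc hcard hcof1 hdet hpN'
  -- the step at `ℓ ≠ p`: a non-canonical `N'` forces `ℓ ≡ 1 [MOD p]`
  have key : ∀ ℓ : ℕ, ℓ.Prime → mult ℓ → ℓ ≠ p → ∀ A : ValuationSubring Qb, A.LiesOverPrime ℓ →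
      ¬ N'.U ≤ E0 A → 5 ≤ ℓ ∧ ¬ ℓ ∣ p - 1 := by
    intro ℓ hℓ hm hℓp A hA hne
    have hall := can_step hp (by omega : 2 ≤ k + 1) hcyc hcard N'.smul_mem hcof1 (E0 A)
      (A.decompositionSubgroup ℚ) (hD ℓ hℓ hm A hA) (hpN' ℓ hℓ hm A hA) hne
      (hloc ℓ hℓ hm A hA (k + 1)) χ hdet
    obtain ⟨φ, hφD, hφ⟩ := hχD ℓ hℓ hℓp A hA
    exact five_le_of_modEq_one hp5 hℓ (hφ.symm.trans (hall φ hφD))
  have h2 : ∀ A : ValuationSubring Qb, A.LiesOverPrime 2 → N'.U ≤ E0 A := by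
    intro A hA
    by_contra hne
    have := (key 2 Nat.prime_two hm2 (by omega) A hA hne).1
    omega
  have h3 : ∀ A : ValuationSubring Qb, A.LiesOverPrime 3 → N'.U ≤ E0 A := by
    intro A hA
    by_contra hne
    have := (key 3 Nat.prime_three hm3 (by omega) A hA hne).1
    omega
  intro ℓ hℓ hm A hA
  by_cases hℓp : ℓ = p
  · subst hℓp
    exact can_at_p hp (by omega : 1 ≤ k + 1) hcyc hcard N'.smul_mem (E0 A)
      (A.inertiaSubgroupIn ℚ) (fun σ hσ x _ => hI ℓ hℓ hm A hA σ hσ x) χ hdet (hχI A hA)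
  · by_contra hne
    obtain ⟨h5, hdvd⟩ := key ℓ hℓ hm hℓp A hA hne
    exact hmix k hk N' hcyc hcard hcof1 hdet h2 h3 ℓ hℓ hm hℓp h5 hdvd A hA
      (hpN' ℓ hℓ hm A hA) hne


/-- **(CAN), the base**: the cofixed line `N = N_1` is canonical at every multiplicative place (the
field `can` of `ChainInd.ChainInv … 1`). -/
theorem can_one_of_nodes (hp : p.Prime) (hp5 : 5 ≤ p) (χ : GQ → ℕ)
    (hI : ∀ ℓ : ℕ, ℓ.Prime → mult ℓ → ∀ A : ValuationSubring Qb, A.LiesOverPrime ℓ →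
      ∀ σ ∈ A.inertiaSubgroupIn ℚ, ∀ x : M, σ • x - x ∈ E0 A)
    (hD : ∀ ℓ : ℕ, ℓ.Prime → mult ℓ → ∀ A : ValuationSubring Qb, A.LiesOverPrime ℓ →
      ∀ σ ∈ A.decompositionSubgroup ℚ, ∀ x ∈ E0 A, σ • x ∈ E0 A)
    (hL1 : ∀ ℓ : ℕ, ℓ.Prime → mult ℓ → ∀ A : ValuationSubring Qb, A.LiesOverPrime ℓ →
      ∃ T ∈ E0 A, T ≠ 0 ∧ p • T = 0)
    (hχI : ∀ A : ValuationSubring Qb, A.LiesOverPrime p →
      ∃ σ ∈ A.inertiaSubgroupIn ℚ, ¬ χ σ ≡ 1 [MOD p])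
    (hcut : ∀ ℓ : ℕ, ℓ.Prime → mult ℓ → ℓ ≠ p → ∀ A : ValuationSubring Qb, A.LiesOverPrime ℓ →
      ∀ T ∈ E0 A, T ≠ 0 → p • T = 0 → (∀ σ ∈ A.decompositionSubgroup ℚ, σ • T = T) →
        p ∣ ℓ - 1 ∨ p ∣ ℓ + 1)
    (hm2 : mult 2) (hm3 : mult 3)
    (N : StableSub GQ M) (hcyc : IsAddCyclic ↥N.U) (hcard : Nat.card ↥N.U = p ^ 1)
    (hcof1 : ∀ (σ : GQ) (t : M), p • t = 0 → σ • t - t ∈ N.U)
    (hdet : ∀ (σ : GQ), ∀ x ∈ N.U, p • x = 0 → σ • x = χ σ • x)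
    (hmix : (∀ A : ValuationSubring Qb, A.LiesOverPrime 2 → N.U ≤ E0 A) →
      (∀ A : ValuationSubring Qb, A.LiesOverPrime 3 → N.U ≤ E0 A) →
      ∀ ℓ : ℕ, ℓ.Prime → mult ℓ → ℓ ≠ p → 5 ≤ ℓ → ¬ ℓ ∣ p - 1 →
        ∀ A : ValuationSubring Qb, A.LiesOverPrime ℓ → ¬ N.U ≤ E0 A → False) :
    ∀ ℓ : ℕ, ℓ.Prime → mult ℓ → ∀ A : ValuationSubring Qb, A.LiesOverPrime ℓ → N.U ≤ E0 A := by
  have hcard' : Nat.card ↥N.U = p := by rw [hcard, pow_one]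
  have key : ∀ ℓ : ℕ, ℓ.Prime → mult ℓ → ℓ ≠ p → ∀ A : ValuationSubring Qb, A.LiesOverPrime ℓ →
      ¬ N.U ≤ E0 A → 5 ≤ ℓ ∧ ¬ ℓ ∣ p - 1 := by
    intro ℓ hℓ hm hℓp A hA hne
    obtain ⟨T, hTE, hT0, hpT⟩ := hL1 ℓ hℓ hm A hA
    have hfix := can_base hp hcard' hcof1 (E0 A) (A.decompositionSubgroup ℚ) (hD ℓ hℓ hm A hA)
      hne hTE hpT
    exact five_le_of_dvd_pred_or_succ hp hp5 hℓ (hcut ℓ hℓ hm hℓp A hA T hTE hT0 hpT hfix)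
  have h2 : ∀ A : ValuationSubring Qb, A.LiesOverPrime 2 → N.U ≤ E0 A := by
    intro A hA
    by_contra hne
    have := (key 2 Nat.prime_two hm2 (by omega) A hA hne).1
    omega
  have h3 : ∀ A : ValuationSubring Qb, A.LiesOverPrime 3 → N.U ≤ E0 A := by
    intro A hA
    by_contra hne
    have := (key 3 Nat.prime_three hm3 (by omega) A hA hne).1
    omega
  intro ℓ hℓ hm A hA
  by_cases hℓp : ℓ = p
  · subst hℓp
    exact can_at_p hp (le_refl 1) hcyc hcard N.smul_mem (E0 A)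
      (A.inertiaSubgroupIn ℚ) (fun σ hσ x _ => hI ℓ hℓ hm A hA σ hσ x) χ hdet (hχI A hA)
  · by_contra hne
    obtain ⟨h5, hdvd⟩ := key ℓ hℓ hm hℓp A hA hne
    exact hmix h2 h3 ℓ hℓ hm hℓp h5 hdvd A hA hne

end Fermat.Agent.GZ.S12.Canon
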