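/-
CELL-M3 (S12) / node (CAN), INSTANCE binders on `M := (EQb W).Point` (helper92), in the frame of
helper94's `GZ/S12/ChainInst`: `W` an integral Weierstrass curve, `Δ ≠ 0`,
`mult ℓ := (ℓ : ℤ) ∣ W.Δ`, all bad primes multiplicative (`hc₄ : ℓ ∣ Δ → ℓ ∤ c₄`; Frey:
`FreyMult.not_dvd_c₄_of_dvd_Δ`).

* `mult_of`   : `Local.Mult W A ℓ` from `ℓ ∣ Δ`;
* `E0 W A`    : the zero component at `A` as a FAMILY of subgroups indexed by all places (`⊤` at the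
  places of good reduction), `E0_eq : E0 W A = Local.e0 h`, `mem_E0_iff`;
* `hI_inst`, `hD_inst`, `hfix_inst` : the binders `hI`, `hD`, `hfix` of `ChainInd2.forall_chain2`
  and of `CanonChain.hcan_of_nodes` (from helper9's `GZ/S12/Local`);
* `hcut_inst` : the binder `hcut` of `CanonChain.can_one_of_nodes` (helper67's `CutD`);
* `hχI_inst`, `hχD_inst` : the binders `hχI`, `hχD` with `χ := cycloExp p` (helper21's `DetCyc`);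
* **`hcan_inst`**, **`can_one_inst`** : `hcan_of_nodes` / `can_one_of_nodes` with all of the above
  plugged: the remaining binders are (LOC c) `hloc` / `hL1`, `mult 2`, `mult 3`, and `hmix`.
-/
import Mathlib
import Fermat.Agent.GZ.S12.CanonChain
import Fermat.Agent.GZ.S12.DetCyc
import Fermat.Agent.GZ.S12.Local
import Fermat.Agent.GZ.S12.CutD
import Fermat.Agent.GE.Top.ECAssembly
import Fermat.Agent.Common_helper32.FrobeniusExists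

set_option autoImplicit false
set_option linter.unusedSectionVars false
set_option linter.unusedVariables false

noncomputable section

open scoped WeierstrassCurve.Affine

namespace Fermat.Agent.GZ.S12.CanonInst

open Fermat.Agent.GZ.Dev Fermat.Agent.GE.ECAssembly ValuationSubring WeierstrassCurve
  Fermat.Agent.GZ.S12.Canon ExtCitation

local notation "Qb" => AlgebraicClosure ℚ
local notation "GQ" => (AlgebraicClosure ℚ ≃ₐ[ℚ] AlgebraicClosure ℚ)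

variable (W : WeierstrassCurve ℤ)

/-- multiplicative reduction at `A ∣ ℓ` from `ℓ ∣ Δ`. -/
theorem mult_of (hΔ : W.Δ ≠ 0)
    (hc₄ : ∀ ℓ : ℕ, ℓ.Prime → (ℓ : ℤ) ∣ W.Δ → ¬ (ℓ : ℤ) ∣ W.c₄) {ℓ : ℕ} (hℓ : ℓ.Prime)
    (hm : (ℓ : ℤ) ∣ W.Δ) {A : ValuationSubring Qb} (hA : A.LiesOverPrime ℓ) :
    Local.Mult W A ℓ :=
  ⟨hℓ, hA, hΔ, hm, hc₄ ℓ hℓ hm⟩

open scoped Classical in
/-- **the zero component at `A`, as a family over all places** (`⊤` where the reduction is not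
multiplicative). -/
def E0 (A : ValuationSubring Qb) : AddSubgroup (EQb W).Point :=
  if h : ∃ ℓ : ℕ, Local.Mult W A ℓ then Local.e0 h.choose_spec else ⊤

variable {W}

theorem E0_eq {A : ValuationSubring Qb} {ℓ : ℕ} (h : Local.Mult W A ℓ) : E0 W A = Local.e0 h := by
  unfold E0
  rw [dif_pos ⟨ℓ, h⟩]
  ext x
  rw [Local.mem_e0, Local.mem_e0]

theorem mem_E0_iff {A : ValuationSubring Qb} {ℓ : ℕ} (h : Local.Mult W A ℓ) (x : (EQb W).Point) :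
    x ∈ E0 W A ↔ W.InZeroComponentAt A x := by
  rw [E0_eq h, Local.mem_e0]

variable (W)

/-- **`hI`**. -/
theorem hI_inst (hΔ : W.Δ ≠ 0)
    (hc₄ : ∀ ℓ : ℕ, ℓ.Prime → (ℓ : ℤ) ∣ W.Δ → ¬ (ℓ : ℤ) ∣ W.c₄) :
    ∀ ℓ : ℕ, ℓ.Prime → (ℓ : ℤ) ∣ W.Δ → ∀ A : ValuationSubring Qb, A.LiesOverPrime ℓ →
      ∀ σ ∈ A.inertiaSubgroupIn ℚ, ∀ x : (EQb W).Point, σ • x - x ∈ E0 W A := by
  intro ℓ hℓ hm A hA σ hσ x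
  rw [E0_eq (mult_of W hΔ hc₄ hℓ hm hA)]
  exact Local.smul_sub_mem_e0 _ hσ x

/-- **`hD`**. -/
theorem hD_inst (hΔ : W.Δ ≠ 0)
    (hc₄ : ∀ ℓ : ℕ, ℓ.Prime → (ℓ : ℤ) ∣ W.Δ → ¬ (ℓ : ℤ) ∣ W.c₄) :
    ∀ ℓ : ℕ, ℓ.Prime → (ℓ : ℤ) ∣ W.Δ → ∀ A : ValuationSubring Qb, A.LiesOverPrime ℓ →
      ∀ σ ∈ A.decompositionSubgroup ℚ, ∀ x ∈ E0 W A, σ • x ∈ E0 W A := by
  intro ℓ hℓ hm A hA σ hσ x hx
  rw [E0_eq (mult_of W hΔ hc₄ hℓ hm hA)] at hx ⊢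
  exact (Local.smul_mem_e0_iff _ hσ x).2 hx

/-- **`hfix`**. -/
theorem hfix_inst (hΔ : W.Δ ≠ 0)
    (hc₄ : ∀ ℓ : ℕ, ℓ.Prime → (ℓ : ℤ) ∣ W.Δ → ¬ (ℓ : ℤ) ∣ W.c₄) {p : ℕ} (hp : p.Prime) :
    ∀ ℓ : ℕ, ℓ.Prime → (ℓ : ℤ) ∣ W.Δ → ℓ ≠ p → ∀ A : ValuationSubring Qb, A.LiesOverPrime ℓ →
      ∀ σ ∈ A.inertiaSubgroupIn ℚ, ∀ x ∈ E0 W A, p • x = 0 → σ • x = x := by
  intro ℓ hℓ hm hℓp A hA σ hσ x hx hpx
  rw [E0_eq (mult_of W hΔ hc₄ hℓ hm hA)] at hx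
  refine Local.smul_eq_of_mem_e0 _ hσ (m := p) (fun h => hℓp ?_) hpx hx
  exact (Nat.prime_dvd_prime_iff_eq hℓ hp).1 h

/-- **`hcut`** (CUT-D). -/
theorem hcut_inst (hΔ : W.Δ ≠ 0)
    (hc₄ : ∀ ℓ : ℕ, ℓ.Prime → (ℓ : ℤ) ∣ W.Δ → ¬ (ℓ : ℤ) ∣ W.c₄) {p : ℕ} (hp : p.Prime) :
    ∀ ℓ : ℕ, ℓ.Prime → (ℓ : ℤ) ∣ W.Δ → ℓ ≠ p → ∀ A : ValuationSubring Qb, A.LiesOverPrime ℓ →
      ∀ T ∈ E0 W A, T ≠ 0 → p • T = 0 → (∀ σ ∈ A.decompositionSubgroup ℚ, σ • T = T) →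
        p ∣ ℓ - 1 ∨ p ∣ ℓ + 1 := by
  intro ℓ hℓ hm hℓp A hA T hT hT0 hpT hfix
  exact Fermat.Agent.GZ.S12.CutD.dvd_of_decomposition_nsmul hp W hΔ T hpT hT0 hℓ hℓp hm
    (hc₄ ℓ hℓ hm) A hA hfix ((mem_E0_iff (mult_of W hΔ hc₄ hℓ hm hA) T).1 hT)

section Chi

variable {p : ℕ} [hp : Fact p.Prime]

/-- **`hχI`** with `χ := cycloExp p`. -/
theorem hχI_inst (hp2 : p ≠ 2) :
    ∀ A : ValuationSubring Qb, A.LiesOverPrime p →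
      ∃ σ ∈ A.inertiaSubgroupIn ℚ, ¬ cycloExp p σ ≡ 1 [MOD p] :=
  fun A hA => Fermat.Agent.GZ.S12.DetCyc.exists_inertia_cycloExp_ne_one hp2 A hA

/-- **`hχD`** with `χ := cycloExp p`: a Frobenius at `A`. -/
theorem hχD_inst :
    ∀ ℓ : ℕ, ℓ.Prime → ℓ ≠ p → ∀ A : ValuationSubring Qb, A.LiesOverPrime ℓ →
      ∃ σ ∈ A.decompositionSubgroup ℚ, cycloExp p σ ≡ ℓ [MOD p] := by
  intro ℓ hℓ hℓp A hA
  obtain ⟨φ, hφ⟩ := Fermat.Agent.Common_helper32.exists_isFrobeniusAt_of_liesOver A ℓ hℓ hA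
  exact ⟨φ, hφ.mem_decompositionSubgroup,
    Fermat.Agent.GZ.S12.DetCyc.cycloExp_frob hℓ hℓp hA hφ⟩

/-- **(CAN), the step, on `(EQb W).Point`**: the binder `hcan` of `ChainInd2.forall_chain2` with
`χ := cycloExp p`, `mult ℓ := (ℓ : ℤ) ∣ W.Δ`, `E0 := E0 W`; remaining binders: (LOC c) `hloc`,
`2 ∣ Δ`, `3 ∣ Δ`, and `hmix` (= (PAIR) + `CorePair`). -/
theorem hcan_inst (hΔ : W.Δ ≠ 0)
    (hc₄ : ∀ ℓ : ℕ, ℓ.Prime → (ℓ : ℤ) ∣ W.Δ → ¬ (ℓ : ℤ) ∣ W.c₄) (hp5 : 5 ≤ p)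
    (hloc : ∀ ℓ : ℕ, ℓ.Prime → (ℓ : ℤ) ∣ W.Δ → ∀ A : ValuationSubring Qb, A.LiesOverPrime ℓ →
      ∀ (m : ℕ) (x : (EQb W).Point), p ^ m • x = 0 → p • x ∈ E0 W A →
        ∃ T : (EQb W).Point, p • T = 0 ∧ x - T ∈ E0 W A)
    (hm2 : ((2 : ℕ) : ℤ) ∣ W.Δ) (hm3 : ((3 : ℕ) : ℤ) ∣ W.Δ)
    (hmix : ∀ k : ℕ, 1 ≤ k → ∀ N' : StableSub GQ (EQb W).Point, IsAddCyclic ↥N'.U →
      Nat.card ↥N'.U = p ^ (k + 1) →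
      (∀ (σ : GQ) (t : (EQb W).Point), p • t = 0 → σ • t - t ∈ N'.U) →
      (∀ (σ : GQ), ∀ x ∈ N'.U, p • x = 0 → σ • x = cycloExp p σ • x) →
      (∀ A : ValuationSubring Qb, A.LiesOverPrime 2 → N'.U ≤ E0 W A) →
      (∀ A : ValuationSubring Qb, A.LiesOverPrime 3 → N'.U ≤ E0 W A) →
      ∀ ℓ : ℕ, ℓ.Prime → (ℓ : ℤ) ∣ W.Δ → ℓ ≠ p → 5 ≤ ℓ → ¬ ℓ ∣ p - 1 →
        ∀ A : ValuationSubring Qb, A.LiesOverPrime ℓ →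
          (∀ x ∈ N'.U, p • x ∈ E0 W A) → ¬ N'.U ≤ E0 W A → False) :
    ∀ k : ℕ, 1 ≤ k → ∀ N' : StableSub GQ (EQb W).Point, IsAddCyclic ↥N'.U →
      Nat.card ↥N'.U = p ^ (k + 1) →
      (∀ (σ : GQ) (t : (EQb W).Point), p • t = 0 → σ • t - t ∈ N'.U) →
      (∀ (σ : GQ), ∀ x ∈ N'.U, p • x = 0 → σ • x = cycloExp p σ • x) →
      (∀ ℓ : ℕ, ℓ.Prime → (ℓ : ℤ) ∣ W.Δ → ∀ A : ValuationSubring Qb, A.LiesOverPrime ℓ →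
        ∀ x ∈ N'.U, p • x ∈ E0 W A) →
      ∀ ℓ : ℕ, ℓ.Prime → (ℓ : ℤ) ∣ W.Δ → ∀ A : ValuationSubring Qb, A.LiesOverPrime ℓ →
        N'.U ≤ E0 W A :=
  hcan_of_nodes (mult := fun ℓ => (ℓ : ℤ) ∣ W.Δ) (E0 := E0 W) hp.out hp5 (cycloExp p)
    (hI_inst W hΔ hc₄) (hD_inst W hΔ hc₄) hloc (hχI_inst (by omega)) hχD_inst hm2 hm3 hmix

/-- **(CAN), the base, on `(EQb W).Point`**: the field `can` of `ChainInv … 1`. -/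
theorem can_one_inst (hΔ : W.Δ ≠ 0)
    (hc₄ : ∀ ℓ : ℕ, ℓ.Prime → (ℓ : ℤ) ∣ W.Δ → ¬ (ℓ : ℤ) ∣ W.c₄) (hp5 : 5 ≤ p)
    (hL1 : ∀ ℓ : ℕ, ℓ.Prime → (ℓ : ℤ) ∣ W.Δ → ∀ A : ValuationSubring Qb, A.LiesOverPrime ℓ →
      ∃ T ∈ E0 W A, T ≠ 0 ∧ p • T = 0)
    (hm2 : ((2 : ℕ) : ℤ) ∣ W.Δ) (hm3 : ((3 : ℕ) : ℤ) ∣ W.Δ)
    (N : StableSub GQ (EQb W).Point) (hcyc : IsAddCyclic ↥N.U) (hcard : Nat.card ↥N.U = p ^ 1)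
    (hcof1 : ∀ (σ : GQ) (t : (EQb W).Point), p • t = 0 → σ • t - t ∈ N.U)
    (hdet : ∀ (σ : GQ), ∀ x ∈ N.U, p • x = 0 → σ • x = cycloExp p σ • x)
    (hmix : (∀ A : ValuationSubring Qb, A.LiesOverPrime 2 → N.U ≤ E0 W A) →
      (∀ A : ValuationSubring Qb, A.LiesOverPrime 3 → N.U ≤ E0 W A) →
      ∀ ℓ : ℕ, ℓ.Prime → (ℓ : ℤ) ∣ W.Δ → ℓ ≠ p → 5 ≤ ℓ → ¬ ℓ ∣ p - 1 →
        ∀ A : ValuationSubring Qb, A.LiesOverPrime ℓ → ¬ N.U ≤ E0 W A → False) :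
    ∀ ℓ : ℕ, ℓ.Prime → (ℓ : ℤ) ∣ W.Δ → ∀ A : ValuationSubring Qb, A.LiesOverPrime ℓ →
      N.U ≤ E0 W A :=
  can_one_of_nodes (mult := fun ℓ => (ℓ : ℤ) ∣ W.Δ) (E0 := E0 W) hp.out hp5 (cycloExp p)
    (hI_inst W hΔ hc₄) (hD_inst W hΔ hc₄) hL1 (hχI_inst (by omega))
    (hcut_inst W hΔ hc₄ hp.out) hm2 hm3 N hcyc hcard hcof1 hdet hmix

end Chi

end Fermat.Agent.GZ.S12.CanonInst
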