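/-
CELL-M3 (S12) / node (LOC c), INSTANCE on `(EQb W).Point` (helper92): the local structure of the
`p`-power torsion against the zero-component family `E0 := CanonInst.E0 W`, at every place `A ∣ ℓ`
of multiplicative reduction (`ℓ = p` included), through the Tate uniformisation over `ℂ_[ℓ]`.

Inputs: helper87 `LocEmb.exists_embedding` (`A` = unit ball of `ι : ℚ̄ → ℂ_[ℓ]`), helper9
`T4/Plug.exists_tateUnif` + `LocalTate.mem_e0_iff_exists_unit` (= `hb`) + `card_torsion_qbar`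
(= `hcard`), helper87 `LocalTors` (abstract `E0[n]` cyclic of order `n`, `E[n]/E0[n] ≅ ℤ/n`).

* `hL1_inst`  : `∃ T ∈ E0 W A, T ≠ 0 ∧ p • T = 0`;
* `hloc_inst` : `p^m • x = 0 → p • x ∈ E0 W A → ∃ T, p • T = 0 ∧ x - T ∈ E0 W A`;
* `hcnt_inst` : `#(E0 W A ⊓ E[p^n]) = p^n`
  — the binders `hL1`, `hloc` of `CanonInst.can_one_inst / hcan_inst` and `hcnt` of
  `ChainInd2.forall_chain2`, VERBATIM for `mult ℓ := (ℓ : ℤ) ∣ W.Δ`.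
-/
import Mathlib
import Fermat.Agent.GZ.S12.CanonInst
import Fermat.Agent.GZ.S12.LocalTate
import Fermat.Agent.GZ.S12.LocalTors
import Fermat.Agent.GZ.S12.LocEmb
import Fermat.Agent.GZ.S12.AdmAbs

set_option autoImplicit false
set_option linter.unusedSectionVars false
set_option linter.unusedVariables false

noncomputable section

open scoped WeierstrassCurve.Affine

namespace Fermat.Agent.GZ.S12.LocalInst

open Fermat.Agent.GZ.Dev Fermat.Agent.GE.ECAssembly ValuationSubring WeierstrassCurve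
  Fermat.Agent.GZ.S12.Canon Fermat.Agent.GZ.S12.CanonInst Fermat.Agent.GZ.S12.AdmAbs
  Fermat.Agent.GZ.Tate Fermat.Agent.GZ.Tate.T4 Fermat.Agent.GZ.Tate.T2

open scoped Classical

local notation "Qb" => AlgebraicClosure ℚ
local notation "GQ" => (AlgebraicClosure ℚ ≃ₐ[ℚ] AlgebraicClosure ℚ)

variable (W : WeierstrassCurve ℤ)

/-- **the local package**: a Tate uniformisation over `ℂ_[ℓ]` and an embedding cutting out `A`, with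
the torsion dictionary `hb`. -/
theorem exists_package (hΔ : W.Δ ≠ 0) {ℓ : ℕ} [Fact ℓ.Prime] {A : ValuationSubring Qb}
    (h : Local.Mult W A ℓ) :
    ∃ (T : TateUnif W ℂ_[ℓ]) (φ : (EQb W).Point →+ (tateCurve T.q).toAffine.Point),
      Function.Injective φ ∧ ∀ n : ℕ, n ≠ 0 → ∀ Q : (EQb W).Point, n • Q = 0 →
        (Q ∈ E0 W A ↔
          ∃ u : (ℂ_[ℓ])ˣ, ‖(u : ℂ_[ℓ])‖ = 1 ∧ φ Q = Final.tateP T.q T.q_ne T.norm_q u) := by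
  obtain ⟨ι, -, hι1, hι2, -⟩ := LocEmb.exists_embedding ℓ A h.lies
  have hℓK : ‖((ℓ : ℕ) : ℂ_[ℓ])‖ < 1 := by
    have := (hι2 (ℓ : Qb)).1 h.lies
    rwa [map_natCast] at this
  obtain ⟨T, -, -⟩ := exists_tateUnif (K := ℂ_[ℓ]) W hΔ h.prime hℓK h.dvd_disc h.not_dvd_c₄
  refine ⟨T, LocalTate.toTateQ T ι, LocalTate.toTateQ_injective T ι, fun n hn Q hQ => ?_⟩
  rw [E0_eq h]
  exact LocalTate.mem_e0_iff_exists_unit T ι hι1 h hn Q hQ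

variable {p : ℕ}

/-- **`hL1`**. -/
theorem hL1_inst (hΔ : W.Δ ≠ 0)
    (hc₄ : ∀ ℓ : ℕ, ℓ.Prime → (ℓ : ℤ) ∣ W.Δ → ¬ (ℓ : ℤ) ∣ W.c₄) (hp : p.Prime) :
    ∀ ℓ : ℕ, ℓ.Prime → (ℓ : ℤ) ∣ W.Δ → ∀ A : ValuationSubring Qb, A.LiesOverPrime ℓ →
      ∃ T ∈ E0 W A, T ≠ 0 ∧ p • T = 0 := by
  intro ℓ hℓ hm A hA
  have : Fact ℓ.Prime := ⟨hℓ⟩
  obtain ⟨T, φ, hφ, hb⟩ := exists_package W hΔ (mult_of W hΔ hc₄ hℓ hm hA)
  exact LocalTors.hL1 T.q_ne T.norm_q (E0 W A) φ hφ hp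
    (LocalTate.card_torsion_qbar W hΔ hp.ne_zero) (hb p hp.ne_zero)

/-- **`hloc`**. -/
theorem hloc_inst (hΔ : W.Δ ≠ 0)
    (hc₄ : ∀ ℓ : ℕ, ℓ.Prime → (ℓ : ℤ) ∣ W.Δ → ¬ (ℓ : ℤ) ∣ W.c₄) (hp : p.Prime) :
    ∀ ℓ : ℕ, ℓ.Prime → (ℓ : ℤ) ∣ W.Δ → ∀ A : ValuationSubring Qb, A.LiesOverPrime ℓ →
      ∀ (m : ℕ) (x : (EQb W).Point), p ^ m • x = 0 → p • x ∈ E0 W A →
        ∃ T : (EQb W).Point, p • T = 0 ∧ x - T ∈ E0 W A := by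
  intro ℓ hℓ hm A hA
  have : Fact ℓ.Prime := ⟨hℓ⟩
  obtain ⟨T, φ, hφ, hb⟩ := exists_package W hΔ (mult_of W hΔ hc₄ hℓ hm hA)
  exact LocalTors.hloc T.q_ne T.norm_q (E0 W A) φ hφ hp
    (fun m => LocalTate.card_torsion_qbar W hΔ (pow_ne_zero m hp.ne_zero))
    (fun m => hb (p ^ m) (pow_ne_zero m hp.ne_zero))

/-- **`hcnt`**. -/
theorem hcnt_inst (hΔ : W.Δ ≠ 0)
    (hc₄ : ∀ ℓ : ℕ, ℓ.Prime → (ℓ : ℤ) ∣ W.Δ → ¬ (ℓ : ℤ) ∣ W.c₄) (hp : p.Prime) :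
    ∀ ℓ : ℕ, ℓ.Prime → (ℓ : ℤ) ∣ W.Δ → ∀ A : ValuationSubring Qb, A.LiesOverPrime ℓ →
      ∀ n : ℕ, Nat.card ↥(E0 W A ⊓ tor (EQb W).Point (p ^ n)) = p ^ n := by
  intro ℓ hℓ hm A hA n
  have : Fact ℓ.Prime := ⟨hℓ⟩
  obtain ⟨T, φ, hφ, hb⟩ := exists_package W hΔ (mult_of W hΔ hc₄ hℓ hm hA)
  have hn : p ^ n ≠ 0 := pow_ne_zero n hp.ne_zero
  have h1 := LocalTors.card_e0_torsion T.q_ne T.norm_q (E0 W A) φ hφ hn
    (LocalTate.card_torsion_qbar W hΔ hn) (hb (p ^ n) hn)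
  refine (Nat.card_congr (Equiv.subtypeEquivRight fun x => ?_)).trans h1
  rw [AddSubgroup.mem_inf, mem_tor]

end Fermat.Agent.GZ.S12.LocalInst
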