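/-
CELL-M3 (S12) / node (CAN), FINAL on `(EQb W).Point` (helper92): `CanonInst.hcan_inst` /
`can_one_inst` with (LOC c) plugged (`LocalInst.hloc_inst`, `hL1_inst`).  The only binders left are
`2 ∣ Δ`, `3 ∣ Δ` (case III) and the arithmetic binder `hmix` (= (PAIR) + `CorePair`).
-/
import Mathlib
import Fermat.Agent.GZ.S12.CanonInst
import Fermat.Agent.GZ.S12.LocalInst

set_option autoImplicit false
set_option linter.unusedSectionVars false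
set_option linter.unusedVariables false

noncomputable section

open scoped WeierstrassCurve.Affine

namespace Fermat.Agent.GZ.S12.CanonFinal

open Fermat.Agent.GZ.Dev Fermat.Agent.GE.ECAssembly ValuationSubring WeierstrassCurve
  Fermat.Agent.GZ.S12.Canon Fermat.Agent.GZ.S12.CanonInst Fermat.Agent.GZ.S12.LocalInst ExtCitation

local notation "Qb" => AlgebraicClosure ℚ
local notation "GQ" => (AlgebraicClosure ℚ ≃ₐ[ℚ] AlgebraicClosure ℚ)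

variable (W : WeierstrassCurve ℤ) {p : ℕ} [hp : Fact p.Prime]

/-- **(CAN), the step**: the binder `hcan` of `ChainInd2.forall_chain2` on `(EQb W).Point`, modulo
`hmix`. -/
theorem hcan_final (hΔ : W.Δ ≠ 0)
    (hc₄ : ∀ ℓ : ℕ, ℓ.Prime → (ℓ : ℤ) ∣ W.Δ → ¬ (ℓ : ℤ) ∣ W.c₄) (hp5 : 5 ≤ p)
    (hm2 : ((2 : ℕ) : ℤ) ∣ W.Δ) (hm3 : ((3 : ℕ) : ℤ) ∣ W.Δ)
    (hmix : ∀ k : ℕ, 1 ≤ k → ∀ N' : StableSub GQ (EQb W).Point, IsAddCyclic ↥N'.U →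
      Nat.card ↥N'.U = p ^ (k + 1) →
      (∀ (σ : GQ) (t : (EQb W).Point), p • t = 0 → σ • t - t ∈ N'.U) →
      (∀ (σ : GQ), ∀ x ∈ N'.U, p • x = 0 → σ • x = cycloExp p σ • x) →
      (∀ A : ValuationSubring Qb, A.LiesOverPrime 2 → N'.U ≤ E0 W A) →
      (∀ A : ValuationSubring Qb, A.LiesOverPrime 3 → N'.U ≤ E0 W A) →
      ∀ ℓ : ℕ, ℓ.Prime → (ℓ : ℤ) ∣ W.Δ → ℓ ≠ p → 5 ≤ ℓ → ¬ ℓ ∣ p - 1 →
        ∀ A : ValuationSubring Qb, A.LiesOverPrime ℓ →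
          (∀ x ∈ N'.U, p • x ∈ E0 W A) → ¬ N'.U ≤ E0 W A → False) :
    ∀ k : ℕ, 1 ≤ k → ∀ N' : StableSub GQ (EQb W).Point, IsAddCyclic ↥N'.U →
      Nat.card ↥N'.U = p ^ (k + 1) →
      (∀ (σ : GQ) (t : (EQb W).Point), p • t = 0 → σ • t - t ∈ N'.U) →
      (∀ (σ : GQ), ∀ x ∈ N'.U, p • x = 0 → σ • x = cycloExp p σ • x) →
      (∀ ℓ : ℕ, ℓ.Prime → (ℓ : ℤ) ∣ W.Δ → ∀ A : ValuationSubring Qb, A.LiesOverPrime ℓ →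
        ∀ x ∈ N'.U, p • x ∈ E0 W A) →
      ∀ ℓ : ℕ, ℓ.Prime → (ℓ : ℤ) ∣ W.Δ → ∀ A : ValuationSubring Qb, A.LiesOverPrime ℓ →
        N'.U ≤ E0 W A :=
  hcan_inst W hΔ hc₄ hp5 (hloc_inst W hΔ hc₄ hp.out) hm2 hm3 hmix

/-- **(CAN), the base**: the field `can` of `ChainInv … 1` on `(EQb W).Point`, modulo `hmix`. -/
theorem can_one_final (hΔ : W.Δ ≠ 0)
    (hc₄ : ∀ ℓ : ℕ, ℓ.Prime → (ℓ : ℤ) ∣ W.Δ → ¬ (ℓ : ℤ) ∣ W.c₄) (hp5 : 5 ≤ p)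
    (hm2 : ((2 : ℕ) : ℤ) ∣ W.Δ) (hm3 : ((3 : ℕ) : ℤ) ∣ W.Δ)
    (N : StableSub GQ (EQb W).Point) (hcyc : IsAddCyclic ↥N.U) (hcard : Nat.card ↥N.U = p ^ 1)
    (hcof1 : ∀ (σ : GQ) (t : (EQb W).Point), p • t = 0 → σ • t - t ∈ N.U)
    (hdet : ∀ (σ : GQ), ∀ x ∈ N.U, p • x = 0 → σ • x = cycloExp p σ • x)
    (hmix : (∀ A : ValuationSubring Qb, A.LiesOverPrime 2 → N.U ≤ E0 W A) →
      (∀ A : ValuationSubring Qb, A.LiesOverPrime 3 → N.U ≤ E0 W A) →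
      ∀ ℓ : ℕ, ℓ.Prime → (ℓ : ℤ) ∣ W.Δ → ℓ ≠ p → 5 ≤ ℓ → ¬ ℓ ∣ p - 1 →
        ∀ A : ValuationSubring Qb, A.LiesOverPrime ℓ → ¬ N.U ≤ E0 W A → False) :
    ∀ ℓ : ℕ, ℓ.Prime → (ℓ : ℤ) ∣ W.Δ → ∀ A : ValuationSubring Qb, A.LiesOverPrime ℓ →
      N.U ≤ E0 W A :=
  can_one_inst W hΔ hc₄ hp5 (hL1_inst W hΔ hc₄ hp.out) hm2 hm3 N hcyc hcard hcof1 hdet hmix

end Fermat.Agent.GZ.S12.CanonFinal
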