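/-
CELL-M3 (S12 follow-up) / CASE I, adapter to the (DET) export of helper21 (`GZ/S12/DetCyc.lean`):
the same statement as `CaseI.caseI_of_det` with the cyclotomic scalar written as an `ℕ`-smul
(`σ • x = ExtCitation.cycloExp p σ • x`).
-/
import Mathlib
import Fermat.Agent.GZ.S12.CaseI

set_option autoImplicit false

namespace Fermat.Agent.GZ.S12.CaseI

open WeierstrassCurve WeierstrassCurve.Affine WeierstrassCurve.Affine.Point

local notation "Qbar" => AlgebraicClosure ℚ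
local notation "GQ" => (AlgebraicClosure ℚ ≃ₐ[ℚ] AlgebraicClosure ℚ)

/-- **CASE I of S12 from (DET) in the `ℕ`-smul spelling.** -/
theorem caseI_of_det_nsmul (P : FreyPackage) (hpabc : ¬ (P.p : ℤ) ∣ P.a * P.b * P.c)
    (hdet : ∀ N : Submodule (ZMod P.p) (Submodule.torsionBy ℤ (P.freyCurve⁄Qbar).Point P.p),
      IsGaloisStable ℚ N → N ≠ ⊥ → N ≠ ⊤ → (∀ (σ : GQ) x, σ • x - x ∈ N) →
      ∀ σ : GQ, ∀ x ∈ N, σ • x = @ExtCitation.cycloExp P.p ⟨P.pp⟩ σ • x) :
    ¬ HasGaloisStableCofixedLine (K := Qbar) ℚ P.freyCurve P.p := by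
  refine caseI_of_det P hpabc (fun N hN hbot htop hcof σ x hx => ?_)
  rw [hdet N hN hbot htop hcof σ x hx]
  exact (Nat.cast_smul_eq_nsmul (ZMod P.p) _ x).symm

end Fermat.Agent.GZ.S12.CaseI
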