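/-
CELL-M3 (S12 follow-up) / CASE I, BINDER-FREE (helper27): `p ∤ abc` ⟹ the Frey curve has no
Galois-stable cofixed line.  `CaseI.caseI_of_det_nsmul` fed with helper21's (DET)
(`GZ/S12/DetCyc.frey_smul_eq_cycloExp_nsmul`).
-/
import Mathlib
import Fermat.Agent.GZ.S12.CaseIPlug
import Fermat.Agent.GZ.S12.DetCyc

set_option autoImplicit false

namespace Fermat.Agent.GZ.S12.CaseI

open WeierstrassCurve WeierstrassCurve.Affine WeierstrassCurve.Affine.Point

local notation "Qbar" => AlgebraicClosure ℚ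

/-- **CASE I of S12, binder-free**: if `p ∤ abc` the Frey curve has no Galois-stable cofixed line
in `E[p]`. -/
theorem caseI_frey (P : FreyPackage) (hpabc : ¬ (P.p : ℤ) ∣ P.a * P.b * P.c) :
    ¬ HasGaloisStableCofixedLine (K := Qbar) ℚ P.freyCurve P.p :=
  caseI_of_det_nsmul P hpabc (fun N hN hbot htop hcof =>
    Fermat.Agent.GZ.S12.DetCyc.frey_smul_eq_cycloExp_nsmul P N hN hbot htop hcof)

end Fermat.Agent.GZ.S12.CaseI
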