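/-
CELL-M3 (S12) / CASE III, composition in hypothesis form (helper94): **no cofixed chain base on an
integral Weierstrass curve `W` with `p ∣ Δ`, `2 ∣ Δ`, `3 ∣ Δ`** — from the landed nodes

  `ChainInd.forall_chain2` (ADM + MINK + S14), `ChainInst` (torsion counts, open kernel, good
  inertia), `Canon.hcan_of_nodes` (CAN step), `Finish.not_forall_chain` (C∞),

with the remaining inputs as binders: S14, the local structure `hI hfix hD hcnt hloc` of the family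
`E0 A`, the two cyclotomic facts `hχI hχD` (DET corollaries), the arithmetic binder `hmix`
(PAIR + CorePair) and the base `c1 : ChainInv … 1`.  One good prime `q ≠ p` finishes.

This is the seam test of case III of helper9's DESIGN v1 (board 6320): every binder below is
VERBATIM a binder of the landed node theorems.
-/
import Mathlib
import Fermat.Agent.GZ.S12.ChainInst
import Fermat.Agent.GZ.S12.CanonChain
import Fermat.Agent.GZ.S12.Finish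

set_option autoImplicit false
set_option linter.unusedSectionVars false
set_option linter.unusedVariables false

noncomputable section

open scoped WeierstrassCurve.Affine

namespace Fermat.Agent.GZ.S12.CaseIIIOfNodes

open Fermat.Agent.GZ.Dev Fermat.Agent.GZ.S12.AdmAbs Fermat.Agent.GZ.S12.ChainInd
  Fermat.Agent.GZ.S12.ChainInst Fermat.Agent.GZ.S12.Canon Fermat.Agent.GE.ECAssembly
  ExtCitation ValuationSubring WeierstrassCurve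

local notation "Qb" => AlgebraicClosure ℚ
local notation "GQ" => (AlgebraicClosure ℚ ≃ₐ[ℚ] AlgebraicClosure ℚ)

/-- **CASE III from the nodes.** -/
theorem false_of_nodes (W : WeierstrassCurve ℤ) (hΔ : W.Δ ≠ 0) {p : ℕ} [hp : Fact p.Prime]
    (hp5 : 5 ≤ p) (hpΔ : (p : ℤ) ∣ W.Δ) (h2Δ : ((2 : ℕ) : ℤ) ∣ W.Δ) (h3Δ : ((3 : ℕ) : ℤ) ∣ W.Δ)
    (hS14 : ExtVanishingCts p)
    (E0 : ValuationSubring Qb → AddSubgroup (EQb W).Point)
    (hI : ∀ ℓ : ℕ, ℓ.Prime → (ℓ : ℤ) ∣ W.Δ → ∀ A : ValuationSubring Qb, A.LiesOverPrime ℓ →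
      ∀ σ ∈ A.inertiaSubgroupIn ℚ, ∀ x : (EQb W).Point, σ • x - x ∈ E0 A)
    (hfix : ∀ ℓ : ℕ, ℓ.Prime → (ℓ : ℤ) ∣ W.Δ → ℓ ≠ p → ∀ A : ValuationSubring Qb,
      A.LiesOverPrime ℓ → ∀ σ ∈ A.inertiaSubgroupIn ℚ, ∀ x ∈ E0 A, p • x = 0 → σ • x = x)
    (hD : ∀ ℓ : ℕ, ℓ.Prime → (ℓ : ℤ) ∣ W.Δ → ∀ A : ValuationSubring Qb, A.LiesOverPrime ℓ →
      ∀ σ ∈ A.decompositionSubgroup ℚ, ∀ x ∈ E0 A, σ • x ∈ E0 A)
    (hcnt : ∀ ℓ : ℕ, ℓ.Prime → (ℓ : ℤ) ∣ W.Δ → ∀ A : ValuationSubring Qb, A.LiesOverPrime ℓ →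
      ∀ n : ℕ, Nat.card ↥(E0 A ⊓ tor (EQb W).Point (p ^ n)) = p ^ n)
    (hloc : ∀ ℓ : ℕ, ℓ.Prime → (ℓ : ℤ) ∣ W.Δ → ∀ A : ValuationSubring Qb, A.LiesOverPrime ℓ →
      ∀ (m : ℕ) (x : (EQb W).Point), p ^ m • x = 0 → p • x ∈ E0 A →
        ∃ T : (EQb W).Point, p • T = 0 ∧ x - T ∈ E0 A)
    (hχI : ∀ A : ValuationSubring Qb, A.LiesOverPrime p →
      ∃ σ ∈ A.inertiaSubgroupIn ℚ, ¬ cycloExp p σ ≡ 1 [MOD p])
    (hχD : ∀ ℓ : ℕ, ℓ.Prime → ℓ ≠ p → ∀ A : ValuationSubring Qb, A.LiesOverPrime ℓ →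
      ∃ σ ∈ A.decompositionSubgroup ℚ, cycloExp p σ ≡ ℓ [MOD p])
    (hmix : ∀ k : ℕ, 1 ≤ k → ∀ N' : StableSub GQ (EQb W).Point, IsAddCyclic ↥N'.U →
      Nat.card ↥N'.U = p ^ (k + 1) →
      (∀ (σ : GQ) (t : (EQb W).Point), p • t = 0 → σ • t - t ∈ N'.U) →
      (∀ (σ : GQ), ∀ x ∈ N'.U, p • x = 0 → σ • x = cycloExp p σ • x) →
      (∀ A : ValuationSubring Qb, A.LiesOverPrime 2 → N'.U ≤ E0 A) →
      (∀ A : ValuationSubring Qb, A.LiesOverPrime 3 → N'.U ≤ E0 A) →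
      ∀ ℓ : ℕ, ℓ.Prime → (ℓ : ℤ) ∣ W.Δ → ℓ ≠ p → 5 ≤ ℓ → ¬ ℓ ∣ p - 1 →
        ∀ A : ValuationSubring Qb, A.LiesOverPrime ℓ →
          (∀ x ∈ N'.U, p • x ∈ E0 A) → ¬ N'.U ≤ E0 A → False)
    (c1 : ChainInv (EQb W).Point p (cycloExp p) (fun ℓ => (ℓ : ℤ) ∣ W.Δ) E0 1)
    {q : ℕ} (hq : q.Prime) (hqp : q ≠ p) (hgood : ¬ (q : ℤ) ∣ W.Δ) : False := by
  obtain ⟨A, hA⟩ := Fermat.Agent.Common_helper32.exists_liesOverPrime q hq
  obtain ⟨τ, hτ⟩ := Fermat.Agent.Common_helper32.exists_isFrobeniusAt_of_liesOver A q hq hA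
  refine Fermat.Agent.GZ.S12.Finish.not_forall_chain W hΔ hp.out hq hqp hgood A hA τ hτ ?_
  exact forall_chain2 (mult := fun ℓ => (ℓ : ℤ) ∣ W.Δ) hS14 (hcardTor_inst W hΔ)
    (hopen_inst W hΔ) (hgood_inst W hpΔ) hI hfix hD hcnt hpΔ (cycloExp p) rfl
    (hcan_of_nodes hp.out hp5 (cycloExp p) hI hD hloc hχI hχD h2Δ h3Δ hmix) c1 τ

end Fermat.Agent.GZ.S12.CaseIIIOfNodes
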