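/-
CELL-M3 (S12 follow-up of GATE-Z) / node (CORE)  (helper9; claims row CELL-M3-S12-DESIGN).

The proof of the frozen S15 in `GZ/Top/S15Top.lean` / `S15TopB.lean` (helper20) uses the curve
`(W, Q)` ONLY through the rational place `x` of `X₀(p)` and its reductions.  For S12 (the chain of
cyclic subgroups `N_k` of the Frey curve) the same argument is needed for places that do NOT come
from a Weierstrass model with a rational point of order `p`, but from a pair of rational numbers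
`(a, a') = (j(E/N_k), j(E/N_{k-1}))`.  This file restates the argument

* at PLACE level (`core_place_A`, `core_place_B`: copies of helper20's proofs with `Moduli`,
  `Cut` replaced by the three facts about `x` that they provide), and
* at PAIR level: `CorePair p` — a rational point `(a, a')` of `Y₀(p)` (`RelQ p a a'`, helper80's
  pin) which reduces to the cusp `0` at `2` and at `3` never reduces to the cusp `∞` at a prime
  `ℓ ≥ 5`, `ℓ ≠ p`, `ℓ ∤ p - 1` — from the nodes of GATE-Z exactly as they are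
  (`corePair_A`, `corePair_B`; [MOD-alpha] is already closed on main: `alphaEx`, `alphaRed`).

Nothing here is used by S15 itself; S15 is `CorePair` + `BetaOut` + `Cut`.
-/
import Fermat.Agent.GZ.Mod.IntegratorPlug

set_option autoImplicit false
set_option linter.unusedSectionVars false
set_option synthInstance.maxHeartbeats 400000
set_option maxHeartbeats 1000000

noncomputable section

open AlgebraicCurve ModularCurve WeierstrassCurve IntermediateField
open scoped WeierstrassCurve.Affine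

namespace Fermat.Agent.GZ.S12

open Fermat.Agent.S24 Fermat.Agent.GR.W.RatRep Fermat.Agent.GZ.Top Fermat.Agent.GZ.Unit
  Fermat.Agent.GZ.Mod Fermat.Agent.GZ.Mod.Integ Fermat.Agent.GJ.S37HeckePullback
open Fermat.Agent.GH (ValueAt)

local notation "Qb" => AlgebraicClosure ℚ
local notation "GQ" => (AlgebraicClosure ℚ ≃ₐ[ℚ] AlgebraicClosure ℚ)
local notation "FN" => modularFunctionFieldBar

/-! ### elementary arithmetic -/

theorem eleven_le_of_not_mem {p : ℕ} (hp : p.Prime) (hp' : p ∉ ({2, 3, 5, 7, 13} : Finset ℕ)) :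
    11 ≤ p := by
  by_contra hlt
  have hlt' : p < 11 := by omega
  simp only [Finset.mem_insert, Finset.mem_singleton, not_or] at hp'
  interval_cases p <;> first | omega | exact absurd hp (by decide)

/-! ### the place-level core, variant A -/

/-- **Place-level core of S15, variant A**: a `G_ℚ`-fixed place `x` of `X₀(p)` which reduces to
the cusp `0` at (one place over) `2` and `3` does not reduce to the cusp `∞` at `ℓ ∤ p (p - 1)`.
(`s15_of_nodes` with `Moduli`, `Cut` unfolded.) -/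
theorem core_place_A
    {p : ℕ} (hp : p.Prime) (hp' : p ∉ ({2, 3, 5, 7, 13} : Finset ℕ)) [NeZero p]
    (C : CuspPkg p) (hH : HRed p) (hR : RedAll p)
    (x : Place Qb ↥(FN p))
    (hxfix : ∀ σ : GQ, arithmeticGalois (modularFunctionFieldFull p) σ • x = x)
    (hx2 : ∀ (A : ValuationSubring Qb), A.LiesOverPrime 2 → ∀ h : ReductionInputsModL A p,
      placeReductionModL h x = placeReductionModL h C.zero)
    (hx3 : ∀ (A : ValuationSubring Qb), A.LiesOverPrime 3 → ∀ h : ReductionInputsModL A p,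
      placeReductionModL h x = placeReductionModL h C.zero)
    {ℓ : ℕ} (hℓ : ℓ.Prime) (hℓp : ℓ ≠ p) (hℓp1 : ¬ ℓ ∣ p - 1)
    (hF : FStmt C ({2, 3, ℓ} : Finset ℕ))
    (A : ValuationSubring Qb) (hA : A.LiesOverPrime ℓ) (h : ReductionInputsModL A p) :
    placeReductionModL h x ≠ placeReductionModL h (cuspInf p) := by
  intro hxinf
  have hp11 := eleven_le_of_not_mem hp hp'
  have hp2 : p ≠ 2 := by omega
  have hp3 : p ≠ 3 := by omega
  obtain ⟨A₂, hA₂⟩ := Fermat.Agent.Common_helper32.exists_liesOverPrime 2 Nat.prime_two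
  obtain ⟨A₃, hA₃⟩ := Fermat.Agent.Common_helper32.exists_liesOverPrime 3 Nat.prime_three
  obtain ⟨r, hr, hrc, t, ht, e, hte, hre, htors⟩ := hF
  set y : JZero p := diffCl p x C.zero with hy
  have hyfix : ∀ σ : GQ, σ • y = y := fun σ => smul_diffCl σ (hxfix σ) (C.zero_fixed σ)
  have red2 := hR 2 Nat.prime_two (Ne.symm hp2) A₂ hA₂
  have red3 := hR 3 Nat.prime_three (Ne.symm hp3) A₃ hA₃
  have hy2 : reductionModL A₂ p y = 0 := red_diffCl_eq_zero red2 (hx2 A₂ hA₂ red2)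
  have hy3 : reductionModL A₃ p y = 0 := red_diffCl_eq_zero red3 (hx3 A₃ hA₃ red3)
  have hty2 : reductionModL A₂ p (t y) = 0 :=
    red_adjoin_eq_zero hH Nat.prime_two (Ne.symm hp2) hA₂ red2 (by simp) ht y hy2
  have hty3 : reductionModL A₃ p (t y) = 0 :=
    red_adjoin_eq_zero hH Nat.prime_three (Ne.symm hp3) hA₃ red3 (by simp) ht y hy3
  have hty : t y = 0 := by
    obtain ⟨n, hn, hny⟩ := isOfFinAddOrder_iff_nsmul_eq_zero.mp (htors y hyfix)
    obtain ⟨a, m, hm, rfl⟩ := Nat.exists_eq_two_pow_mul_odd hn.ne'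
    have : Fact (Nat.Prime 2) := ⟨Nat.prime_two⟩
    have : Fact (Nat.Prime 3) := ⟨Nat.prime_three⟩
    have h2p : ¬ 2 ∣ p := fun h => hp2 ((Nat.prime_dvd_prime_iff_eq Nat.prime_two hp).mp h).symm
    have h3p : ¬ 3 ∣ p := fun h => hp3 ((Nat.prime_dvd_prime_iff_eq Nat.prime_three hp).mp h).symm
    have h1 : (2 ^ a) • t y = 0 := by
      refine Fermat.Agent.S18.result p h2p A₂ hA₂ red2 m
        (fun h => (Nat.not_even_iff_odd.mpr hm) (even_iff_two_dvd.mpr h)) _ ?_ ?_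
      · rw [← mul_smul, mul_comm]; exact hny
      · rw [map_nsmul, hty2, smul_zero]
    refine Fermat.Agent.S18.result p h3p A₃ hA₃ red3 (2 ^ a) ?_ _ h1 hty3
    intro h
    have := (Nat.Prime.dvd_of_dvd_pow Nat.prime_three h)
    omega
  have hyc : reductionModL A p (y + C.c) = 0 := by
    rw [hy, CuspPkg.c, diffCl_add]
    exact red_diffCl_eq_zero h hxinf
  have htyc : reductionModL A p (t (y + C.c)) = 0 :=
    red_adjoin_eq_zero hH hℓ hℓp hA h (by simp) ht _ hyc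
  rw [map_add, hty, zero_add, hte] at htyc
  have : Fact ℓ.Prime := ⟨hℓ⟩
  have hℓp' : ¬ ℓ ∣ p := fun h => hℓp ((Nat.prime_dvd_prime_iff_eq hℓ hp).mp h)
  have hec : e • C.c = 0 := by
    refine Fermat.Agent.S18.result p hℓp' A hA h (p - 1) hℓp1 _ ?_ htyc
    rw [smul_comm]
    show e • ((p - 1) • C.c) = 0
    rw [CuspPkg.c, C.tors, smul_zero]
  have : (addOrderOf C.c : ℤ) ∣ e := (addOrderOf_dvd_iff_zsmul_eq_zero).mpr hec
  exact hre (dvd_trans (Int.natCast_dvd_natCast.mpr hrc) this)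

/-! ### the place-level core, variant B -/

/-- **Place-level core of S15, variant B** (primes `2`, `3` at the auxiliary levels `3p`, `2p`):
`s15_of_nodes_B` with `ModuliB`, `Cut` unfolded. -/
theorem core_place_B
    {p : ℕ} (hp : p.Prime) (hp' : p ∉ ({2, 3, 5, 7, 13} : Finset ℕ)) [NeZero p]
    (C : CuspPkg p) (hH : HRedGood)
    (hdeg3 : relfinrank (FN p) (FN (3 * p)) = 4)
    (hdeg2 : relfinrank (FN p) (FN (2 * p)) = 3)
    (x : Place Qb ↥(FN p))
    (hxfix : ∀ σ : GQ, arithmeticGalois (modularFunctionFieldFull p) σ • x = x)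
    (hx2 : ∀ A : ValuationSubring Qb, A.LiesOverPrime 2 → ReductionInputsModL A (3 * p) →
      reductionModL A (3 * p) (pullBar (Dvd.intro_left 3 rfl) (diffCl p x C.zero)) = 0)
    (hx3 : ∀ A : ValuationSubring Qb, A.LiesOverPrime 3 → ReductionInputsModL A (2 * p) →
      reductionModL A (2 * p) (pullBar (Dvd.intro_left 2 rfl) (diffCl p x C.zero)) = 0)
    {ℓ : ℕ} (hℓ : ℓ.Prime) (hℓp : ℓ ≠ p) (hℓ5 : 5 ≤ ℓ) (hℓp1 : ¬ ℓ ∣ p - 1)
    (hF : FStmt C ({2, 3, ℓ} : Finset ℕ))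
    (A : ValuationSubring Qb) (hA : A.LiesOverPrime ℓ) (h : ReductionInputsModL A p) :
    placeReductionModL h x ≠ placeReductionModL h (cuspInf p) := by
  intro hxinf
  have hp11 := eleven_le_of_not_mem hp hp'
  have hp2 : p ≠ 2 := by omega
  have hp3 : p ≠ 3 := by omega
  have h2p : ¬ 2 ∣ p := fun h => hp2 ((Nat.prime_dvd_prime_iff_eq Nat.prime_two hp).mp h).symm
  have h3p : ¬ 3 ∣ p := fun h => hp3 ((Nat.prime_dvd_prime_iff_eq Nat.prime_three hp).mp h).symm
  obtain ⟨A₂, hA₂⟩ := Fermat.Agent.Common_helper32.exists_liesOverPrime 2 Nat.prime_two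
  obtain ⟨A₃, hA₃⟩ := Fermat.Agent.Common_helper32.exists_liesOverPrime 3 Nat.prime_three
  obtain ⟨r, hr, hrc, t, ht, e, hte, hre, htors⟩ := hF
  set y : JZero p := diffCl p x C.zero with hy
  have hyfix : ∀ σ : GQ, σ • y = y := fun σ => smul_diffCl σ (hxfix σ) (C.zero_fixed σ)
  have h23 : ¬ 2 ∣ 3 * p := by
    intro h
    rcases (Nat.Prime.dvd_mul Nat.prime_two).mp h with h | h
    · omega
    · exact h2p h
  have h32 : ¬ 3 ∣ 2 * p := by
    intro h
    rcases (Nat.Prime.dvd_mul Nat.prime_three).mp h with h | h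
    · omega
    · exact h3p h
  obtain ⟨red2, -⟩ := Fermat.Agent.GJ.S37LSpaceGate.levelPackage (3 * p) Nat.prime_two h23
    (fun _ => Dvd.intro _ rfl) (fun h => absurd h (by decide)) A₂ hA₂
  obtain ⟨red3, -⟩ := Fermat.Agent.GJ.S37LSpaceGate.levelPackage (2 * p) Nat.prime_three h32
    (fun h => absurd h (by decide)) (fun _ => Dvd.intro _ rfl) A₃ hA₃
  have hℓp' : ¬ ℓ ∣ p := fun h => hℓp ((Nat.prime_dvd_prime_iff_eq hℓ hp).mp h)
  have hy2 := hx2 A₂ hA₂ red2
  have hy3 := hx3 A₃ hA₃ red3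
  have hS3 : ∀ q : ℕ, q.Prime → q ∣ 3 * p → q ≠ p → q ∈ ({2, 3, ℓ} : Finset ℕ) := by
    intro q hq hdvd hqp
    rcases (Nat.Prime.dvd_mul hq).mp hdvd with h | h
    · have := (Nat.prime_dvd_prime_iff_eq hq Nat.prime_three).mp h
      simp [this]
    · exact absurd ((Nat.prime_dvd_prime_iff_eq hq hp).mp h) hqp
  have hS2 : ∀ q : ℕ, q.Prime → q ∣ 2 * p → q ≠ p → q ∈ ({2, 3, ℓ} : Finset ℕ) := by
    intro q hq hdvd hqp
    rcases (Nat.Prime.dvd_mul hq).mp hdvd with h | h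
    · have := (Nat.prime_dvd_prime_iff_eq hq Nat.prime_two).mp h
      simp [this]
    · exact absurd ((Nat.prime_dvd_prime_iff_eq hq hp).mp h) hqp
  have hty2 := red_pull_adjoin_eq_zero hH (Dvd.intro_left 3 rfl) Nat.prime_two h23
    (fun _ => Dvd.intro _ rfl) (fun h => absurd h (by decide)) hA₂ red2 hS3 (by simp) ht y hy2
  have hty3 := red_pull_adjoin_eq_zero hH (Dvd.intro_left 2 rfl) Nat.prime_three h32
    (fun h => absurd h (by decide)) (fun _ => Dvd.intro _ rfl) hA₃ red3 hS2 (by simp) ht y hy3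
  have hty : t y = 0 := by
    obtain ⟨n, hn, hny⟩ := isOfFinAddOrder_iff_nsmul_eq_zero.mp (htors y hyfix)
    obtain ⟨a, m, hm, rfl⟩ := Nat.exists_eq_two_pow_mul_odd hn.ne'
    have : Fact (Nat.Prime 2) := ⟨Nat.prime_two⟩
    have : Fact (Nat.Prime 3) := ⟨Nat.prime_three⟩
    have hpull := Fermat.Agent.GJ.S37PullPackageInst.pullPackage
    have h1 : (2 ^ a) • t y = 0 := by
      have hmv : m • ((2 ^ a) • t y) = 0 := by
        rw [← mul_smul, mul_comm m (2 ^ a)]; exact hny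
      have hz : pullBar (Dvd.intro_left 3 rfl) ((2 ^ a) • t y) = 0 := by
        refine Fermat.Agent.S18.result (3 * p) h23 A₂ hA₂ red2 m
          (fun h => (Nat.not_even_iff_odd.mpr hm) (even_iff_two_dvd.mpr h)) _ ?_ ?_
        · rw [← map_nsmul, hmv, map_zero]
        · rw [map_nsmul, map_nsmul, hty2, smul_zero]
      have h4 := (hpull p (3 * p) (Dvd.intro_left 3 rfl)).2 _ hz
      rw [hdeg3] at h4
      have hcop : Nat.Coprime 4 m := by
        have h2m : Nat.Coprime 2 m := (Nat.Prime.coprime_iff_not_dvd Nat.prime_two).mpr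
            (fun h => (Nat.not_even_iff_odd.mpr hm) (even_iff_two_dvd.mpr h))
        exact (Nat.Coprime.pow_left 2 h2m : Nat.Coprime (2 ^ 2) m)
      have hord : addOrderOf ((2 ^ a) • t y) ∣ Nat.gcd 4 m :=
        Nat.dvd_gcd (addOrderOf_dvd_of_nsmul_eq_zero h4) (addOrderOf_dvd_of_nsmul_eq_zero hmv)
      rw [hcop] at hord
      exact AddMonoid.addOrderOf_eq_one_iff.mp (Nat.dvd_one.mp hord)
    have hz : pullBar (Dvd.intro_left 2 rfl) (t y) = 0 := by
      refine Fermat.Agent.S18.result (2 * p) h32 A₃ hA₃ red3 (2 ^ a) ?_ _ ?_ hty3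
      · intro h
        have := (Nat.Prime.dvd_of_dvd_pow Nat.prime_three h)
        omega
      · rw [← map_nsmul, h1, map_zero]
    have h3' := (hpull p (2 * p) (Dvd.intro_left 2 rfl)).2 _ hz
    rw [hdeg2] at h3'
    have hcop : Nat.Coprime 3 (2 ^ a) := Nat.Coprime.pow_right a (by norm_num)
    have hord : addOrderOf (t y) ∣ Nat.gcd 3 (2 ^ a) :=
      Nat.dvd_gcd (addOrderOf_dvd_of_nsmul_eq_zero h3') (addOrderOf_dvd_of_nsmul_eq_zero h1)
    rw [hcop] at hord
    exact AddMonoid.addOrderOf_eq_one_iff.mp (Nat.dvd_one.mp hord)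
  have hyc : reductionModL A p (y + C.c) = 0 := by
    rw [hy, CuspPkg.c, diffCl_add]
    exact red_diffCl_eq_zero h hxinf
  have htyc : reductionModL A p (t (y + C.c)) = 0 := by
    refine red_adjoin_eq_zero_of (fun q hqS hqp z hz => ?_) ht _ hyc
    exact hH p ℓ hℓ hℓp' (fun h => by omega) (fun h => by omega) A hA h q
      (fun h => hqp ((Nat.prime_dvd_prime_iff_eq q.2 hp).mp h))
      (fun hq => hqS (by simp [hq])) z hz
  rw [map_add, hty, zero_add, hte] at htyc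
  have : Fact ℓ.Prime := ⟨hℓ⟩
  have hec : e • C.c = 0 := by
    refine Fermat.Agent.S18.result p hℓp' A hA h (p - 1) hℓp1 _ ?_ htyc
    rw [smul_comm]
    show e • ((p - 1) • C.c) = 0
    rw [CuspPkg.c, C.tors, smul_zero]
  have : (addOrderOf C.c : ℤ) ∣ e := (addOrderOf_dvd_iff_zsmul_eq_zero).mpr hec
  exact hre (dvd_trans (Int.natCast_dvd_natCast.mpr hrc) this)

/-! ### the pair-level core -/

/-- **`CorePair p`**: a rational point `(a, a')` of `Y₀(p)` which reduces to the cusp `0` at `2`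
and at `3` (`v(a) < 0`, `p v(a') = v(a)`) never reduces to the cusp `∞` (`v(a') = p v(a)`) at a
prime `ℓ ≥ 5`, `ℓ ≠ p`, `ℓ ∤ p - 1` with `v_ℓ(a) < 0`. -/
def CorePair (p : ℕ) [NeZero p] : Prop :=
  ∀ a a' : ℚ, RelQ p a a' →
    padicValRat 2 a < 0 → (p : ℤ) * padicValRat 2 a' = padicValRat 2 a →
    padicValRat 3 a < 0 → (p : ℤ) * padicValRat 3 a' = padicValRat 3 a →
    ∀ ℓ : ℕ, ℓ.Prime → ℓ ≠ p → 5 ≤ ℓ → ¬ ℓ ∣ p - 1 → padicValRat ℓ a < 0 →
      ¬ padicValRat ℓ a' = (p : ℤ) * padicValRat ℓ a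

/-- (F) at every test prime -/
def FStmtAll {p : ℕ} [NeZero p] (C : CuspPkg p) : Prop :=
  ∀ ℓ : ℕ, ℓ.Prime → ℓ ≠ p → FStmt C ({2, 3, ℓ} : Finset ℕ)

/-- the binder `h23` of `moduliB_of_alpha_beta` for an arbitrary rational pair: at the auxiliary
levels `3p`, `2p` the class `[(x) − (0)]` of the place over a pair reducing to the cusp `0` dies -/
def H23Pair {p : ℕ} [NeZero p] (C : CuspPkg p) : Prop :=
  ∀ (x : Place Qb (FN p)) (a a' : ℚ), ValueAt x (jF p) ((a : ℚ) : Qb) →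
    ValueAt x (jdF p p dvd_rfl) ((a' : ℚ) : Qb) →
    (∀ A : ValuationSubring Qb, A.LiesOverPrime 2 → padicValRat 2 a < 0 →
      (p : ℤ) * padicValRat 2 a' = padicValRat 2 a → ReductionInputsModL A (3 * p) →
        reductionModL A (3 * p) (pullBar (Dvd.intro_left 3 rfl) (diffCl p x C.zero)) = 0) ∧
    (∀ A : ValuationSubring Qb, A.LiesOverPrime 3 → padicValRat 3 a < 0 →
      (p : ℤ) * padicValRat 3 a' = padicValRat 3 a → ReductionInputsModL A (2 * p) →
        reductionModL A (2 * p) (pullBar (Dvd.intro_left 2 rfl) (diffCl p x C.zero)) = 0)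

/-- **`CorePair` from the nodes, variant A.** -/
theorem corePair_A {p : ℕ} (hp : p.Prime) (hp' : p ∉ ({2, 3, 5, 7, 13} : Finset ℕ)) [NeZero p]
    (hH : HRed p) (hR : RedAll p)
    (hF : FStmtAll (Fermat.Agent.GZ.Unit.Hecke.cuspPkgFinal hp)) : CorePair p := by
  intro a a' hrel h2a h2 h3a h3 ℓ hℓ hℓp hℓ5 hℓp1 hℓa hval
  have hp11 := eleven_le_of_not_mem hp hp'
  have hp2 : p ≠ 2 := by omega
  have hp3 : p ≠ 3 := by omega
  set C := Fermat.Agent.GZ.Unit.Hecke.cuspPkgFinal hp with hC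
  obtain ⟨x, hx, hx'⟩ := alphaEx p a a' hrel
  have hAR : AlphaRed p C.zero := alphaRed hp
  obtain ⟨A, hA⟩ := Fermat.Agent.Common_helper32.exists_liesOverPrime ℓ hℓ
  have h := hR ℓ hℓ hℓp A hA
  obtain ⟨hi, -, huniq⟩ := hAR ℓ hℓ hℓp A hA h x a a' hx hx' hℓa
  refine core_place_A hp hp' C hH hR x (fun σ => ?_) (fun A₂ hA₂ h₂ => ?_) (fun A₃ hA₃ h₃ => ?_)
    hℓ hℓp hℓp1 (hF ℓ hℓ hℓp) A hA h (hi.mpr hval)
  · exact huniq _ (valueAt_galois_jF σ hx) (valueAt_galois_jdF σ hx')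
  · exact ((hAR 2 Nat.prime_two (Ne.symm hp2) A₂ hA₂ h₂ x a a' hx hx' h2a).2.1).mpr h2
  · exact ((hAR 3 Nat.prime_three (Ne.symm hp3) A₃ hA₃ h₃ x a a' hx hx' h3a).2.1).mpr h3

/-- **`CorePair` from the nodes, variant B.** -/
theorem corePair_B {p : ℕ} (hp : p.Prime) (hp' : p ∉ ({2, 3, 5, 7, 13} : Finset ℕ)) [NeZero p]
    (hH : HRedGood)
    (hdeg3 : relfinrank (FN p) (FN (3 * p)) = 4)
    (hdeg2 : relfinrank (FN p) (FN (2 * p)) = 3)
    (h23 : H23Pair (Fermat.Agent.GZ.Unit.Hecke.cuspPkgFinal hp))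
    (hF : FStmtAll (Fermat.Agent.GZ.Unit.Hecke.cuspPkgFinal hp)) : CorePair p := by
  intro a a' hrel h2a h2 h3a h3 ℓ hℓ hℓp hℓ5 hℓp1 hℓa hval
  set C := Fermat.Agent.GZ.Unit.Hecke.cuspPkgFinal hp with hC
  obtain ⟨x, hx, hx'⟩ := alphaEx p a a' hrel
  have hAR : AlphaRed p C.zero := alphaRed hp
  obtain ⟨A, hA⟩ := Fermat.Agent.Common_helper32.exists_liesOverPrime ℓ hℓ
  have hℓp' : ¬ ℓ ∣ p := fun h => hℓp ((Nat.prime_dvd_prime_iff_eq hℓ hp).mp h)
  obtain ⟨h, -⟩ := Fermat.Agent.GJ.S37LSpaceGate.levelPackage p hℓ hℓp'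
    (fun h => by omega) (fun h => by omega) A hA
  obtain ⟨hi, -, huniq⟩ := hAR ℓ hℓ hℓp A hA h x a a' hx hx' hℓa
  obtain ⟨h23a, h23b⟩ := h23 x a a' hx hx'
  refine core_place_B hp hp' C hH hdeg3 hdeg2 x (fun σ => ?_)
    (fun A₂ hA₂ h₂ => h23a A₂ hA₂ h2a h2 h₂) (fun A₃ hA₃ h₃ => h23b A₃ hA₃ h3a h3 h₃)
    hℓ hℓp hℓ5 hℓp1 (hF ℓ hℓ hℓp) A hA h (hi.mpr hval)
  exact huniq _ (valueAt_galois_jF σ hx) (valueAt_galois_jdF σ hx')

end Fermat.Agent.GZ.S12
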