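/-
CELL-M3 (S12) / node (CORE), PLUG (helper24; claims row S12-H23PAIR).

`GZ/S12/CorePair.corePair_B` (helper9) with every binder except (F) discharged:
* `h23 : H23Pair (cuspPkgFinal hp)` := helper16's `LevelDP.pullHyp_three` / `pullHyp_two`
  (`Integ.PullHyp` is stated for ARBITRARY rational pairs `(a, a')`, not only `a = j(W)`) pushed
  to `Pic⁰` by `PullPic.red_pullBar_diffCl_eq_zero`;
* `hH : HRedGood` := helper42 `HRed.hRedGood`;
* `hdeg3`, `hdeg2` := helper45 `Deg.relfinrank_three_two`.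

* **`h23Pair`**  : `H23Pair (cuspPkgFinal hp)`, binder-free (`5 ≤ p`);
* **`corePair`** : `CorePair p ⟸ FStmtAll (cuspPkgFinal hp)` ALONE;
* `corePair_of_hker` : the same from `HCommTop.HKer p {2, 3, ℓ} r` at the primes `r ∣ ord c`
  (helper67 `HCommFinal.fStmt_of_hker`).
-/
import Fermat.Agent.GZ.S12.CorePair
import Fermat.Agent.GZ.Top.S15OfF

set_option autoImplicit false
set_option linter.unusedSectionVars false
set_option synthInstance.maxHeartbeats 400000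
set_option maxHeartbeats 1000000

noncomputable section

open AlgebraicCurve ModularCurve WeierstrassCurve
open scoped WeierstrassCurve.Affine

namespace Fermat.Agent.GZ.S12.CorePairPlug

open Fermat.Agent.GZ.Top Fermat.Agent.GZ.Unit Fermat.Agent.GZ.Mod.Integ Fermat.Agent.GZ.S12

/-- **`H23Pair` at the final cusp package, binder-free.** -/
theorem h23Pair {p : ℕ} (hp : p.Prime) (hp5 : 5 ≤ p) [NeZero p] :
    H23Pair (Fermat.Agent.GZ.Unit.Hecke.cuspPkgFinal hp) := by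
  intro x a a' hx hx'
  refine ⟨fun A hA hv hrel hred => ?_, fun A hA hv hrel hred => ?_⟩
  · exact Fermat.Agent.GZ.Mod.PullPic.red_pullBar_diffCl_eq_zero _ hred x _
      (Fermat.Agent.GZ.Mod.Inst.LevelDP.pullHyp_three hp hp5 x a a' hx hx' hv hrel A hA hred)
  · exact Fermat.Agent.GZ.Mod.PullPic.red_pullBar_diffCl_eq_zero _ hred x _
      (Fermat.Agent.GZ.Mod.Inst.LevelDP.pullHyp_two hp hp5 x a a' hx hx' hv hrel A hA hred)

/-- **`CorePair p` from (F) at every test prime ALONE.** -/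
theorem corePair {p : ℕ} (hp : p.Prime) (hp' : p ∉ ({2, 3, 5, 7, 13} : Finset ℕ)) [NeZero p]
    (hF : FStmtAll (Fermat.Agent.GZ.Unit.Hecke.cuspPkgFinal hp)) : CorePair p := by
  have hp11 := eleven_le_of_not_mem hp hp'
  have hp2 : p ≠ 2 := by omega
  have hp3 : p ≠ 3 := by omega
  obtain ⟨hd3, hd2⟩ := Fermat.Agent.GZ.Deg.relfinrank_three_two hp hp2 hp3
  exact corePair_B hp hp' Fermat.Agent.GZ.HRed.hRedGood hd3 hd2 (h23Pair hp (by omega)) hF

/-- `FStmtAll` from the Nakayama hypothesis at ONE prime `r ∣ ord c` for every test prime. -/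
theorem fStmtAll_of_hker {p : ℕ} (hp : p.Prime) (hp5 : 5 ≤ p) [NeZero p]
    (hker : ∀ ℓ : ℕ, ℓ.Prime → ℓ ≠ p → ∃ r : ℕ, r.Prime ∧
      r ∣ addOrderOf (Fermat.Agent.GZ.Unit.Hecke.cuspPkgFinal hp).c ∧
      Fermat.Agent.GZ.HCommTop.HKer p ({2, 3, ℓ} : Finset ℕ) r) :
    FStmtAll (Fermat.Agent.GZ.Unit.Hecke.cuspPkgFinal hp) := by
  intro ℓ hℓ hℓp
  obtain ⟨r, hr, hrc, hk⟩ := hker ℓ hℓ hℓp
  exact Fermat.Agent.GZ.HCommFinal.fStmt_of_hker p hp hp5 _ _ r hr hrc hk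

/-- **`CorePair p` from the Nakayama hypothesis.** -/
theorem corePair_of_hker {p : ℕ} (hp : p.Prime) (hp' : p ∉ ({2, 3, 5, 7, 13} : Finset ℕ))
    [NeZero p]
    (hker : ∀ ℓ : ℕ, ℓ.Prime → ℓ ≠ p → ∃ r : ℕ, r.Prime ∧
      r ∣ addOrderOf (Fermat.Agent.GZ.Unit.Hecke.cuspPkgFinal hp).c ∧
      Fermat.Agent.GZ.HCommTop.HKer p ({2, 3, ℓ} : Finset ℕ) r) :
    CorePair p :=
  corePair hp hp' (fStmtAll_of_hker hp (by have := eleven_le_of_not_mem hp hp'; omega) hker)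

end Fermat.Agent.GZ.S12.CorePairPlug
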