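/-
CELL-M3 (S12) / SEAM COMPOSITION (helper26): **the frozen S12 statement from the local family and
the arithmetic binders ALONE.**

`¬ HasGaloisStableCofixedLine (K := ℚ̄) ℚ P.freyCurve P.p` for `17 ≤ p`, composed from the landed
nodes

* case I   (`p ∤ abc`)          : helper27's `CaseI.caseI_frey`, binder-free;
* case II  (`3 ∤ abc`)          : `CaseII.frey_caseII`, binder-free;
* case III (`p ∣ abc`, `3 ∣ abc`): helper94's `CaseIIIOfNodes.false_of_nodes`, with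
  `c1` := `Base.chainInv_one` ∘ helper92's `Canon.can_one_of_nodes`, `hS14` := `S14.result`,
  `hχI`/`hχD` := helper21's `DetCyc.exists_inertia_cycloExp_ne_one` / `cycloExp_frob` (+ existence of
  Frobenius elements), `q` := `FinishTop.exists_good_prime`, the `Δ`-facts := helper67's `FreyMult`.

What is left is bundled in `Family W p`: the total family `E0 A` of zero components with its
local structure `hI hfix hD hcnt hloc hcut` (LOC + CUT-D) and the two arithmetic binders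
`hmix` (level `k + 1 ≥ 2`) and `hmix1` (level one) (PAIR + CorePair), VERBATIM in the shapes of
`false_of_nodes` / `can_one_of_nodes` with `mult ℓ := (ℓ : ℤ) ∣ W.Δ`, `χ := cycloExp p`.
For the Frey curve the family is only asked for under `p ∣ abc` and `3 ∣ abc`.
-/
import Mathlib
import Fermat.Agent.GZ.S12.BaseChain
import Fermat.Agent.GZ.S12.CaseIIIOfNodes
import Fermat.Agent.GZ.S12.CaseIFinal
import Fermat.Agent.GZ.S12.CaseII
import Fermat.Agent.GZ.S12.FinishTop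
import Fermat.Agent.S14

set_option autoImplicit false
set_option linter.unusedSectionVars false

open Fermat.Agent.Common_helper32
open scoped WeierstrassCurve.Affine

namespace Fermat.Agent.GZ.S12.TopOfFamily

open WeierstrassCurve WeierstrassCurve.Affine.Point Fermat.Agent.GE.ECAssembly
open Fermat.Agent.GZ.Dev Fermat.Agent.GZ.S12.ChainInd Fermat.Agent.GZ.S12.AdmAbs
open ExtCitation ValuationSubring

/-- **what case III still owes**: the family of zero components with its local structure, and the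
arithmetic binders (PAIR + CorePair). `mult ℓ := (ℓ : ℤ) ∣ W.Δ`, `χ := cycloExp p`. -/
structure Family (W : WeierstrassCurve ℤ) (p : ℕ) [Fact p.Prime] : Type where
  /-- the zero component at `A` (a total function of `A`; only its values at the multiplicative
  places are used). -/
  E0 : ValuationSubring Qb → AddSubgroup (EQb W).Point
  hI : ∀ ℓ : ℕ, ℓ.Prime → (ℓ : ℤ) ∣ W.Δ → ∀ A : ValuationSubring Qb, A.LiesOverPrime ℓ →
    ∀ σ ∈ A.inertiaSubgroupIn ℚ, ∀ x : (EQb W).Point, σ • x - x ∈ E0 A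
  hfix : ∀ ℓ : ℕ, ℓ.Prime → (ℓ : ℤ) ∣ W.Δ → ℓ ≠ p → ∀ A : ValuationSubring Qb,
    A.LiesOverPrime ℓ → ∀ σ ∈ A.inertiaSubgroupIn ℚ, ∀ x ∈ E0 A, p • x = 0 → σ • x = x
  hD : ∀ ℓ : ℕ, ℓ.Prime → (ℓ : ℤ) ∣ W.Δ → ∀ A : ValuationSubring Qb, A.LiesOverPrime ℓ →
    ∀ σ ∈ A.decompositionSubgroup ℚ, ∀ x ∈ E0 A, σ • x ∈ E0 A
  hcnt : ∀ ℓ : ℕ, ℓ.Prime → (ℓ : ℤ) ∣ W.Δ → ∀ A : ValuationSubring Qb, A.LiesOverPrime ℓ →
    ∀ n : ℕ, Nat.card ↥(E0 A ⊓ tor (EQb W).Point (p ^ n)) = p ^ n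
  hloc : ∀ ℓ : ℕ, ℓ.Prime → (ℓ : ℤ) ∣ W.Δ → ∀ A : ValuationSubring Qb, A.LiesOverPrime ℓ →
    ∀ (m : ℕ) (x : (EQb W).Point), p ^ m • x = 0 → p • x ∈ E0 A →
      ∃ T : (EQb W).Point, p • T = 0 ∧ x - T ∈ E0 A
  hcut : ∀ ℓ : ℕ, ℓ.Prime → (ℓ : ℤ) ∣ W.Δ → ℓ ≠ p → ∀ A : ValuationSubring Qb,
    A.LiesOverPrime ℓ → ∀ T ∈ E0 A, T ≠ 0 → p • T = 0 →
      (∀ σ ∈ A.decompositionSubgroup ℚ, σ • T = T) → p ∣ ℓ - 1 ∨ p ∣ ℓ + 1
  hmix : ∀ k : ℕ, 1 ≤ k → ∀ N' : StableSub GQ (EQb W).Point, IsAddCyclic ↥N'.U →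
    Nat.card ↥N'.U = p ^ (k + 1) →
    (∀ (σ : GQ) (t : (EQb W).Point), p • t = 0 → σ • t - t ∈ N'.U) →
    (∀ (σ : GQ), ∀ x ∈ N'.U, p • x = 0 → σ • x = cycloExp p σ • x) →
    (∀ A : ValuationSubring Qb, A.LiesOverPrime 2 → N'.U ≤ E0 A) →
    (∀ A : ValuationSubring Qb, A.LiesOverPrime 3 → N'.U ≤ E0 A) →
    ∀ ℓ : ℕ, ℓ.Prime → (ℓ : ℤ) ∣ W.Δ → ℓ ≠ p → 5 ≤ ℓ → ¬ ℓ ∣ p - 1 →
      ∀ A : ValuationSubring Qb, A.LiesOverPrime ℓ →
        (∀ x ∈ N'.U, p • x ∈ E0 A) → ¬ N'.U ≤ E0 A → False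
  hmix1 : ∀ N : StableSub GQ (EQb W).Point, IsAddCyclic ↥N.U → Nat.card ↥N.U = p ^ 1 →
    (∀ (σ : GQ) (t : (EQb W).Point), p • t = 0 → σ • t - t ∈ N.U) →
    (∀ (σ : GQ), ∀ x ∈ N.U, p • x = 0 → σ • x = cycloExp p σ • x) →
    (∀ A : ValuationSubring Qb, A.LiesOverPrime 2 → N.U ≤ E0 A) →
    (∀ A : ValuationSubring Qb, A.LiesOverPrime 3 → N.U ≤ E0 A) →
    ∀ ℓ : ℕ, ℓ.Prime → (ℓ : ℤ) ∣ W.Δ → ℓ ≠ p → 5 ≤ ℓ → ¬ ℓ ∣ p - 1 →
      ∀ A : ValuationSubring Qb, A.LiesOverPrime ℓ → ¬ N.U ≤ E0 A → False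

section Model

variable {W : WeierstrassCurve ℤ} {p : ℕ} [hp : Fact p.Prime]

/-- (L1) from the count: `E0 A` contains a nonzero point of order `p`. -/
theorem Family.hL1 (F : Family W p) :
    ∀ ℓ : ℕ, ℓ.Prime → (ℓ : ℤ) ∣ W.Δ → ∀ A : ValuationSubring Qb, A.LiesOverPrime ℓ →
      ∃ T ∈ F.E0 A, T ≠ 0 ∧ p • T = 0 := by
  intro ℓ hℓ hm A hA
  have hcard := F.hcnt ℓ hℓ hm A hA 1
  rw [pow_one] at hcard
  have hfin : Finite ↥(F.E0 A ⊓ tor (EQb W).Point p) :=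
    Nat.finite_of_card_ne_zero (by rw [hcard]; exact hp.out.ne_zero)
  have hnt : Nontrivial ↥(F.E0 A ⊓ tor (EQb W).Point p) :=
    Finite.one_lt_card_iff_nontrivial.mp (by rw [hcard]; exact hp.out.one_lt)
  obtain ⟨⟨T, hT⟩, hT0⟩ := exists_ne (0 : ↥(F.E0 A ⊓ tor (EQb W).Point p))
  refine ⟨T, hT.1, fun h0 => hT0 (Subtype.ext h0), mem_tor.mp hT.2⟩

/-- the two cyclotomic facts. -/
theorem hχI_inst (hp2 : p ≠ 2) : ∀ A : ValuationSubring Qb, A.LiesOverPrime p →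
    ∃ σ ∈ A.inertiaSubgroupIn ℚ, ¬ cycloExp p σ ≡ 1 [MOD p] := fun A hA =>
  Fermat.Agent.GZ.S12.DetCyc.exists_inertia_cycloExp_ne_one hp2 A hA

theorem hχD_inst : ∀ ℓ : ℕ, ℓ.Prime → ℓ ≠ p → ∀ A : ValuationSubring Qb, A.LiesOverPrime ℓ →
    ∃ σ ∈ A.decompositionSubgroup ℚ, cycloExp p σ ≡ ℓ [MOD p] := by
  intro ℓ hℓ hℓp A hA
  obtain ⟨τ, hτ⟩ := exists_isFrobeniusAt_of_liesOver A ℓ hℓ hA
  exact ⟨τ, hτ.mem_decompositionSubgroup,
    Fermat.Agent.GZ.S12.DetCyc.cycloExp_frob hℓ hℓp hA hτ⟩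

/-- **case III for an integral model**: no cofixed line when `p`, `2`, `3` divide `Δ`, from the
family. -/
theorem false_of_family (hΔ : W.Δ ≠ 0) (hp5 : 5 ≤ p) (hpΔ : (p : ℤ) ∣ W.Δ)
    (h2Δ : ((2 : ℕ) : ℤ) ∣ W.Δ) (h3Δ : ((3 : ℕ) : ℤ) ∣ W.Δ)
    (hnt : ∃ (σ : GQ) (x : TN W p), σ • x ≠ x) (F : Family W p)
    (h : HasGaloisStableCofixedLine (K := Qb) ℚ (W.map (Int.castRingHom ℚ)).toAffine p) :
    False := by
  have hS14 : ExtVanishingCts p := Fermat.Agent.S14.result (by omega)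
  have hχI := hχI_inst (p := p) (by omega)
  have hχD := hχD_inst (p := p)
  obtain ⟨c1⟩ := Fermat.Agent.GZ.S12.Base.chainInv_one W p hΔ hnt h (fun ℓ => (ℓ : ℤ) ∣ W.Δ) F.E0
    (fun N hcyc hcard hcof1 hdet =>
      Fermat.Agent.GZ.S12.Canon.can_one_of_nodes hp.out hp5 (cycloExp p) F.hI F.hD F.hL1 hχI
        F.hcut h2Δ h3Δ N hcyc hcard hcof1 hdet (F.hmix1 N hcyc hcard hcof1 hdet))
  obtain ⟨q, hq, hqp, hgood⟩ := Fermat.Agent.GZ.S12.FinishTop.exists_good_prime W hΔ p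
  exact Fermat.Agent.GZ.S12.CaseIIIOfNodes.false_of_nodes W hΔ hp5 hpΔ h2Δ h3Δ hS14 F.E0 F.hI
    F.hfix F.hD F.hcnt F.hloc hχI hχD F.hmix c1 hq hqp hgood

end Model

/-! ### the Frey curve: the frozen S12 statement -/

/-- **S12 from the family**: for `17 ≤ p` the Frey curve has no Galois-stable cofixed line, as
soon as the family of case III exists (asked for only when `p ∣ abc` and `3 ∣ abc`). -/
theorem frey_no_cofixed_of_family (P : FreyPackage) (hp : 17 ≤ P.p)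
    (hfam : (P.p : ℤ) ∣ P.a * P.b * P.c → (3 : ℤ) ∣ P.a * P.b * P.c →
      Nonempty (@Family P.freyCurveInt P.p ⟨P.pp⟩)) :
    ¬ HasGaloisStableCofixedLine (K := AlgebraicClosure ℚ) ℚ P.freyCurve P.p := by
  have hfact : Fact P.p.Prime := ⟨P.pp⟩
  have hΔ := Fermat.Agent.GZ.S12.FreyMult.freyInt_Δ_ne_zero P
  by_cases hpabc : (P.p : ℤ) ∣ P.a * P.b * P.c
  · by_cases h3 : (3 : ℤ) ∣ P.a * P.b * P.c
    · -- case III
      intro h
      obtain ⟨F⟩ := hfam hpabc h3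
      have hpΔ : (P.p : ℤ) ∣ P.freyCurveInt.Δ :=
        (Fermat.Agent.GZ.S12.FreyMult.dvd_Δ_iff P P.pp).mpr hpabc
      have h2Δ : ((2 : ℕ) : ℤ) ∣ P.freyCurveInt.Δ := by
        exact_mod_cast Fermat.Agent.GZ.S12.FreyMult.two_dvd_Δ P
      have h3Δ : ((3 : ℕ) : ℤ) ∣ P.freyCurveInt.Δ :=
        (Fermat.Agent.GZ.S12.FreyMult.dvd_Δ_iff P Nat.prime_three).mpr (by exact_mod_cast h3)
      exact false_of_family hΔ (by omega) hpΔ h2Δ h3Δ (Fermat.Agent.GZ.S12.Base.frey_nontrivial P) F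
        ((Fermat.Agent.GZ.S12.Base.hasLine_iff P).mp h)
    · -- case II
      refine Fermat.Agent.GZ.S12.CaseII.frey_caseII P (by omega) hΔ ?_
      intro h3Δ
      apply h3
      have := (Fermat.Agent.GZ.S12.FreyMult.dvd_Δ_iff P Nat.prime_three).mp (by exact_mod_cast h3Δ)
      exact_mod_cast this
  · -- case I
    exact Fermat.Agent.GZ.S12.CaseI.caseI_frey P hpabc

end Fermat.Agent.GZ.S12.TopOfFamily
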