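/-
CELL-M3 (S12) / FINAL ASSEMBLY (helper9): the frozen S12

  `(P : FreyPackage) (17 ≤ P.p) : ¬ HasGaloisStableCofixedLine ℚ P.freyCurve P.p`

from `CorePair P.p` ALONE (`s12_of_corePair`), hence from `FStmtAll` ALONE (`s12_of_fStmtAll`,
helper24's `CorePairPlug.corePair`): the same Prop (F) that S15 hangs on, at every test prime.

Composition: helper26 `TopOfFamily.frey_no_cofixed_of_family` (cases I/II/III; helper27, helper94,
helper21, S14) with the family `E0 := CanonInst.E0 W` (helper92), its local structure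
`CanonInst.{hI,hfix,hD,hcut}_inst`, `LocalInst.{hcnt,hloc}_inst` (helper92 on helper87 `LocalTors` /
`LocEmb` + helper9 `Local`/`LocalTate` + helper43 T3N) and the arithmetic binders
`Pair.hmix_of_corePair` / `hmix_one_of_corePair` (helper71, helper91, helper37, helper43, helper80).
-/
import Mathlib
import Fermat.Agent.GZ.S12.TopOfFamily
import Fermat.Agent.GZ.S12.CanonFinal
import Fermat.Agent.GZ.S12.Pair.Frey
import Fermat.Agent.GZ.S12.CorePairPlug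

set_option autoImplicit false
set_option linter.unusedSectionVars false

open scoped WeierstrassCurve.Affine

namespace Fermat.Agent.GZ.S12.Final

open WeierstrassCurve WeierstrassCurve.Affine.Point Fermat.Agent.GE.ECAssembly ExtCitation
open Fermat.Agent.GZ.S12.TopOfFamily

/-- **The family of case III** on an integral semistable model with `2, 3 ∣ Δ`, from `CorePair p`. -/
noncomputable def familyOfCorePair (W : WeierstrassCurve ℤ) {p : ℕ} [hp : Fact p.Prime] [NeZero p]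
    (hΔ : W.Δ ≠ 0) (hc₄ : ∀ ℓ : ℕ, ℓ.Prime → (ℓ : ℤ) ∣ W.Δ → ¬ (ℓ : ℤ) ∣ W.c₄)
    (hm2 : ((2 : ℕ) : ℤ) ∣ W.Δ) (hm3 : ((3 : ℕ) : ℤ) ∣ W.Δ) (hcore : CorePair p) :
    Family W p where
  E0 := CanonInst.E0 W
  hI := CanonInst.hI_inst W hΔ hc₄
  hfix := CanonInst.hfix_inst W hΔ hc₄ hp.out
  hD := CanonInst.hD_inst W hΔ hc₄
  hcnt := LocalInst.hcnt_inst W hΔ hc₄ hp.out
  hloc := LocalInst.hloc_inst W hΔ hc₄ hp.out
  hcut := CanonInst.hcut_inst W hΔ hc₄ hp.out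
  hmix := Pair.hmix_of_corePair W (mult := fun ℓ => (ℓ : ℤ) ∣ W.Δ) (E0 := CanonInst.E0 W) hΔ hp.out
    hcore (fun _ hℓ hm _ hA => ⟨CanonInst.mult_of W hΔ hc₄ hℓ hm hA, CanonInst.E0_eq _⟩) hm2 hm3
    (cycloExp p)
  hmix1 := fun N hcyc hcard _ _ =>
    Pair.hmix_one_of_corePair W (mult := fun ℓ => (ℓ : ℤ) ∣ W.Δ) (E0 := CanonInst.E0 W) hΔ hp.out
      hcore (fun _ hℓ hm _ hA => ⟨CanonInst.mult_of W hΔ hc₄ hℓ hm hA, CanonInst.E0_eq _⟩) hm2 hm3
      N hcyc hcard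

/-- **S12 from `CorePair p` alone.** -/
theorem s12_of_corePair (P : FreyPackage) (hp : 17 ≤ P.p)
    (hcore : @CorePair P.p ⟨P.pp.ne_zero⟩) :
    ¬ HasGaloisStableCofixedLine (K := AlgebraicClosure ℚ) ℚ P.freyCurve P.p := by
  have hfact : Fact P.p.Prime := ⟨P.pp⟩
  have hnz : NeZero P.p := ⟨P.pp.ne_zero⟩
  refine frey_no_cofixed_of_family P hp (fun _ h3 => ⟨?_⟩)
  have hΔ := FreyMult.freyInt_Δ_ne_zero P
  have h2Δ : ((2 : ℕ) : ℤ) ∣ P.freyCurveInt.Δ := by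
    exact_mod_cast FreyMult.two_dvd_Δ P
  have h3Δ : ((3 : ℕ) : ℤ) ∣ P.freyCurveInt.Δ :=
    (FreyMult.dvd_Δ_iff P Nat.prime_three).mpr (by exact_mod_cast h3)
  exact familyOfCorePair P.freyCurveInt hΔ (fun ℓ hℓ hm => FreyMult.not_dvd_c₄_of_dvd_Δ P hℓ hm)
    h2Δ h3Δ hcore

/-- **S12 from (F) at every test prime** (`FStmtAll`, the Prop S15 hangs on). -/
theorem s12_of_fStmtAll (P : FreyPackage) (hp : 17 ≤ P.p)
    (hF : @FStmtAll P.p ⟨P.pp.ne_zero⟩
      (@Fermat.Agent.GZ.Unit.Hecke.cuspPkgFinal P.p ⟨P.pp.ne_zero⟩ P.pp)) :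
    ¬ HasGaloisStableCofixedLine (K := AlgebraicClosure ℚ) ℚ P.freyCurve P.p := by
  have hnz : NeZero P.p := ⟨P.pp.ne_zero⟩
  refine s12_of_corePair P hp (CorePairPlug.corePair P.pp ?_ hF)
  simp only [Finset.mem_insert, Finset.mem_singleton, not_or]
  refine ⟨?_, ?_, ?_, ?_, ?_⟩ <;> omega

end Fermat.Agent.GZ.S12.Final
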