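/-
CELL-M3 / S12, leaf `4 ∣ #W̃(𝔽_q)` (helper26; helper9's DESIGN v1, board 6320, cases (I)(II)):
**full `τ`-fixed 2-torsion forces `4 ∣ q + 1 - a_q(W)`** at every good odd prime `q`, for a
Frobenius `τ` at `A ∣ q` — from `GE/Top/ECFinal.frobRel` at `lam = 2` only (no reduction map).

On `E[4]`, `D = τ - 1` maps into `E[2]` (as `τ (2P) = 2P`) and kills `E[2]`, so `D² = 0` and the
relation `D² + (2 - a) D + c = 0` reads `c P = - (2 - a) D P`.  On `E[2]` it reads `c P = 0`,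
so `2 ∣ c`, hence `a = q + 1 - c` is even (`q` odd) and `(2 - a) D P = 0`; thus `c` kills a
point of exact order `4`.

Also the combination with `CaseII.dvd_of_frob_sub_mem`: `4 p ∣ c`, whence `4 p ≤ q² + 1` and, with
the sharp count `c ≤ 2 q + 1` as a hypothesis, `4 p ≤ 2 q + 1` (case (I): `q = p`).
-/
import Fermat.Agent.GZ.S12.CaseII

set_option autoImplicit false

open Fermat.Agent.Common_helper32
open scoped WeierstrassCurve.Affine

namespace Fermat.Agent.GZ.S12.FourDvd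

open WeierstrassCurve WeierstrassCurve.Affine.Point Fermat.Agent.GE.ECAssembly
open Fermat.Agent.GZ.S12.Finish

variable (W : WeierstrassCurve ℤ)

/-- the relation around `1`, solved for `c • P` (explicit form of `Finish.zsmul_eq_of_frobRel`) -/
theorem zsmul_eq_of_frobRel' {τ : GQ} {a : ℤ} {q : ℕ} {P : (EQb W).Point}
    (h : τ • τ • P - a • τ • P + (q : ℤ) • P = 0) :
    ((q : ℤ) + 1 - a) • P = -(τ • (τ • P - P) - (τ • P - P)) - (2 - a) • (τ • P - P) := by
  have e : (q : ℤ) • P = a • τ • P - τ • τ • P := by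
    have := eq_neg_of_add_eq_zero_right h
    rw [this]
    abel
  have e1 : ((q : ℤ) + 1 - a) • P = (q : ℤ) • P + P - a • P := by module
  rw [smul_sub_point, e1, e]
  generalize τ • τ • P = Y
  generalize τ • P = X
  module

/-- **`4 ∣ q + 1 - a_q(W)`** when a Frobenius `τ` at the good odd prime `q` fixes `E[2]`
pointwise. -/
theorem four_dvd_of_fix_two (hΔ : W.Δ ≠ 0) {q : ℕ} (hq : q.Prime) (hq2 : q ≠ 2)
    (hgood : ¬ (q : ℤ) ∣ W.Δ) (A : ValuationSubring Qb) (hA : A.LiesOverPrime q) (τ : GQ)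
    (hτ : A.IsFrobeniusAt τ q) (h2 : ∀ P : (EQb W).Point, 2 • P = 0 → τ • P = P) :
    (4 : ℤ) ∣ (q : ℤ) + 1 - W.apOfModel q := by
  classical
  have hΔ' := eqb_Δ_ne_zero W hΔ
  set a : ℤ := W.apOfModel q with ha
  set c : ℤ := (q : ℤ) + 1 - a with hc
  have hrel : ∀ (n : ℕ) (P : (EQb W).Point), 2 ^ n • P = 0 →
      τ • τ • P - a • τ • P + (q : ℤ) • P = 0 := fun n P hP =>
    Fermat.Agent.GE.ECFinal.frobRel W Nat.prime_two n q hq hq2 hgood A hA τ hτ P hP
  -- a point of exact order `2`: `2 ∣ c`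
  obtain ⟨T, hT⟩ := Fermat.Agent.GE.Tors.exists_addOrderOf_eq_prime_pow hΔ' Nat.prime_two 1
  have hT2 : 2 • T = 0 := by
    have := addOrderOf_nsmul_eq_zero T
    rwa [hT, pow_one] at this
  have hcT : c • T = 0 := by
    have h := zsmul_eq_of_frobRel' W (hrel 1 T (by rwa [pow_one]))
    rw [h2 T hT2, sub_self, smul_zero_point, sub_self, _root_.neg_zero, zsmul_zero, sub_zero] at h
    exact h
  have h2c : (2 : ℤ) ∣ c := by
    have := addOrderOf_dvd_iff_zsmul_eq_zero.mpr hcT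
    rw [hT, pow_one] at this
    exact_mod_cast this
  -- `a` is even
  have hqodd : ¬ (2 : ℤ) ∣ (q : ℤ) := by
    intro h
    have h' : 2 ∣ q := by exact_mod_cast h
    exact hq2 ((Nat.prime_dvd_prime_iff_eq Nat.prime_two hq).mp h').symm
  have hq1 : (2 : ℤ) ∣ (q : ℤ) + 1 := by
    have : (q : ℤ) % 2 = 1 := by
      rcases Int.emod_two_eq_zero_or_one (q : ℤ) with h | h
      · exact absurd (Int.dvd_of_emod_eq_zero h) hqodd
      · exact h
    omega
  have h2a : (2 : ℤ) ∣ 2 - a := by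
    have e : (2 : ℤ) - a = 2 - ((q : ℤ) + 1) + c := by rw [hc]; ring
    rw [e]
    exact dvd_add (dvd_sub (dvd_refl 2) hq1) h2c
  -- a point of exact order `4`
  obtain ⟨R, hR⟩ := Fermat.Agent.GE.Tors.exists_addOrderOf_eq_prime_pow hΔ' Nat.prime_two 2
  have hR4 : 2 ^ 2 • R = 0 := by
    have := addOrderOf_nsmul_eq_zero R
    rwa [hR] at this
  -- `D R ∈ E[2]`
  have hDR : 2 • (τ • R - R) = 0 := by
    have h22 : 2 • (2 • R) = 0 := by
      rw [← mul_nsmul]
      exact hR4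
    have := h2 (2 • R) h22
    rw [smul_nsmul_point] at this
    rw [nsmul_sub, this, sub_self]
  have hcR : c • R = 0 := by
    have h := zsmul_eq_of_frobRel' W (hrel 2 R hR4)
    obtain ⟨e, he⟩ := h2a
    have h3 : (2 - a) • (τ • R - R) = 0 := by
      rw [he, mul_comm, mul_zsmul, ← natCast_zsmul] at *
      simpa using congrArg (fun x => e • x) (by simpa using hDR : ((2 : ℕ) : ℤ) • (τ • R - R) = 0)
    rw [h2 (τ • R - R) hDR, sub_self, _root_.neg_zero, h3, sub_zero] at h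
    exact h
  have := addOrderOf_dvd_iff_zsmul_eq_zero.mpr hcR
  rw [hR] at this
  norm_num at this
  exact this

/-- **`4 p ∣ q + 1 - a_q(W)`**: a subgroup `N` of order `≤ p` (`p` odd) containing
`(τ - 1) E[p]`, and `τ` fixing `E[2]` pointwise. -/
theorem four_mul_dvd (hΔ : W.Δ ≠ 0) {p : ℕ} (hp : p.Prime) (hp2 : p ≠ 2) {q : ℕ}
    (hq : q.Prime) (hqp : q ≠ p) (hq2 : q ≠ 2) (hgood : ¬ (q : ℤ) ∣ W.Δ)
    (A : ValuationSubring Qb) (hA : A.LiesOverPrime q) (τ : GQ) (hτ : A.IsFrobeniusAt τ q)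
    (h2 : ∀ P : (EQb W).Point, 2 • P = 0 → τ • P = P)
    (N : AddSubgroup (EQb W).Point) [Finite N] (hNcard : Nat.card N ≤ p)
    (hN : ∀ P : (EQb W).Point, p • P = 0 → τ • P - P ∈ N) :
    ((4 * p : ℕ) : ℤ) ∣ (q : ℤ) + 1 - W.apOfModel q := by
  have h4 := four_dvd_of_fix_two W hΔ hq hq2 hgood A hA τ hτ h2
  have hpd := CaseII.dvd_of_frob_sub_mem W hΔ hp hq hqp hgood A hA τ hτ N hNcard hN
  have hcop : IsCoprime (4 : ℤ) (p : ℤ) := by
    have h2p : IsCoprime (2 : ℤ) (p : ℤ) := by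
      rw [isCoprime_comm]
      refine (Nat.prime_iff_prime_int.mp hp).coprime_iff_not_dvd.mpr ?_
      intro h
      have h' : p ∣ 2 := by exact_mod_cast h
      exact hp2 ((Nat.prime_dvd_prime_iff_eq hp Nat.prime_two).mp h')
    have : (4 : ℤ) = 2 ^ 2 := by norm_num
    rw [this]
    exact h2p.pow_left
  have := hcop.mul_dvd h4 hpd
  push_cast
  exact this

/-- `4 p ≤ #W̃(𝔽_q)` in `ℕ`. -/
theorem four_mul_le_card (hΔ : W.Δ ≠ 0) {p : ℕ} (hp : p.Prime) (hp2 : p ≠ 2) {q : ℕ}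
    (hq : q.Prime) (hqp : q ≠ p) (hq2 : q ≠ 2) (hgood : ¬ (q : ℤ) ∣ W.Δ)
    (A : ValuationSubring Qb) (hA : A.LiesOverPrime q) (τ : GQ) (hτ : A.IsFrobeniusAt τ q)
    (h2 : ∀ P : (EQb W).Point, 2 • P = 0 → τ • P = P)
    (N : AddSubgroup (EQb W).Point) [Finite N] (hNcard : Nat.card N ≤ p)
    (hN : ∀ P : (EQb W).Point, p • P = 0 → τ • P - P ∈ N) :
    4 * p ≤ Nat.card (W.reductionMod q).toAffine.Point := by
  have : Fact q.Prime := ⟨hq⟩
  have h := four_mul_dvd W hΔ hp hp2 hq hqp hq2 hgood A hA τ hτ h2 N hNcard hN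
  rw [add_one_sub_apOfModel W q] at h
  exact Nat.le_of_dvd (one_le_card_reduction W q) (Int.natCast_dvd_natCast.mp h)

end Fermat.Agent.GZ.S12.FourDvd
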