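/-
CELL-M3 (S12) / node (HMIX)  (helper91; claims row S12-HMIX).

The ONE arithmetic binder `hmix` of helper92's `GZ/S12/CanonChain.hcan_of_nodes` and the level-one
binder `hmix` of `can_one_of_nodes`, VERBATIM, from

* `hcore` : the body of `Fermat.Agent.GZ.S12.CorePair p` (helper9's `GZ/S12/CorePair.lean`), spelled
  out so that this file does not import the modular closure: a term `hcore : CorePair p` plugs in by
  definitional unfolding;
* the four exports of (PAIR) (helper71, SIG 6506: `padicValRat_jRat_neg'`, `pair_can`, `pair_mix`,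
  `pair_rel`) in ABSTRACT form: `jOf : AddSubgroup M → ℚ` (TOP: `Pair.jOf W`), `j0 : ℚ`
  (TOP: `jRat W`), each quantified over the multiplicative primes `ℓ` and the places `A ∣ ℓ`
  (TOP: the `LocData` at `(ℓ, A)`).

The pair handed to `CorePair` is `(a, a') = (jOf N', jOf (p • N'))` for the step and
`(jOf N, jOf ⊥)` at level one (`hcan` at `⊥` gives `v (jOf ⊥) = v j0`, so `jOf ⊥ = j0` is not
needed).
-/
import Mathlib
import Fermat.Agent.GZ.Mod.Pin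
import Fermat.Agent.GZ.S12.CanonChain

set_option autoImplicit false
set_option linter.unusedSectionVars false
set_option linter.unusedVariables false

noncomputable section

namespace Fermat.Agent.GZ.S12.Hmix

open Fermat.Agent.GZ.Dev Fermat.Agent.GZ.Mod Fermat.Agent.GZ.S12.Canon ValuationSubring

local notation "Qb" => AlgebraicClosure ℚ
local notation "GQ" => (AlgebraicClosure ℚ ≃ₐ[ℚ] AlgebraicClosure ℚ)

variable {M : Type} [AddCommGroup M] [DistribMulAction GQ M] {p : ℕ} [NeZero p]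
variable {mult : ℕ → Prop} {E0 : ValuationSubring Qb → AddSubgroup M}

/-- the body of `CorePair p` (`GZ/S12/CorePair.lean`), restated with light imports. -/
def CoreBody (p : ℕ) [NeZero p] : Prop :=
  ∀ a a' : ℚ, RelQ p a a' →
    padicValRat 2 a < 0 → (p : ℤ) * padicValRat 2 a' = padicValRat 2 a →
    padicValRat 3 a < 0 → (p : ℤ) * padicValRat 3 a' = padicValRat 3 a →
    ∀ ℓ : ℕ, ℓ.Prime → ℓ ≠ p → 5 ≤ ℓ → ¬ ℓ ∣ p - 1 → padicValRat ℓ a < 0 →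
      ¬ padicValRat ℓ a' = (p : ℤ) * padicValRat ℓ a

/-- the four (PAIR) exports, abstractly: `jOf N` is the `j`-invariant of the quotient by `N`. -/
structure PairFacts (p : ℕ) [NeZero p] (mult : ℕ → Prop)
    (E0 : ValuationSubring Qb → AddSubgroup M) (jOf : AddSubgroup M → ℚ) (j0 : ℚ) : Prop where
  /-- `padicValRat_jRat_neg'`. -/
  neg : ∀ ℓ : ℕ, ℓ.Prime → mult ℓ → padicValRat ℓ j0 < 0
  /-- `pair_can`. -/
  can : ∀ ℓ : ℕ, ℓ.Prime → mult ℓ → ∀ A : ValuationSubring Qb, A.LiesOverPrime ℓ →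
    ∀ N : AddSubgroup M, (N : Set M).Finite → (∀ σ : GQ, ∀ x ∈ N, σ • x ∈ N) → N ≤ E0 A →
      padicValRat ℓ (jOf N) = (Nat.card N : ℤ) * padicValRat ℓ j0
  /-- `pair_mix`. -/
  mix : ∀ ℓ : ℕ, ℓ.Prime → mult ℓ → ∀ A : ValuationSubring Qb, A.LiesOverPrime ℓ →
    ∀ (k : ℕ) (N : AddSubgroup M), (∀ σ : GQ, ∀ x ∈ N, σ • x ∈ N) → IsAddCyclic N →
      Nat.card N = p ^ (k + 1) → (∀ x ∈ N, p • x ∈ E0 A) → ¬ N ≤ E0 A →
        (p : ℤ) * padicValRat ℓ (jOf N) = ((p ^ k : ℕ) : ℤ) * padicValRat ℓ j0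
  /-- `pair_rel` (used at ONE place over `2`). -/
  rel : ∀ A : ValuationSubring Qb, A.LiesOverPrime 2 →
    ∀ (k : ℕ) (N N' : AddSubgroup M), (∀ σ : GQ, ∀ x ∈ N, σ • x ∈ N) →
      (∀ σ : GQ, ∀ x ∈ N', σ • x ∈ N') → Nat.card N = p ^ (k + 1) → Nat.card N' = p ^ k →
        N ≤ E0 A → N' ≤ E0 A → RelQ p (jOf N) (jOf N')

section Core

variable {jOf : AddSubgroup M → ℚ} {j0 : ℚ}

/-- a subgroup with positive `Nat.card` is finite as a set. -/
theorem finite_of_card {N : AddSubgroup M} {n : ℕ} (hn : 0 < n) (h : Nat.card N = n) :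
    (N : Set M).Finite := by
  have : Finite N := Nat.finite_of_card_ne_zero (by omega)
  exact Set.toFinite _

/-- **the common core**: `N` stable cyclic of order `p^(k+1)`, `N₁ ≤ N` stable of order `p^k`, `N`
canonical at all places over `2` and `3`, `N₁` canonical at `A ∣ ℓ`, `N` not canonical at `A`:
contradiction with `CorePair`. -/
theorem false_of_pair (hp : p.Prime) (hcore : CoreBody p)
    (F : PairFacts p mult E0 jOf j0) (hm2 : mult 2) (hm3 : mult 3)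
    (hA2 : ∃ A : ValuationSubring Qb, A.LiesOverPrime 2)
    (hA3 : ∃ A : ValuationSubring Qb, A.LiesOverPrime 3)
    {k : ℕ} {N N₁ : AddSubgroup M}
    (hstab : ∀ σ : GQ, ∀ x ∈ N, σ • x ∈ N) (hstab₁ : ∀ σ : GQ, ∀ x ∈ N₁, σ • x ∈ N₁)
    (hcyc : IsAddCyclic N) (hcard : Nat.card N = p ^ (k + 1)) (hcard₁ : Nat.card N₁ = p ^ k)
    (hle : N₁ ≤ N) (hpN : ∀ x ∈ N, p • x ∈ N₁)
    (h2 : ∀ A : ValuationSubring Qb, A.LiesOverPrime 2 → N ≤ E0 A)
    (h3 : ∀ A : ValuationSubring Qb, A.LiesOverPrime 3 → N ≤ E0 A)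
    {ℓ : ℕ} (hℓ : ℓ.Prime) (hm : mult ℓ) (hℓp : ℓ ≠ p) (h5 : 5 ≤ ℓ) (hdvd : ¬ ℓ ∣ p - 1)
    {A : ValuationSubring Qb} (hA : A.LiesOverPrime ℓ)
    (hN₁ : N₁ ≤ E0 A) (hne : ¬ N ≤ E0 A) : False := by
  have hppos : 0 < p := hp.pos
  have hfin : (N : Set M).Finite := finite_of_card (pow_pos hppos _) hcard
  have hfin₁ : (N₁ : Set M).Finite := finite_of_card (pow_pos hppos _) hcard₁
  obtain ⟨A₂, hA₂⟩ := hA2
  obtain ⟨A₃, hA₃⟩ := hA3
  -- the relation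
  have hrel : RelQ p (jOf N) (jOf N₁) :=
    F.rel A₂ hA₂ k N N₁ hstab hstab₁ hcard hcard₁ (h2 A₂ hA₂) (hle.trans (h2 A₂ hA₂))
  -- valuations at `2`, `3`
  have hval : ∀ r : ℕ, r.Prime → mult r → ∀ B : ValuationSubring Qb, B.LiesOverPrime r →
      N ≤ E0 B → padicValRat r (jOf N) < 0 ∧
        (p : ℤ) * padicValRat r (jOf N₁) = padicValRat r (jOf N) := by
    intro r hr hmr B hB hNB
    have h1 := F.can r hr hmr B hB N hfin hstab hNB
    have h2' := F.can r hr hmr B hB N₁ hfin₁ hstab₁ (hle.trans hNB)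
    have hneg := F.neg r hr hmr
    rw [hcard] at h1
    rw [hcard₁] at h2'
    refine ⟨?_, ?_⟩
    · rw [h1]
      have : (0 : ℤ) < ((p ^ (k + 1) : ℕ) : ℤ) := by exact_mod_cast pow_pos hppos _
      exact mul_neg_of_pos_of_neg this hneg
    · rw [h1, h2']
      push_cast
      ring
  obtain ⟨h2a, h2v⟩ := hval 2 Nat.prime_two hm2 A₂ hA₂ (h2 A₂ hA₂)
  obtain ⟨h3a, h3v⟩ := hval 3 Nat.prime_three hm3 A₃ hA₃ (h3 A₃ hA₃)
  -- valuations at `ℓ`
  have hmixv := F.mix ℓ hℓ hm A hA k N hstab hcyc hcard (fun x hx => hN₁ (hpN x hx)) hne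
  have hcanv := F.can ℓ hℓ hm A hA N₁ hfin₁ hstab₁ hN₁
  rw [hcard₁] at hcanv
  have hneg := F.neg ℓ hℓ hm
  have hpk : (0 : ℤ) < ((p ^ k : ℕ) : ℤ) := by exact_mod_cast pow_pos hppos _
  have hpz : (0 : ℤ) < (p : ℤ) := by exact_mod_cast hppos
  have hℓa : padicValRat ℓ (jOf N) < 0 := by
    by_contra hcon
    push Not at hcon
    have h1 : 0 ≤ (p : ℤ) * padicValRat ℓ (jOf N) := mul_nonneg hpz.le hcon
    rw [hmixv] at h1
    have h2'' := mul_neg_of_pos_of_neg hpk hneg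
    omega
  exact hcore (jOf N) (jOf N₁) hrel h2a h2v h3a h3v ℓ hℓ hℓp h5 hdvd hℓa (by rw [hcanv, hmixv])

end Core

section Binders

variable {jOf : AddSubgroup M → ℚ} {j0 : ℚ}

/-- **the binder `hmix` of `Canon.hcan_of_nodes`, VERBATIM.** -/
theorem hmix_step (hp : p.Prime) (χ : GQ → ℕ) (hcore : CoreBody p)
    (F : PairFacts p mult E0 jOf j0) (hm2 : mult 2) (hm3 : mult 3)
    (hA2 : ∃ A : ValuationSubring Qb, A.LiesOverPrime 2)
    (hA3 : ∃ A : ValuationSubring Qb, A.LiesOverPrime 3) :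
    ∀ k : ℕ, 1 ≤ k → ∀ N' : StableSub GQ M, IsAddCyclic ↥N'.U →
      Nat.card ↥N'.U = p ^ (k + 1) →
      (∀ (σ : GQ) (t : M), p • t = 0 → σ • t - t ∈ N'.U) →
      (∀ (σ : GQ), ∀ x ∈ N'.U, p • x = 0 → σ • x = χ σ • x) →
      (∀ A : ValuationSubring Qb, A.LiesOverPrime 2 → N'.U ≤ E0 A) →
      (∀ A : ValuationSubring Qb, A.LiesOverPrime 3 → N'.U ≤ E0 A) →
      ∀ ℓ : ℕ, ℓ.Prime → mult ℓ → ℓ ≠ p → 5 ≤ ℓ → ¬ ℓ ∣ p - 1 →
        ∀ A : ValuationSubring Qb, A.LiesOverPrime ℓ →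
          (∀ x ∈ N'.U, p • x ∈ E0 A) → ¬ N'.U ≤ E0 A → False := by
  intro k hk N' hcyc hcard hcof1 hdet h2 h3 ℓ hℓ hm hℓp h5 hdvd A hA hpN' hne
  obtain ⟨-, hcard₁⟩ := card_nsmulSub (N := N'.U) (i := 1) hp hcyc hcard (by omega)
  rw [pow_one, Nat.add_sub_cancel] at hcard₁
  refine false_of_pair hp hcore F hm2 hm3 hA2 hA3 (N := N'.U) (N₁ := nsmulSub p N'.U)
    N'.smul_mem (nsmulSub_stable p N'.smul_mem) hcyc hcard hcard₁ (nsmulSub_le p N'.U)
    (fun x hx => mem_nsmulSub.2 ⟨x, hx, rfl⟩) h2 h3 hℓ hm hℓp h5 hdvd hA ?_ hne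
  intro x hx
  obtain ⟨y, hy, rfl⟩ := mem_nsmulSub.1 hx
  exact hpN' y hy

/-- **the binder `hmix` of `Canon.can_one_of_nodes`, VERBATIM** (level one: `a' = jOf ⊥`). -/
theorem hmix_one (hp : p.Prime) (hcore : CoreBody p)
    (F : PairFacts p mult E0 jOf j0) (hm2 : mult 2) (hm3 : mult 3)
    (hA2 : ∃ A : ValuationSubring Qb, A.LiesOverPrime 2)
    (hA3 : ∃ A : ValuationSubring Qb, A.LiesOverPrime 3)
    (N : StableSub GQ M) (hcyc : IsAddCyclic ↥N.U) (hcard : Nat.card ↥N.U = p ^ 1) :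
    (∀ A : ValuationSubring Qb, A.LiesOverPrime 2 → N.U ≤ E0 A) →
      (∀ A : ValuationSubring Qb, A.LiesOverPrime 3 → N.U ≤ E0 A) →
      ∀ ℓ : ℕ, ℓ.Prime → mult ℓ → ℓ ≠ p → 5 ≤ ℓ → ¬ ℓ ∣ p - 1 →
        ∀ A : ValuationSubring Qb, A.LiesOverPrime ℓ → ¬ N.U ≤ E0 A → False := by
  intro h2 h3 ℓ hℓ hm hℓp h5 hdvd A hA hne
  have hcard₁ : Nat.card (⊥ : AddSubgroup M) = p ^ 0 := by
    rw [pow_zero]
    exact AddSubgroup.card_bot
  have hpx : ∀ x ∈ N.U, p • x ∈ (⊥ : AddSubgroup M) := by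
    intro x hx
    rw [AddSubgroup.mem_bot]
    have h1 : Nat.card ↥N.U • (⟨x, hx⟩ : ↥N.U) = 0 := card_nsmul_eq_zero'
    rw [hcard, pow_one] at h1
    have h2' := congrArg (Subtype.val) h1
    simpa using h2'
  refine false_of_pair hp hcore F hm2 hm3 hA2 hA3 (k := 0) (N := N.U) (N₁ := ⊥)
    N.smul_mem ?_ hcyc (by rw [hcard]) hcard₁ bot_le hpx h2 h3 hℓ hm hℓp h5 hdvd hA bot_le hne
  intro σ x hx
  rw [AddSubgroup.mem_bot] at hx ⊢
  rw [hx, smul_zero]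

end Binders

end Fermat.Agent.GZ.S12.Hmix
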