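/-
CELL-M3 (S12) / node (HMIX), INSTANCE  (helper91; claims row S12-HMIX).

The two arithmetic binders `hmix` of helper92's `GZ/S12/CanonInst.hcan_inst` / `can_one_inst`
(= of `CanonChain.hcan_of_nodes` / `can_one_of_nodes` on `M := (EQb W).Point`), with ONLY
`CorePair p` (in the unfolded form `Hmix.CoreBody p`) left as a binder.

* `unitSub T ι` : the subgroup of the points of `W(ℚ̄)` whose Tate parameter can be chosen of norm
  one; `locData T ι : Pair.LocData W K (unitSub T ι)` (helper71's local binder, `mem_iff` by `rfl`).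
  Reason: `LocData.mem_iff` quantifies over ALL points, whereas for the frozen zero component
  `Local.e0 h` the implication `⟹` is only available for TORSION points
  (`LocalTate.mem_e0_iff_exists_unit`, helper9).  (PAIR) only uses FINITE subgroups, so nothing is
  lost: `mem_unitSub_of_mem_e0` (torsion points), `mem_e0_of_mem_unitSub` (all points).
* `exists_locData` : at every place `A ∣ ℓ` of multiplicative reduction (helper87's
  `LocEmb.exists_embedding`, helper9's `T4.exists_tateUnif`).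
* **`pairFacts`** : `Hmix.PairFacts p (fun ℓ => (ℓ : ℤ) ∣ W.Δ) E0 (Pair.jOf W) (jRat W)` for EVERY family
  `E0` with `E0 A = Local.e0 h` at the multiplicative places (helper9's `LocInst.E0fun`, helper92's
  `CanonInst.E0`).
* **`hmix_inst`**, **`hmix_one_inst`** : the binders, VERBATIM.
-/
import Mathlib
import Fermat.Agent.GZ.S12.HmixOfPair
import Fermat.Agent.GZ.S12.Pair.Main
import Fermat.Agent.GZ.S12.LocalTate
import Fermat.Agent.GZ.S12.LocEmb
import Fermat.Agent.GE.Top.ECAssembly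
import Fermat.Agent.Common_helper32.FrobeniusExists

set_option autoImplicit false
set_option linter.unusedSectionVars false
set_option linter.unusedVariables false

noncomputable section

open scoped WeierstrassCurve.Affine

namespace Fermat.Agent.GZ.S12.HmixInst

open Fermat.Agent.GZ.Dev Fermat.Agent.GZ.Mod Fermat.Agent.GZ.Tate Fermat.Agent.GZ.S12.Canon
  Fermat.Agent.GE.ECAssembly ValuationSubring WeierstrassCurve

local notation "Qb" => AlgebraicClosure ℚ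
local notation "GQ" => (AlgebraicClosure ℚ ≃ₐ[ℚ] AlgebraicClosure ℚ)

universe u

/-! ### the subgroup of unit points -/

section UnitSub

variable {K : Type u} [NormedField K] [IsUltrametricDist K] [CompleteSpace K] [CharZero K]
  [DecidableEq K]
variable {W : WeierstrassCurve ℤ} (T : T4.TateUnif W K) (ι : Qb →ₐ[ℚ] K)

/-- the points of `W(ℚ̄)` whose Tate parameter (through `ι`, `T`) can be chosen of norm one. -/
def unitSub : AddSubgroup (Pair.Pt W) where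
  carrier := {x | Pair.IsUnitPt T.q_ne T.norm_q (Pair.toTateQb T ι x)}
  zero_mem' := by
    refine ⟨1, by simp, ?_⟩
    rw [map_zero]
    exact ((T2.Final.tateP_eq_zero_iff T.q_ne T.norm_q 1).2 (one_mem _)).symm
  add_mem' := by
    rintro x y ⟨u, hu, hxu⟩ ⟨v, hv, hyv⟩
    refine ⟨u * v, by rw [Units.val_mul, norm_mul, hu, hv, one_mul], ?_⟩
    rw [map_add, hxu, hyv, T2.Final.tateP_mul]
  neg_mem' := by
    rintro x hx
    have h1 := Pair.IsUnitPt.zsmul T.q_ne T.norm_q hx (-1)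
    show Pair.IsUnitPt T.q_ne T.norm_q (Pair.toTateQb T ι (-x))
    rw [map_neg]
    simpa using h1

theorem mem_unitSub (x : Pair.Pt W) :
    x ∈ unitSub T ι ↔ ∃ u : Kˣ, ‖(u : K)‖ = 1 ∧
      Pair.toTateQb T ι x = T2.Final.tateP T.q T.q_ne T.norm_q u := Iff.rfl

/-- helper71's local binder at the subgroup of unit points. -/
def locData : Pair.LocData W K (unitSub T ι) := ⟨ι, T, fun x => mem_unitSub T ι x⟩

end UnitSub

/-! ### comparison with the frozen zero component -/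

section Transfer

variable {K : Type u} [NormedField K] [IsUltrametricDist K] [CompleteSpace K] [CharZero K]
  [DecidableEq K]
variable {W : WeierstrassCurve ℤ} (T : T4.TateUnif W K) (ι : Qb →+* K) {A : ValuationSubring Qb}
variable (hA : ∀ x : Qb, x ∈ A ↔ ‖ι x‖ ≤ 1)

theorem toTateQb_eq (x : Pair.Pt W) :
    Pair.toTateQb T ι.toRatAlgHom x = LocalTate.toTateQ T ι x := rfl

include hA in
/-- unit points are in the zero component. -/
theorem mem_e0_of_mem_unitSub {ℓ : ℕ} (h : Local.Mult W A ℓ) {Q : Pair.Pt W}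
    (hQ : Q ∈ unitSub T ι.toRatAlgHom) : Q ∈ Local.e0 h := by
  obtain ⟨u, hu, hQu⟩ := hQ
  exact LocalTate.inZeroComponentAt_of_unit T ι hA h Q hu hQu

include hA in
/-- TORSION points of the zero component are unit points. -/
theorem mem_unitSub_of_mem_e0 [IsAlgClosed K] {ℓ : ℕ} (h : Local.Mult W A ℓ) {n : ℕ}
    (hn : n ≠ 0) {Q : Pair.Pt W} (hQ : n • Q = 0) (hQ0 : Q ∈ Local.e0 h) :
    Q ∈ unitSub T ι.toRatAlgHom :=
  (LocalTate.mem_e0_iff_exists_unit T ι hA h hn Q hQ).1 hQ0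

end Transfer

/-! ### `LocData` at every multiplicative place -/

section Exists

variable {W : WeierstrassCurve ℤ}

/-- **(LOC a+b) packaged for (PAIR)**: at a place `A ∣ ℓ` of multiplicative reduction there is a
`LocData` whose subgroup has the same TORSION as the frozen zero component. -/
theorem exists_locData {ℓ : ℕ} [Fact ℓ.Prime] [DecidableEq ℂ_[ℓ]] {A : ValuationSubring Qb}
    (h : Local.Mult W A ℓ) :
    ∃ (E : AddSubgroup (Pair.Pt W)) (_ : Pair.LocData W ℂ_[ℓ] E),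
      (∀ (n : ℕ), n ≠ 0 → ∀ Q : Pair.Pt W, n • Q = 0 → Q ∈ Local.e0 h → Q ∈ E) ∧
        ∀ Q ∈ E, Q ∈ Local.e0 h := by
  obtain ⟨ι, -, hA, hnon, -⟩ := LocEmb.exists_embedding ℓ A h.lies
  have hℓK : ‖((ℓ : ℕ) : ℂ_[ℓ])‖ < 1 := by
    have := (hnon (ℓ : Qb)).1 h.lies
    rwa [map_natCast] at this
  obtain ⟨T, -, -⟩ := T4.exists_tateUnif (K := ℂ_[ℓ]) W h.disc_ne h.prime hℓK h.dvd_disc
    h.not_dvd_c₄
  exact ⟨unitSub T ι.toRatAlgHom, locData T ι.toRatAlgHom,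
    fun n hn Q hQ hQ0 => mem_unitSub_of_mem_e0 T ι hA h hn hQ hQ0,
    fun Q hQ => mem_e0_of_mem_unitSub T ι hA h hQ⟩

end Exists

/-! ### the (PAIR) facts on `(EQb W).Point` -/

section Facts

variable (W : WeierstrassCurve ℤ)

/-- elements of a finite subgroup are killed by its order. -/
theorem card_nsmul_mem {M : Type*} [AddCommGroup M] {N : AddSubgroup M} {x : M} (hx : x ∈ N) :
    Nat.card N • x = 0 := by
  have h1 : Nat.card N • (⟨x, hx⟩ : N) = 0 := card_nsmul_eq_zero'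
  have h2 : ((Nat.card N • (⟨x, hx⟩ : N) : N) : M) = ((0 : N) : M) := congrArg Subtype.val h1
  rwa [AddSubgroup.coe_nsmul, AddSubgroup.coe_zero] at h2

/-- **the four (PAIR) exports at every multiplicative place**, for every family `E0` which is the
frozen zero component at the multiplicative places. -/
theorem pairFacts (hΔ : W.Δ ≠ 0)
    (hc₄ : ∀ ℓ : ℕ, ℓ.Prime → (ℓ : ℤ) ∣ W.Δ → ¬ (ℓ : ℤ) ∣ W.c₄) {p : ℕ} [NeZero p]
    (hp : p.Prime) (E0 : ValuationSubring Qb → AddSubgroup (EQb W).Point)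
    (hE0 : ∀ (ℓ : ℕ) (A : ValuationSubring Qb) (h : Local.Mult W A ℓ), E0 A = Local.e0 h)
    (hm2 : ((2 : ℕ) : ℤ) ∣ W.Δ) :
    Hmix.PairFacts (M := (EQb W).Point) p (fun ℓ => (ℓ : ℤ) ∣ W.Δ) E0 (Pair.jOf W) (jRat W) := by
  classical
  refine ⟨?_, ?_, ?_, ?_⟩
  · -- neg
    intro ℓ hℓ hm
    obtain ⟨A, hA⟩ := Fermat.Agent.Common_helper32.exists_liesOverPrime ℓ hℓ
    have h : Local.Mult W A ℓ := ⟨hℓ, hA, hΔ, hm, hc₄ ℓ hℓ hm⟩
    have : Fact ℓ.Prime := ⟨hℓ⟩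
    obtain ⟨E, D, -, -⟩ := exists_locData h
    exact Pair.padicValRat_jRat_neg' D hΔ
  · -- can
    intro ℓ hℓ hm A hA N hfin hstab hN
    have h : Local.Mult W A ℓ := ⟨hℓ, hA, hΔ, hm, hc₄ ℓ hℓ hm⟩
    have : Fact ℓ.Prime := ⟨hℓ⟩
    obtain ⟨E, D, h1, -⟩ := exists_locData h
    have : Finite N := hfin.to_subtype
    refine Pair.pair_can D hΔ hfin hstab fun x hx => ?_
    exact h1 (Nat.card N) Nat.card_pos.ne' x (card_nsmul_mem hx) (hE0 ℓ A h ▸ hN hx)
  · -- mix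
    intro ℓ hℓ hm A hA k N hstab hcyc hcard hpN hnot
    have h : Local.Mult W A ℓ := ⟨hℓ, hA, hΔ, hm, hc₄ ℓ hℓ hm⟩
    have : Fact ℓ.Prime := ⟨hℓ⟩
    obtain ⟨E, D, h1, h2⟩ := exists_locData h
    have hcard0 : Nat.card N ≠ 0 := by rw [hcard]; exact pow_ne_zero _ hp.ne_zero
    refine Pair.pair_mix D hΔ hp hstab hcyc hcard (fun x hx => ?_) (fun hle => hnot fun x hx => ?_)
    · refine h1 (Nat.card N) hcard0 (p • x) ?_ (hE0 ℓ A h ▸ hpN x hx)
      rw [smul_comm, card_nsmul_mem hx, nsmul_zero]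
    · rw [hE0 ℓ A h]
      exact h2 x (hle hx)
  · -- rel
    intro A hA k N N' hstab hstab' hcard hcard' hN hN'
    have h : Local.Mult W A 2 :=
      ⟨Nat.prime_two, hA, hΔ, hm2, hc₄ 2 Nat.prime_two hm2⟩
    have : Fact (2 : ℕ).Prime := ⟨Nat.prime_two⟩
    obtain ⟨E, D, h1, -⟩ := exists_locData h
    have hcard0 : Nat.card N ≠ 0 := by rw [hcard]; exact pow_ne_zero _ hp.ne_zero
    have hcard0' : Nat.card N' ≠ 0 := by rw [hcard']; exact pow_ne_zero _ hp.ne_zero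
    refine Pair.pair_rel D hp hstab hstab' hcard hcard' (fun x hx => ?_) (fun x hx => ?_)
    · exact h1 (Nat.card N) hcard0 x (card_nsmul_mem hx) (hE0 2 A h ▸ hN hx)
    · exact h1 (Nat.card N') hcard0' x (card_nsmul_mem hx) (hE0 2 A h ▸ hN' hx)

end Facts

/-! ### the binders -/

section Binders

variable (W : WeierstrassCurve ℤ) {p : ℕ} [NeZero p]

/-- **the binder `hmix` of `CanonInst.hcan_inst` / `Canon.hcan_of_nodes`** (`M := (EQb W).Point`,
`mult ℓ := (ℓ : ℤ) ∣ W.Δ`), from `CorePair p` ALONE. -/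
theorem hmix_inst (hΔ : W.Δ ≠ 0)
    (hc₄ : ∀ ℓ : ℕ, ℓ.Prime → (ℓ : ℤ) ∣ W.Δ → ¬ (ℓ : ℤ) ∣ W.c₄) (hp : p.Prime) (χ : GQ → ℕ)
    (hcore : Hmix.CoreBody p) (E0 : ValuationSubring Qb → AddSubgroup (EQb W).Point)
    (hE0 : ∀ (ℓ : ℕ) (A : ValuationSubring Qb) (h : Local.Mult W A ℓ), E0 A = Local.e0 h)
    (hm2 : ((2 : ℕ) : ℤ) ∣ W.Δ) (hm3 : ((3 : ℕ) : ℤ) ∣ W.Δ) :
    ∀ k : ℕ, 1 ≤ k → ∀ N' : StableSub GQ (EQb W).Point, IsAddCyclic ↥N'.U →
      Nat.card ↥N'.U = p ^ (k + 1) →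
      (∀ (σ : GQ) (t : (EQb W).Point), p • t = 0 → σ • t - t ∈ N'.U) →
      (∀ (σ : GQ), ∀ x ∈ N'.U, p • x = 0 → σ • x = χ σ • x) →
      (∀ A : ValuationSubring Qb, A.LiesOverPrime 2 → N'.U ≤ E0 A) →
      (∀ A : ValuationSubring Qb, A.LiesOverPrime 3 → N'.U ≤ E0 A) →
      ∀ ℓ : ℕ, ℓ.Prime → (ℓ : ℤ) ∣ W.Δ → ℓ ≠ p → 5 ≤ ℓ → ¬ ℓ ∣ p - 1 →
        ∀ A : ValuationSubring Qb, A.LiesOverPrime ℓ →
          (∀ x ∈ N'.U, p • x ∈ E0 A) → ¬ N'.U ≤ E0 A → False :=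
  Hmix.hmix_step (mult := fun ℓ => (ℓ : ℤ) ∣ W.Δ) hp χ hcore
    (pairFacts W hΔ hc₄ hp E0 hE0 hm2) hm2 hm3
    (Fermat.Agent.Common_helper32.exists_liesOverPrime 2 Nat.prime_two)
    (Fermat.Agent.Common_helper32.exists_liesOverPrime 3 Nat.prime_three)

/-- **the binder `hmix` of `CanonInst.can_one_inst` / `Canon.can_one_of_nodes`**, from
`CorePair p` ALONE. -/
theorem hmix_one_inst (hΔ : W.Δ ≠ 0)
    (hc₄ : ∀ ℓ : ℕ, ℓ.Prime → (ℓ : ℤ) ∣ W.Δ → ¬ (ℓ : ℤ) ∣ W.c₄) (hp : p.Prime)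
    (hcore : Hmix.CoreBody p) (E0 : ValuationSubring Qb → AddSubgroup (EQb W).Point)
    (hE0 : ∀ (ℓ : ℕ) (A : ValuationSubring Qb) (h : Local.Mult W A ℓ), E0 A = Local.e0 h)
    (hm2 : ((2 : ℕ) : ℤ) ∣ W.Δ) (hm3 : ((3 : ℕ) : ℤ) ∣ W.Δ)
    (N : StableSub GQ (EQb W).Point) (hcyc : IsAddCyclic ↥N.U) (hcard : Nat.card ↥N.U = p ^ 1) :
    (∀ A : ValuationSubring Qb, A.LiesOverPrime 2 → N.U ≤ E0 A) →
      (∀ A : ValuationSubring Qb, A.LiesOverPrime 3 → N.U ≤ E0 A) →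
      ∀ ℓ : ℕ, ℓ.Prime → (ℓ : ℤ) ∣ W.Δ → ℓ ≠ p → 5 ≤ ℓ → ¬ ℓ ∣ p - 1 →
        ∀ A : ValuationSubring Qb, A.LiesOverPrime ℓ → ¬ N.U ≤ E0 A → False :=
  Hmix.hmix_one (mult := fun ℓ => (ℓ : ℤ) ∣ W.Δ) hp hcore
    (pairFacts W hΔ hc₄ hp E0 hE0 hm2) hm2 hm3
    (Fermat.Agent.Common_helper32.exists_liesOverPrime 2 Nat.prime_two)
    (Fermat.Agent.Common_helper32.exists_liesOverPrime 3 Nat.prime_three) N hcyc hcard

end Binders

end Fermat.Agent.GZ.S12.HmixInst
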