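/-
CELL-M3 (S12) / the (LOC) ↔ (PAIR) seam (helper9): helper71's local binder `Pair.LocDataT`
(embedding `ι : ℚ̄ →ₐ[ℚ] ℂ_[ℓ]`, Tate uniformisation `T`, zero-component criterion on torsion points)
is INHABITED at every place `A | ℓ` of multiplicative reduction, with `E0 := Local.e0 h`.

Inputs: `LocEmb.exists_embedding` (helper87), `T4.exists_tateUnif_padicComplex`,
`LocalTate.mem_e0_iff_exists_unit`.
-/
import Mathlib
import Fermat.Agent.GZ.S12.LocalTate
import Fermat.Agent.GZ.S12.LocEmb
import Fermat.Agent.GZ.S12.Pair.Tors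

set_option autoImplicit false
set_option linter.unusedSectionVars false

open scoped WeierstrassCurve.Affine

namespace Fermat.Agent.GZ.S12.LocDataInst

open WeierstrassCurve Fermat.Agent.GZ.Tate Fermat.Agent.GZ.S12.Local

local notation "Qb" => AlgebraicClosure ℚ

universe v

section Agree

variable {K : Type v} [NormedField K] [IsUltrametricDist K] [CompleteSpace K] [CharZero K]
  [DecidableEq K] {W : WeierstrassCurve ℤ}

/-- helper71's `toTateQb` and helper9's `toTateQ` are the same map. -/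
theorem toTateQb_eq (T : T4.TateUnif W K) (ι : Qb →ₐ[ℚ] K) (x : Pair.Pt W) :
    Pair.toTateQb T ι x = LocalTate.toTateQ T (ι : Qb →+* K) x := by
  show T.toTate (Pair.toK W ι x) = T.toTate (LocalTate.ptK W (ι : Qb →+* K) x)
  congr 1

end Agree

section Inst

variable {ℓ : ℕ} [Fact ℓ.Prime] [DecidableEq ℂ_[ℓ]] {W : WeierstrassCurve ℤ}
  {A : ValuationSubring Qb}

/-- **`Pair.LocDataT` is inhabited at every place of multiplicative reduction.** -/
theorem nonempty_locDataT (h : Mult W A ℓ) : Nonempty (Pair.LocDataT W ℂ_[ℓ] (e0 h)) := by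
  obtain ⟨ι, -, hA, -, -⟩ := LocEmb.exists_embedding ℓ A h.lies
  obtain ⟨T, -, -⟩ := T4.exists_tateUnif_padicComplex ℓ W h.disc_ne h.dvd_disc h.not_dvd_c₄
  refine ⟨⟨ι.toRatAlgHom, T, fun n hn x hx => ?_⟩⟩
  rw [toTateQb_eq]
  exact LocalTate.mem_e0_iff_exists_unit T ι hA h hn x hx

end Inst

end Fermat.Agent.GZ.S12.LocDataInst
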