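/-
CELL-M3 (S12) / node (LOC c1), FINAL (helper87): **`Top.CntStmt P` is a theorem** —
`#(E⁰_A ∩ E[p^n]) = p^n` at every place `A ∣ ℓ` of multiplicative reduction of the Frey model
(`ℓ = p` included), for helper9's total family `LocInst.E0fun`.

At a multiplicative place both families `LocInst.E0fun W` (helper9; `⊥` elsewhere) and
`CanonInst.E0 W` (helper92; `⊤` elsewhere) are `Local.e0 h`, so this is helper92's
`LocalInst.hcnt_inst` (= `LocEmb` + Tate uniformisation over `ℂ_[ℓ]` + `LocalTate` + `LocalTors`).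

* `cnt_E0fun` : any semistable model `W / ℤ`, `Δ ≠ 0`, `p` prime;
* `cntStmt`   : `Top.CntStmt P`, the binder `hcnt` of `Top.s12_of_nodes`, verbatim.
-/
import Fermat.Agent.GZ.S12.Top
import Fermat.Agent.GZ.S12.LocalInst

set_option autoImplicit false

namespace Fermat.Agent.GZ.S12.LocalFinal

open WeierstrassCurve Fermat.Agent.GE.ECAssembly Fermat.Agent.GZ.S12.AdmAbs

local notation "Qb" => AlgebraicClosure ℚ

/-- **(LOC c1)** for helper9's family `E0fun`, any semistable integral model. -/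
theorem cnt_E0fun (W : WeierstrassCurve ℤ) (hss : W.IsSemistableModel) (hΔ : W.Δ ≠ 0) {p : ℕ}
    (hp : p.Prime) :
    ∀ ℓ : ℕ, ℓ.Prime → (ℓ : ℤ) ∣ W.Δ → ∀ A : ValuationSubring Qb, A.LiesOverPrime ℓ →
      ∀ n : ℕ, Nat.card ↥(LocInst.E0fun W A ⊓ tor (EQb W).Point (p ^ n)) = p ^ n := by
  intro ℓ hℓ hm A hA n
  have h : Local.Mult W A ℓ := LocInst.mult_of hss hΔ hℓ hm hA
  rw [LocInst.E0fun_eq h, ← CanonInst.E0_eq h]
  exact LocalInst.hcnt_inst W hΔ (fun ℓ' hℓ' hd => hss ℓ' hℓ' hd) hp ℓ hℓ hm A hA n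

/-- **`Top.CntStmt P`**: the binder `hcnt` of `Top.s12_of_nodes`. -/
theorem cntStmt (P : FreyPackage) : Top.CntStmt P :=
  cnt_E0fun P.freyCurveInt (Top.frey_semistable P) (FreyMult.freyInt_Δ_ne_zero P) P.pp

end Fermat.Agent.GZ.S12.LocalFinal
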