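/-
CELL-M3 (S12) / BINDER-FREE (helper9): **the frozen S12**

  `(P : FreyPackage) (17 ≤ P.p) : ¬ HasGaloisStableCofixedLine ℚ P.freyCurve P.p`

= `Final.s12_of_fStmtAll` fed with (F) at every test prime:
`FStmt (cuspPkgFinal hp) {2,3,ℓ}` ⟸ `Sel.fStmt_of_selHyp` (helper20) at a prime `r` dividing the
Eisenstein numerator (`r ≠ p`, `r ∣ ord c`: U2) ⟸ `LocpStarH30.selHyp` (helper30; SelAsm helper79,
LOCP* helper12/helper99/helper73, BOB helper30).
-/
import Mathlib
import Fermat.Agent.GZ.S12.Final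
import Fermat.Agent.GZ.Top.S15Sel
import Fermat.Agent.GZ.LocP.BOB.LocpStarH30

set_option autoImplicit false
set_option linter.unusedSectionVars false

namespace Fermat.Agent.GZ.S12.OfSel

open AlgebraicCurve ModularCurve WeierstrassCurve WeierstrassCurve.Affine.Point
open Fermat.Agent.GZ.Top Fermat.Agent.GZ.F Fermat.Agent.GZ.Unit Fermat.Agent.GZ.Unit.Hecke

/-- a prime `r ≠ p` dividing the order of the cuspidal class (`p ≥ 17`). -/
theorem exists_prime_dvd_order {p : ℕ} [NeZero p] (hp : p.Prime) (hp17 : 17 ≤ p) :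
    ∃ r : ℕ, r.Prime ∧ r ≠ p ∧ r ∣ addOrderOf (cuspPkgFinal hp).c := by
  have hdvd : eisensteinNumerator p ∣ addOrderOf (cuspPkgFinal hp).c :=
    Fermat.Agent.GZ.Unit.U2Plug.eisensteinNumerator_dvd_addOrderOf_cusp hp
  have hn1 : eisensteinNumerator p ≠ 1 := by
    intro h1
    unfold eisensteinNumerator at h1
    have hg : Nat.gcd (p - 1) 12 ∣ p - 1 := Nat.gcd_dvd_left _ _
    have heq : p - 1 = Nat.gcd (p - 1) 12 := by
      have := Nat.div_mul_cancel hg
      rw [h1, one_mul] at this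
      exact this.symm
    have h12 : p - 1 ∣ 12 := by
      rw [heq]
      exact Nat.gcd_dvd_right _ _
    have hle : p - 1 ≤ 12 := Nat.le_of_dvd (by norm_num) h12
    omega
  obtain ⟨r, hr, hrn⟩ := Nat.exists_prime_and_dvd hn1
  refine ⟨r, hr, ?_, hrn.trans hdvd⟩
  rintro rfl
  have h1 : eisensteinNumerator r ∣ r - 1 := by
    unfold eisensteinNumerator
    exact Nat.div_dvd_of_dvd (Nat.gcd_dvd_left _ _)
  have h2 : r ∣ r - 1 := hrn.trans h1
  have h3 : r ≤ r - 1 := Nat.le_of_dvd (by have := hr.two_le; omega) h2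
  have := hr.two_le
  omega

/-- **(F) at every test prime**, binder-free. -/
theorem fStmtAll {p : ℕ} [NeZero p] (hp : p.Prime) (hp17 : 17 ≤ p) :
    Fermat.Agent.GZ.S12.FStmtAll (cuspPkgFinal hp) := by
  intro ℓ _ _
  obtain ⟨r, hr, hrp, hrc⟩ := exists_prime_dvd_order hp hp17
  exact Sel.fStmt_of_selHyp hp (by omega) _ r hr hrc
    (Fermat.Agent.GZ.LocP.BOB.LocpStarH30.selHyp p hp (by omega) _ r hr hrp)

/-- **The frozen S12, binder-free.** -/
theorem s12 (P : FreyPackage) (hp : 17 ≤ P.p) :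
    ¬ HasGaloisStableCofixedLine (K := AlgebraicClosure ℚ) ℚ P.freyCurve P.p :=
  Fermat.Agent.GZ.S12.Final.s12_of_fStmtAll P hp
    (@fStmtAll P.p ⟨P.pp.ne_zero⟩ P.pp hp)

end Fermat.Agent.GZ.S12.OfSel
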