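/-
CELL-M3 (S12) / node (PAIR), LOCAL HALF (helper91, second seat of helper71): the Vélu invariants of
the quotient of a Tate curve by the cyclic subgroup generated by a point of EXACT ORDER `n`, and
the `j`-value of the quotient (`Out/LocalTate.local_tate` at general level).

`K` complete ultrametric, characteristic zero, `0 < ‖q‖ < 1`, `P = T2.Final.tateP q hq0 hq1`,
`ζ` a primitive `n`-th root of unity, `t ^ n = q` (both exist when `K` is algebraically closed).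

* `tateP_zpow`            : `P (u ^ k) = k • P u` (`k : ℤ`);
* `exists_param_of_order` : a point `Q` of exact order `n` is `P u` with `u^k ∈ q^ℤ ↔ n ∣ k`;
* `velu_tate_of_order`    : `veluC4 E_q n Q = N⁴ E₄(s)`, `veluC6 E_q n Q = -N⁶ E₆(s)`, `N M = n`,
  `s^M = q^N`, `N = gcd(e', n)` where `u^n = q^(e')`  (helper37 `T5.velu_cyclic`, I2/I4 = helper68);
* `velu_of_order`         : the same on `W` with `C • W = tateCurve q` (weights `u⁴`, `u⁶`);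
* `can_of_unit`, `mix_of_not_unit` : `N = n` if `Q` has a unit parameter [CAN];
  `N = p^k`, `M = p` if `n = p^(k+1)`, `p • Q` has a unit parameter and `Q` has none [MIX].
-/
import Mathlib
import Fermat.Agent.GZ.Tate.Out.Final
import Fermat.Agent.GZ.Tate.T3.FinalN
import Fermat.Agent.GZ.Tate.T5.MixedCyclic

set_option autoImplicit false
set_option linter.unusedSectionVars false

noncomputable section

namespace Fermat.Agent.GZ.S12.PairLocal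

open WeierstrassCurve Fermat.Agent.S05 Fermat.Agent.GZ.Tate Fermat.Agent.GZ.Tate.T0
  Fermat.Agent.S16.L1h67 Fermat.Agent.GZ.Tate.Out

universe v

variable {K : Type v} [NormedField K] [IsUltrametricDist K] [CompleteSpace K] [CharZero K]
  [DecidableEq K]
variable {q : K} (hq0 : q ≠ 0) (hq1 : ‖q‖ < 1)

/-! ### the parametrisation as a homomorphism -/

/-- the Tate parametrisation as a monoid homomorphism. -/
def tatePHom : Kˣ →* Multiplicative (tateCurve q).toAffine.Point :=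
  MonoidHom.mk' (fun u => Multiplicative.ofAdd (T2.Final.tateP q hq0 hq1 u)) (fun u v => by
    rw [T2.Final.tateP_mul hq0 hq1 u v]; rfl)

theorem tateP_zpow (u : Kˣ) (k : ℤ) :
    T2.Final.tateP q hq0 hq1 (u ^ k) = k • T2.Final.tateP q hq0 hq1 u := by
  have h := map_zpow (tatePHom hq0 hq1) u k
  exact congrArg Multiplicative.toAdd h

theorem tateP_pow (u : Kˣ) (k : ℕ) :
    T2.Final.tateP q hq0 hq1 (u ^ k) = k • T2.Final.tateP q hq0 hq1 u := by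
  have h := map_pow (tatePHom hq0 hq1) u k
  exact congrArg Multiplicative.toAdd h

omit [IsUltrametricDist K] [CompleteSpace K] [CharZero K] [DecidableEq K] in
/-- membership in `q^ℤ`, in `Kˣ` and in `K`. -/
theorem mem_zpowers_iff (u : Kˣ) :
    u ∈ Subgroup.zpowers (Units.mk0 q hq0) ↔ ∃ m : ℤ, (u : K) = q ^ m := by
  rw [Subgroup.mem_zpowers_iff]
  constructor
  · rintro ⟨m, hm⟩
    refine ⟨m, ?_⟩
    rw [← hm, Units.val_zpow_eq_zpow_val, Units.val_mk0]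
  · rintro ⟨m, hm⟩
    refine ⟨m, Units.ext ?_⟩
    rw [Units.val_zpow_eq_zpow_val, Units.val_mk0, hm]

/-- the exact order of a parameter modulo `q^ℤ`. -/
theorem ord_iff {Q : (tateCurve q).toAffine.Point} {n : ℕ} (hord : addOrderOf Q = n) {u : Kˣ}
    (hQ : Q = T2.Final.tateP q hq0 hq1 u) (k : ℤ) :
    (∃ m : ℤ, (u : K) ^ k = q ^ m) ↔ (n : ℤ) ∣ k := by
  rw [← hord, addOrderOf_dvd_iff_zsmul_eq_zero, hQ, ← tateP_zpow, T2.Final.tateP_eq_zero_iff,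
    mem_zpowers_iff, Units.val_zpow_eq_zpow_val]

section Roots

variable {n : ℕ} (hn : n ≠ 0) {ζ t : Kˣ} (hζ : IsPrimitiveRoot (ζ : K) n)
  (ht : t ^ n = Units.mk0 q hq0)

include hn hζ ht in
/-- a point of exact order `n` on the Tate curve is `P u` with `u` of exact order `n` modulo
`q^ℤ`. -/
theorem exists_param_of_order {Q : (tateCurve q).toAffine.Point} (hord : addOrderOf Q = n) :
    ∃ u : Kˣ, Q = T2.Final.tateP q hq0 hq1 u ∧
      ∀ k : ℤ, (∃ m : ℤ, (u : K) ^ k = q ^ m) ↔ (n : ℤ) ∣ k := by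
  have hQn : n • Q = 0 := by rw [← hord]; exact addOrderOf_nsmul_eq_zero Q
  obtain ⟨i, k, -, -, hQ⟩ := T3.FinalN.torsionN_eq_pt hq0 hq1 hn hζ ht hQn
  exact ⟨ζ ^ i * t ^ k, hQ, ord_iff hq0 hq1 hord hQ⟩

end Roots

/-! ### the Vélu sums of a point of exact order `n` on the Tate curve -/

/-- the point-level Vélu sums in terms of the `x`-coordinates `X q (u^j)`. -/
theorem veluC4_tateP {n : ℕ} {u : Kˣ}
    (hu : ∀ k : ℤ, (∃ m : ℤ, (u : K) ^ k = q ^ m) ↔ (n : ℤ) ∣ k) :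
    veluC4 (tateCurve q) n (T2.Final.tateP q hq0 hq1 u) =
        T5.veluC4F (tateCurve q) (Finset.Ico 1 n) (fun j => X q ((u : K) ^ j)) ∧
      veluC6 (tateCurve q) n (T2.Final.tateP q hq0 hq1 u) =
        T5.veluC6F (tateCurve q) (Finset.Ico 1 n) (fun j => X q ((u : K) ^ j)) := by
  have hadm : ∀ j ∈ Finset.Ico 1 n, IsAdm q (((u ^ j : Kˣ) : K)) := by
    intro j hj
    rw [Finset.mem_Ico] at hj
    rw [T2.Hom.isAdm_iff_not_mem_zpowers hq0, mem_zpowers_iff]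
    rintro ⟨m, hm⟩
    have h1 : (n : ℤ) ∣ (j : ℤ) := (hu j).1 ⟨m, by
      rw [zpow_natCast, ← Units.val_pow_eq_pow_val]; exact hm⟩
    have h2 : n ∣ j := by exact_mod_cast h1
    have := Nat.le_of_dvd (by omega) h2
    omega
  have hpt : ∀ j ∈ Finset.Ico 1 n, ∃ h, j • T2.Final.tateP q hq0 hq1 u =
      Affine.Point.some (X q ((u : K) ^ j)) (Y q ((u : K) ^ j)) h := by
    intro j hj
    have h := hadm j hj
    refine ⟨?_, ?_⟩
    · have := T2.Final.hns hq0 hq1 _ h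
      rwa [Units.val_pow_eq_pow_val] at this
    · rw [← tateP_pow, T2.Final.tateP_of_isAdm hq0 hq1 h]
      simp only [Units.val_pow_eq_pow_val]
  constructor
  · unfold veluC4 T5.veluC4F
    congr 2
    refine Finset.sum_congr rfl fun j hj => ?_
    obtain ⟨h, e⟩ := hpt j hj
    rw [e, veluF4_some]
    rfl
  · unfold veluC6 T5.veluC6F
    congr 2
    refine Finset.sum_congr rfl fun j hj => ?_
    obtain ⟨h, e⟩ := hpt j hj
    rw [e, veluF6_some]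
    rfl

section Roots2

variable {n : ℕ} (hn : n ≠ 0) {ζ t : Kˣ} (hζ : IsPrimitiveRoot (ζ : K) n)
  (ht : t ^ n = Units.mk0 q hq0)

include hn hζ ht in
/-- **Vélu for the cyclic subgroup generated by a point of exact order `n` of the Tate curve**:
`c₄' = N⁴ E₄(s)`, `c₆' = -N⁶ E₆(s)`, `N M = n`, `s^M = q^N`, `N = gcd(e', n)` (`u^n = q^(e')`). -/
theorem velu_tate_of_order {Q : (tateCurve q).toAffine.Point} (hord : addOrderOf Q = n) :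
    ∃ (u : Kˣ) (N M : ℕ) (s : K), Q = T2.Final.tateP q hq0 hq1 u ∧
      (∀ k : ℤ, (∃ m : ℤ, (u : K) ^ k = q ^ m) ↔ (n : ℤ) ∣ k) ∧
      N * M = n ∧ 0 < N ∧ 0 < M ∧ s ≠ 0 ∧ ‖s‖ < 1 ∧ s ^ M = q ^ N ∧
      (∀ e' : ℤ, (u : K) ^ n = q ^ e' → N = Int.gcd e' n) ∧
      veluC4 (tateCurve q) n Q = (N : K) ^ 4 * ev s e4Z ∧
      veluC6 (tateCurve q) n Q = -((N : K) ^ 6 * ev s e6Z) := by
  obtain ⟨u, hQ, hu⟩ := exists_param_of_order hq0 hq1 hn hζ ht hord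
  have h6 : (6 : K) ≠ 0 := by exact_mod_cast (by norm_num : (6 : ℕ) ≠ 0)
  obtain ⟨N, M, s, hNM, hN, hM, hs0, hs1, hsM, hgcd, h4', h6'⟩ :=
    T5.velu_cyclic hq0 hq1 (Nat.pos_of_ne_zero hn) u.ne_zero hu (WeqD.i2 hq0 hq1)
      (WeqD.i4 hq0 hq1 h6)
  obtain ⟨e4, e6⟩ := veluC4_tateP hq0 hq1 hu
  refine ⟨u, N, M, s, hQ, hu, hNM, hN, hM, hs0, hs1, hsM, hgcd, ?_, ?_⟩
  · rw [hQ, e4, h4', T5.ev_e4Z_eq hs1]
  · rw [hQ, e6, h6', T5.ev_e6Z_eq hs1]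

end Roots2

/-! ### CAN / MIX -/

section Types

variable {n : ℕ} (hn : n ≠ 0)

include hn hq0 hq1 in
omit [IsUltrametricDist K] [CompleteSpace K] [CharZero K] [DecidableEq K] in
/-- **[CAN]**: if the parameter is a unit (up to `q^ℤ`) then `N = n`. -/
theorem gcd_eq_of_unit {u : Kˣ} (hu1 : ‖(u : K)‖ = 1) {e' : ℤ} (he : (u : K) ^ n = q ^ e') :
    Int.gcd e' n = n := by
  have hqpos : 0 < ‖q‖ := norm_pos_iff.2 hq0
  have h1 : ‖q‖ ^ e' = ‖q‖ ^ (0 : ℤ) := by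
    rw [zpow_zero, ← norm_zpow, ← he, norm_pow, hu1, one_pow]
  have h2 : e' = 0 := zpow_right_injective₀ hqpos hq1.ne h1
  rw [h2, Int.gcd_zero_left, Int.natAbs_natCast]

end Types

section Mix

variable {p k : ℕ} (hp : p.Prime)

include hp in
/-- **[MIX]**: `n = p^(k+1)`, `p • Q` has a unit parameter and `Q` has none ⟹ `N = p^k`. -/
theorem gcd_eq_of_mix {u : Kˣ}
    (hpu : ∃ v : Kˣ, ‖(v : K)‖ = 1 ∧
      p • T2.Final.tateP q hq0 hq1 u = T2.Final.tateP q hq0 hq1 v)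
    (hnu : ¬ ∃ v : Kˣ, ‖(v : K)‖ = 1 ∧ T2.Final.tateP q hq0 hq1 u = T2.Final.tateP q hq0 hq1 v)
    {e' : ℤ} (he : (u : K) ^ (p ^ (k + 1)) = q ^ e') :
    Int.gcd e' ((p ^ (k + 1) : ℕ) : ℤ) = p ^ k := by
  have hqpos : 0 < ‖q‖ := norm_pos_iff.2 hq0
  obtain ⟨v, hv1, hpv⟩ := hpu
  -- `u^p = v q^m`
  rw [← tateP_pow] at hpv
  have hmem := (T3.Core.P_eq_iff (T2.Final.tateP q hq0 hq1) (T2.Final.tateP_mul hq0 hq1)
    (T2.Final.tateP_eq_zero_iff hq0 hq1) _ _).1 hpv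
  obtain ⟨m, hm⟩ := (mem_zpowers_iff hq0 _).1 hmem
  have hup : (u : K) ^ p = (v : K) * q ^ m := by
    have h1 : ((u ^ p / v : Kˣ) : K) = (u : K) ^ p / (v : K) := by
      rw [Units.val_div_eq_div_val, Units.val_pow_eq_pow_val]
    rw [h1] at hm
    rw [← hm, mul_div_cancel₀ _ v.ne_zero]
  -- `p ∤ m`
  have hpm : ¬ (p : ℤ) ∣ m := by
    rintro ⟨m', rfl⟩
    apply hnu
    refine ⟨u / (Units.mk0 q hq0) ^ m', ?_, ?_⟩
    · have h1 : ‖(u : K)‖ ^ p = (‖q‖ ^ m') ^ p := by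
        rw [← norm_pow, hup, norm_mul, hv1, one_mul, norm_zpow, ← zpow_natCast (‖q‖ ^ m') p,
          ← zpow_mul, mul_comm]
      have h2 : ‖(u : K)‖ = ‖q‖ ^ m' :=
        (pow_left_inj₀ (norm_nonneg _) (zpow_nonneg hqpos.le _) hp.ne_zero).1 h1
      rw [Units.val_div_eq_div_val, Units.val_zpow_eq_zpow_val, Units.val_mk0, norm_div, h2,
        norm_zpow, div_self (zpow_ne_zero _ hqpos.ne')]
    · symm
      rw [T3.Core.P_eq_iff (T2.Final.tateP q hq0 hq1) (T2.Final.tateP_mul hq0 hq1)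
        (T2.Final.tateP_eq_zero_iff hq0 hq1)]
      refine Subgroup.mem_zpowers_iff.2 ⟨-m', ?_⟩
      rw [zpow_neg, div_div, mul_comm, ← div_div, div_self', one_div]
  -- `e' = m p^k`
  have hun : (u : K) ^ (p ^ (k + 1)) = (v : K) ^ (p ^ k) * q ^ (m * (p ^ k : ℕ)) := by
    rw [pow_succ', pow_mul, hup, mul_pow, ← zpow_natCast (q ^ m) (p ^ k), ← zpow_mul]
  have he' : e' = m * ((p ^ k : ℕ) : ℤ) := by
    have h1 : ‖q‖ ^ e' = ‖q‖ ^ (m * ((p ^ k : ℕ) : ℤ)) := by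
      rw [← norm_zpow, ← he, hun, norm_mul, norm_pow, hv1, one_pow, one_mul, norm_zpow]
    exact zpow_right_injective₀ hqpos hq1.ne h1
  rw [he']
  have h2 : ((p ^ (k + 1) : ℕ) : ℤ) = (p : ℤ) * ((p ^ k : ℕ) : ℤ) := by push_cast; ring
  rw [h2, Int.gcd_mul_right, Int.natAbs_natCast]
  have hcop : Int.gcd m p = 1 := by
    rw [Int.gcd_comm]
    exact Int.isCoprime_iff_gcd_eq_one.1
      ((Prime.coprime_iff_not_dvd (Nat.prime_iff_prime_int.1 hp)).2 hpm)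
  rw [hcop, one_mul]

end Mix

/-! ### transport to a curve `W` with `C • W = tateCurve q` -/

section Transport

variable (W : WeierstrassCurve K) (C : VariableChange K) (hC : C • W = tateCurve q)

/-- the point of the Tate curve attached to a point of `W`. -/
def toTate : W.toAffine.Point ≃+ (tateCurve q).toAffine.Point :=
  (vcPointEquiv W C).symm.trans (pointCongr hC)

theorem addOrderOf_toTate (g : W.toAffine.Point) :
    addOrderOf (toTate W C hC g) = addOrderOf g :=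
  AddEquiv.addOrderOf_eq (toTate W C hC) g

theorem veluC4_toTate (n : ℕ) (g : W.toAffine.Point) :
    veluC4 W n g = (C.u : K) ^ 4 * veluC4 (tateCurve q) n (toTate W C hC g) := by
  have h1 : g = vcPointEquiv W C ((vcPointEquiv W C).symm g) := by
    rw [AddEquiv.apply_symm_apply]
  conv_lhs => rw [h1]
  rw [veluC4_vcPointEquiv, ← veluC4_pointCongr hC]
  rfl

theorem veluC6_toTate (n : ℕ) (g : W.toAffine.Point) :
    veluC6 W n g = (C.u : K) ^ 6 * veluC6 (tateCurve q) n (toTate W C hC g) := by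
  have h1 : g = vcPointEquiv W C ((vcPointEquiv W C).symm g) := by
    rw [AddEquiv.apply_symm_apply]
  conv_lhs => rw [h1]
  rw [veluC6_vcPointEquiv, ← veluC6_pointCongr hC]
  rfl

/-- `g` has a unit parameter (= lies in the zero component, T4). -/
def HasUnitParam (g : W.toAffine.Point) : Prop :=
  ∃ v : Kˣ, ‖(v : K)‖ = 1 ∧ toTate W C hC g = T2.Final.tateP q hq0 hq1 v

variable {n : ℕ} (hn : n ≠ 0) {ζ t : Kˣ} (hζ : IsPrimitiveRoot (ζ : K) n)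
  (ht : t ^ n = Units.mk0 q hq0)

include hn hζ ht in
/-- **Vélu for the cyclic subgroup generated by a point `g` of exact order `n` on `W`**,
`C • W = tateCurve q`: `c₄' = (C.u N)⁴ E₄(s)`, `c₆' = -(C.u N)⁶ E₆(s)`, `N M = n`, `s^M = q^N`. -/
theorem velu_of_order {g : W.toAffine.Point} (hord : addOrderOf g = n) :
    ∃ (u : Kˣ) (N M : ℕ) (s : K), toTate W C hC g = T2.Final.tateP q hq0 hq1 u ∧
      (∀ k : ℤ, (∃ m : ℤ, (u : K) ^ k = q ^ m) ↔ (n : ℤ) ∣ k) ∧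
      N * M = n ∧ 0 < N ∧ 0 < M ∧ s ≠ 0 ∧ ‖s‖ < 1 ∧ s ^ M = q ^ N ∧
      (∀ e' : ℤ, (u : K) ^ n = q ^ e' → N = Int.gcd e' n) ∧
      veluC4 W n g = ((C.u : K) * N) ^ 4 * ev s e4Z ∧
      veluC6 W n g = -(((C.u : K) * N) ^ 6 * ev s e6Z) := by
  have hord' : addOrderOf (toTate W C hC g) = n := by rw [addOrderOf_toTate, hord]
  obtain ⟨u, N, M, s, hQ, hu, hNM, hN, hM, hs0, hs1, hsM, hgcd, h4, h6⟩ :=
    velu_tate_of_order hq0 hq1 hn hζ ht hord'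
  refine ⟨u, N, M, s, hQ, hu, hNM, hN, hM, hs0, hs1, hsM, hgcd, ?_, ?_⟩
  · rw [veluC4_toTate W C hC, h4]; ring
  · rw [veluC6_toTate W C hC, h6]; ring

include hn hζ ht in
/-- **[CAN]**: `g` of exact order `n` with a unit parameter: the quotient is `E_{q^n}`. -/
theorem velu_can {g : W.toAffine.Point} (hord : addOrderOf g = n)
    (hcan : HasUnitParam hq0 hq1 W C hC g) :
    veluC4 W n g = ((C.u : K) * n) ^ 4 * ev (q ^ n) e4Z ∧
      veluC6 W n g = -(((C.u : K) * n) ^ 6 * ev (q ^ n) e6Z) := by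
  obtain ⟨v, hv1, hv⟩ := hcan
  have hord' : addOrderOf (toTate W C hC g) = n := by rw [addOrderOf_toTate, hord]
  obtain ⟨u, N, M, s, hQ, hu, hNM, hN, hM, hs0, hs1, hsM, hgcd, h4, h6⟩ :=
    velu_of_order hq0 hq1 W C hC hn hζ ht hord
  -- the parameter `v` works as well as `u`
  have hvord := ord_iff hq0 hq1 hord' hv
  obtain ⟨e', he'⟩ := (hvord n).2 (dvd_refl _)
  rw [zpow_natCast] at he'
  -- `u = v q^m`
  have hmem := (T3.Core.P_eq_iff (T2.Final.tateP q hq0 hq1) (T2.Final.tateP_mul hq0 hq1)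
    (T2.Final.tateP_eq_zero_iff hq0 hq1) _ _).1 (hQ.symm.trans hv)
  obtain ⟨m, hm⟩ := (mem_zpowers_iff hq0 _).1 hmem
  have huv : (u : K) = (v : K) * q ^ m := by
    rw [Units.val_div_eq_div_val] at hm
    rw [← hm, mul_div_cancel₀ _ v.ne_zero]
  have hun : (u : K) ^ n = q ^ (e' + m * n) := by
    rw [huv, mul_pow, he', zpow_add₀ hq0, ← zpow_natCast (q ^ m) n, ← zpow_mul]
  have hNn : N = n := by
    rw [hgcd _ hun]
    have h0 := gcd_eq_of_unit hq0 hq1 hn hv1 he'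
    have : Int.gcd (e' + m * n) n = Int.gcd e' n := Int.gcd_add_mul_right_left (↑n) e' m
    rw [this, h0]
  have hM1 : M = 1 := by
    rw [hNn] at hNM
    have : n * M = n * 1 := by rw [hNM, mul_one]
    exact Nat.eq_of_mul_eq_mul_left (Nat.pos_of_ne_zero hn) this
  rw [hM1, pow_one, hNn] at hsM
  rw [hNn, hsM] at h4 h6
  exact ⟨h4, h6⟩

end Transport

section TransportMix

variable (W : WeierstrassCurve K) (C : VariableChange K) (hC : C • W = tateCurve q)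
variable {p k : ℕ} (hp : p.Prime) {ζ t : Kˣ} (hζ : IsPrimitiveRoot (ζ : K) (p ^ (k + 1)))
  (ht : t ^ (p ^ (k + 1)) = Units.mk0 q hq0)

include hp hζ ht in
/-- **[MIX]**: `g` of exact order `p^(k+1)`, `p • g` has a unit parameter and `g` has none: the
quotient is `E_s` with `s^p = q^(p^k)`, scaling `C.u p^k`. -/
theorem velu_mix {g : W.toAffine.Point} (hord : addOrderOf g = p ^ (k + 1))
    (hpcan : HasUnitParam hq0 hq1 W C hC (p • g)) (hncan : ¬ HasUnitParam hq0 hq1 W C hC g) :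
    ∃ s : K, s ≠ 0 ∧ ‖s‖ < 1 ∧ s ^ p = q ^ (p ^ k) ∧
      veluC4 W (p ^ (k + 1)) g = ((C.u : K) * (p ^ k : ℕ)) ^ 4 * ev s e4Z ∧
      veluC6 W (p ^ (k + 1)) g = -(((C.u : K) * (p ^ k : ℕ)) ^ 6 * ev s e6Z) := by
  have hn : p ^ (k + 1) ≠ 0 := pow_ne_zero _ hp.ne_zero
  obtain ⟨u, N, M, s, hQ, hu, hNM, hN, hM, hs0, hs1, hsM, hgcd, h4, h6⟩ :=
    velu_of_order hq0 hq1 W C hC hn hζ ht hord
  obtain ⟨e', he'⟩ := (hu ((p ^ (k + 1) : ℕ) : ℤ)).2 (dvd_refl _)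
  rw [zpow_natCast] at he'
  have hpu : ∃ v : Kˣ, ‖(v : K)‖ = 1 ∧
      p • T2.Final.tateP q hq0 hq1 u = T2.Final.tateP q hq0 hq1 v := by
    obtain ⟨v, hv1, hv⟩ := hpcan
    refine ⟨v, hv1, ?_⟩
    rw [← hQ, ← map_nsmul, hv]
  have hnu : ¬ ∃ v : Kˣ, ‖(v : K)‖ = 1 ∧
      T2.Final.tateP q hq0 hq1 u = T2.Final.tateP q hq0 hq1 v := by
    rintro ⟨v, hv1, hv⟩
    exact hncan ⟨v, hv1, hQ.trans hv⟩
  have hNval : N = p ^ k := by
    rw [hgcd _ he']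
    exact gcd_eq_of_mix hq0 hq1 hp hpu hnu he'
  have hMval : M = p := by
    have h1 : p ^ k * M = p ^ k * p := by
      calc p ^ k * M = N * M := by rw [hNval]
        _ = p ^ (k + 1) := hNM
        _ = p ^ k * p := pow_succ p k
    exact Nat.eq_of_mul_eq_mul_left (pow_pos hp.pos k) h1
  subst hNval
  subst hMval
  exact ⟨s, hs0, hs1, hsM, h4, h6⟩

end TransportMix

/-! ### the rational form over `ℂ_[ℓ]`: the pair `(a_k, a_(k+1))` -/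

section Rational

open Fermat.Agent.GZ.Mod

variable {ℓ : ℕ} [hℓ : Fact ℓ.Prime] {p : ℕ} [NeZero p]
variable {q : ℂ_[ℓ]} (hq0 : q ≠ 0) (hq1 : ‖q‖ < 1)
variable (W : WeierstrassCurve ℂ_[ℓ]) (C : VariableChange ℂ_[ℓ]) (hC : C • W = tateCurve q)

theorem exists_roots (n : ℕ) (hn : n ≠ 0) :
    ∃ ζ t : ℂ_[ℓ]ˣ, IsPrimitiveRoot (ζ : ℂ_[ℓ]) n ∧ t ^ n = Units.mk0 q hq0 := by
  have hnK : (n : ℂ_[ℓ]) ≠ 0 := Nat.cast_ne_zero.mpr hn
  have : NeZero (n : ℂ_[ℓ]) := ⟨hnK⟩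
  obtain ⟨ζ, hζ⟩ := HasEnoughRootsOfUnity.exists_primitiveRoot ℂ_[ℓ] n
  obtain ⟨t, ht⟩ := IsAlgClosed.exists_pow_nat_eq q (Nat.pos_of_ne_zero hn)
  have hζ0 : ζ ≠ 0 := hζ.ne_zero hn
  have ht0 : t ≠ 0 := by
    rintro rfl
    rw [zero_pow hn] at ht
    exact hq0 ht.symm
  refine ⟨Units.mk0 ζ hζ0, Units.mk0 t ht0, by simpa using hζ, ?_⟩
  apply Units.ext
  rw [Units.val_pow_eq_pow_val, Units.val_mk0, Units.val_mk0, ht]

/-- **(PAIR), CAN step**: `g` of exact order `p^(k+1)` with a unit parameter, `a = j(q^(p^k))`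
⟹ `a' = j(q^(p^(k+1)))`, `RelQ p a a'`, `v(a') = p v(a)`. -/
theorem pair_can [DecidableEq ℂ_[ℓ]] (hp : p.Prime) {k : ℕ} {g : W.toAffine.Point}
    (hord : addOrderOf g = p ^ (k + 1)) (hcan : HasUnitParam hq0 hq1 W C hC g)
    {a a' c4' c6' : ℚ} (ha : (a : ℂ_[ℓ]) = T6.jq (q ^ (p ^ k)))
    (h4 : (c4' : ℂ_[ℓ]) = veluC4 W (p ^ (k + 1)) g) (h6 : (c6' : ℂ_[ℓ]) = veluC6 W (p ^ (k + 1)) g)
    (ha' : a' = 1728 * c4' ^ 3 / (c4' ^ 3 - c6' ^ 2)) :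
    c4' ^ 3 - c6' ^ 2 ≠ 0 ∧ (a' : ℂ_[ℓ]) = T6.jq (q ^ (p ^ (k + 1))) ∧ RelQ p a a' ∧
      padicValRat ℓ a' = p * padicValRat ℓ a := by
  have hn : p ^ (k + 1) ≠ 0 := pow_ne_zero _ hp.ne_zero
  obtain ⟨ζ, t, hζ, ht⟩ := exists_roots hq0 (p ^ (k + 1)) hn
  obtain ⟨e4, e6⟩ := velu_can hq0 hq1 W C hC hn hζ ht hord hcan
  have hqk0 : q ^ (p ^ k) ≠ 0 := pow_ne_zero _ hq0
  have hqk1 : ‖q ^ (p ^ k)‖ < 1 := by
    rw [norm_pow]; exact pow_lt_one₀ (norm_nonneg _) hq1 (pow_ne_zero _ hp.ne_zero)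
  have hqn1 : ‖q ^ (p ^ (k + 1))‖ < 1 := by
    rw [norm_pow]; exact pow_lt_one₀ (norm_nonneg _) hq1 hn
  have hpow : (q ^ (p ^ k)) ^ p = q ^ (p ^ (k + 1)) := by rw [← pow_mul, ← pow_succ]
  have hlam : (C.u : ℂ_[ℓ]) * ((p ^ (k + 1) : ℕ) : ℂ_[ℓ]) ≠ 0 :=
    mul_ne_zero C.u.ne_zero (Nat.cast_ne_zero.mpr hn)
  have h4' : (c4' : ℂ_[ℓ]) = ((C.u : ℂ_[ℓ]) * ((p ^ (k + 1) : ℕ) : ℂ_[ℓ])) ^ 4
      * ev ((q ^ (p ^ k)) ^ p) e4Z := by rw [h4, e4, hpow]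
  have h6' : (c6' : ℂ_[ℓ]) ^ 2 = ((C.u : ℂ_[ℓ]) * ((p ^ (k + 1) : ℕ) : ℂ_[ℓ])) ^ 12
      * ev ((q ^ (p ^ k)) ^ p) e6Z ^ 2 := by rw [h6, e6, hpow]; ring
  obtain ⟨hne, hrel, hval⟩ := T6.t6_mu_relQ_padicComplex (ℓ := ℓ) (p := p) hqk0 hqk1 hlam ha h4' h6' ha'
  rw [hpow] at h4' h6'
  obtain ⟨-, hj⟩ := T6.ratCast_eq_jq (pow_ne_zero _ hq0) hqn1 hlam h4' h6' ha'
  exact ⟨hne, hj, hrel, hval⟩

/-- **(PAIR), MIX step**: `g` of exact order `p^(k+1)`, `p • g` with a unit parameter, `g` with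
none, `a = j(q^(p^k))` ⟹ `RelQ p a a'`, `p v(a') = v(a)`. -/
theorem pair_mix [DecidableEq ℂ_[ℓ]] (hp : p.Prime) {k : ℕ} {g : W.toAffine.Point}
    (hord : addOrderOf g = p ^ (k + 1)) (hpcan : HasUnitParam hq0 hq1 W C hC (p • g))
    (hncan : ¬ HasUnitParam hq0 hq1 W C hC g)
    {a a' c4' c6' : ℚ} (ha : (a : ℂ_[ℓ]) = T6.jq (q ^ (p ^ k)))
    (h4 : (c4' : ℂ_[ℓ]) = veluC4 W (p ^ (k + 1)) g) (h6 : (c6' : ℂ_[ℓ]) = veluC6 W (p ^ (k + 1)) g)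
    (ha' : a' = 1728 * c4' ^ 3 / (c4' ^ 3 - c6' ^ 2)) :
    c4' ^ 3 - c6' ^ 2 ≠ 0 ∧ RelQ p a a' ∧ p * padicValRat ℓ a' = padicValRat ℓ a := by
  have hn : p ^ (k + 1) ≠ 0 := pow_ne_zero _ hp.ne_zero
  obtain ⟨ζ, t, hζ, ht⟩ := exists_roots hq0 (p ^ (k + 1)) hn
  obtain ⟨s, hs0, hs1, hsp, e4, e6⟩ := velu_mix hq0 hq1 W C hC hp hζ ht hord hpcan hncan
  have hqk0 : q ^ (p ^ k) ≠ 0 := pow_ne_zero _ hq0
  have hqk1 : ‖q ^ (p ^ k)‖ < 1 := by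
    rw [norm_pow]; exact pow_lt_one₀ (norm_nonneg _) hq1 (pow_ne_zero _ hp.ne_zero)
  have hlam : (C.u : ℂ_[ℓ]) * ((p ^ k : ℕ) : ℂ_[ℓ]) ≠ 0 :=
    mul_ne_zero C.u.ne_zero (Nat.cast_ne_zero.mpr (pow_ne_zero _ hp.ne_zero))
  have h4' : (c4' : ℂ_[ℓ]) = ((C.u : ℂ_[ℓ]) * ((p ^ k : ℕ) : ℂ_[ℓ])) ^ 4 * ev s e4Z := by
    rw [h4, e4]
  have h6' : (c6' : ℂ_[ℓ]) ^ 2 = ((C.u : ℂ_[ℓ]) * ((p ^ k : ℕ) : ℂ_[ℓ])) ^ 12 * ev s e6Z ^ 2 := by
    rw [h6, e6]; ring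
  exact T6.t6_root_relQ_padicComplex (ℓ := ℓ) (p := p) hp hqk0 hqk1 hlam ha hsp h4' h6' ha'

end Rational

/-! ### the base of the chain: the Tate parameter of an integral model at a multiplicative prime -/

section Setup

open Fermat.Agent.GZ.Mod

variable {ℓ : ℕ} [hℓ : Fact ℓ.Prime]

/-- **setup at a multiplicative prime `ℓ`**: the Tate parameter `q₀ ∈ ℂ_[ℓ]` of `W`, a change of
variables to the Tate curve, and `j(W) = j(q₀)` (the `k = 0` member `a₀ = jRat W` of the chain). -/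
theorem exists_tate_setup (W : WeierstrassCurve ℤ) (hΔ : W.Δ ≠ 0) (hℓΔ : (ℓ : ℤ) ∣ W.Δ)
    (hℓc₄ : ¬ (ℓ : ℤ) ∣ W.c₄) :
    ∃ (q₀ : ℂ_[ℓ]) (_ : q₀ ≠ 0) (_ : ‖q₀‖ < 1) (C : VariableChange ℂ_[ℓ]),
      C • ((EQ W)⁄ℂ_[ℓ] : WeierstrassCurve ℂ_[ℓ]) = tateCurve q₀ ∧
      C • (W.map (Int.castRingHom ℂ_[ℓ])) = tateCurve q₀ ∧
      ((jRat W : ℚ) : ℂ_[ℓ]) = T6.jq q₀ := by
  have hval := padicValRat_jRat_neg (ℓ := ℓ) W hΔ hℓΔ hℓc₄
  have haK : 1 < ‖((jRat W : ℚ) : ℂ_[ℓ])‖ := one_lt_norm_of_padicValRat_neg hval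
  obtain ⟨q₀, hq0, hq1, -, hE, hj, -⟩ := T0.exists_pinned_j_eq haK
  have hEK : ((EQ W)⁄ℂ_[ℓ] : WeierstrassCurve ℂ_[ℓ]).IsElliptic :=
    ⟨(baseChange_Δ_ne_zero W ℂ_[ℓ] hΔ).isUnit⟩
  have hjK : ((EQ W)⁄ℂ_[ℓ] : WeierstrassCurve ℂ_[ℓ]).j = (tateCurve q₀).j := by
    rw [hj]; exact baseChange_j W ℂ_[ℓ] hΔ
  obtain ⟨C, hC⟩ := WeierstrassCurve.exists_variableChange_of_j_eq
    ((EQ W)⁄ℂ_[ℓ] : WeierstrassCurve ℂ_[ℓ]) (tateCurve q₀) hjK
  refine ⟨q₀, hq0, hq1, C, hC, ?_, ?_⟩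
  · rw [← baseChange_eq_map_int]; exact hC
  · rw [← hj, T0.pinned_j q₀ hq1, T6.jq]

end Setup

end Fermat.Agent.GZ.S12.PairLocal
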