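/-
CELL-M3 (S12) / node (PAIR), slice (a) (helper80; claims row S12-PAIR-RAT; second seat under
helper71): **the Vélu invariant of a Galois-stable cyclic subgroup is rational.**

`veluJP W n g = veluJ W n (k ↦ x(k • g))` (helper43 `GZ/Tate/Velu/Transport`) is the `j`-invariant
of Vélu's model of `W / ⟨g⟩`, FULL sums over `k ∈ [1, n)`.

* `sum_Ico_nsmul_nsmul`        : `∑_{1 ≤ k < n} f (k • (m • g)) = ∑_{1 ≤ k < n} f (k • g)` for
                                 `n • g = 0`, `gcd(m, n) = 1` (reindexing `k ↦ k m mod n`);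
* `veluJP_nsmul_of_coprime`    : `veluJP W n (m • g) = veluJP W n g`;
* `veluJP_eq_of_mem_zmultiples`: two generators of the same cyclic subgroup of order `n` have the
                                 same Vélu invariant;
* `veluJP_galois`              : `σ (veluJP n g) = veluJP n (σ • g)` for the frozen Galois action;
* **`exists_rat_veluJP`**      : if `σ • g ∈ ⟨g⟩` for every `σ ∈ Gal(K/k)` (e.g. `g` a generator of a
                                 Galois-stable cyclic subgroup), then `veluJP n g ∈ k`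
                                 (`n = addOrderOf g > 0`, `K/k` Galois, possibly infinite).

Mathlib + `GZ/Tate/Velu/Transport` + the prelude's Galois action on points.
-/
import Fermat.Agent.GZ.Tate.Velu.Transport
import Fermat.Prelude.Def_FLTPrelim_GaloisRep

set_option autoImplicit false

namespace Fermat.Agent.GZ.S12.PairRat

open WeierstrassCurve Fermat.Agent.GZ.Tate.Velu

/-! ### reindexing a sum over the nonzero multiples of `g` -/

section Reindex

variable {E M : Type*} [AddMonoid E] [AddCommMonoid M]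

/-- `(j mod n) • g = j • g` when `n • g = 0`. -/
theorem mod_nsmul {n : ℕ} {g : E} (hg : n • g = 0) (j : ℕ) : (j % n) • g = j • g := by
  conv_rhs => rw [← Nat.mod_add_div j n]
  rw [add_nsmul, mul_nsmul, hg, nsmul_zero, add_zero]

/-- **reindexing**: the family `k • (m • g)`, `1 ≤ k < n`, is a permutation of `k • g`,
`1 ≤ k < n`, when `n • g = 0` and `gcd(m, n) = 1`. -/
theorem sum_Ico_nsmul_nsmul {n m : ℕ} (hmn : Nat.Coprime m n) {g : E} (hg : n • g = 0)
    (f : E → M) :
    ∑ k ∈ Finset.Ico 1 n, f (k • (m • g)) = ∑ k ∈ Finset.Ico 1 n, f (k • g) := by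
  rcases Nat.eq_zero_or_pos n with rfl | hn
  · simp
  have hmaps : ∀ k ∈ Finset.Ico 1 n, k * m % n ∈ Finset.Ico 1 n := by
    intro k hk
    rw [Finset.mem_Ico] at hk ⊢
    refine ⟨?_, Nat.mod_lt _ hn⟩
    rw [Nat.one_le_iff_ne_zero]
    intro h0
    have hdvd : n ∣ k * m := Nat.dvd_of_mod_eq_zero h0
    have hdvd' : n ∣ k := (Nat.Coprime.dvd_mul_right hmn.symm).mp hdvd
    have := Nat.le_of_dvd (by omega) hdvd'
    omega
  have hinj : Set.InjOn (fun k => k * m % n) (Finset.Ico 1 n : Finset ℕ) := by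
    intro k hk k' hk' h
    rw [Finset.coe_Ico, Set.mem_Ico] at hk hk'
    have h1 : k * m ≡ k' * m [MOD n] := h
    have h2 : k ≡ k' [MOD n] := Nat.ModEq.cancel_right_of_coprime hmn.symm h1
    have h3 : k % n = k' % n := h2
    rwa [Nat.mod_eq_of_lt hk.2, Nat.mod_eq_of_lt hk'.2] at h3
  have hsurj : Set.SurjOn (fun k => k * m % n) (Finset.Ico 1 n : Finset ℕ)
      (Finset.Ico 1 n : Finset ℕ) :=
    Finset.surjOn_of_injOn_of_card_le _ hmaps hinj le_rfl
  refine Finset.sum_nbij (fun k => k * m % n) hmaps hinj hsurj fun k _ => ?_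
  show f (k • (m • g)) = f ((k * m % n) • g)
  rw [mod_nsmul hg, mul_comm, mul_nsmul]

end Reindex

/-! ### the Vélu invariant does not depend on the generator -/

section Generator

variable {F : Type*} [Field F] [DecidableEq F] (W : WeierstrassCurve F)

theorem veluC4_nsmul_of_coprime {n m : ℕ} (hmn : Nat.Coprime m n) {g : W.toAffine.Point}
    (hg : n • g = 0) :
    veluC4 W n (fun k => xOf (k • (m • g))) = veluC4 W n (fun k => xOf (k • g)) := by
  unfold veluC4
  rw [sum_Ico_nsmul_nsmul hmn hg (fun P => tR W (xOf P))]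

theorem veluC6_nsmul_of_coprime {n m : ℕ} (hmn : Nat.Coprime m n) {g : W.toAffine.Point}
    (hg : n • g = 0) :
    veluC6 W n (fun k => xOf (k • (m • g))) = veluC6 W n (fun k => xOf (k • g)) := by
  unfold veluC6
  rw [sum_Ico_nsmul_nsmul hmn hg (fun P => sR W (xOf P))]

/-- **`veluJP W n (m • g) = veluJP W n g`** for `n • g = 0`, `gcd(m, n) = 1`. -/
theorem veluJP_nsmul_of_coprime {n m : ℕ} (hmn : Nat.Coprime m n) {g : W.toAffine.Point}
    (hg : n • g = 0) : veluJP W n (m • g) = veluJP W n g := by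
  unfold veluJP veluJ
  rw [veluC4_nsmul_of_coprime W hmn hg, veluC6_nsmul_of_coprime W hmn hg]

/-- an element of `⟨g⟩` of the same (positive) order is a multiple `m • g`, `gcd(m, n) = 1`. -/
theorem exists_coprime_nsmul_eq {E : Type*} [AddGroup E] {g g' : E}
    (hn : 0 < addOrderOf g) (hmem : g' ∈ AddSubgroup.zmultiples g)
    (hord : addOrderOf g' = addOrderOf g) :
    ∃ m : ℕ, Nat.Coprime m (addOrderOf g) ∧ g' = m • g := by
  obtain ⟨z, rfl⟩ := AddSubgroup.mem_zmultiples_iff.mp hmem
  set n := addOrderOf g with hn'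
  -- reduce the exponent modulo `n`
  have hnz : (n : ℤ) ≠ 0 := by exact_mod_cast hn.ne'
  have hz : z • g = (z % (n : ℤ)).toNat • g := by
    have h1 : (0 : ℤ) ≤ z % (n : ℤ) := Int.emod_nonneg z hnz
    rw [← natCast_zsmul, Int.toNat_of_nonneg h1]
    conv_lhs => rw [← Int.emod_add_mul_ediv z (n : ℤ)]
    rw [add_zsmul, mul_zsmul', natCast_zsmul, addOrderOf_nsmul_eq_zero, zsmul_zero, add_zero]
  set m := (z % (n : ℤ)).toNat with hm
  refine ⟨m, ?_, hz⟩
  rw [hz] at hord
  -- `addOrderOf (m • g) = n / gcd n m = n` forces `gcd n m = 1`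
  by_cases hm0 : m = 0
  · rw [hm0, zero_nsmul, addOrderOf_zero] at hord
    rw [hm0, Nat.coprime_zero_left]
    exact hord.symm
  · rw [addOrderOf_nsmul' g hm0, ← hn'] at hord
    have hgpos : 0 < Nat.gcd n m := Nat.gcd_pos_of_pos_left m hn
    have hdvd : Nat.gcd n m ∣ n := Nat.gcd_dvd_left n m
    obtain ⟨c, hc⟩ := hdvd
    have h1 : n / Nat.gcd n m = c := Nat.div_eq_of_eq_mul_right hgpos hc
    rw [h1] at hord
    have h2 : Nat.gcd n m * c = 1 * c := by rw [← hc, one_mul, hord]
    have hc0 : c ≠ 0 := by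
      rintro rfl
      omega
    have h3 : Nat.gcd n m = 1 := Nat.eq_of_mul_eq_mul_right (Nat.pos_of_ne_zero hc0) h2
    rw [Nat.coprime_comm]
    exact h3

/-- **two generators of a cyclic subgroup of (positive) order `n` have the same Vélu invariant.** -/
theorem veluJP_eq_of_mem_zmultiples {g g' : W.toAffine.Point} (hn : 0 < addOrderOf g)
    (hmem : g' ∈ AddSubgroup.zmultiples g) (hord : addOrderOf g' = addOrderOf g) :
    veluJP W (addOrderOf g) g' = veluJP W (addOrderOf g) g := by
  obtain ⟨m, hm, rfl⟩ := exists_coprime_nsmul_eq hn hmem hord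
  exact veluJP_nsmul_of_coprime W hm (addOrderOf_nsmul_eq_zero g)

end Generator

/-! ### Galois invariance and rationality -/

section Galois

open WeierstrassCurve.Affine.Point

variable {R : Type*} {k : Type*} {K : Type*} [CommRing R] [Field k] [Field K] [DecidableEq K]
  [Algebra R k] [Algebra R K] [Algebra k K] [IsScalarTower R k K] {W' : WeierstrassCurve R}

/-- **`σ (veluJP n g) = veluJP n (σ • g)`** for the frozen Galois action on points. -/
theorem veluJP_galois (σ : K ≃ₐ[k] K) (n : ℕ) (g : (W'⁄K).toAffine.Point) :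
    σ (veluJP (W'⁄K) n g) = veluJP (W'⁄K) n (σ • g) := by
  rw [algEquiv_smul_def]
  exact (veluJP_map (W' := W') σ.toAlgHom n g).symm

/-- the Galois action preserves the order of a point. -/
theorem addOrderOf_galois_smul (σ : K ≃ₐ[k] K) (g : (W'⁄K).toAffine.Point) :
    addOrderOf (σ • g) = addOrderOf g :=
  addOrderOf_injective (DistribSMul.toAddMonoidHom (W'⁄K).toAffine.Point σ)
    (MulAction.injective σ) g

/-- a generator of a Galois-stable cyclic subgroup has a Galois-invariant Vélu invariant. -/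
theorem veluJP_fixed {g : (W'⁄K).toAffine.Point} (hn : 0 < addOrderOf g)
    (hstab : ∀ σ : K ≃ₐ[k] K, σ • g ∈ AddSubgroup.zmultiples g) (σ : K ≃ₐ[k] K) :
    σ (veluJP (W'⁄K) (addOrderOf g) g) = veluJP (W'⁄K) (addOrderOf g) g := by
  rw [veluJP_galois]
  exact veluJP_eq_of_mem_zmultiples (W'⁄K) hn (hstab σ) (addOrderOf_galois_smul σ g)

/-- **(PAIR)(a)**: the Vélu invariant of a Galois-stable cyclic subgroup `⟨g⟩` is rational. -/
theorem exists_rat_veluJP [IsGalois k K] {g : (W'⁄K).toAffine.Point} (hn : 0 < addOrderOf g)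
    (hstab : ∀ σ : K ≃ₐ[k] K, σ • g ∈ AddSubgroup.zmultiples g) :
    ∃ a : k, algebraMap k K a = veluJP (W'⁄K) (addOrderOf g) g :=
  (InfiniteGalois.mem_range_algebraMap_iff_fixed (k := k) _).2 fun σ => veluJP_fixed hn hstab σ

/-- the same for a subgroup `N` with a generator `g` (`g ∈ N ⊆ ⟨g⟩`), stable under Galois, in
the spelling of the chain of S12 (`Nat.card N = n`). -/
theorem exists_rat_veluJP_of_subgroup [IsGalois k K] (N : AddSubgroup (W'⁄K).toAffine.Point)
    (hstable : ∀ σ : K ≃ₐ[k] K, ∀ x ∈ N, σ • x ∈ N) {g : (W'⁄K).toAffine.Point} (hgN : g ∈ N)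
    (hgen : ∀ x ∈ N, x ∈ AddSubgroup.zmultiples g) (hn : 0 < addOrderOf g) :
    ∃ a : k, algebraMap k K a = veluJP (W'⁄K) (addOrderOf g) g :=
  exists_rat_veluJP hn fun σ => hgen _ (hstable σ g hgN)

/-- … and the value does not depend on the generator. -/
theorem veluJP_eq_of_generators (N : AddSubgroup (W'⁄K).toAffine.Point)
    {g g' : (W'⁄K).toAffine.Point} (hg'N : g' ∈ N)
    (hgen : ∀ x ∈ N, x ∈ AddSubgroup.zmultiples g) (hn : 0 < addOrderOf g)
    (hord : addOrderOf g' = addOrderOf g) :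
    veluJP (W'⁄K) (addOrderOf g) g' = veluJP (W'⁄K) (addOrderOf g) g :=
  veluJP_eq_of_mem_zmultiples (W'⁄K) hn (hgen _ hg'N) hord

end Galois

end Fermat.Agent.GZ.S12.PairRat
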